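import Fermat.Agent.CFT.Global.LocalCup

/-!
# Auxiliary characters of prime conductor and their local cup products with rationals

`cupFun_qChar_self_eq_zero_iff` computes them at the conductor; `Recip` normalises the local
invariants with them.
-/

set_option autoImplicit false

noncomputable section

open NumberField Fermat.CFT.Coh
open scoped Pointwise

namespace Fermat.CFT

local notation "ℚbar" => AlgebraicClosure ℚ
local notation "Γℚ" => (AlgebraicClosure ℚ ≃ₐ[ℚ] AlgebraicClosure ℚ)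

variable {p q : ℕ} [hp : Fact p.Prime] [hq : Fact q.Prime]

/-- The field of `q`-th roots of unity. -/
lemma exists_zetaField (q : ℕ) [Fact q.Prime] : ∃ (K : IntermediateField ℚ ℚbar) (z : K),
    FiniteDimensional ℚ K ∧ Normal ℚ K ∧ IsPrimitiveRoot z q ∧
      Module.finrank ℚ K = q - 1 ∧ ∀ g : Γℚ, g ∈ K.fixingSubgroup ↔ cycChar q g = 1 := by
  obtain ⟨z, hz⟩ := exists_primitiveRoot_qbar (q := q)
  set K : IntermediateField ℚ ℚbar := IntermediateField.adjoin ℚ {z}
  have hzK : z ∈ K := IntermediateField.mem_adjoin_simple_self ℚ z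
  have hfd : FiniteDimensional ℚ K :=
    IntermediateField.adjoin.finiteDimensional (Algebra.IsIntegral.isIntegral z)
  have hn : Normal ℚ K := by
    refine IntermediateField.normal_iff_forall_map_le'.mpr fun τ => ?_
    rw [IntermediateField.adjoin_map, IntermediateField.adjoin_le_iff]
    rintro _ ⟨x, hx, rfl⟩
    rw [Set.mem_singleton_iff.mp hx]
    change τ z ∈ K
    rw [apply_eq_pow_cycChar τ hz.pow_eq_one]
    exact pow_mem hzK _
  refine ⟨K, ⟨z, hzK⟩, hfd, hn,
    IsPrimitiveRoot.of_map_of_injective (f := K.val) hz Subtype.val_injective, ?_, fun g =>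
      ⟨fun hg => (cycChar_eq_one_iff hz).mpr
        ((IntermediateField.mem_fixingSubgroup_iff K g).mp hg z hzK),
        fun hg => (IntermediateField.mem_fixingSubgroup_iff K g).mpr fun x hx => ?_⟩⟩
  · rw [IntermediateField.adjoin.finrank (Algebra.IsIntegral.isIntegral z),
      ← Polynomial.cyclotomic_eq_minpoly_rat hz (Nat.Prime.pos Fact.out),
      Polynomial.natDegree_cyclotomic, Nat.totient_prime Fact.out]
  · induction hx using IntermediateField.adjoin_induction ℚ with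
    | mem x hx => rw [Set.mem_singleton_iff.mp hx, (cycChar_eq_one_iff hz).mp hg]
    | algebraMap x => exact g.commutes x
    | add x y _ _ hx hy => rw [map_add, hx, hy]
    | inv x _ hx => rw [map_inv₀, hx]
    | mul x y _ _ hx hy => rw [map_mul, hx, hy]

/-- The character of conductor `q`. -/
def qChar (Λ : DLog p q) : ZHom p (MonoidHom.id Γℚ) :=
  ⟨fun σ => Λ.log ((cycChar q σ : (ZMod q)ˣ) : ZMod q), by
    obtain ⟨z, hz⟩ := exists_primitiveRoot_qbar (q := q)
    obtain ⟨N, hN, hNz⟩ := exists_level_fix (Set.finite_singleton z)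
    refine ⟨_, ⟨N, hN, rfl⟩, fun g s hs => ?_⟩
    have h1 : cycChar q s = 1 := (cycChar_eq_one_iff hz).mpr (hNz _ hs z rfl)
    change Λ.log _ = Λ.log _
    rw [map_mul, h1, mul_one],
    funext₂ fun g h => by
      simp only [d₁_apply, Representation.trivial_apply, map_mul, Units.val_mul,
        Λ.log_mul _ _ (Units.ne_zero _) (Units.ne_zero _), Pi.zero_apply]
      ring⟩

variable (Λ : DLog p q) {ℓ : ℕ} {A : ValuationSubring ℚbar}

/-- The auxiliary character, evaluated. -/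
@[simp] lemma qChar_apply (σ : Γℚ) :
    (qChar Λ).1 σ = Λ.log ((cycChar q σ : (ZMod q)ˣ) : ZMod q) := rfl

variable (A) in
/-- The character at a place. -/
abbrev qCharAt : ZHom p (A.decompositionSubgroup ℚ).subtype :=
  zcomp (qChar Λ) (A.decompositionSubgroup ℚ).subtype

section AwayFromQ

variable (hℓ : ℓ.Prime) (hA : A.LiesOverPrime ℓ) (hne : ℓ ≠ q)

include hℓ hA hne

/-- At `ℓ ≠ q` the character takes multiples of the logarithm of `ℓ` as values. -/
lemma exists_qCharAt_eq (g : A.decompositionSubgroup ℚ) :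
    ∃ k : ℕ, (qCharAt Λ A).1 g = k * Λ.log ℓ := by
  have h0 := CharP.cast_ne_zero_of_ne_of_prime (ZMod q) hℓ hne.symm
  obtain ⟨k, hk⟩ := exists_cycChar_eq_pow (q := q) hℓ hA hne.symm
    (Nat.sub_pos_of_lt hq.out.one_lt) (ZMod.pow_card_sub_one_eq_one h0) g.2
  exact ⟨k, by rw [zcomp_apply, qChar_apply, Subgroup.coe_subtype, hk, Λ.log_pow h0]⟩

/-- The character is trivial at `ℓ` when the logarithm of `ℓ` vanishes. -/
lemma qCharAt_eq_zero (hlog : Λ.log ℓ = 0) (g : A.decompositionSubgroup ℚ) :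
    (qCharAt Λ A).1 g = 0 := by
  obtain ⟨k, hk⟩ := exists_qCharAt_eq Λ hℓ hA hne g
  rw [hk, hlog, mul_zero]

/-- The character is onto at `ℓ` when the logarithm of `ℓ` does not vanish. -/
lemma exists_qCharAt_eq_one (hlog : Λ.log ℓ ≠ 0) :
    ∃ σ : A.decompositionSubgroup ℚ, (qCharAt Λ A).1 σ = 1 := by
  obtain ⟨φ, hφ⟩ := exists_isFrobeniusAt hℓ hA
  refine ⟨(⟨φ, hφ.1⟩ : A.decompositionSubgroup ℚ) ^ ((Λ.log ℓ)⁻¹).val, ?_⟩
  rw [triv_pow, zcomp_apply, qChar_apply, Subgroup.coe_subtype, cycChar_frobenius hℓ hne hA hφ,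
    ZMod.natCast_zmod_val, inv_mul_cancel₀ hlog]

variable (h2 : 2 < p)

/-- If the local cup product with the auxiliary character vanishes at `ℓ` of nonzero logarithm,
`p` divides the valuation. -/
theorem dvd_padicValRat_of_cupFun_eq_zero (hlog : Λ.log ℓ ≠ 0) {a : Additive ℚˣ}
    (h : cupFun h2 hℓ hA (qCharAt Λ A) a = 0) :
    (padicValRat ℓ ((Additive.toMul a : ℚˣ) : ℚ) : ZMod p) = 0 := by
  set D := A.decompositionSubgroup ℚ
  -- the cup product vanishes iff `a` is the norm of some `y` fixed by the kernel of the character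
  obtain ⟨σ, hσ⟩ := exists_qCharAt_eq_one Λ hℓ hA hne hlog
  obtain ⟨y, hy, hyb⟩ := (cycCup_eq_zero_iff _ hσ _).mp ((cupFun_eq_zero_iff h2 hℓ hA _ a).mp h)
  obtain ⟨K, z, hK, hKn, -, -, hfix⟩ := exists_zetaField q
  set r : ℚ := ((Additive.toMul a : ℚˣ) : ℚ) with hr
  have hr0 : r ≠ 0 := Units.ne_zero _
  set v := plBelow K hℓ hA
  -- that kernel comes from the `q`-cyclotomic field, unramified at `ℓ`
  have hordr : ord v (r : K) = padicValRat ℓ r := by
    have : IsGalois ℚ K := qbar_isGalois_intermediate K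
    rw [ord_ratCast_eq hℓ v (natCast_mem_plBelow K hℓ hA) hr0, plRamIdx_rat_eq_card]
    have hbot : v.asIdeal.inertia (K ≃ₐ[ℚ] K) = ⊥ := by
      rw [Subgroup.eq_bot_iff_forall]
      intro τ hτ
      obtain ⟨τ', hτ', rfl⟩ := exists_mem_inertia_restrict (L := K) hℓ hA hτ
      exact (restrict_eq_one_iff K τ').mpr
        ((hfix τ').mpr (cycChar_eq_one_of_mem_inertia hℓ hne hA hτ'))
    rw [hbot, Subgroup.card_bot, Nat.cast_one, one_mul]
  have hyK : ∀ g ∈ decGrp A K, g (uval y) = uval y := fun g hg => by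
    refine congrArg uval (hy ⟨g, hg.1⟩ ?_)
    rw [mem_homKer, zcomp_apply, qChar_apply, Subgroup.coe_subtype, (hfix g).mp hg.2, Units.val_one,
      Λ.log_one]
  -- so the order of the norm is divisible by `p`
  refine (ZMod.intCast_zmod_eq_zero_iff_dvd _ _).mpr
    (hordr ▸ dvd_ord_of_sum_conj hℓ hA σ y hyK (r : K) ?_)
  rw [hyb, uval_ratU, ← hr, eq_ratCast]
  exact (map_ratCast (algebraMap K ℚbar) r).symm

/-- Away from its conductor, the local cup product of the auxiliary character with `a` vanishes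
iff `ord a · log ℓ ≡ 0`. -/
theorem cupFun_qChar_eq_zero_iff (a : Additive ℚˣ) :
    cupFun h2 hℓ hA (qCharAt Λ A) a = 0 ↔
      (padicValRat ℓ ((Additive.toMul a : ℚˣ) : ℚ) : ZMod p) * Λ.log ℓ = 0 := by
  rcases eq_or_ne (Λ.log ℓ) 0 with h0 | h0
  · rw [h0, mul_zero, cupFun_eq_zero_iff,
      cycCup_eq_zero_of_forall _ (qCharAt_eq_zero Λ hℓ hA hne h0)]
    exact iff_of_true rfl rfl
  · rw [mul_eq_zero, or_iff_left h0]
    obtain ⟨σ, hσ⟩ := exists_qCharAt_eq_one Λ hℓ hA hne h0
    have : Fact ℓ.Prime := ⟨hℓ⟩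
    let g : Additive ℚˣ →+ ZMod p :=
      AddMonoidHom.mk' (fun a => (padicValRat ℓ ((Additive.toMul a : ℚˣ) : ℚ) : ZMod p))
          fun a b => by
        rw [← Int.cast_add, ← padicValRat.mul (Units.ne_zero _) (Units.ne_zero _)]
        rfl
    refine eq_zero_iff_of_imp (g := g) (cupFun_surjective h2 hℓ hA hσ) (fun hg => ?_)
      (fun b hb => dvd_padicValRat_of_cupFun_eq_zero Λ hℓ hA hne h2 h0 hb) a
    have h1 := DFunLike.congr_fun hg
      (Additive.ofMul (Units.mk0 (ℓ : ℚ) (Nat.cast_ne_zero.mpr hℓ.ne_zero)))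
    change ((padicValRat ℓ (ℓ : ℚ) : ℤ) : ZMod p) = 0 at h1
    rw [padicValRat.self hℓ.one_lt, Int.cast_one] at h1
    exact one_ne_zero h1

end AwayFromQ

section AtQ

variable (hA : A.LiesOverPrime q)

include hA

omit hp in
/-- `q` is totally ramified in `ℚ(ζ_q)`: inertia at `q` maps onto the units modulo `q`. -/
lemma exists_mem_inertia_cycChar (c : (ZMod q)ˣ) :
    ∃ g ∈ A.inertiaSubgroupIn ℚ, cycChar q g = c := by
  classical
  obtain ⟨K, z, hK, hKn, hz, hfr, hfix⟩ := exists_zetaField q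
  have : IsGalois ℚ K := qbar_isGalois_intermediate K
  set w := plBelow K hq.out hA
  have hqw : (q : 𝓞 K) ∈ w.asIdeal := natCast_mem_plBelow K hq.out hA
  -- `q` is totally ramified: its valuation is at least `q - 1`
  have hge : ((q - 1 : ℕ) : ℤ) ≤ ord w (q : K) := by
    rw [ord_natCast_prime (p := q) hz w]
    have hpos : 0 < zetaOrd z w := by
      rcases Nat.eq_zero_or_pos (zetaOrd z w) with h | h
      · have h1 := ord_natCast_prime (p := q) hz w
        rw [h, Nat.cast_zero, mul_zero] at h1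
        have hq0 : (q : 𝓞 K) ≠ 0 := Nat.cast_ne_zero.mpr hq.out.ne_zero
        rw [← map_natCast (algebraMap (𝓞 K) K)] at h1
        exact absurd hqw ((ord_algebraMap_eq_zero_iff w hq0).mp h1)
      · exact h
    exact le_mul_of_one_le_right (Int.natCast_nonneg _) (by exact_mod_cast hpos)
  rw [ord_natCast_prime_of_mem hq.out w hqw, plRamIdx_rat_eq_card, Int.ofNat_le] at hge
  have htop : w.asIdeal.inertia (K ≃ₐ[ℚ] K) = ⊤ :=
    Subgroup.eq_top_of_le_card _ (by rw [IsGalois.card_aut_eq_finrank, hfr]; exact hge)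
  -- lift an automorphism of the cyclotomic field to inertia
  obtain ⟨γ, hγ⟩ := cycChar_surjective q c
  obtain ⟨τ, hτ, hτγ⟩ := exists_mem_inertia_restrict (L := K) hq.out hA
    (g := AlgEquiv.restrictNormalHom K γ)
    (fun x => (htop.symm ▸ Subgroup.mem_top (AlgEquiv.restrictNormalHom K γ) :
      AlgEquiv.restrictNormalHom K γ ∈ w.asIdeal.inertia (K ≃ₐ[ℚ] K)) x)
  refine ⟨τ, hτ, ?_⟩
  have h1 : τ⁻¹ * γ ∈ K.fixingSubgroup := by
    rw [← restrict_eq_one_iff, map_mul, map_inv, hτγ, inv_mul_cancel]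
  have h2 := (hfix _).mp h1
  rw [map_mul, map_inv, inv_mul_eq_one] at h2
  rw [h2, hγ]

omit hp in
/-- The decomposition group at `q` maps onto the units modulo `q`. -/
lemma exists_mem_decomp_cycChar (c : (ZMod q)ˣ) :
    ∃ g ∈ A.decompositionSubgroup ℚ, cycChar q g = c := by
  obtain ⟨τ, hτ, hc⟩ := exists_mem_inertia_cycChar hA c
  exact ⟨τ, by obtain ⟨g, -, rfl⟩ := hτ; exact g.2, hc⟩

/-- The character is onto at `q`. -/
lemma exists_qCharAt_self_eq_one : ∃ σ : A.decompositionSubgroup ℚ, (qCharAt Λ A).1 σ = 1 := by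
  obtain ⟨x, hx0, hx⟩ := Λ.exists_one
  obtain ⟨g, hg, hgx⟩ := exists_mem_decomp_cycChar hA (Units.mk0 x hx0)
  exact ⟨⟨g, hg⟩, by rw [zcomp_apply, qChar_apply, Subgroup.coe_subtype, hgx, Units.val_mk0, hx]⟩

variable (h2 : 2 < p)

/-- `q` is a norm. -/
theorem cupFun_qChar_self_q :
    cupFun h2 hq.out hA (qCharAt Λ A)
      (Additive.ofMul (Units.mk0 (q : ℚ) (Nat.cast_ne_zero.mpr hq.out.ne_zero))) = 0 := by
  classical
  obtain ⟨σ, hσ⟩ := exists_qCharAt_self_eq_one Λ hA
  obtain ⟨z, hz⟩ := exists_primitiveRoot_qbar (q := q)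
  -- periods: `1 - zˣ` multiplied over the fibres of the logarithm
  set cls : ZMod p → Finset (ZMod q)ˣ := fun i =>
    Finset.univ.filter fun x => Λ.log (x : ZMod q) = i with hcls
  set per : ZMod p → ℚbar := fun i => ∏ x ∈ cls i, (1 - z ^ (x : ZMod q).val) with hper
  have happ : ∀ (γ : Γℚ) (i : ZMod p), γ (per i) = per (i + (qChar Λ).1 γ) := fun γ i => by
    simp only [hper, map_prod]
    have hx : ∀ x : (ZMod q)ˣ, γ (1 - z ^ (x : ZMod q).val) =
        1 - z ^ ((cycChar q γ * x : (ZMod q)ˣ) : ZMod q).val := fun x => by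
      rw [map_sub, map_one, map_pow, apply_eq_pow_cycChar γ hz.pow_eq_one, ← pow_mul,
        Units.val_mul, ZMod.val_mul, ← pow_mod_orderOf z (_ * _), ← hz.eq_orderOf]
    refine Finset.prod_bij' (fun x _ => cycChar q γ * x) (fun x _ => (cycChar q γ)⁻¹ * x)
      (fun x hx' => ?_) (fun x hx' => ?_) (fun x _ => inv_mul_cancel_left _ _)
      (fun x _ => mul_inv_cancel_left _ _) (fun x _ => hx x)
    · simp only [hcls, Finset.mem_filter, Finset.mem_univ, true_and] at hx' ⊢
      rw [Units.val_mul, Λ.log_mul _ _ (Units.ne_zero _) (Units.ne_zero _), hx',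
        qChar_apply, add_comm]
    · simp only [hcls, Finset.mem_filter, Finset.mem_univ, true_and, qChar_apply] at hx' ⊢
      have h := Λ.log_mul ((cycChar q γ : (ZMod q)ˣ) : ZMod q) _ (Units.ne_zero _)
        (Units.ne_zero ((cycChar q γ)⁻¹ * x))
      rw [← Units.val_mul, mul_inv_cancel_left, hx'] at h
      linear_combination -h
  have hne : per 0 ≠ 0 := Finset.prod_ne_zero_iff.mpr fun x _ h => by
    rw [sub_eq_zero] at h
    exact x.ne_zero ((ZMod.val_eq_zero _).mp
      (hz.pow_inj (ZMod.val_lt _) hq.out.pos (by rw [← h, pow_zero])))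
  -- their product is `Φ_q(1) = q`
  have hprod : ∏ i : ZMod p, per i = (q : ℚbar) := by
    simp only [hper, hcls]
    rw [Finset.prod_fiberwise Finset.univ (fun x : (ZMod q)ˣ => Λ.log (x : ZMod q))]
    have h2 := Polynomial.eval_one_cyclotomic_prime (R := ℚbar) (p := q)
    rw [Polynomial.cyclotomic_eq_prod_X_sub_primitiveRoots hz, Polynomial.eval_prod] at h2
    rw [← h2]
    refine Finset.prod_bij (fun x _ => z ^ (x : ZMod q).val) (fun x _ => ?_)
      (fun x _ y _ h => ?_) (fun μ hμ => ?_) (fun x _ => by simp)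
    · rw [mem_primitiveRoots hq.out.pos]
      exact hz.pow_of_coprime _ (ZMod.val_coe_unit_coprime x)
    · exact Units.ext (ZMod.val_injective _ (hz.pow_inj (ZMod.val_lt _) (ZMod.val_lt _) h))
    · rw [mem_primitiveRoots hq.out.pos] at hμ
      obtain ⟨i, hi, hi'⟩ := hz.eq_pow_of_pow_eq_one hμ.pow_eq_one
      have hcop : i.Coprime q := by
        rw [← hz.pow_iff_coprime hq.out.pos, hi']; exact hμ
      refine ⟨ZMod.unitOfCoprime i hcop, Finset.mem_univ _, ?_⟩
      rw [ZMod.coe_unitOfCoprime, ZMod.val_natCast, Nat.mod_eq_of_lt hi, hi']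
  -- so `q` is the norm of the zeroth period
  rw [cupFun_eq_zero_iff, cycCup_eq_zero_iff _ hσ]
  refine ⟨ofVal (per 0) hne, fun g hg => uval_injective ?_, uval_injective ?_⟩
  · rw [uval_unitsRep, uval_ofVal, happ]
    rw [mem_homKer, zcomp_apply, Subgroup.coe_subtype] at hg
    rw [Subgroup.coe_subtype, hg, add_zero]
  · have hsum : ∀ n : ℕ, uval (∑ k ∈ Finset.range n,
        unitsRep (A.decompositionSubgroup ℚ).subtype (σ ^ k) (ofVal (per 0) hne)) =
          ∏ k ∈ Finset.range n, per (k : ZMod p) := fun n => by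
      induction n with
      | zero => simp
      | succ n ih =>
        rw [Finset.sum_range_succ, Finset.prod_range_succ, uval_add, ih, uval_unitsRep, uval_ofVal,
          happ, zero_add]
        congr 2
        rw [← zcomp_apply (qChar Λ) (A.decompositionSubgroup ℚ).subtype, triv_pow, hσ, mul_one]
    rw [hsum, uval_ratU]
    rw [toMul_ofMul, Units.val_mk0, map_natCast, ← hprod]
    refine Finset.prod_bij (fun k _ => (k : ZMod p)) (fun k _ => Finset.mem_univ _)
      (fun a ha b hb h => ?_) (fun i _ => ⟨i.val, Finset.mem_range.mpr (ZMod.val_lt i),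
        ZMod.natCast_zmod_val i⟩) (fun k _ => rfl)
    rw [ZMod.natCast_eq_natCast_iff', Nat.mod_eq_of_lt (Finset.mem_range.mp ha),
      Nat.mod_eq_of_lt (Finset.mem_range.mp hb)] at h
    exact h

/-- A rational unit at `q` which is a `p`-th power modulo `q` has trivial cup product. -/
theorem cupFun_qChar_self_of_log (hqp : p ∣ q - 1) {n m : ℤ} (hn : ¬ (q : ℤ) ∣ n)
    (hm : ¬ (q : ℤ) ∣ m) (hlog : Λ.log (n : ZMod q) = Λ.log (m : ZMod q))
    {a : Additive ℚˣ} (ha : ((Additive.toMul a : ℚˣ) : ℚ) = n / m) :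
    cupFun h2 hq.out hA (qCharAt Λ A) a = 0 := by
  have hnz : (n : ZMod q) ≠ 0 := fun h => hn ((ZMod.intCast_zmod_eq_zero_iff_dvd _ _).mp h)
  have hmz : (m : ZMod q) ≠ 0 := fun h => hm ((ZMod.intCast_zmod_eq_zero_iff_dvd _ _).mp h)
  -- `n / m` is a `p`-th power modulo `q`
  obtain ⟨y, hy⟩ := Λ.exists_pow ((n : ZMod q) / m) (div_ne_zero hnz hmz) (by
    have h := Λ.log_mul ((n : ZMod q) / m) m (div_ne_zero hnz hmz) hmz
    rw [div_mul_cancel₀ _ hmz, hlog] at h
    exact right_eq_add.mp h)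
  have hy0 : y ≠ 0 := fun h => by
    rw [h, zero_pow hp.out.ne_zero] at hy
    exact div_ne_zero hnz hmz hy.symm
  rw [eq_div_iff hmz] at hy
  set Y : ℤ := (y.val : ℤ)
  have hYy : (Y : ZMod q) = y := by simp [Y]
  have hY : ¬ (q : ℤ) ∣ Y := fun h => hy0 (by
    rw [← hYy]; exact (ZMod.intCast_zmod_eq_zero_iff_dvd _ _).mpr h)
  have hdvd : (q : ℤ) ∣ n - Y ^ p * m := by
    refine (ZMod.intCast_zmod_eq_zero_iff_dvd _ _).mp ?_
    push_cast
    rw [hYy, hy, sub_self]
  -- the field of `p`-th roots of unity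
  obtain ⟨K, z, hK, hKn, hz, -, hfix⟩ := exists_zetaField p
  set v := plBelow K hq.out hA
  have hqv : (q : 𝓞 K) ∈ v.asIdeal := natCast_mem_plBelow K hq.out hA
  have hqp' : q ≠ p := fun h => by
    subst h
    have := Nat.le_of_dvd (Nat.sub_pos_of_lt hp.out.one_lt) hqp
    have := hp.out.pos
    omega
  have hpord : ord v (p : K) = 0 := by
    rw [← Int.cast_natCast]
    exact ord_intCast_eq_zero hq.out v hqv (fun h =>
      hqp' ((Nat.prime_dvd_prime_iff_eq hq.out hp.out).mp (Int.natCast_dvd_natCast.mp h)))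
  have hdec : ∀ g ∈ A.decompositionSubgroup ℚ, g ∈ decGrp A K := fun g hg => by
    refine ⟨hg, (hfix g).mpr (Units.ext ?_)⟩
    have h1 : (q : ZMod p) ^ 1 = 1 := by
      rw [pow_one, ← Nat.cast_one, ZMod.natCast_eq_natCast_iff]
      exact ((Nat.modEq_iff_dvd' hq.out.one_lt.le).mpr hqp).symm
    obtain ⟨k, hk⟩ := exists_cycChar_eq_pow (q := p) hq.out hA hqp'.symm one_pos h1 hg
    rw [hk, pow_one] at *
    rw [h1, one_pow, Units.val_one]
  have hn0 : (n : K) ≠ 0 := Int.cast_ne_zero.mpr fun h => hn (h ▸ dvd_zero _)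
  have hm0 : (m : K) ≠ 0 := Int.cast_ne_zero.mpr fun h => hm (h ▸ dvd_zero _)
  have hY0 : (Y : K) ≠ 0 := Int.cast_ne_zero.mpr fun h => hY (h ▸ dvd_zero _)
  -- so over `ℚ(ζ_p)` it is a local `p`-th power at `q`
  set au : (K : Type)ˣ := Units.mk0 ((n : K) / m) (div_ne_zero hn0 hm0)
  have hmem : au ∈ localPowers p z v := by
    refine ⟨Units.mk0 (Y : K) hY0, ?_⟩
    rw [localLevel, zetaOrd_eq_zero_of_ord hz v hpord, mul_zero, zero_add, Nat.cast_one]
    change (n : K) / m / (Y : K) ^ p = 1 ∨ 1 ≤ ord v ((n : K) / m / (Y : K) ^ p - 1)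
    have hden : (Y : K) ^ p * m ≠ 0 := mul_ne_zero (pow_ne_zero _ hY0) hm0
    have e : (n : K) / m / (Y : K) ^ p - 1 = ((n - Y ^ p * m : ℤ) : K) / ((Y : K) ^ p * m) := by
      push_cast; field_simp
    rcases eq_or_ne (n - Y ^ p * m) 0 with h0 | h0
    · left
      rw [← sub_eq_zero, e, h0, Int.cast_zero, zero_div]
    right
    rw [e, ord_div v (Int.cast_ne_zero.mpr h0) hden, ord_mul v (pow_ne_zero _ hY0) hm0, ord_pow,
      ord_intCast_eq_zero hq.out v hqv hY, ord_intCast_eq_zero hq.out v hqv hm]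
    obtain ⟨c, hc⟩ := hdvd
    have hc0 : c ≠ 0 := fun h => h0 (by rw [hc, h, mul_zero])
    rw [hc, Int.cast_mul, Int.cast_natCast, ord_mul v (Nat.cast_ne_zero.mpr hq.out.ne_zero)
      (Int.cast_ne_zero.mpr hc0)]
    have h1 : 1 ≤ ord v (q : K) := by
      have hq0 : (q : 𝓞 K) ≠ 0 := Nat.cast_ne_zero.mpr hq.out.ne_zero
      rw [← map_natCast (algebraMap (𝓞 K) K)]
      exact (ord_algebraMap_pos_iff v hq0).mpr hqv
    have h3 : 0 ≤ ord v (c : K) := by
      rw [← map_intCast (algebraMap (𝓞 K) K)]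
      exact ord_algebraMap_nonneg v _
    omega
  obtain ⟨x, hx, hxa⟩ := (mem_localPowers_iff hq.out hA hz au).mp hmem
  -- its root is fixed by the decomposition group, so the cup product vanishes
  rw [cupFun_eq_zero_iff]
  have he : ratU (A.decompositionSubgroup ℚ).subtype a =
      p • (⟨x, mem_ker_d₀.mpr fun g => uval_injective (hx g (hdec g g.2))⟩ :
        H0 (unitsRep (A.decompositionSubgroup ℚ).subtype)) :=
    Subtype.ext (uval_injective (by
      change _ = uval (p • x)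
      rw [hxa, uval_ratU, ha, map_div₀, map_intCast, map_intCast, Units.val_mk0,
        IntermediateField.coe_div]
      norm_cast))
  rw [he, map_nsmul, ← Nat.cast_smul_eq_nsmul (ZMod p), ZMod.natCast_self, zero_smul]

/-- At its conductor `q ≡ 1` modulo `p`, the cup product of the auxiliary character with `a`
vanishes iff the logarithm of `a` does. -/
theorem cupFun_qChar_self_eq_zero_iff (hqp : p ∣ q - 1) (a : Additive ℚˣ) :
    cupFun h2 hq.out hA (qCharAt Λ A) a = 0 ↔
      Λ.ratLog ((Additive.toMul a : ℚˣ) : ℚ) = 0 := by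
  set f := cupFun h2 hq.out hA (qCharAt Λ A)
  obtain ⟨σ, hσ⟩ := exists_qCharAt_self_eq_one Λ hA
  let g : Additive ℚˣ →+ ZMod p :=
    AddMonoidHom.mk' (fun a => Λ.ratLog ((Additive.toMul a : ℚˣ) : ℚ)) fun a b => by
      rw [← Λ.ratLog_mul (Units.ne_zero _) (Units.ne_zero _)]
      rfl
  have hfq := cupFun_qChar_self_q Λ hA h2
  -- logarithm zero implies trivial cup product
  have himp : ∀ b, g b = 0 → f b = 0 := by
    intro b hb
    set r : ℚ := ((Additive.toMul b : ℚˣ) : ℚ) with hr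
    have hr0 : r ≠ 0 := Units.ne_zero _
    obtain ⟨i, n, hn, hnq⟩ := DLog.exists_decomp (q := q) (Rat.num_ne_zero.mpr hr0)
    obtain ⟨j, m, hm, hmq⟩ := DLog.exists_decomp (q := q)
      (Int.natCast_ne_zero.mpr r.den_nz : (r.den : ℤ) ≠ 0)
    have hb' : Λ.ratLog r = 0 := hb
    rw [DLog.ratLog, Λ.intLog_eq hn hnq, Λ.intLog_eq hm hmq, sub_eq_zero] at hb'
    set Q : Additive ℚˣ := Additive.ofMul (Units.mk0 (q : ℚ) (Nat.cast_ne_zero.mpr hq.out.ne_zero))
    have hn0 : (n : ℚ) ≠ 0 := Int.cast_ne_zero.mpr fun h => hnq (h ▸ dvd_zero _)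
    have hm0 : (m : ℚ) ≠ 0 := Int.cast_ne_zero.mpr fun h => hmq (h ▸ dvd_zero _)
    set u : Additive ℚˣ := Additive.ofMul (Units.mk0 ((n : ℚ) / m) (div_ne_zero hn0 hm0))
    have hbu : b + j • Q = i • Q + u := by
      refine Additive.toMul.injective (Units.ext ?_)
      change r * (q : ℚ) ^ j = (q : ℚ) ^ i * ((n : ℚ) / m)
      have h1 : r * (r.den : ℚ) = r.num := Rat.mul_den_eq_num r
      have h3 : ((r.den : ℤ) : ℚ) = ((q : ℤ) : ℚ) ^ j * m := by rw [hm]; push_cast; rfl
      have h4 : ((r.num : ℤ) : ℚ) = ((q : ℤ) : ℚ) ^ i * n := by rw [hn]; push_cast; rfl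
      rw [Int.cast_natCast, Int.cast_natCast] at h3
      rw [Int.cast_natCast] at h4
      rw [mul_div_assoc', eq_div_iff hm0, mul_assoc, ← h3, h1, h4]
    have h := congrArg f hbu
    rw [map_add, map_add, map_nsmul, map_nsmul, hfq, smul_zero, smul_zero, add_zero, zero_add,
      cupFun_qChar_self_of_log Λ hA h2 hqp hnq hmq hb' (a := u) rfl] at h
    exact h
  -- both functionals are surjective, so the kernels agree
  refine (eq_zero_iff_of_imp (f := g) (g := f) ?_ (fun h0 => ?_) himp a).symm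
  · intro t
    obtain ⟨x, hx0, hx⟩ := Λ.exists_one
    have hxq : ¬ (q : ℤ) ∣ (x.val : ℤ) := fun h => hx0 (by
      have h1 := (ZMod.intCast_zmod_eq_zero_iff_dvd _ q).mpr h
      rwa [Int.cast_natCast, ZMod.natCast_zmod_val] at h1)
    have hx' : (x.val : ℚ) ≠ 0 := fun h => hxq (by
      rw [Nat.cast_eq_zero.mp h]; exact dvd_zero _)
    refine ⟨t.val • Additive.ofMul (Units.mk0 (x.val : ℚ) hx'), ?_⟩
    rw [map_nsmul]
    have h1 : g (Additive.ofMul (Units.mk0 (x.val : ℚ) hx')) = 1 := by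
      change Λ.ratLog ((x.val : ℚ)) = 1
      have h2 : ((x.val : ℕ) : ℚ) = ((x.val : ℤ) : ℚ) / ((1 : ℤ) : ℚ) := by simp
      rw [h2, Λ.ratLog_div (fun h => hxq (by rw [h]; exact dvd_zero _)) one_ne_zero,
        DLog.intLog_one, sub_zero, Λ.intLog_of_not_dvd hxq, Int.cast_natCast,
        ZMod.natCast_zmod_val, hx]
    rw [h1, nsmul_one, ZMod.natCast_zmod_val]
  · obtain ⟨b, hb⟩ := cupFun_surjective h2 hq.out hA hσ 1
    exact zero_ne_one ((DFunLike.congr_fun h0 b).symm.trans hb)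

end AtQ

end Fermat.CFT
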