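import Fermat.Agent.CFT.Global.AuxChar

/-!
# A prime modulo which two given primes are not `p`-th powers

`exists_qPrime`, from the density theorem; the auxiliary characters (`AuxChar`) at such a prime give
the pairs of classes of `Recip`.
-/

set_option autoImplicit false

noncomputable section

open NumberField

namespace Fermat.CFT

local notation "ℚbar" => AlgebraicClosure ℚ
local notation "Γℚ" => (AlgebraicClosure ℚ ≃ₐ[ℚ] AlgebraicClosure ℚ)

variable {p : ℕ} [hp : Fact p.Prime]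

/-- A `p`-th root of a prime number is moved by some element fixing `μ_p`. -/
lemma exists_move_root {ℓ : ℕ} (hℓ : ℓ.Prime) {α : ℚbar} (hα : α ^ p = ℓ) :
    ∃ g : Γℚ, cycChar p g = 1 ∧ g α ≠ α := by
  by_contra hno
  push Not at hno
  obtain ⟨K, z, hK, hKn, -, hfr, hfix⟩ := exists_zetaField p
  have hαK : α ∈ K := mem_of_fixed fun g hg => hno g ((hfix g).mp hg)
  have : IsGalois ℚ K := qbar_isGalois_intermediate K
  obtain ⟨A, hA⟩ := exists_place hℓ
  set v := plBelow K hℓ hA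
  have hv : (ℓ : 𝓞 K) ∈ v.asIdeal := natCast_mem_plBelow K hℓ hA
  have h2 := ord_pow v (⟨α, hαK⟩ : K) p
  rw [show (⟨α, hαK⟩ : K) ^ p = (ℓ : K) from Subtype.ext hα, ord_natCast_prime_of_mem hℓ v hv,
    plRamIdx_rat_eq_card] at h2
  have hle : Nat.card (v.asIdeal.inertia (K ≃ₐ[ℚ] K)) ≤ p - 1 :=
    (Subgroup.card_le_card_group _).trans (by rw [IsGalois.card_aut_eq_finrank, hfr])
  have hpos : 0 < Nat.card (v.asIdeal.inertia (K ≃ₐ[ℚ] K)) := Nat.card_pos
  have hdvd : p ∣ Nat.card (v.asIdeal.inertia (K ≃ₐ[ℚ] K)) := Int.natCast_dvd_natCast.mp ⟨_, h2⟩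
  have := Nat.le_of_dvd hpos hdvd
  omega

/-- Two `p`-th roots of primes are moved by one element fixing `μ_p`. -/
lemma exists_move_both {ℓ ℓ' : ℕ} (hℓ : ℓ.Prime) (hℓ' : ℓ'.Prime) {α α' : ℚbar}
    (hα : α ^ p = ℓ) (hα' : α' ^ p = ℓ') :
    ∃ γ : Γℚ, cycChar p γ = 1 ∧ γ α ≠ α ∧ γ α' ≠ α' := by
  obtain ⟨g, hg, hgα⟩ := exists_move_root hℓ hα
  obtain ⟨g', hg', hgα'⟩ := exists_move_root hℓ' hα'
  by_cases h1 : g α' = α'
  · by_cases h3 : g' α = α
    · refine ⟨g * g', by rw [map_mul, hg, hg', mul_one], fun h => ?_, fun h => ?_⟩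
      · rw [AlgEquiv.mul_apply, h3] at h; exact hgα h
      · rw [AlgEquiv.mul_apply] at h
        exact hgα' (g.injective (h.trans h1.symm))
    · exact ⟨g', hg', h3, hgα'⟩
  · exact ⟨g, hg, hgα, h1⟩

/-- An element restricting to a power of the restriction of `h` fixes what `h` fixes. -/
lemma fixed_of_restrict_mem_zpowers (E : IntermediateField ℚ ℚbar) [FiniteDimensional ℚ E]
    [Normal ℚ E] {g h : Γℚ}
    (hgh : AlgEquiv.restrictNormalHom E g ∈ Subgroup.zpowers (AlgEquiv.restrictNormalHom E h)) :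
    ∀ x ∈ E, h x = x → g x = x := by
  intro x hx hfx
  obtain ⟨m, hm⟩ := hgh
  have h1 : (h ^ m)⁻¹ * g ∈ E.fixingSubgroup := by
    rw [← restrict_eq_one_iff, map_mul, map_inv, map_zpow]
    simp only at hm
    rw [hm, inv_mul_cancel]
  have h2 := (IntermediateField.mem_fixingSubgroup_iff E _).mp h1 x hx
  have h3 : (h ^ m) x = x := zpow_mem (show h ∈ MulAction.stabilizer Γℚ x from hfx) m
  rw [AlgEquiv.mul_apply] at h2
  have h4 := congrArg (h ^ m) h2
  rwa [h3, show (h ^ m) ((h ^ m)⁻¹ (g x)) = g x from (h ^ m).apply_symm_apply _] at h4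

/-- A prime `q ≡ 1` modulo `p` outside a given set, modulo which two given primes are not
`p`-th powers. -/
theorem exists_qPrime {ℓ ℓ' : ℕ} (hℓ : ℓ.Prime) (hℓ' : ℓ'.Prime) (T : Finset ℕ) :
    ∃ (q : ℕ) (_ : Fact q.Prime) (Λ : DLog p q), q ∉ T ∧ q ≠ ℓ ∧ q ≠ ℓ' ∧ p ∣ q - 1 ∧
      Λ.log ℓ ≠ 0 ∧ Λ.log ℓ' ≠ 0 := by
  classical
  obtain ⟨α, hα⟩ := IsAlgClosed.exists_pow_nat_eq (ℓ : ℚbar) hp.out.pos
  obtain ⟨α', hα'⟩ := IsAlgClosed.exists_pow_nat_eq (ℓ' : ℚbar) hp.out.pos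
  obtain ⟨γ, hγ, hγα, hγα'⟩ := exists_move_both hℓ hℓ' hα hα'
  obtain ⟨K, z, hK, hKn, hz, -, hfix⟩ := exists_zetaField p
  obtain ⟨E, hE, hEn, hKE, hs⟩ := exists_field_containing K ((Set.finite_singleton α').insert α)
  obtain ⟨q, hq, hqT, -, B, hB, φ, hφ, hgen⟩ :=
    exists_place_frobenius_generating E γ (T ∪ {p, ℓ, ℓ'})
  simp only [Finset.mem_union, Finset.mem_insert, Finset.mem_singleton, not_or] at hqT
  obtain ⟨hqT, hqp, hqℓ, hqℓ'⟩ := hqT
  -- `φ` behaves as `γ` on `E`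
  have hφγ := fixed_of_restrict_mem_zpowers E (g := φ) (h := γ) (hgen ▸ Subgroup.mem_zpowers _)
  have hγφ :=
    fixed_of_restrict_mem_zpowers E (g := γ) (h := φ) (hgen.symm ▸ Subgroup.mem_zpowers _)
  have hφα : φ α ≠ α := fun h => hγα (hγφ α (hs (Set.mem_insert _ _)) h)
  have hφα' : φ α' ≠ α' := fun h => hγα' (hγφ α' (hs (Set.mem_insert_of_mem _ rfl)) h)
  have hφK : φ ∈ K.fixingSubgroup := (IntermediateField.mem_fixingSubgroup_iff K φ).mpr fun x hx =>
    hφγ x (hKE hx) ((IntermediateField.mem_fixingSubgroup_iff K γ).mp ((hfix γ).mpr hγ) x hx)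
  have := Fact.mk hq
  have hq1 : (q : ZMod p) = ((1 : ℕ) : ZMod p) := by
    rw [← cycChar_frobenius hq hqp hB hφ, (hfix φ).mp hφK, Units.val_one, Nat.cast_one]
  have hdvd : p ∣ q - 1 :=
    (Nat.modEq_iff_dvd' hq.one_lt.le).mp ((ZMod.natCast_eq_natCast_iff _ _ _).mp hq1).symm
  obtain ⟨Λ⟩ := exists_dlog (p := p) (q := q) hdvd
  refine ⟨q, this, Λ, hqT, hqℓ, hqℓ', hdvd, ?_⟩
  -- a prime which is a `p`-th power modulo `q` has a root fixed by Frobenius
  have key : ∀ (m : ℕ) (β : ℚbar), m.Prime → m ≠ q → β ^ p = m → φ β ≠ β → Λ.log m ≠ 0 := by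
    intro m β hm hmq hβ hφβ hlog
    have hmz : (m : ZMod q) ≠ 0 := fun h =>
      hmq ((Nat.prime_dvd_prime_iff_eq hq hm).mp ((ZMod.natCast_eq_zero_iff _ _).mp h)).symm
    obtain ⟨y, hy⟩ := Λ.exists_pow _ hmz hlog
    have hy0 : y ≠ 0 := fun h => by
      rw [h, zero_pow hp.out.ne_zero] at hy
      exact hmz hy.symm
    set v := plBelow K hq hB
    have hqv : (q : 𝓞 K) ∈ v.asIdeal := natCast_mem_plBelow K hq hB
    have hndvd : ∀ n : ℕ, (n : ZMod q) ≠ 0 → ¬ (q : ℤ) ∣ (n : ℤ) := fun n h h' =>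
      h ((ZMod.natCast_eq_zero_iff _ _).mpr (Int.natCast_dvd_natCast.mp h'))
    have hord : ∀ n : ℕ, (n : ZMod q) ≠ 0 → ord v (n : K) = 0 := fun n h => by
      rw [← Int.cast_natCast]
      exact ord_intCast_eq_zero hq v hqv (hndvd n h)
    have hY : (y.val : ZMod q) ≠ 0 := by rwa [ZMod.natCast_zmod_val]
    have hY0 : (y.val : K) ≠ 0 := Nat.cast_ne_zero.mpr fun h => hY (by rw [h, Nat.cast_zero])
    have hm0 : (m : K) ≠ 0 := Nat.cast_ne_zero.mpr hm.ne_zero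
    have hpord : ord v (p : K) = 0 := hord p fun h =>
      hqp ((Nat.prime_dvd_prime_iff_eq hq hp.out).mp ((ZMod.natCast_eq_zero_iff _ _).mp h))
    have hmem : Units.mk0 (m : K) hm0 ∈ localPowers p z v := by
      refine ⟨Units.mk0 (y.val : K) hY0, ?_⟩
      rw [localLevel, zetaOrd_eq_zero_of_ord hz v hpord, mul_zero, zero_add, Nat.cast_one,
        Units.val_mk0, Units.val_mk0]
      rcases eq_or_ne ((m : ℤ) - (y.val : ℤ) ^ p) 0 with h0 | h0
      · left
        rw [div_eq_one_iff_eq (pow_ne_zero _ hY0)]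
        exact_mod_cast sub_eq_zero.mp h0
      right
      obtain ⟨c, hc⟩ : (q : ℤ) ∣ (m : ℤ) - (y.val : ℤ) ^ p := by
        refine (ZMod.intCast_zmod_eq_zero_iff_dvd _ _).mp ?_
        push_cast
        rw [ZMod.natCast_zmod_val, hy, sub_self]
      have hc0 : c ≠ 0 := fun h => h0 (by rw [hc, h, mul_zero])
      have e : (m : K) - (y.val : K) ^ p =
        (q : K) * (c : K) := by exact_mod_cast congrArg (Int.cast (R := K)) hc
      have e0 : (m : K) - (y.val : K) ^ p ≠ 0 := by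
        rw [e]; exact mul_ne_zero (Nat.cast_ne_zero.mpr hq.ne_zero) (Int.cast_ne_zero.mpr hc0)
      rw [div_sub_one (pow_ne_zero _ hY0), ord_div v e0 (pow_ne_zero _ hY0), ord_pow, hord _ hY, e,
        ord_mul v (Nat.cast_ne_zero.mpr hq.ne_zero) (Int.cast_ne_zero.mpr hc0)]
      have h1 : 1 ≤ ord v (q : K) := by
        have hq0 : (q : 𝓞 K) ≠ 0 := Nat.cast_ne_zero.mpr hq.ne_zero
        rw [← map_natCast (algebraMap (𝓞 K) K)]
        exact (ord_algebraMap_pos_iff v hq0).mpr hqv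
      have h3 : 0 ≤ ord v (c : K) := by
        rw [← map_intCast (algebraMap (𝓞 K) K)]
        exact ord_algebraMap_nonneg v _
      omega
    obtain ⟨x, hx, hxm⟩ := (mem_localPowers_iff hq hB hz _).mp hmem
    rw [uval_nsmul, Units.val_mk0] at hxm
    have hxm' : uval x ^ p = (m : ℚbar) := by
      rw [hxm]; exact map_natCast K.val m
    have hzb : IsPrimitiveRoot ((z : K) : ℚbar) p :=
      hz.map_of_injective (f := K.val) Subtype.val_injective
    have hβ0 : β ≠ 0 := fun h => by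
      rw [h, zero_pow hp.out.ne_zero, eq_comm, Nat.cast_eq_zero] at hβ
      exact hm.ne_zero hβ
    obtain ⟨i, -, hi⟩ := hzb.eq_pow_of_pow_eq_one (show (uval x / β) ^ p = 1 by
      rw [div_pow, hxm', hβ, div_self (Nat.cast_ne_zero.mpr hm.ne_zero)])
    rw [eq_div_iff hβ0] at hi
    have hfx := hx φ ⟨hφ.1, hφK⟩
    rw [← hi, map_mul, map_pow,
      (IntermediateField.mem_fixingSubgroup_iff K φ).mp hφK _ z.2] at hfx
    exact hφβ (mul_left_cancel₀ (pow_ne_zero _ (hzb.ne_zero hp.out.ne_zero)) hfx)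
  exact ⟨key ℓ α hℓ (Ne.symm hqℓ) hα hφα, key ℓ' α' hℓ' (Ne.symm hqℓ') hα' hφα'⟩

end Fermat.CFT
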