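import Fermat.Agent.CFT.Global.Linking

/-!
# Poitou–Tate duality for modules split by a linked field

A module fixed by `K.fixingSubgroup` embeds into a good induced module.  This gives finiteness,
the image of localisation in degree two, the equality of the two groups of locally trivial
classes, and right exactness in degree two.
-/

set_option autoImplicit false
set_option linter.unusedSectionVars false

noncomputable section

open ExtCitation Fermat.CFT.Coh
open scoped Pointwise

namespace Fermat.CFT

local notation "ℚbar" => AlgebraicClosure ℚ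
local notation "Γℚ" => (AlgebraicClosure ℚ ≃ₐ[ℚ] AlgebraicClosure ℚ)

variable {p : ℕ} [hp : Fact p.Prime] {K : IntermediateField ℚ ℚbar} [FiniteDimensional ℚ K]
  [Normal ℚ K] {T : Finset Nat.Primes}
  {M M' N N' : Type} [AddCommGroup M] [Module (ZMod p) M] [FiniteDimensional (ZMod p) M]
  [AddCommGroup M'] [Module (ZMod p) M'] [FiniteDimensional (ZMod p) M']
  [AddCommGroup N] [Module (ZMod p) N] [FiniteDimensional (ZMod p) N]
  [AddCommGroup N'] [Module (ZMod p) N'] [FiniteDimensional (ZMod p) N']
  {ρ : Representation (ZMod p) Γℚ M} {ρ' : Representation (ZMod p) Γℚ M'}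
  {σ : Representation (ZMod p) Γℚ N} {σ' : Representation (ZMod p) Γℚ N'}

/-! ### Modules split by `K` -/

/-- The subgroup fixing `K` acts trivially. -/
def Factors (K : IntermediateField ℚ ℚbar) (ρ : Representation (ZMod p) Γℚ M) : Prop :=
  ∀ n ∈ K.fixingSubgroup, ρ n = 1

/-- The subgroup fixing `K` fixes every vector. -/
lemma Factors.apply {ρ : Representation (ZMod p) Γℚ M} (h : Factors K ρ) {n : Γℚ}
    (hn : n ∈ K.fixingSubgroup) (m : M) : ρ n m = m := by
  rw [h n hn, Module.End.one_apply]

variable (hT : IsAdmissible p K T)

include hT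

/-- A module split by `K` is smooth outside `T`. -/
lemma Factors.smooth (h : Factors K ρ) : IsSmooth (galLevels (T : Set Nat.Primes)) ρ := fun m => by
  obtain ⟨L, hL, hle⟩ := containsLevel_fixing hT
  exact ⟨L, hL, fun s hs => h.apply (hle hs) m⟩

/-- The dual of a module split by `K` is split by `K`. -/
lemma DualPair.factors' (D : DualPair T ρ ρ') (h : Factors K ρ) : Factors K ρ' := fun n hn => by
  refine LinearMap.ext fun b => (LinearMap.flip_bijective_iff₁.mpr D.bij).1
    (LinearMap.ext fun a => ?_)
  have h1 := D.isPairing n a b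
  rw [h.apply hn, charRep_apply, show cycloChar p n = 1 from hT.cycHom_eq_one ⟨n, hn⟩,
    Units.val_one, one_mul] at h1
  exact h1

omit hT

/-- The induced module is split by `K`. -/
lemma factors_indK {ι : Type} : Factors K (indK p K ι) := fun n hn =>
  LinearMap.ext fun f => funext fun x => by
    change f (n⁻¹ • x) = f x
    rw [smul_coset_eq_self (inv_mem hn)]

/-! ### The dual pair of a module -/

/-- A module and its twisted dual. -/
def DualPair.ofSmooth (hpT : pPrime p ∈ T) (h : IsSmooth (galLevels (T : Set Nat.Primes)) ρ) :
    DualPair T ρ (dualRep (cycloChar p) ρ) where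
  P := evalPairing (ZMod p) M
  isPairing := isPairing_eval ρ
  bij := Module.bijective_dual_eval (ZMod p) M
  smooth := h
  smooth' := isSmooth_dualRep (charSmooth_galLevels hpT) h
  mem := hpT

/-! ### Adjoint maps -/

namespace DualPair

variable (D : DualPair T ρ ρ') (E : DualPair T σ σ')

/-- The adjoint of a map. -/
def adjMap (f : M →ₗ[ZMod p] N) : N' →ₗ[ZMod p] M' :=
  (LinearEquiv.ofBijective D.P.flip (LinearMap.flip_bijective_iff₁.mpr D.bij)).symm.toLinearMap.comp
    (f.dualMap.comp E.P.flip)

/-- The defining property of the adjoint. -/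
lemma adjMap_spec (f : M →ₗ[ZMod p] N) (m : M) (n : N') :
    E.P (f m) n = D.P m (D.adjMap E f n) := by
  have h := (LinearEquiv.ofBijective D.P.flip
    (LinearMap.flip_bijective_iff₁.mpr D.bij)).apply_symm_apply (f.dualMap (E.P.flip n))
  exact (LinearMap.congr_fun h m).symm

/-- The first module of a pair separates the points of the second. -/
lemma eq_of_forall {a b : M'} (h : ∀ m, D.P m a = D.P m b) : a = b :=
  (LinearMap.flip_bijective_iff₁.mpr D.bij).1 (LinearMap.ext h)

/-- The adjoint of an equivariant map is equivariant. -/
lemma adjMap_equivariant {f : M →ₗ[ZMod p] N} (hf : IsEquivariant ρ σ (MonoidHom.id Γℚ) f) :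
    IsEquivariant σ' ρ' (MonoidHom.id Γℚ) (D.adjMap E f) := fun g n => D.eq_of_forall fun m => by
  have h1 : ρ g (ρ g⁻¹ m) = m := by
    rw [← Module.End.mul_apply, ← map_mul, mul_inv_cancel, map_one, Module.End.one_apply]
  rw [← adjMap_spec, MonoidHom.id_apply]
  conv_lhs => rw [← h1, show f (ρ g (ρ g⁻¹ m)) = σ g (f (ρ g⁻¹ m)) from hf g _, E.isPairing,
    adjMap_spec D E]
  rw [← D.isPairing, h1]

/-- The adjoint of an injective map is surjective. -/
lemma adjMap_surjective {f : M →ₗ[ZMod p] N} (hf : Function.Injective f) :
    Function.Surjective (D.adjMap E f) := by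
  rw [adjMap, LinearMap.coe_comp, LinearMap.coe_comp, LinearEquiv.coe_coe]
  exact (LinearEquiv.surjective _).comp ((LinearMap.dualMap_surjective_of_injective hf).comp
    (LinearMap.flip_bijective_iff₁.mpr E.bij).2)

/-- The adjoint of a surjective map is injective. -/
lemma adjMap_injective {f : M →ₗ[ZMod p] N} (hf : Function.Surjective f) :
    Function.Injective (D.adjMap E f) := by
  rw [adjMap, LinearMap.coe_comp, LinearMap.coe_comp, LinearEquiv.coe_coe]
  exact (LinearEquiv.injective _).comp ((LinearMap.dualMap_injective_of_surjective hf).comp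
    (LinearMap.flip_bijective_iff₁.mpr E.bij).1)

end DualPair

/-! ### The embedding into an induced module -/

section Emb

variable (K) (ρ)

/-- A module as functions on the cosets. -/
def coordEmb : M →ₗ[ZMod p] IndK p K (Fin (Module.finrank (ZMod p) M)) :=
  LinearMap.pi fun x : Γℚ ⧸ K.fixingSubgroup =>
    (Module.finBasis (ZMod p) M).equivFun.toLinearMap.comp (ρ x.out⁻¹)

variable {K ρ}

/-- The map into functions on the cosets is injective. -/
lemma coordEmb_injective : Function.Injective (coordEmb K ρ) := fun a b h => by
  have h1 := (Module.finBasis (ZMod p) M).equivFun.injective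
    (congrFun h ((1 : Γℚ) : Γℚ ⧸ K.fixingSubgroup))
  have h2 := congrArg (ρ ((1 : Γℚ) : Γℚ ⧸ K.fixingSubgroup).out) h1
  rwa [← Module.End.mul_apply, ← Module.End.mul_apply, ← map_mul, mul_inv_cancel, map_one,
    Module.End.one_apply, Module.End.one_apply] at h2

/-- For a module split by `K` the map into functions on the cosets is equivariant. -/
lemma coordEmb_equivariant (hρ : Factors K ρ) :
    IsEquivariant ρ (indK p K (Fin (Module.finrank (ZMod p) M))) (MonoidHom.id Γℚ)
      (coordEmb K ρ) := fun g m => funext fun x => by
  change (Module.finBasis (ZMod p) M).equivFun (ρ x.out⁻¹ (ρ g m)) =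
    (Module.finBasis (ZMod p) M).equivFun (ρ (g⁻¹ • x).out⁻¹ m)
  refine congrArg _ ?_
  obtain ⟨n, hn⟩ : ∃ n : K.fixingSubgroup, (g⁻¹ • x).out = g⁻¹ * x.out * n := by
    have h := QuotientGroup.mk_out_eq_mul K.fixingSubgroup (g⁻¹ * x.out)
    obtain ⟨n, hn⟩ := h
    refine ⟨n, ?_⟩
    rw [← hn]
    conv_lhs => rw [← QuotientGroup.out_eq' x]
    rfl
  rw [hn, mul_inv_rev, mul_inv_rev, inv_inv, map_mul, Module.End.mul_apply,
    hρ.apply (inv_mem n.2), map_mul, Module.End.mul_apply]

end Emb

/-! ### The cover -/

section Cover

variable {ι : Type} [Fintype ι] (j : M →ₗ[ZMod p] IndK p K ι)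

/-- The quotient of the induced module. -/
abbrev CoverQ : Type := IndK p K ι ⧸ LinearMap.range j

/-- The orthogonal of the image. -/
abbrev CoverS : Submodule (ZMod p) (IndK p K ι) :=
  Devissage.perp (indForm p K ι) (LinearMap.range j)

variable {j} (hj : IsEquivariant ρ (indK p K ι) (MonoidHom.id Γℚ) j)

include hj

/-- The orthogonal of an invariant image is invariant. -/
lemma coverS_invariant (hT : IsAdmissible p K T) (g : Γℚ) {s : IndK p K ι}
    (hs : s ∈ CoverS j) : indK p K ι g s ∈ CoverS j := by
  rw [Devissage.mem_perp] at hs ⊢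
  rintro _ ⟨m, rfl⟩
  have h1 : j m = indK p K ι g (j (ρ g⁻¹ m)) := by
    rw [← show j (ρ g (ρ g⁻¹ m)) = indK p K ι g (j (ρ g⁻¹ m)) from hj g _, ← Module.End.mul_apply,
      ← map_mul, mul_inv_cancel, map_one, Module.End.one_apply]
  rw [h1, show indForm p K ι (indK p K ι g (j (ρ g⁻¹ m))) (indK p K ι g s) = _ from
    (indPair ι hT).isPairing g _ _]
  change charRep (cycloChar p) g (indForm p K ι (j (ρ g⁻¹ m)) s) = 0
  rw [hs _ ⟨_, rfl⟩, map_zero]

/-- The action on the quotient. -/
def coverQRep : Representation (ZMod p) Γℚ (CoverQ j) where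
  toFun g := (LinearMap.range j).mapQ _ (indK p K ι g) (Coh.range_le_comap hj g)
  map_one' := LinearMap.ext fun x => Quotient.inductionOn' x fun f => by
    change Submodule.Quotient.mk (indK p K ι 1 f) = Submodule.Quotient.mk f
    rw [map_one, Module.End.one_apply]
  map_mul' g h := LinearMap.ext fun x => Quotient.inductionOn' x fun f => by
    change Submodule.Quotient.mk (indK p K ι (g * h) f) =
      Submodule.Quotient.mk (indK p K ι g (indK p K ι h f))
    rw [map_mul, Module.End.mul_apply]

variable (hT : IsAdmissible p K T)

/-- The action on the orthogonal. -/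
def coverSRep : Representation (ZMod p) Γℚ (CoverS j) where
  toFun g := (indK p K ι g).restrict fun _ hs => coverS_invariant hj hT g hs
  map_one' := LinearMap.ext fun s => Subtype.ext (by
    change indK p K ι 1 (s : IndK p K ι) = s
    rw [map_one, Module.End.one_apply])
  map_mul' g h := LinearMap.ext fun s => Subtype.ext (by
    change indK p K ι (g * h) (s : IndK p K ι) = indK p K ι g (indK p K ι h s)
    rw [map_mul, Module.End.mul_apply])

omit hT in
/-- The quotient of the induced module is split by `K`. -/
lemma factors_coverQRep : Factors K (coverQRep hj) := fun n hn =>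
  LinearMap.ext fun x => Quotient.inductionOn' x fun f => by
    change Submodule.Quotient.mk (indK p K ι n f) = Submodule.Quotient.mk f
    rw [factors_indK.apply hn]

/-- The orthogonal in the induced module is split by `K`. -/
lemma factors_coverSRep : Factors K (coverSRep hj hT) := fun _ hn =>
  LinearMap.ext fun _ => Subtype.ext (factors_indK.apply hn _)

/-- The pair of the quotient and the orthogonal. -/
def coverPair : DualPair T (coverQRep hj) (coverSRep hj hT) where
  P := (LinearMap.range j).liftQ ((indForm p K ι).compl₂ (CoverS j).subtype) fun x hx =>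
    LinearMap.ext fun s => Devissage.mem_perp.mp s.2 x hx
  isPairing g x s := Quotient.inductionOn' x fun f => (indPair ι hT).isPairing g f s.1
  bij := by
    constructor
    · rw [injective_iff_map_eq_zero]
      intro x
      induction x using Submodule.Quotient.induction_on with
      | H f =>
        intro hf
        refine (Submodule.Quotient.mk_eq_zero _).mpr ?_
        have h := Devissage.perp_perp (indPair ι hT).bij (LinearMap.range j)
        rw [← h, Devissage.mem_perp]
        intro s hs
        exact LinearMap.congr_fun hf ⟨s, hs⟩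
    · intro φ
      obtain ⟨Φ, hΦ⟩ := LinearMap.exists_extend φ
      obtain ⟨f, hf⟩ := (indPair ι hT).bij.2 Φ
      refine ⟨Submodule.Quotient.mk f, LinearMap.ext fun s => ?_⟩
      exact (LinearMap.congr_fun hf s.1).trans (LinearMap.congr_fun hΦ s)
  smooth := (factors_coverQRep hj).smooth hT
  smooth' := (factors_coverSRep hj hT).smooth hT
  mem := hT.mem

variable (D : DualPair T ρ ρ') (hinj : Function.Injective j)

/-- The sequence of an embedding into the induced module, with its dual. -/
def coverSES : DualSES T ρ (indK p K ι) (coverQRep hj) ρ' (indK p K ι) (coverSRep hj hT) where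
  -- the sequence of `j` with its cokernel
  S :=
    { ι := j
      π := (LinearMap.range j).mkQ
      ι_eq := hj
      π_eq := fun _ _ => rfl
      injective := hinj
      surjective := Submodule.mkQ_surjective _
      exact := fun f => by
        change Submodule.Quotient.mk f = 0 ↔ _
        rw [Submodule.Quotient.mk_eq_zero]
        rfl
      smooth := (indPair ι hT).smooth }
  -- its dual: the annihilator of the image, with the adjoint of `j`
  S' :=
    { ι := (CoverS j).subtype
      π := D.adjMap (indPair ι hT) j
      ι_eq := fun _ _ => rfl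
      π_eq := D.adjMap_equivariant _ hj
      injective := Subtype.val_injective
      surjective := D.adjMap_surjective _ hinj
      exact := fun f => by
        refine ⟨fun h => ⟨⟨f, Devissage.mem_perp.mpr ?_⟩, rfl⟩, ?_⟩
        · rintro _ ⟨m, rfl⟩
          change (indPair ι hT).P (j m) f = 0
          rw [D.adjMap_spec, h, map_zero]
        · rintro ⟨s, rfl⟩
          refine D.eq_of_forall fun m => ?_
          rw [← D.adjMap_spec, map_zero]
          exact Devissage.mem_perp.mp s.2 _ ⟨m, rfl⟩
      smooth := (indPair ι hT).smooth }
  -- the pairings and their adjunctions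
  DA := D
  DB := indPair ι hT
  DC := coverPair hj hT
  adj₁ a b := D.adjMap_spec _ j a b
  adj₂ _ _ := rfl

end Cover

/-! ### Duality at `T` -/

section PT

variable (hL : Linked p K T) (h2 : 2 < p)

include hT hL h2

/-- `H¹` of a module with a dual pair which factors through `K` is finite-dimensional. -/
theorem finite_H1_of_factors (D : DualPair T ρ ρ') (hρ : Factors K ρ) :
    FiniteDimensional (ZMod p) (H1 (galLevels (T : Set Nat.Primes)) ρ) :=
  (coverSES (coordEmb_equivariant hρ) hT D coordEmb_injective).finite_H1A
    (indPair_isGood hT h2 hL)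

/-- `H²` of a module with a dual pair which factors through `K` is finite-dimensional. -/
theorem finite_H2_of_factors (D : DualPair T ρ ρ') (hρ : Factors K ρ) :
    FiniteDimensional (ZMod p) (H2 (galLevels (T : Set Nat.Primes)) ρ) := by
  set X := coverSES (coordEmb_equivariant hρ) hT D coordEmb_injective
  have := finite_H1_of_factors hT hL h2 X.DC (factors_coverQRep _)
  exact X.finite_H2A (indPair_isGood hT h2 hL)

/-- The image of localisation in degree two. -/
theorem range_loc₂_of_factors (D : DualPair T ρ ρ') (hρ : Factors K ρ) :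
    LinearMap.range (loc₂ T ρ) = Devissage.perp (V := P0 T ρ') (W := P2 T ρ) (D.Q₂ h2).flip
      (LinearMap.range (loc₀ T ρ')) :=
  (coverSES (coordEmb_equivariant (D.factors' hT hρ)) hT D.flip coordEmb_injective).flip.range_loc₂
    (indPair_isGood hT h2 hL).flip

/-- The locally trivial classes of degree one of the dual are at most as many as those of degree two
of the module. -/
lemma finrank_sha₁_le (D : DualPair T ρ ρ') (hρ : Factors K ρ) :
    Module.finrank (ZMod p) (LinearMap.ker (loc₁ T ρ')) ≤
      Module.finrank (ZMod p) (LinearMap.ker (loc₂ T ρ)) := by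
  set X := coverSES (coordEmb_equivariant (D.factors' hT hρ)) hT D.flip coordEmb_injective
  have := finite_H2_of_factors hT hL h2 D hρ
  refine (X.flip.finrank_sha_le_map (indPair_isGood hT h2 hL).flip).trans
    (Submodule.finrank_mono ?_)
  exact Submodule.map_comap_le _ _

/-- **The duality of the locally trivial classes.** -/
theorem finrank_sha_eq (D : DualPair T ρ ρ') (hρ : Factors K ρ) :
    Module.finrank (ZMod p) (LinearMap.ker (loc₂ T ρ)) =
      Module.finrank (ZMod p) (LinearMap.ker (loc₁ T ρ')) := by
  set X := coverSES (coordEmb_equivariant hρ) hT D coordEmb_injective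
  have hC : Factors K (coverQRep (coordEmb_equivariant hρ)) := factors_coverQRep _
  have := finite_H1_of_factors hT hL h2 X.DC hC
  have := finite_H1_of_factors hT hL h2 D.flip (D.factors' hT hρ)
  have h1 := X.finrank_sha_add_sha_le (indPair_isGood hT h2 hL)
  have h3 := finrank_sha₁_le hT hL h2 X.DC.flip (X.DC.factors' hT hC)
  have h4 := finrank_sha₁_le hT hL h2 D hρ
  omega

/-- **Right exactness in degree two.** In an exact sequence whose middle term is split by `K`, the
map on `H²` to the last term is surjective. -/
theorem π₂_surjective_of_factors {A B C : Type} [AddCommGroup A] [Module (ZMod p) A]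
    [AddCommGroup B] [Module (ZMod p) B] [FiniteDimensional (ZMod p) B] [AddCommGroup C]
    [Module (ZMod p) C] [FiniteDimensional (ZMod p) C] {ρA : Representation (ZMod p) Γℚ A}
    {ρB : Representation (ZMod p) Γℚ B} {ρC : Representation (ZMod p) Γℚ C}
    (S : SES (galLevels (T : Set Nat.Primes)) ρA ρB ρC) (hB : Factors K ρB) :
    Function.Surjective S.π₂ := by
  have hC : Factors K ρC := fun n hn => LinearMap.ext fun c => by
    obtain ⟨b, rfl⟩ := S.surjective c
    rw [← S.π_apply, hB.apply hn, Module.End.one_apply]
  set DB := DualPair.ofSmooth hT.mem (hB.smooth hT)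
  set DC := DualPair.ofSmooth hT.mem (hC.smooth hT)
  have hπ' := DB.adjMap_equivariant DC S.π_eq
  set e := coordEmb K (dualRep (cycloChar p) ρB)
  have he := coordEmb_equivariant (DB.factors' hT hB)
  have hje : IsEquivariant (dualRep (cycloChar p) ρC)
      (indK p K (Fin (Module.finrank (ZMod p) (Module.Dual (ZMod p) B)))) (MonoidHom.id Γℚ)
      (e.comp (DB.adjMap DC S.π)) := fun g c => by
    rw [LinearMap.comp_apply, LinearMap.comp_apply, hπ' g c]
    exact he g _
  -- cover `C` by dualising an embedding of its dual into an induced module through `B`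
  set X := coverSES hje hT DC.flip (coordEmb_injective.comp (DB.adjMap_injective DC S.surjective))
  set π0 := DB.flip.adjMap (indPair _ hT) e
  have hπ0 := DB.flip.adjMap_equivariant (indPair _ hT) he
  have key : ∀ b, X.flip.S.π b = S.π (π0 b) := fun b => by
    refine DC.flip.eq_of_forall fun c => ?_
    change DC.flip.P c (DC.flip.adjMap (indPair _ hT) (e.comp (DB.adjMap DC S.π)) b) =
      DC.P (S.π (π0 b)) c
    rw [← DC.flip.adjMap_spec, DB.adjMap_spec DC]
    exact DB.flip.adjMap_spec _ e _ b
  have := finite_H2_of_factors hT hL h2 DC hC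
  -- the cover factors through `B` and is surjective in degree two by duality for `C`
  intro z
  obtain ⟨y, rfl⟩ := X.flip.π₂_surjective (indPair_isGood hT h2 hL).flip
    (finrank_sha_eq hT hL h2 DC hC).le z
  refine ⟨map₂ (IsLevelsHom.id _) hπ0 y, ?_⟩
  obtain ⟨w, rfl⟩ := cl₂_surjective y
  exact cl₂_congr fun g g' => (key _).symm

end PT

end Fermat.CFT
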