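import Fermat.Agent.CFT.Global.LocalCup
import Fermat.Agent.CFT.Global.AuxChar

/-!
# The cyclotomic line at `p`

`H¹` of a decomposition group at `p` in `μ_p` is generated by the classes of `p` and `1 + p`.
-/

set_option autoImplicit false

noncomputable section

open NumberField Fermat.CFT.Coh
open scoped Pointwise

namespace Fermat.CFT

local notation "ℚbar" => AlgebraicClosure ℚ
local notation "Γℚ" => (AlgebraicClosure ℚ ≃ₐ[ℚ] AlgebraicClosure ℚ)

/-- A class vanishing on a subgroup of invertible index is zero. -/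
lemma cl₁_eq_zero_of_vanish_on {G : Type} [Group G] {R : Type} [CommRing R] {M : Type}
    [AddCommGroup M] [Module R M] {L : Levels G} {ρ : Representation R G M} {H : Subgroup G}
    [H.FiniteIndex] (hidx : IsUnit (H.index : R)) (z : Z1 L ρ) (hz : ∀ h ∈ H, z.1 h = 0) :
    cl₁ L ρ z = 0 := by
  classical
  let : Fintype (G ⧸ H) := Subgroup.fintypeQuotientOfFiniteIndex
  have hadd : ∀ a b : G, z.1 (a * b) = z.1 a + ρ a (z.1 b) := fun a b => by
    have h : ρ a (z.1 b) - z.1 (a * b) + z.1 a = 0 := congrFun (congrFun z.2.2 a) b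
    calc z.1 (a * b) = z.1 (a * b) + (ρ a (z.1 b) - z.1 (a * b) + z.1 a) := by rw [h, add_zero]
      _ = z.1 a + ρ a (z.1 b) := by abel
  let F : G ⧸ H → M := Quotient.lift z.1 fun a b hab => by
    obtain ⟨h, hh, rfl⟩ : ∃ h ∈ H, b = a * h :=
      ⟨a⁻¹ * b, QuotientGroup.leftRel_apply.mp hab, by rw [mul_inv_cancel_left]⟩
    rw [hadd, hz h hh, map_zero, add_zero]
  have hF : ∀ g x, F (g • x) = z.1 g + ρ g (F x) := fun g x => by
    induction x using QuotientGroup.induction_on with
    | _ a => exact hadd g a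
  obtain ⟨u, hu⟩ := hidx
  refine cl₁_eq_zero.mpr ⟨-((u⁻¹ : Rˣ) : R) • ∑ x, F x, funext fun g => ?_⟩
  have h1 : ∑ x, F x = (H.index : R) • z.1 g + ρ g (∑ x, F x) := by
    conv_lhs => rw [← Equiv.sum_comp (MulAction.toPerm g)]
    simp only [MulAction.toPerm_apply, hF, Finset.sum_add_distrib, Finset.sum_const,
      Finset.card_univ, map_sum, Subgroup.index_eq_card, Nat.card_eq_fintype_card,
      Nat.cast_smul_eq_nsmul]
  rw [d₀_apply, map_smul, ← smul_sub, neg_smul, ← smul_neg, neg_sub]
  nth_rewrite 1 [h1]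
  rw [add_sub_cancel_right, ← hu, smul_smul, Units.inv_mul, one_smul]

variable {p : ℕ} [hp : Fact p.Prime] {A : ValuationSubring ℚbar}

local notation "D" => A.decompositionSubgroup ℚ

/-- A rational number congruent to `1` modulo `p²` has trivial class at `p`. -/
lemma kum_ratU_eq_zero_of_congr (h2 : 2 < p) (hA : A.LiesOverPrime p) {u : Additive ℚˣ} {x y : ℤ}
    (hy : ¬ (p : ℤ) ∣ y) (hxy : (p : ℤ) ^ 2 ∣ x - y)
    (hu : ((Additive.toMul u : ℚˣ) : ℚ) * y = x) :
    kum p (D).subtype (ratU (D).subtype u) = 0 := by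
  obtain ⟨K, z, hK, hKn, hz, hfr, -⟩ := exists_zetaField p
  set w := plBelow K hp.out hA
  set uK : Additive (K : Type)ˣ :=
    Additive.ofMul (Units.map (algebraMap ℚ K : ℚ →* K) (Additive.toMul u))
  -- `u ≡ 1` mod `p²` is a local `p`-th power in the field of `p`-th roots of unity
  have hmem : Additive.toMul uK ∈ localPowers p z w := by
    refine ⟨1, ?_⟩
    rw [Units.val_one, one_pow, div_one]
    rcases eq_or_ne ((Additive.toMul uK : (K : Type)ˣ) : K) 1 with h | h
    · exact Or.inl h
    refine Or.inr ?_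
    have hwp : ((p : ℕ) : 𝓞 K) ∈ w.asIdeal := natCast_mem_plBelow K hp.out hA
    have hy0 : (y : K) ≠ 0 := Int.cast_ne_zero.mpr fun h0 => hy (h0 ▸ dvd_zero _)
    have he : ((Additive.toMul uK : (K : Type)ˣ) : K) - 1 = ((x - y : ℤ) : K) / (y : K) := by
      change algebraMap ℚ K ((Additive.toMul u : ℚˣ) : ℚ) - 1 = _
      rw [eq_div_iff hy0, sub_mul, one_mul, Int.cast_sub]
      congr 1
      have := congrArg (algebraMap ℚ K) hu
      simpa using this
    obtain ⟨c, hc⟩ := hxy
    have hc0 : (c : K) ≠ 0 := fun h0 => h (sub_eq_zero.mp (by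
      rw [he, hc, Int.cast_mul, h0, mul_zero, zero_div]))
    have hpK : (p : K) ≠ 0 := Nat.cast_ne_zero.mpr hp.out.ne_zero
    have hcast : ((x - y : ℤ) : K) = (p : K) ^ 2 * (c : K) := by rw [hc]; push_cast; rfl
    rw [he, hcast, ord_div w (mul_ne_zero (pow_ne_zero _ hpK) hc0) hy0,
      ord_mul w (pow_ne_zero _ hpK) hc0, ord_pow, ord_intCast_eq_zero hp.out w hwp hy, sub_zero]
    have hcn : 0 ≤ ord w (c : K) := by
      rw [← map_intCast (algebraMap (𝓞 K) K)]
      exact ord_algebraMap_nonneg w _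
    have hp1 : ord w (p : K) = (p - 1 : ℕ) * zetaOrd z w := ord_natCast_prime hz w
    have hpos : (0 : ℤ) < ord w (p : K) := by
      rw [ord_natCast_prime_of_mem hp.out w hwp]
      exact Int.natCast_pos.mpr (plRamIdx_pos w)
    rw [hp1] at hpos ⊢
    have hz1 : 0 < zetaOrd z w := Nat.pos_of_ne_zero fun h0 => by simp [h0] at hpos
    simp only [localLevel]
    push_cast [Nat.cast_sub hp.out.one_lt.le] at *
    nlinarith
  obtain ⟨β₀, hβfix, hβp⟩ := (mem_localPowers_iff hp.out hA hz _).mp hmem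
  have hβ : p • β₀ = (ratU (D).subtype u).1 := uval_injective (by
    rw [hβp]
    exact (IsScalarTower.algebraMap_apply ℚ K ℚbar _).symm)
  rw [kum_root _ hβ]
  have : K.fixingSubgroup.FiniteIndex := fixingSubgroup_finiteIndex K
  refine cl₁_eq_zero_of_vanish_on (H := K.fixingSubgroup.subgroupOf D) ?_ _ fun h hh =>
    zpw_injective ?_
  · refine (ZMod.isUnit_iff_coprime _ _).mpr (Nat.Coprime.symm ((hp.out.coprime_iff_not_dvd).mpr
      fun hd => ?_))
    have hd' : K.fixingSubgroup.relIndex D ∣ p - 1 := by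
      have := fixingSubgroup_normal_qbar K
      refine (Subgroup.relIndex_dvd_index_of_normal _ _).trans (dvd_of_eq ?_)
      rw [← IntermediateField.finrank_eq_fixingSubgroup_index, hfr]
    have := Nat.le_of_dvd (by omega) (hd.trans hd')
    omega
  · rw [map_zero, zpw_rootCocycle, d₀_apply, sub_eq_zero]
    refine uval_injective ?_
    rw [uval_unitsRep]
    exact hβfix (h : Γℚ) ⟨h.2, hh⟩

variable (p A) in
/-- The class of a nonzero rational number. -/
def ratClass (x : ℚ) : H1 (glev (D).subtype) (charRep (cycHom p (D).subtype)) :=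
  if h : x = 0 then 0 else kum p (D).subtype (ratU (D).subtype (Additive.ofMul (Units.mk0 x h)))

/-- The class of a product is the sum of the classes. -/
lemma ratClass_mul {x y : ℚ} (hx : x ≠ 0) (hy : y ≠ 0) :
    ratClass p A (x * y) = ratClass p A x + ratClass p A y := by
  rw [ratClass, ratClass, ratClass, dif_neg hx, dif_neg hy, dif_neg (mul_ne_zero hx hy), ← map_add,
    ← map_add, ← ofMul_mul, Units.mk0_mul]

/-- The class of one vanishes. -/
lemma ratClass_one : ratClass p A 1 = 0 := by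
  have h := ratClass_mul (p := p) (A := A) (one_ne_zero (α := ℚ)) one_ne_zero
  rwa [one_mul, eq_comm, add_eq_left] at h

/-- The class of a power is a multiple of the class. -/
lemma ratClass_pow {x : ℚ} (hx : x ≠ 0) (k : ℕ) :
    ratClass p A (x ^ k) = k • ratClass p A x := by
  induction k with
  | zero => rw [pow_zero, ratClass_one, zero_smul]
  | succ k ih => rw [pow_succ, ratClass_mul (pow_ne_zero _ hx) hx, ih, succ_nsmul]

variable (h2 : 2 < p) (hA : A.LiesOverPrime p)

include h2 hA

/-- At `p`, integers prime to `p` congruent modulo `p²` have the same class. -/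
lemma ratClass_eq_of_congr {x y : ℤ} (hx : ¬ (p : ℤ) ∣ x) (hy : ¬ (p : ℤ) ∣ y)
    (hxy : (p : ℤ) ^ 2 ∣ x - y) : ratClass p A x = ratClass p A y := by
  have hx0 : (x : ℚ) ≠ 0 := Int.cast_ne_zero.mpr fun h => hx (h ▸ dvd_zero _)
  have hy0 : (y : ℚ) ≠ 0 := Int.cast_ne_zero.mpr fun h => hy (h ▸ dvd_zero _)
  have h : ratClass p A ((x : ℚ) / y) = 0 := by
    rw [ratClass, dif_neg (div_ne_zero hx0 hy0)]
    exact kum_ratU_eq_zero_of_congr h2 hA hy hxy (div_mul_cancel₀ _ hy0)
  have h' := ratClass_mul (p := p) (A := A) (div_ne_zero hx0 hy0) hy0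
  rwa [div_mul_cancel₀ _ hy0, h, zero_add] at h'

/-- Every class at `p` is a combination of those of `p` and `1 + p`. -/
theorem exists_eq_smul_add (c : H1 (glev (D).subtype) (charRep (cycHom p (D).subtype))) :
    ∃ i j : ZMod p, c = i • ratClass p A p + j • ratClass p A (1 + p : ℕ) := by
  set S : Submodule (ZMod p) (H1 (glev (D).subtype) (charRep (cycHom p (D).subtype))) :=
    Submodule.span (ZMod p) {ratClass p A p, ratClass p A (1 + p : ℕ)}
  suffices hS : c ∈ S by
    obtain ⟨i, j, h⟩ := Submodule.mem_span_pair.mp hS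
    exact ⟨i, j, h.symm⟩
  -- a unit is congruent mod `p²`, after raising to `p - 1`, to a power of `1 + p`
  have hunit : ∀ m : ℕ, ¬ p ∣ m → ratClass p A m ∈ S := by
    intro m hm
    obtain ⟨t, ht⟩ : ∃ t : ℕ, m ^ (p - 1) = 1 + p * t := by
      have hcop : m.Coprime p := ((hp.out.coprime_iff_not_dvd).mpr hm).symm
      have h1 := Nat.ModEq.pow_totient hcop
      rw [Nat.totient_prime hp.out] at h1
      exact ⟨m ^ (p - 1) / p, by
        rw [← Nat.mod_add_div (m ^ (p - 1)) p, h1, Nat.one_mod_eq_one.mpr hp.out.ne_one,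
          Nat.add_mul_div_left _ _ hp.out.pos, Nat.div_eq_of_lt hp.out.one_lt, zero_add]⟩
    have hbin : (p : ℤ) ^ 2 ∣ ((1 + p * t : ℕ) : ℤ) - (((1 + p) ^ t : ℕ) : ℤ) := by
      push_cast
      clear ht
      induction t with
      | zero => simp
      | succ t ih =>
        obtain ⟨e, he⟩ := ih
        refine ⟨(1 + p) * e - t, ?_⟩
        rw [pow_succ]
        push_cast
        linear_combination (1 + (p : ℤ)) * he
    have e := ratClass_eq_of_congr h2 hA (x := (m ^ (p - 1) : ℕ)) (y := ((1 + p) ^ t : ℕ))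
      (fun h => hm (hp.out.dvd_of_dvd_pow (Int.natCast_dvd_natCast.mp h)))
      (fun h => by
        have h' := (Nat.dvd_add_left (dvd_refl p)).mp
          (hp.out.dvd_of_dvd_pow (Int.natCast_dvd_natCast.mp h))
        exact hp.out.one_lt.ne' (Nat.dvd_one.mp h'))
      (by rw [ht]; exact hbin)
    have hm0 : (m : ℚ) ≠ 0 := Nat.cast_ne_zero.mpr fun h => hm (h ▸ dvd_zero _)
    rw [Int.cast_natCast, Int.cast_natCast, Nat.cast_pow, Nat.cast_pow, ratClass_pow hm0,
      ratClass_pow (by positivity), ← Nat.cast_smul_eq_nsmul (ZMod p),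
      ← Nat.cast_smul_eq_nsmul (ZMod p) t, Nat.cast_sub hp.out.one_lt.le, ZMod.natCast_self,
      Nat.cast_one, zero_sub, neg_smul, one_smul] at e
    rw [← neg_neg (ratClass p A m), e]
    exact S.neg_mem (S.smul_mem _ (Submodule.subset_span (by simp)))
  -- hence every natural number and its negative lie in the span
  have hnat : ∀ n : ℕ, n ≠ 0 → ratClass p A n ∈ S := by
    intro n hn
    obtain ⟨k, m, hm, rfl⟩ := Nat.exists_eq_pow_mul_and_not_dvd hn p hp.out.ne_one
    have hm0 : (m : ℚ) ≠ 0 := Nat.cast_ne_zero.mpr fun h => hm (h ▸ dvd_zero _)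
    rw [Nat.cast_mul, Nat.cast_pow,
      ratClass_mul (pow_ne_zero _ (Nat.cast_ne_zero.mpr hp.out.ne_zero))
      hm0, ratClass_pow (Nat.cast_ne_zero.mpr hp.out.ne_zero)]
    exact add_mem (nsmul_mem (Submodule.subset_span (by simp)) _) (hunit m hm)
  have hneg : ratClass p A (-1) = 0 := by
    have h := ratClass_pow (p := p) (A := A) (x := (-1 : ℚ)) (by norm_num) p
    rw [(hp.out.odd_of_ne_two (by omega)).neg_one_pow, ← Nat.cast_smul_eq_nsmul (ZMod p),
      ZMod.natCast_self, zero_smul] at h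
    exact h
  -- every class comes from a rational number
  obtain ⟨b, rfl⟩ := kum_surjective c
  obtain ⟨a, z, rfl⟩ := exists_ratU_add_nsmul (p := p) hp.out hA b
  rw [map_add, kum_eq_zero_iff.mpr ⟨z, rfl⟩, add_zero]
  set q : ℚ := ((Additive.toMul a : ℚˣ) : ℚ) with hq
  have hq0 : q ≠ 0 := Units.ne_zero _
  have hcl : kum p (D).subtype (ratU (D).subtype a) = ratClass p A q := by
    rw [ratClass, dif_neg hq0]
    congr 2
    exact Additive.toMul.injective (Units.ext rfl)
  rw [hcl]
  have hden : (q.den : ℚ) ≠ 0 := Nat.cast_ne_zero.mpr q.den_nz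
  have hnum : (q.num.natAbs : ℚ) ≠ 0 :=
    Nat.cast_ne_zero.mpr fun h => hq0 (Rat.num_eq_zero.mp (Int.natAbs_eq_zero.mp h))
  have h1 := ratClass_mul (p := p) (A := A) hq0 hden
  rw [Rat.mul_den_eq_num] at h1
  rw [← add_sub_cancel_right (ratClass p A q) (ratClass p A q.den), ← h1]
  refine S.sub_mem ?_ (hnat _ q.den_nz)
  rcases Int.natAbs_eq q.num with h | h <;> rw [h]
  · rw [Int.cast_natCast]
    exact hnat _ (by exact_mod_cast hnum)
  · rw [Int.cast_neg, Int.cast_natCast, neg_eq_neg_one_mul, ratClass_mul (by norm_num) hnum, hneg,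
      zero_add]
    exact hnat _ (by exact_mod_cast hnum)

/-- `H¹` of the cyclotomic line at `p` has at most `p²` elements. -/
theorem natCard_H1_cyc_le :
    Finite (H1 (glev (D).subtype) (charRep (cycHom p (D).subtype))) ∧
      Nat.card (H1 (glev (D).subtype) (charRep (cycHom p (D).subtype))) ≤ p ^ 2 := by
  have hs : Function.Surjective fun x : ZMod p × ZMod p =>
      x.1 • ratClass p A p + x.2 • ratClass p A (1 + p : ℕ) := fun c => by
    obtain ⟨i, j, h⟩ := exists_eq_smul_add h2 hA c
    exact ⟨(i, j), h.symm⟩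
  refine ⟨Finite.of_surjective _ hs, (Nat.card_le_card_of_surjective _ hs).trans (le_of_eq ?_)⟩
  rw [Nat.card_prod, Nat.card_zmod, sq]

/-- `H¹` at `p` of a module `M` on which the group acts through the cyclotomic character has at
most `#M ²` elements. -/
theorem natCard_H1_cycLine_le {M : Type} [AddCommGroup M] [Module (ZMod p) M] [Finite M]
    {σ : Representation (ZMod p) (D) M}
    (hσ : ∀ g m, σ g m = ((cycHom p (D).subtype g : ZMod p)) • m) :
    Finite (H1 (glev (D).subtype) σ) ∧
      Nat.card (H1 (glev (D).subtype) σ) ≤ Nat.card M ^ 2 := by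
  classical
  have : FiniteDimensional (ZMod p) M := Module.Finite.of_finite
  let b := Module.finBasis (ZMod p) M
  have hb : ∀ i, IsEquivariant σ (charRep (cycHom p (D).subtype)) (MonoidHom.id D) (b.coord i) :=
    fun i g m => by rw [hσ, map_smul]; rfl
  let f : H1 (glev (D).subtype) σ →ₗ[ZMod p]
      (Fin (Module.finrank (ZMod p) M) → H1 (glev (D).subtype) (charRep (cycHom p (D).subtype))) :=
    LinearMap.pi fun i => map₁ (IsLevelsHom.id _) (hb i)
  have hf : Function.Injective f := (injective_iff_map_eq_zero _).mpr fun x hx =>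
    cl₁_eq_zero_of_coords b hb x fun i => congrFun hx i
  obtain ⟨hfin, hle⟩ := natCard_H1_cyc_le h2 hA
  refine ⟨Finite.of_injective f hf, (Nat.card_le_card_of_injective f hf).trans ?_⟩
  rw [Nat.card_fun, Nat.card_eq_fintype_card (α := Fin _), Fintype.card_fin,
    Module.natCard_eq_pow_finrank (K := ZMod p) (V := M), Nat.card_zmod, ← pow_mul, mul_comm,
    pow_mul]
  exact Nat.pow_le_pow_left hle _

end Fermat.CFT
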