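import Fermat.Agent.CFT.Global.Setup

/-!
# Dévissage for Poitou–Tate duality at `T`

A pair is *good* when localisation at `T` is injective in degrees one and two and has the
orthogonal of the global classes as its image.  For a short exact sequence with good middle term
the duality statements for the outer terms follow from dimension counts.
-/

set_option autoImplicit false
set_option linter.unusedSectionVars false

noncomputable section

open Fermat.CFT.Coh Fermat.CFT.DualPair

namespace Fermat.CFT.Coh.SES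

variable {G G' : Type} [Group G] [Group G'] {R : Type} [CommRing R] {L : Levels G} {L' : Levels G'}
  {A B C : Type} [AddCommGroup A] [Module R A] [AddCommGroup B] [Module R B] [AddCommGroup C]
  [Module R C] {ρA : Representation R G A} {ρB : Representation R G B} {ρC : Representation R G C}

/-- A sequence along a homomorphism of groups. -/
def pull (S : SES L ρA ρB ρC) {f : G' →* G} (hf : IsLevelsHom L L' f) :
    SES L' (ρA.comp f) (ρB.comp f) (ρC.comp f) where
  ι := S.ι
  π := S.π
  ι_eq g m := S.ι_apply (f g) m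
  π_eq g m := S.π_apply (f g) m
  injective := S.injective
  surjective := S.surjective
  exact := S.exact
  smooth := S.smooth.comp hf

end Fermat.CFT.Coh.SES

namespace Fermat.CFT

local notation "Γℚ" => (AlgebraicClosure ℚ ≃ₐ[ℚ] AlgebraicClosure ℚ)

variable {p : ℕ} [hp : Fact p.Prime] {T : Finset Nat.Primes}

/-! ### Naturality of localisation -/

section Natural

variable {M N : Type} [AddCommGroup M] [Module (ZMod p) M] [AddCommGroup N] [Module (ZMod p) N]
  {ρ : Representation (ZMod p) Γℚ M} {σ : Representation (ZMod p) Γℚ N} {f : M →ₗ[ZMod p] N}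
  (hf : IsEquivariant ρ σ (MonoidHom.id Γℚ) f)

/-- Localisation of invariants is natural. -/
lemma loc₀_map (x : H0 ρ) : loc₀ T σ (map₀ hf x) = mapP0 T hf (loc₀ T ρ x) :=
  funext fun _ => Subtype.ext rfl

/-- Localisation in degree one is natural. -/
lemma loc₁_map (x : H1 (galLevels (T : Set Nat.Primes)) ρ) :
    loc₁ T σ (map₁ (IsLevelsHom.id _) hf x) = mapP1 T hf (loc₁ T ρ x) := by
  obtain ⟨z, rfl⟩ := cl₁_surjective x
  rfl

/-- Localisation in degree two is natural. -/
lemma loc₂_map (x : H2 (galLevels (T : Set Nat.Primes)) ρ) :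
    loc₂ T σ (map₂ (IsLevelsHom.id _) hf x) = mapP2 T hf (loc₂ T ρ x) := by
  obtain ⟨z, rfl⟩ := cl₂_surjective x
  rfl

end Natural

/-! ### Sequences at `T` -/

section Local

variable {A B C : Type} [AddCommGroup A] [Module (ZMod p) A] [AddCommGroup B] [Module (ZMod p) B]
  [AddCommGroup C] [Module (ZMod p) C] {ρA : Representation (ZMod p) Γℚ A}
  {ρB : Representation (ZMod p) Γℚ B} {ρC : Representation (ZMod p) Γℚ C}
  (S : SES (galLevels (T : Set Nat.Primes)) ρA ρB ρC)

/-- The sequence at a decomposition group. -/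
abbrev sesAt (v : Nat.Primes) :
    SES (glev (decAt v).subtype) (repAt v ρA) (repAt v ρB) (repAt v ρC) :=
  S.pull (locHom (T : Set Nat.Primes) v)

/-- The connecting map into `P¹`. -/
def deltaP0 : P0 T ρC →ₗ[ZMod p] P1 T ρA := LinearMap.piMap fun v : T => (sesAt S v).δ₀

/-- The connecting map into `P²`. -/
def deltaP1 : P1 T ρC →ₗ[ZMod p] P2 T ρA := LinearMap.piMap fun v : T => (sesAt S v).δ₁

/-- Exactness at `P⁰` of the quotient. -/
lemma exactP0C : Function.Exact (mapP0 T S.π_eq) (deltaP0 S) :=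
  exact_piMap (V := fun v : T => H0 (repAt (v : Nat.Primes) ρB))
    (W := fun v : T => H0 (repAt (v : Nat.Primes) ρC))
    (U := fun v : T => LH1 (v : Nat.Primes) ρA) fun v => (sesAt S v).exact₀C

/-- Exactness at `P¹` of the middle term. -/
lemma exactP1B : Function.Exact (mapP1 T S.ι_eq) (mapP1 T S.π_eq) :=
  exact_piMap (V := fun v : T => LH1 (v : Nat.Primes) ρA)
    (W := fun v : T => LH1 (v : Nat.Primes) ρB)
    (U := fun v : T => LH1 (v : Nat.Primes) ρC) fun v => (sesAt S v).exact₁B

/-- Exactness at `P¹` of the quotient. -/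
lemma exactP1C : Function.Exact (mapP1 T S.π_eq) (deltaP1 S) :=
  exact_piMap (V := fun v : T => LH1 (v : Nat.Primes) ρB)
    (W := fun v : T => LH1 (v : Nat.Primes) ρC)
    (U := fun v : T => LH2 (v : Nat.Primes) ρA) fun v => (sesAt S v).exact₁C

/-- Exactness at `P²` of the middle term. -/
lemma exactP2B : Function.Exact (mapP2 T S.ι_eq) (mapP2 T S.π_eq) :=
  exact_piMap (V := fun v : T => LH2 (v : Nat.Primes) ρA)
    (W := fun v : T => LH2 (v : Nat.Primes) ρB)
    (U := fun v : T => LH2 (v : Nat.Primes) ρC) fun v => (sesAt S v).exact₂B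

/-- The sequence at `T` ends with a surjection in degree two. -/
lemma mapP2_π_surjective (h2 : 2 < p) [FiniteDimensional (ZMod p) B]
    [FiniteDimensional (ZMod p) C] :
    Function.Surjective (mapP2 T S.π_eq) := fun y => by
  choose x hx using fun v : T =>
    (localData h2 (v : Nat.Primes).2 (placeAt_spec _)).π₂_surjective (sesAt S v) (y v)
  exact ⟨x, funext hx⟩

/-- Localisation commutes with the connecting map from degree zero. -/
lemma loc₁_δ₀ (x : H0 ρC) : loc₁ T ρA (S.δ₀ x) = deltaP0 S (loc₀ T ρC x) := funext fun v =>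
  S.δ₀_natural (sesAt S v) (locHom _ _) (IsEquivariant.restrict ρA _)
    (IsEquivariant.restrict ρC _) (fun _ => rfl) (fun _ => rfl) (IsEquivariant.restrict ρB _) x

/-- Localisation commutes with the connecting map from degree one. -/
lemma loc₂_δ₁ (x : H1 (galLevels (T : Set Nat.Primes)) ρC) :
    loc₂ T ρA (S.δ₁ x) = deltaP1 S (loc₁ T ρC x) := funext fun v =>
  S.δ₁_natural (sesAt S v) (locHom _ _) (IsEquivariant.restrict ρA _)
    (IsEquivariant.restrict ρC _) (fun _ => rfl) (fun _ => rfl) (IsEquivariant.restrict ρB _) x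

end Local

/-! ### Good pairs -/

variable {M M' : Type} [AddCommGroup M] [Module (ZMod p) M] [AddCommGroup M'] [Module (ZMod p) M']
  [FiniteDimensional (ZMod p) M] [FiniteDimensional (ZMod p) M']
  {ρ : Representation (ZMod p) Γℚ M} {ρ' : Representation (ZMod p) Γℚ M'}

/-- Localisation at `T` is injective with the expected image. -/
structure DualPair.IsGood (D : DualPair T ρ ρ') (h2 : 2 < p) : Prop where
  /-- Localisation in degree one is injective. -/
  inj₁ : Function.Injective (loc₁ T ρ)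
  /-- Localisation in degree one is injective for the dual. -/
  inj₁' : Function.Injective (loc₁ T ρ')
  /-- Localisation in degree two is injective. -/
  inj₂ : Function.Injective (loc₂ T ρ)
  /-- Localisation in degree two is injective for the dual. -/
  inj₂' : Function.Injective (loc₂ T ρ')
  /-- The global classes of degree one are the orthogonal of those of the dual. -/
  range₁ : LinearMap.range (loc₁ T ρ) = Devissage.perp (V := P1 T ρ') (W := P1 T ρ)
    (D.Q₁ h2).flip (LinearMap.range (loc₁ T ρ'))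
  /-- The classes of the dual of degree one are the orthogonal of those of the module. -/
  range₁' : LinearMap.range (loc₁ T ρ') = Devissage.perp (V := P1 T ρ) (W := P1 T ρ')
    (D.flip.Q₁ h2).flip (LinearMap.range (loc₁ T ρ))
  /-- The global classes of degree two are the orthogonal of the invariants of the dual. -/
  range₂ : LinearMap.range (loc₂ T ρ) = Devissage.perp (V := P0 T ρ') (W := P2 T ρ)
    (D.Q₂ h2).flip (LinearMap.range (loc₀ T ρ'))
  /-- The classes of the dual of degree two are the orthogonal of the invariants of the module. -/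
  range₂' : LinearMap.range (loc₂ T ρ') = Devissage.perp (V := P0 T ρ) (W := P2 T ρ')
    (D.flip.Q₂ h2).flip (LinearMap.range (loc₀ T ρ))

namespace DualPair

variable (D : DualPair T ρ ρ') (h2 : 2 < p)

include D h2

/-- `P¹` of a dual pair is finite dimensional. -/
lemma finite_P1 : FiniteDimensional (ZMod p) (P1 T ρ) :=
  haveI := fun v : T => D.finite_LH1 h2 (v : Nat.Primes)
  inferInstance

/-- `P²` of a dual pair is finite dimensional. -/
lemma finite_P2 : FiniteDimensional (ZMod p) (P2 T ρ) :=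
  haveI := fun v : T => D.finite_LH2 h2 (v : Nat.Primes)
  inferInstance

variable {D h2}

omit D h2 in
/-- Goodness is symmetric in the two modules. -/
lemma IsGood.flip {D : DualPair T ρ ρ'} {h2 : 2 < p} (hD : D.IsGood h2) : D.flip.IsGood h2 :=
  ⟨hD.inj₁', hD.inj₁, hD.inj₂', hD.inj₂, hD.range₁', hD.range₁, hD.range₂', hD.range₂⟩

omit D h2 in
/-- A good module has finite `H¹`. -/
lemma IsGood.finite_H1 {D : DualPair T ρ ρ'} {h2 : 2 < p} (hD : D.IsGood h2) :
    FiniteDimensional (ZMod p) (H1 (galLevels (T : Set Nat.Primes)) ρ) :=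
  haveI := D.finite_P1 h2
  FiniteDimensional.of_injective (loc₁ T ρ) hD.inj₁

omit D h2 in
/-- A good module has finite `H²`. -/
lemma IsGood.finite_H2 {D : DualPair T ρ ρ'} {h2 : 2 < p} (hD : D.IsGood h2) :
    FiniteDimensional (ZMod p) (H2 (galLevels (T : Set Nat.Primes)) ρ) :=
  haveI := D.finite_P2 h2
  FiniteDimensional.of_injective (loc₂ T ρ) hD.inj₂

end DualPair

/-- A short exact sequence with its dual. -/
structure DualSES {A B C A' B' C' : Type} [AddCommGroup A] [Module (ZMod p) A] [AddCommGroup B]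
    [Module (ZMod p) B] [AddCommGroup C] [Module (ZMod p) C] [AddCommGroup A']
    [Module (ZMod p) A'] [AddCommGroup B'] [Module (ZMod p) B'] [AddCommGroup C']
    [Module (ZMod p) C'] (T : Finset Nat.Primes)
    (ρA : Representation (ZMod p) Γℚ A) (ρB : Representation (ZMod p) Γℚ B)
    (ρC : Representation (ZMod p) Γℚ C) (ρA' : Representation (ZMod p) Γℚ A')
    (ρB' : Representation (ZMod p) Γℚ B') (ρC' : Representation (ZMod p) Γℚ C') where
  /-- The exact sequence. -/
  S : SES (galLevels (T : Set Nat.Primes)) ρA ρB ρC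
  /-- The dual exact sequence, in the opposite order. -/
  S' : SES (galLevels (T : Set Nat.Primes)) ρC' ρB' ρA'
  /-- The pair of the first term. -/
  DA : DualPair T ρA ρA'
  /-- The pair of the middle term. -/
  DB : DualPair T ρB ρB'
  /-- The pairing of the last term with the first dual one. -/
  DC : DualPair T ρC ρC'
  /-- The dual projection is adjoint to the inclusion. -/
  adj₁ : ∀ a b', DB.P (S.ι a) b' = DA.P a (S'.π b')
  /-- The dual inclusion is adjoint to the projection. -/
  adj₂ : ∀ b c', DB.P b (S'.ι c') = DC.P (S.π b) c'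

namespace DualSES

variable {A B C A' B' C' : Type} [AddCommGroup A] [Module (ZMod p) A] [AddCommGroup B]
  [Module (ZMod p) B] [AddCommGroup C] [Module (ZMod p) C] [AddCommGroup A']
  [Module (ZMod p) A'] [AddCommGroup B'] [Module (ZMod p) B'] [AddCommGroup C']
  [Module (ZMod p) C'] [FiniteDimensional (ZMod p) A] [FiniteDimensional (ZMod p) B]
  [FiniteDimensional (ZMod p) C] [FiniteDimensional (ZMod p) A'] [FiniteDimensional (ZMod p) B']
  [FiniteDimensional (ZMod p) C']
  {ρA : Representation (ZMod p) Γℚ A} {ρB : Representation (ZMod p) Γℚ B}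
  {ρC : Representation (ZMod p) Γℚ C} {ρA' : Representation (ZMod p) Γℚ A'}
  {ρB' : Representation (ZMod p) Γℚ B'} {ρC' : Representation (ZMod p) Γℚ C'}
  (X : DualSES T ρA ρB ρC ρA' ρB' ρC')

/-- The same data with the roles of the two dual sequences exchanged. -/
def flip : DualSES T ρC' ρB' ρA' ρC ρB ρA where
  S := X.S'
  S' := X.S
  DA := X.DC.flip
  DB := X.DB.flip
  DC := X.DA.flip
  adj₁ c' b := X.adj₂ b c'
  adj₂ b' a := X.adj₁ a b'

variable {h2 : 2 < p} (hB : X.DB.IsGood h2)

include hB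

/-- Finiteness of `H¹` of a submodule of a good module. -/
theorem finite_H1A : FiniteDimensional (ZMod p) (H1 (galLevels (T : Set Nat.Primes)) ρA) := by
  have := hB.finite_H1
  have h1 : FiniteDimensional (ZMod p) (LinearMap.ker X.S.ι₁) := by
    rw [LinearMap.exact_iff.mp X.S.exact₁A]
    infer_instance
  have : FiniteDimensional (ZMod p)
      (H1 (galLevels (T : Set Nat.Primes)) ρA ⧸ LinearMap.ker X.S.ι₁) :=
    Module.Finite.equiv X.S.ι₁.quotKerEquivRange.symm
  exact Module.Finite.of_submodule_quotient (LinearMap.ker X.S.ι₁)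

/-- Finiteness of `H²` of a submodule of a good module. -/
theorem finite_H2A [FiniteDimensional (ZMod p) (H1 (galLevels (T : Set Nat.Primes)) ρC)] :
    FiniteDimensional (ZMod p) (H2 (galLevels (T : Set Nat.Primes)) ρA) := by
  have := hB.finite_H2
  have h1 : FiniteDimensional (ZMod p) (LinearMap.ker X.S.ι₂) := by
    rw [LinearMap.exact_iff.mp X.S.exact₂A]
    infer_instance
  have : FiniteDimensional (ZMod p)
      (H2 (galLevels (T : Set Nat.Primes)) ρA ⧸ LinearMap.ker X.S.ι₂) :=
    Module.Finite.equiv X.S.ι₂.quotKerEquivRange.symm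
  exact Module.Finite.of_submodule_quotient (LinearMap.ker X.S.ι₂)

/-- Classes at `T` orthogonal to the invariants of the dual are localisations of images of
classes of the middle term. -/
theorem perp_le_range_comp :
    Devissage.perp (V := P0 T ρC') (W := P2 T ρC) (X.DC.Q₂ h2).flip
      (LinearMap.range (loc₀ T ρC')) ≤ LinearMap.range (loc₂ T ρC ∘ₗ X.S.π₂) :=
  Devissage.perp_le_range (π := X.S.π₂) (lM := loc₂ T ρC) (ιP := mapP2 T X.S.ι_eq)
    (πP := mapP2 T X.S.π_eq) (lB := loc₂ T ρB) (π₀ := X.S'.ι₀) (ι₀ := X.S'.π₀)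
    (π₀P := mapP0 T X.S'.ι_eq) (ι₀P := mapP0 T X.S'.π_eq) (aM := loc₀ T ρC') (aB := loc₀ T ρB')
    (aN := loc₀ T ρA') (qN := X.DA.Q₂ h2) (qB := X.DB.Q₂ h2) (qM := X.DC.Q₂ h2)
    (fun x => loc₂_map X.S.π_eq x) (mapP2_π_surjective X.S h2)
    (fun n => (exactP2B X.S).apply_apply_eq_zero n) X.S'.exact₀B
    (fun x => (loc₀_map X.S'.ι_eq x).symm) (fun x => (loc₀_map X.S'.π_eq x).symm)
    (loc₀_injective ⟨_, X.DA.mem⟩) (X.DA.Q₂_bijective h2).2
    (fun n y => X.DA.Q₂_adjoint h2 X.DB X.S.ι_eq X.S'.π_eq (fun a b => X.adj₁ a b) n y)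
    (fun b y => (X.DB.Q₂_adjoint h2 X.DC X.S.π_eq X.S'.ι_eq (fun a c => (X.adj₂ a c).symm) b y))
    hB.range₂

/-- Classes at `T` orthogonal to the invariants of the dual come from `H²` of the middle term. -/
theorem perp_le_range₂ :
    Devissage.perp (V := P0 T ρC') (W := P2 T ρC) (X.DC.Q₂ h2).flip
      (LinearMap.range (loc₀ T ρC')) ≤ LinearMap.range (loc₂ T ρC) :=
  le_trans (X.perp_le_range_comp hB) (LinearMap.range_comp_le_range _ _)

/-- The image of localisation in degree two for a quotient of a good module. -/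
theorem range_loc₂ :
    LinearMap.range (loc₂ T ρC) = Devissage.perp (V := P0 T ρC') (W := P2 T ρC)
      (X.DC.Q₂ h2).flip (LinearMap.range (loc₀ T ρC')) :=
  le_antisymm (X.DC.range_loc₂_le h2) (X.perp_le_range₂ hB)

/-- The locally trivial classes of degree two coming from a good module covering have at least the
dimension of the locally trivial classes of degree one of the dual. -/
theorem finrank_sha_le_map :
    Module.finrank (ZMod p) (LinearMap.ker (loc₁ T ρC')) ≤
      Module.finrank (ZMod p) ((LinearMap.ker (loc₂ T ρC)).comap X.S.π₂ |>.map X.S.π₂) := by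
  have := hB.finite_H2
  have := X.DA.finite_P2 h2
  exact Devissage.finrank_sha_le (ι := X.S.ι₂) (π := X.S.π₂) X.S.exact₂B
    (ιP := mapP2 T X.S.ι_eq) (πP := mapP2 T X.S.π_eq) (exactP2B X.S) (lN := loc₂ T ρA)
    (lB := loc₂ T ρB) (fun x => loc₂_map X.S.ι_eq x) (fun x => loc₂_map X.S.π_eq x) hB.inj₂
    (ι₀ := X.S'.π₀) (δ := X.S'.δ₀) (π₁ := X.S'.ι₁) X.S'.exact₀C X.S'.exact₁A
    (ι₀P := mapP0 T X.S'.π_eq) (δP := deltaP0 X.S') (π₁P := mapP1 T X.S'.ι_eq) (exactP0C X.S')
    (aB := loc₀ T ρB') (aN := loc₀ T ρA') (l₁M := loc₁ T ρC') (l₁B := loc₁ T ρB')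
    (fun x => (loc₀_map X.S'.π_eq x).symm) (fun x => (loc₁_δ₀ X.S' x).symm)
    (fun x => loc₁_map X.S'.ι_eq x) (loc₀_injective ⟨_, X.DA.mem⟩) hB.inj₁'
    (qN := X.DA.Q₂ h2) (qB := X.DB.Q₂ h2) (X.DA.Q₂_bijective h2) (X.DB.Q₂_bijective h2)
    (fun n y => X.DA.Q₂_adjoint h2 X.DB X.S.ι_eq X.S'.π_eq (fun a b => X.adj₁ a b) n y)
    hB.range₂ (X.DA.range_loc₂_le h2)

/-- The upper bound from a good module containing the given one. -/
theorem finrank_sha_add_le [FiniteDimensional (ZMod p) (H1 (galLevels (T : Set Nat.Primes)) ρC)]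
    [FiniteDimensional (ZMod p) (H1 (galLevels (T : Set Nat.Primes)) ρA')] :
    Module.finrank (ZMod p) (LinearMap.ker (loc₂ T ρA)) +
        Module.finrank (ZMod p) ((LinearMap.ker (loc₁ T ρA')).map X.S'.δ₁) ≤
      Module.finrank (ZMod p) ((LinearMap.ker (loc₁ T ρC)).map X.S.δ₁) +
        Module.finrank (ZMod p) (LinearMap.ker (loc₁ T ρA')) := by
  have := hB.flip.finite_H1
  have := X.DA.finite_P1 h2
  have := X.DB.finite_P1 h2
  have := X.DB.flip.finite_P1 h2
  exact Devissage.finrank_sha_add_le (π := X.S.π₁) (δ := X.S.δ₁) (ι₂ := X.S.ι₂) X.S.exact₁C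
    X.S.exact₂A (ιP := mapP1 T X.S.ι_eq) (πP := mapP1 T X.S.π_eq) (δP := deltaP1 X.S)
    (ι₂P := mapP2 T X.S.ι_eq) (exactP1B X.S) (exactP1C X.S) (lB := loc₁ T ρB) (lC := loc₁ T ρC)
    (l₂M := loc₂ T ρA) (l₂B := loc₂ T ρB) (fun x => loc₁_map X.S.π_eq x)
    (fun x => loc₂_δ₁ X.S x) (fun x => loc₂_map X.S.ι_eq x) hB.inj₂
    (π' := X.S'.ι₁) (ι' := X.S'.π₁) (δ' := X.S'.δ₁) X.S'.exact₁B X.S'.exact₁C
    (π'P := mapP1 T X.S'.ι_eq) (ι'P := mapP1 T X.S'.π_eq) (exactP1B X.S')
    (lC' := loc₁ T ρC') (lB' := loc₁ T ρB') (lM' := loc₁ T ρA')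
    (fun x => loc₁_map X.S'.ι_eq x) (fun x => loc₁_map X.S'.π_eq x) hB.inj₁'
    (qM := X.DA.Q₁ h2) (qB := X.DB.Q₁ h2) (qC := X.DC.Q₁ h2) (X.DA.Q₁_bijective h2)
    (X.DB.Q₁_bijective h2)
    (fun m y => X.DA.Q₁_adjoint h2 X.DB X.S.ι_eq X.S'.π_eq (fun a b => X.adj₁ a b) m y)
    (fun b y => X.DB.Q₁_adjoint h2 X.DC X.S.π_eq X.S'.ι_eq (fun a c => (X.adj₂ a c).symm) b y)
    hB.range₁ (X.DC.Q₁_loc h2)

/-- The two upper bounds together. -/
theorem finrank_sha_add_sha_le [FiniteDimensional (ZMod p) (H1 (galLevels (T : Set Nat.Primes)) ρC)]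
    [FiniteDimensional (ZMod p) (H1 (galLevels (T : Set Nat.Primes)) ρA')] :
    Module.finrank (ZMod p) (LinearMap.ker (loc₂ T ρA)) +
        Module.finrank (ZMod p) (LinearMap.ker (loc₂ T ρC')) ≤
      Module.finrank (ZMod p) (LinearMap.ker (loc₁ T ρA')) +
        Module.finrank (ZMod p) (LinearMap.ker (loc₁ T ρC)) := by
  have h1 := X.finrank_sha_add_le hB
  have h3 := X.flip.finrank_sha_add_le hB.flip
  change Module.finrank (ZMod p) (LinearMap.ker (loc₂ T ρC')) +
      Module.finrank (ZMod p) ((LinearMap.ker (loc₁ T ρC)).map X.S.δ₁) ≤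
    Module.finrank (ZMod p) ((LinearMap.ker (loc₁ T ρA')).map X.S'.δ₁) +
      Module.finrank (ZMod p) (LinearMap.ker (loc₁ T ρC)) at h3
  omega

/-- `H²` is right exact at `T` for a covering by a good module, given duality for the quotient. -/
theorem π₂_surjective [FiniteDimensional (ZMod p) (H2 (galLevels (T : Set Nat.Primes)) ρC)]
    (hsha : Module.finrank (ZMod p) (LinearMap.ker (loc₂ T ρC)) ≤
      Module.finrank (ZMod p) (LinearMap.ker (loc₁ T ρC'))) :
    Function.Surjective X.S.π₂ := by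
  have h1 : ((LinearMap.ker (loc₂ T ρC)).comap X.S.π₂).map X.S.π₂ =
      LinearMap.ker (loc₂ T ρC) :=
    Submodule.eq_of_le_of_finrank_le (Submodule.map_comap_le _ _)
      (hsha.trans (X.finrank_sha_le_map hB))
  intro z
  have hz : loc₂ T ρC z ∈ Devissage.perp (V := P0 T ρC') (W := P2 T ρC) (X.DC.Q₂ h2).flip
      (LinearMap.range (loc₀ T ρC')) := X.DC.range_loc₂_le h2 ⟨z, rfl⟩
  obtain ⟨y, hy⟩ := X.perp_le_range_comp hB hz
  have hmem : z - X.S.π₂ y ∈ LinearMap.ker (loc₂ T ρC) := by
    rw [LinearMap.mem_ker, (loc₂ T ρC).map_sub, ← hy]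
    exact sub_self _
  rw [← h1] at hmem
  obtain ⟨x, -, hx⟩ := hmem
  exact ⟨y + x, by rw [X.S.π₂.map_add, hx, add_sub_cancel]⟩

end DualSES

end Fermat.CFT
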