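import Fermat.Agent.CFT.Global.Recip
import Fermat.Agent.CFT.Coh.Cyclic

/-!
# Classes unramified at a prime vanish there in degree two

`res₂_eq_zero_of_unram`, so degree two localisation lands in a finite sum (`Setup`).
-/

set_option autoImplicit false

noncomputable section

open IsDedekindDomain Fermat.CFT.Coh
open scoped Pointwise

namespace Fermat.CFT

local notation "ℚbar" => AlgebraicClosure ℚ
local notation "Γℚ" => (AlgebraicClosure ℚ ≃ₐ[ℚ] AlgebraicClosure ℚ)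

/-- Inclusion of the levels unramified outside `T` into all levels. -/
lemma toUniv (T : Set Nat.Primes) :
    IsLevelsHom (galLevels T) (glev (MonoidHom.id Γℚ)) (MonoidHom.id Γℚ) := by
  intro N hN
  obtain ⟨N', hN', h⟩ := galLevels_mono (Set.subset_univ T) N hN
  exact ⟨N'.comap (MonoidHom.id Γℚ), ⟨N', hN', rfl⟩, by rwa [Subgroup.comap_id] at h ⊢⟩

variable {p : ℕ} [hp : Fact p.Prime]

/-- A field unramified at `ℓ` enlarges to one where Frobenius has `p` times the order. -/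
lemma exists_unram_ext (h2 : 2 < p) {ℓ : ℕ} {A : ValuationSubring ℚbar} (hℓ : ℓ.Prime)
    (hA : A.LiesOverPrime ℓ) (E : IntermediateField ℚ ℚbar) [FiniteDimensional ℚ E] [Normal ℚ E]
    (hE : A.inertiaSubgroupIn ℚ ≤ E.fixingSubgroup) {φ : Γℚ} (hφ : A.IsFrobeniusAt φ ℓ) :
    ∃ E' : IntermediateField ℚ ℚbar, FiniteDimensional ℚ E' ∧ Normal ℚ E' ∧ E ≤ E' ∧
      A.inertiaSubgroupIn ℚ ≤ E'.fixingSubgroup ∧
      (∀ g ∈ A.decompositionSubgroup ℚ, ∃ k : ℕ, (φ ^ k)⁻¹ * g ∈ E'.fixingSubgroup) ∧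
      ∀ k : ℕ, φ ^ k ∈ E'.fixingSubgroup →
        orderOf (AlgEquiv.restrictNormalHom E φ) * p ∣ k := by
  set n := orderOf (AlgEquiv.restrictNormalHom E φ)
  have hn : n ≠ 0 := (orderOf_pos _).ne'
  obtain ⟨j, n', hn', hnn⟩ := Nat.exists_eq_pow_mul_and_not_dvd hn p hp.out.ne_one
  -- adjoin the `q`-th roots of unity, the order of `ℓ` modulo `q` having a large `p`-part
  obtain ⟨q, hq, hqb, hord⟩ := exists_aux_prime p h2 (ℓ := ℓ ^ (p ^ j))
    (Nat.one_lt_pow (pow_ne_zero _ hp.out.ne_zero) hℓ.one_lt)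
  have hql : ℓ ≠ q := fun h => hqb (h ▸ dvd_pow_self ℓ (pow_ne_zero _ hp.out.ne_zero))
  have := Fact.mk hq
  rw [Nat.cast_pow] at hord
  obtain ⟨K, z, hK, hKn, -, -, hfix⟩ := exists_zetaField q
  set E' : IntermediateField ℚ ℚbar := E ⊔ K
  have : Normal ℚ E' := @IntermediateField.normal_sup _ _ _ _ _ E K ‹_› hKn
  have hsplit : ∀ g, g ∈ E'.fixingSubgroup ↔ g ∈ E.fixingSubgroup ∧ cycChar q g = 1 := fun g => by
    rw [IntermediateField.fixingSubgroup_sup, Subgroup.mem_inf, hfix]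
  refine ⟨E', inferInstance, inferInstance, le_sup_left, fun τ hτ => (hsplit τ).mpr
    ⟨hE hτ, cycChar_eq_one_of_mem_inertia hℓ hql hA hτ⟩, fun g hg => ?_, fun k hk => ?_⟩
  · have hw : AlgEquiv.restrictNormalHom E' g • primeBelow E' A = primeBelow E' A :=
      congrArg HeightOneSpectrum.asIdeal (restrict_smul_plBelow (L := E') hℓ hA hg)
    obtain ⟨k, hk⟩ := (isFrobeniusMod_restrict E' hℓ hA hφ).exists_pow_mul_inertia hℓ
      (primeBelow_isPrime E' A) (natCast_mem_primeBelow E' hA) hw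
    obtain ⟨τ, hτ, hτe⟩ := exists_mem_inertia_restrict (L := E') hℓ hA hk
    refine ⟨k, (restrict_eq_one_iff E' _).mp ?_⟩
    have h1 : AlgEquiv.restrictNormalHom E' τ = 1 := (restrict_eq_one_iff E' τ).mpr
      ((hsplit τ).mpr ⟨hE hτ, cycChar_eq_one_of_mem_inertia hℓ hql hA hτ⟩)
    rw [h1, eq_comm, mul_inv_eq_one] at hτe
    rw [map_mul, map_inv, map_pow, hτe, inv_mul_cancel]
  · obtain ⟨hkE, hkq⟩ := (hsplit _).mp hk
    have h1 : n ∣ k := orderOf_dvd_of_pow_eq_one (by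
      rw [← map_pow, restrict_eq_one_iff]; exact hkE)
    have hl : (ℓ : ZMod q) ^ k = 1 := by
      rw [map_pow] at hkq
      have := congrArg (Units.val : (ZMod q)ˣ → ZMod q) hkq
      rwa [Units.val_pow_eq_pow_val, cycChar_frobenius hℓ hql hA hφ, Units.val_one] at this
    have hpj : p ^ j ∣ k := (dvd_mul_right _ _).trans (hnn ▸ h1)
    obtain ⟨t, rfl⟩ := hpj
    rw [pow_mul] at hl
    have h3 : p ^ (j + 1) ∣ p ^ j * t := by
      rw [pow_succ]; exact mul_dvd_mul_left _ (hord ▸ orderOf_dvd_of_pow_eq_one hl)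
    rw [show n * p = p ^ (j + 1) * n' by rw [hnn, pow_succ]; ring]
    exact Nat.Coprime.mul_dvd_of_dvd_of_dvd
      (Nat.Coprime.pow_left _ (hp.out.coprime_iff_not_dvd.mpr hn')) h3
      ((dvd_mul_left _ _).trans (hnn ▸ h1))

variable {M : Type} [AddCommGroup M] [Module (ZMod p) M] {ρ : Representation (ZMod p) Γℚ M}

/-- **A class unramified at a prime vanishes at every place over it.** -/
theorem res₂_eq_zero_of_unram (h2 : 2 < p) {T : Set Nat.Primes} (hρ : IsSmooth (galLevels T) ρ)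
    [FiniteDimensional (ZMod p) M] (c : H2 (galLevels T) ρ) {v : Nat.Primes} (hv : v ∉ T)
    {A : ValuationSubring ℚbar} (hA : A.LiesOverPrime (v : ℕ)) :
    res₂ (glev (MonoidHom.id Γℚ)) ρ (placeGrp (MonoidHom.id Γℚ) A)
      (map₂ (toUniv T) (IsEquivariant.id ρ) c) = 0 := by
  obtain ⟨z, rfl⟩ := cl₂_surjective c
  obtain ⟨N₁, hN₁, hz⟩ := z.2.1
  obtain ⟨N₂, hN₂, hM⟩ := hρ.exists_fix_all
  obtain ⟨_, ⟨E, hEf, hEn, hEu, rfl⟩, i1, i2⟩ := (galLevels T).exists_le N₁ N₂ hN₁ hN₂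
  obtain ⟨φ, hφ⟩ := exists_isFrobeniusAt v.2 hA
  obtain ⟨E', hE'f, hE'n, hEE', -, hgen, hord⟩ := exists_unram_ext h2 v.2 hA E (hEu v hv A hA) hφ
  set D := placeGrp (MonoidHom.id Γℚ) A
  rw [map₂_cl₂]
  refine cl₂_eq_zero_of_cyclic (mapZ2 (IsLevelsHom.comap (glev (MonoidHom.id Γℚ)) D.subtype)
      (IsEquivariant.restrict ρ D.subtype) (mapZ2 (toUniv T) (IsEquivariant.id ρ) z))
    (N₀ := E.fixingSubgroup.comap D.subtype) (N₁ := E'.fixingSubgroup.comap D.subtype)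
    ⟨_, ⟨_, ⟨E', hE'f, hE'n, unramOutside_univ E', rfl⟩, rfl⟩, rfl⟩
    (fun s hs x => hM _ (i2 hs) x) (fun g h s hs t ht => hz g h s (i1 hs) t (i1 ht))
    (Subgroup.comap_mono (IntermediateField.fixingSubgroup_le hEE')) (φ := ⟨φ, hφ.1⟩)
    (fun g => ?_) (m := orderOf (AlgEquiv.restrictNormalHom E φ)) (e := p) ?_ (fun k hk => ?_)
    fun x => by rw [← Nat.cast_smul_eq_nsmul (ZMod p), ZMod.natCast_self, zero_smul]
  · obtain ⟨k, hk⟩ := hgen g g.2
    refine ⟨k, ?_⟩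
    change (((⟨φ, hφ.1⟩ : D) ^ k)⁻¹ * g : D).1 ∈ E'.fixingSubgroup
    rw [Subgroup.coe_mul, Subgroup.coe_inv, SubmonoidClass.coe_pow]
    exact hk
  · change ((⟨φ, hφ.1⟩ : D) ^ _).1 ∈ E.fixingSubgroup
    rw [SubmonoidClass.coe_pow, ← restrict_eq_one_iff, map_pow, pow_orderOf_eq_one]
  · have hk' : (((⟨φ, hφ.1⟩ : D) ^ k) : D).1 ∈ E'.fixingSubgroup := hk
    rw [SubmonoidClass.coe_pow] at hk'
    exact hord k hk'

end Fermat.CFT
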