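import Fermat.Agent.CFT.Global.Setup
import Fermat.Agent.CFT.Global.Unram
import Fermat.Agent.GR.RT.LocalCount

/-!
# Unramified classes of degree one

At a prime `v ≠ p` outside the ramification the classes inflated from unramified levels are as many
as the invariants, and the two spaces of such classes are orthogonal complements.
-/

set_option autoImplicit false

noncomputable section

open ExtCitation Fermat.CFT.Coh
open scoped Pointwise

namespace Fermat.CFT

local notation "ℚbar" => AlgebraicClosure ℚ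
local notation "Γℚ" => (AlgebraicClosure ℚ ≃ₐ[ℚ] AlgebraicClosure ℚ)

variable {p : ℕ} [hp : Fact p.Prime]

/-- Levels unramified at `v`, on the decomposition group. -/
abbrev uLev (v : Nat.Primes) : Levels (decAt v) :=
  (galLevels ({v}ᶜ : Set Nat.Primes)).comap (decAt v).subtype

/-- Levels unramified at `v` are levels of the decomposition group. -/
lemma uLev_glev (v : Nat.Primes) :
    IsLevelsHom (uLev v) (glev (decAt v).subtype) (MonoidHom.id (decAt v)) := by
  rintro _ ⟨N, hN, rfl⟩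
  obtain ⟨N', hN', hle⟩ := galLevels_mono (Set.subset_univ ({v}ᶜ : Set Nat.Primes)) N hN
  exact ⟨_, ⟨N', hN', rfl⟩, fun x hx => hle hx⟩

/-- Levels unramified outside `T` are unramified at a prime outside `T`. -/
lemma locHom_uLev {T : Set Nat.Primes} {v : Nat.Primes} (hv : v ∉ T) :
    IsLevelsHom (galLevels T) (uLev v) (decAt v).subtype := by
  intro N hN
  obtain ⟨N', hN', hle⟩ := galLevels_mono (Set.subset_compl_singleton_iff.mpr hv) N hN
  exact ⟨_, ⟨N', hN', rfl⟩, fun x hx => hle hx⟩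

variable {M : Type} [AddCommGroup M] [Module (ZMod p) M]

/-- The classes inflated from unramified levels. -/
def unrSub (ρ : Representation (ZMod p) Γℚ M) (v : Nat.Primes) :
    Submodule (ZMod p) (LH1 v ρ) :=
  LinearMap.range (map₁ (uLev_glev v) (IsEquivariant.id (repAt v ρ)))

variable {ρ : Representation (ZMod p) Γℚ M}

/-- Global classes unramified at `v` give unramified classes. -/
lemma map₁_mem_unrSub {T : Set Nat.Primes} {v : Nat.Primes} (hv : v ∉ T)
    (x : H1 (galLevels T) ρ) :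
    map₁ (locHom T v) (IsEquivariant.restrict ρ (decAt v).subtype) x ∈ unrSub ρ v := by
  obtain ⟨z, rfl⟩ := cl₁_surjective x
  refine ⟨map₁ (locHom_uLev hv) (IsEquivariant.restrict ρ (decAt v).subtype)
    (cl₁ (galLevels T) ρ z), ?_⟩
  rw [map₁_cl₁, map₁_cl₁, map₁_cl₁]
  exact congrArg _ (Subtype.ext rfl)

/-- Inertia outside `T` acts trivially on a module smooth outside `T`. -/
lemma rho_eq_one_of_inertia [FiniteDimensional (ZMod p) M] {T : Set Nat.Primes}
    (hsm : IsSmooth (galLevels T) ρ) {v : Nat.Primes} (hv : v ∉ T) {A : ValuationSubring ℚbar}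
    (hA : A.LiesOverPrime (v : ℕ)) {σ : Γℚ} (hσ : σ ∈ A.inertiaSubgroupIn ℚ) : ρ σ = 1 := by
  obtain ⟨_, ⟨E, _, _, hEu, rfl⟩, hfix⟩ := hsm.exists_fix_all
  exact LinearMap.ext fun m => hfix σ (hEu v hv A hA hσ) m

/-- Inertia lies in the decomposition group. -/
lemma mem_decAt_of_inertia {v : Nat.Primes} {σ : Γℚ}
    (hσ : σ ∈ (placeAt v).inertiaSubgroupIn ℚ) : σ ∈ decAt v := (GR.RT.inD ⟨σ, hσ⟩).2

/-- Unramified classes vanish on inertia. -/
lemma apply_eq_zero_of_mem_unrSub [FiniteDimensional (ZMod p) M] {T : Set Nat.Primes}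
    (hsm : IsSmooth (galLevels T) ρ) {v : Nat.Primes} (hv : v ∉ T)
    {z : Z1 (glev (decAt v).subtype) (repAt v ρ)}
    (hz : cl₁ (glev (decAt v).subtype) (repAt v ρ) z ∈ unrSub ρ v) {σ : Γℚ}
    (hσ : σ ∈ (placeAt v).inertiaSubgroupIn ℚ) : z.1 ⟨σ, mem_decAt_of_inertia hσ⟩ = 0 := by
  obtain ⟨y, hy⟩ := hz
  obtain ⟨w, rfl⟩ := cl₁_surjective y
  rw [map₁_cl₁, cl₁_eq_iff] at hy
  obtain ⟨m, hm⟩ := hy
  obtain ⟨_, ⟨_, ⟨E, -, -, hEu, rfl⟩, rfl⟩, hLC⟩ := w.2.1
  have hw : w.1 ⟨σ, mem_decAt_of_inertia hσ⟩ = 0 := by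
    have h := hLC 1 ⟨σ, mem_decAt_of_inertia hσ⟩ (hEu v (by simp) _ (placeAt_spec v) hσ)
    rwa [one_mul, Z1_one w.2] at h
  have h1 := congrFun hm ⟨σ, mem_decAt_of_inertia hσ⟩
  change ρ σ m - m =
    w.1 ⟨σ, mem_decAt_of_inertia hσ⟩ - z.1 ⟨σ, mem_decAt_of_inertia hσ⟩ at h1
  rw [rho_eq_one_of_inertia hsm hv (placeAt_spec v) hσ, Module.End.one_apply, sub_self, hw,
    zero_sub, eq_comm, neg_eq_zero] at h1
  exact h1

/-- The value of the cyclotomic character at a Frobenius element. -/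
lemma cycloChar_frobenius {ℓ : ℕ} (hℓ : ℓ.Prime) (hℓp : ℓ ≠ p)
    {A : ValuationSubring ℚbar} (hA : A.LiesOverPrime ℓ) {φ : Γℚ} (hφ : A.IsFrobeniusAt φ ℓ) :
    ((cycloChar p φ : (ZMod p)ˣ) : ZMod p) = ℓ := by
  have h1 := apply_eq_pow_cycChar (q := p) φ (zetaU_spec p).pow_eq_one
  rw [cycChar_frobenius hℓ hℓp hA hφ] at h1
  have h2 := unitsRep_zpw (r := MonoidHom.id Γℚ) (p := p) φ 1
  have h3 : unitsRep (MonoidHom.id Γℚ) φ (zpw p 1) = zpw p (ℓ : ZMod p) := by
    have h4 := zpw_natCast (p := p) 1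
    rw [Nat.cast_one, one_smul] at h4
    refine uval_injective ?_
    rw [uval_unitsRep, h4, uval_zpw]
    exact h1
  rw [h3] at h2
  simpa using (zpw_injective h2).symm

variable {M' : Type} [AddCommGroup M'] [Module (ZMod p) M'] {ρ' : Representation (ZMod p) Γℚ M'}
  [FiniteDimensional (ZMod p) M] [FiniteDimensional (ZMod p) M'] {T : Finset Nat.Primes}
  (D : DualPair T ρ ρ') (h2 : 2 < p) {v : Nat.Primes} (hv : v ∉ T)

include D h2 hv

omit [FiniteDimensional (ZMod p) M'] in
/-- A field unramified at `v` splitting the module, with all powers of Frobenius. -/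
lemma exists_splitting {φ : Γℚ} (hφ : (placeAt v).IsFrobeniusAt φ (v : ℕ)) :
    ∃ E E' : IntermediateField ℚ ℚbar,
      (∀ s ∈ E.fixingSubgroup, ρ s = 1) ∧
        (galLevels ({v}ᶜ : Set Nat.Primes)).IsLevel E'.fixingSubgroup ∧
      E'.fixingSubgroup ≤ E.fixingSubgroup ∧
      (∀ g ∈ decAt v, ∃ k : ℕ, (φ ^ k)⁻¹ * g ∈ E'.fixingSubgroup) ∧
      ∃ n, 0 < n ∧ φ ^ n ∈ E.fixingSubgroup ∧ ∀ k, φ ^ k ∈ E'.fixingSubgroup → n * p ∣ k := by
  obtain ⟨_, ⟨E, hEf, hEn, hEu, rfl⟩, hfix⟩ := D.smooth.exists_fix_all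
  obtain ⟨E', hE'f, hE'n, hEE', hI, hgen, hord⟩ :=
    exists_unram_ext h2 v.2 (placeAt_spec v) E (hEu v hv _ (placeAt_spec v)) hφ
  refine ⟨E, E', fun s hs => LinearMap.ext fun m => hfix s hs m,
    ⟨E', hE'f, hE'n, fun q hq A hA σ hσ => ?_, rfl⟩, IntermediateField.fixingSubgroup_le hEE',
    hgen, _, orderOf_pos _, ?_, hord⟩
  · obtain rfl : q = v := by simpa using hq
    obtain ⟨g, hg⟩ := exists_smul_place q.2 hA (placeAt_spec q)
    have h1 := hI (show g * σ * g⁻¹ ∈ (placeAt q).inertiaSubgroupIn ℚ from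
      hg ▸ mem_inertiaSubgroupIn_smul q.2 hA hσ g)
    have h3 := (fixingSubgroup_normal_qbar E').conj_mem _ h1 g⁻¹
    simpa [mul_assoc] using h3
  · rw [← restrict_eq_one_iff, map_pow, pow_orderOf_eq_one]

omit [FiniteDimensional (ZMod p) M'] in
/-- Vectors fixed by Frobenius are fixed by the decomposition group. -/
lemma fixed_of_frobenius {φ : Γℚ} (hφ : (placeAt v).IsFrobeniusAt φ (v : ℕ)) {m : M}
    (hm : ρ φ m = m) : ∀ g ∈ decAt v, ρ g m = m := by
  obtain ⟨E, E', hfix, -, hle, hgen, -⟩ := exists_splitting D h2 hv hφ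
  intro g hg
  obtain ⟨k, hk⟩ := hgen g hg
  have h1 : ρ g = ρ (φ ^ k) := by
    rw [← mul_inv_cancel_left (φ ^ k) g, map_mul, hfix _ (hle hk), mul_one]
  rw [h1, map_pow, Module.End.coe_pow]
  exact Function.iterate_fixed hm k

/-- There are as many unramified classes as invariants. -/
lemma finrank_H0_le_unrSub :
    Module.finrank (ZMod p) (H0 (repAt v ρ)) ≤ Module.finrank (ZMod p) (unrSub ρ v) := by
  have := D.finite_LH1 h2 v
  obtain ⟨φ, hφ⟩ := exists_isFrobeniusAt v.2 (placeAt_spec v)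
  obtain ⟨E, E', hfix, hE', hle, hgen, n, hn, hφn, hord⟩ := exists_splitting D h2 hv hφ
  choose k hk using fun g : decAt v => hgen g g.2
  -- the cocycle with value `m` at Frobenius: `g ↦ (1 + φ + ⋯ + φ^(k-1)) m`
  let P : ℕ → M →ₗ[ZMod p] M := fun j => ∑ i ∈ Finset.range j, ρ (φ ^ i)
  have hadd : ∀ a b, P (a + b) = P a + ρ (φ ^ a) * P b := fun a b => by
    simp only [P, Finset.sum_range_add, pow_add, map_mul, Finset.mul_sum]
  have hmul : ∀ t, P (t * n) = t • P n := fun t => by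
    induction t with
    | zero => simp [P]
    | succ t ih =>
      rw [Nat.succ_mul, hadd, ih, succ_nsmul, pow_mul', map_pow, hfix _ hφn, one_pow, one_mul]
  have hper : ∀ a b, (φ ^ a)⁻¹ * φ ^ b ∈ E'.fixingSubgroup → P a = P b := by
    intro a b hab
    wlog hle' : a ≤ b generalizing a b
    · exact (this b a (by simpa using inv_mem hab) (le_of_not_ge hle')).symm
    obtain ⟨d, rfl⟩ := Nat.exists_eq_add_of_le hle'
    rw [pow_add, inv_mul_cancel_left] at hab
    obtain ⟨t, ht⟩ := hord d hab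
    rw [hadd, ht, show n * p * t = (t * p) * n by ring, hmul, ← Nat.cast_smul_eq_nsmul (ZMod p),
      Nat.cast_mul, ZMod.natCast_self, mul_zero, zero_smul, mul_zero, add_zero]
  have hkey : ∀ (g : decAt v) (j : ℕ), (φ ^ j)⁻¹ * (g : Γℚ) ∈ E'.fixingSubgroup → P (k g) = P j :=
    fun g j hj => hper _ _ (by
      have h := mul_mem (hk g) (inv_mem hj)
      rwa [mul_inv_rev, inv_inv, mul_assoc, mul_inv_cancel_left] at h)
  have hnorm : E'.fixingSubgroup.Normal := (galLevels ({v}ᶜ : Set Nat.Primes)).normal _ hE'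
  -- so each vector gives an unramified cocycle
  have hz : ∀ m : M, (fun g => P (k g) m) ∈ Z1 (uLev v) (repAt v ρ) := fun m => by
    refine ⟨⟨_, ⟨_, hE', rfl⟩, fun g s hs => ?_⟩, funext₂ fun g h => ?_⟩
    · change P (k (g * s)) m = P (k g) m
      rw [hkey (g * s) (k g) (by
        rw [Subgroup.coe_mul, ← mul_assoc]
        exact mul_mem (hk g) hs)]
    · have hg : ρ (g : Γℚ) = ρ (φ ^ k g) := by
        rw [← mul_inv_cancel_left (φ ^ k g) (g : Γℚ), map_mul, hfix _ (hle (hk g)), mul_one]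
      have hgh : P (k (g * h)) = P (k g + k h) := hkey _ _ (by
        rw [Subgroup.coe_mul, show (φ ^ (k g + k h))⁻¹ * ((g : Γℚ) * (h : Γℚ)) =
          (φ ^ k h)⁻¹ * ((φ ^ k g)⁻¹ * (g : Γℚ)) * φ ^ k h * ((φ ^ k h)⁻¹ * (h : Γℚ)) by
            rw [pow_add]; group]
        exact mul_mem (by simpa using hnorm.conj_mem _ (hk g) (φ ^ k h)⁻¹) (hk h))
      rw [d₁_apply, hgh, hadd]
      change ρ (g : Γℚ) (P (k h) m) - (P (k g) m + ρ (φ ^ k g) (P (k h) m)) + P (k g) m = 0
      rw [hg]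
      abel
  -- the kernel of this map is in the image of `φ - 1`
  let Ψ : M →ₗ[ZMod p] LH1 v ρ :=
    (map₁ (uLev_glev v) (IsEquivariant.id (repAt v ρ))).comp
      ((cl₁ (uLev v) (repAt v ρ)).comp
        ((LinearMap.pi fun g : decAt v => P (k g)).codRestrict _ hz))
  have hΨ : LinearMap.range Ψ ≤ unrSub ρ v := by
    rintro _ ⟨m, rfl⟩
    exact ⟨cl₁ (uLev v) (repAt v ρ) ⟨fun g => P (k g) m, hz m⟩, rfl⟩
  set φD : decAt v := ⟨φ, hφ.mem_decompositionSubgroup⟩
  have hker : LinearMap.ker Ψ ≤ LinearMap.range (ρ φ - 1) := fun m hm => by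
    have hm' : map₁ (uLev_glev v) (IsEquivariant.id (repAt v ρ))
        (cl₁ (uLev v) (repAt v ρ) ⟨fun g => P (k g) m, hz m⟩) = 0 := hm
    rw [map₁_cl₁, cl₁_eq_zero] at hm'
    obtain ⟨x, hx⟩ := hm'
    have h1 := congrFun hx φD
    change ρ φ x - x = P (k φD) m at h1
    rw [hkey φD 1 (by rw [pow_one, inv_mul_cancel]; exact one_mem _)] at h1
    refine ⟨x, ?_⟩
    simpa [P] using h1
  -- so the image of `Ψ` is at least as large as the fixed vectors
  have e1 := Ψ.finrank_range_add_finrank_ker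
  have e2 := (ρ φ - 1).finrank_range_add_finrank_ker
  have e3 := Submodule.finrank_mono hΨ
  have e4 := Submodule.finrank_mono hker
  have e5 : Module.finrank (ZMod p) (H0 (repAt v ρ)) ≤
      Module.finrank (ZMod p) (LinearMap.ker (ρ φ - 1)) :=
    Submodule.finrank_mono fun m hm => by
      rw [LinearMap.mem_ker, LinearMap.sub_apply, Module.End.one_apply, sub_eq_zero]
      exact mem_ker_d₀.mp hm φD
  omega

omit hv D in
/-- All classes of degree two inflated from unramified levels vanish. -/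
lemma map₂_uLev_eq_zero (hvp : (v : ℕ) ≠ p)
    (c : H2 (uLev v) (charRep (cycHom p (decAt v).subtype))) :
    map₂ (uLev_glev v) (IsEquivariant.id (charRep (cycHom p (decAt v).subtype))) c = 0 := by
  obtain ⟨z, rfl⟩ := cl₂_surjective c
  obtain ⟨_, ⟨_, ⟨E, hEf, hEn, hEu, rfl⟩, rfl⟩, hz⟩ := z.2.1
  obtain ⟨φ, hφ⟩ := exists_isFrobeniusAt v.2 (placeAt_spec v)
  obtain ⟨F, ζ, hF, hFn, -, -, hFfix⟩ := exists_zetaField p
  set E₀ : IntermediateField ℚ ℚbar := E ⊔ F
  have : Normal ℚ E₀ := @IntermediateField.normal_sup _ _ _ _ _ E F hEn hFn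
  have hE₀ : (placeAt v).inertiaSubgroupIn ℚ ≤ E₀.fixingSubgroup := fun σ hσ => by
    rw [IntermediateField.fixingSubgroup_sup, Subgroup.mem_inf, hFfix]
    exact ⟨hEu v (by simp) _ (placeAt_spec v) hσ,
      cycChar_eq_one_of_mem_inertia v.2 hvp (placeAt_spec v) hσ⟩
  -- enlarge the level so that the order of Frobenius grows by a factor `p`
  obtain ⟨E', hE'f, hE'n, hEE', -, hgen, hord⟩ :=
    exists_unram_ext h2 v.2 (placeAt_spec v) E₀ hE₀ hφ
  rw [map₂_cl₂]
  refine cl₂_eq_zero_of_cyclic _ (N₀ := E₀.fixingSubgroup.comap (decAt v).subtype)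
    (N₁ := E'.fixingSubgroup.comap (decAt v).subtype)
    ⟨_, ⟨E', hE'f, hE'n, unramOutside_univ E', rfl⟩, rfl⟩ (fun s hs x => ?_)
    (fun g h s hs t ht => hz g h s (IntermediateField.fixingSubgroup_le le_sup_left hs) t
      (IntermediateField.fixingSubgroup_le le_sup_left ht))
    (Subgroup.comap_mono (IntermediateField.fixingSubgroup_le hEE'))
    (φ := ⟨φ, hφ.mem_decompositionSubgroup⟩) (fun g => ?_)
    (m := orderOf (AlgEquiv.restrictNormalHom E₀ φ)) (e := p) ?_ (fun j hj => ?_)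
    fun x => by rw [← Nat.cast_smul_eq_nsmul (ZMod p), ZMod.natCast_self, zero_smul]
  · have hs' : (s : Γℚ) ∈ F.fixingSubgroup := IntermediateField.fixingSubgroup_le le_sup_right hs
    rw [hFfix] at hs'
    have h1 : cycloChar p (s : Γℚ) = 1 := by
      have h1 := apply_eq_pow_cycChar (q := p) (s : Γℚ) (zetaU_spec p).pow_eq_one
      rw [hs', Units.val_one, ZMod.val_one, pow_one] at h1
      have h3 := unitsRep_zpw (r := MonoidHom.id Γℚ) (p := p) (s : Γℚ) 1
      have h4 : unitsRep (MonoidHom.id Γℚ) (s : Γℚ) (zpw p 1) = zpw p 1 := by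
        have h5 := zpw_natCast (p := p) 1
        rw [Nat.cast_one, one_smul] at h5
        rw [h5]
        exact uval_injective h1
      rw [h4] at h3
      exact Units.ext (by simpa using (zpw_injective h3).symm)
    change ((cycloChar p (s : Γℚ) : (ZMod p)ˣ) : ZMod p) * x = x
    rw [h1, Units.val_one, one_mul]
  · obtain ⟨j, hj⟩ := hgen g g.2
    refine ⟨j, ?_⟩
    change ((((⟨φ, hφ.mem_decompositionSubgroup⟩ : decAt v) ^ j)⁻¹ * g : decAt v) : Γℚ) ∈
      E'.fixingSubgroup
    rw [Subgroup.coe_mul, Subgroup.coe_inv, SubmonoidClass.coe_pow]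
    exact hj
  · change (((⟨φ, hφ.mem_decompositionSubgroup⟩ : decAt v) ^ _ : decAt v) : Γℚ) ∈ E₀.fixingSubgroup
    rw [SubmonoidClass.coe_pow, ← restrict_eq_one_iff, map_pow, pow_orderOf_eq_one]
  · have hj' : (((⟨φ, hφ.mem_decompositionSubgroup⟩ : decAt v) ^ j : decAt v) : Γℚ) ∈
      E'.fixingSubgroup := hj
    rw [SubmonoidClass.coe_pow] at hj'
    exact hord j hj'

/-- Unramified classes are orthogonal. -/
lemma q₁_unrSub (hvp : (v : ℕ) ≠ p) {x : LH1 v ρ} (hx : x ∈ unrSub ρ v) {y : LH1 v ρ'}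
    (hy : y ∈ unrSub ρ' v) : D.q₁ h2 v x y = 0 := by
  obtain ⟨x, rfl⟩ := hx
  obtain ⟨y, rfl⟩ := hy
  rw [DualPair.q₁_apply]
  refine Eq.trans (congrArg (gInv h2 v) ?_) (map_zero _)
  refine Eq.trans ?_ (map₂_uLev_eq_zero h2 hvp (cup11 (D.pairingAt v)
    (D.smooth'.comp (locHom_uLev hv)) (D.smooth.comp (locHom_uLev hv)) x y))
  exact (map_cup11 (D.pairingAt v) (D.smooth'.comp (locHom_uLev hv)) (D.pairingAt v) (uLev_glev v)
    (IsEquivariant.id (repAt v ρ)) (IsEquivariant.id (repAt v ρ'))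
    (IsEquivariant.id (charRep (cycHom p (decAt v).subtype))) (fun _ _ => rfl)
    (D.smooth.comp (locHom_uLev hv)) (D.smoothAt v) (D.flip.smoothAt v) x y).symm

/-- At an unramified prime the dimension of the local classes is at most that of the invariants of
the module plus that of its dual. -/
lemma finrank_LH1_le :
    Module.finrank (ZMod p) (LH1 v ρ) ≤
      Module.finrank (ZMod p) (H0 (repAt v ρ)) + Module.finrank (ZMod p) (H0 (repAt v ρ')) := by
  have hvp : (v : ℕ) ≠ p := fun h =>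
    hv (by rw [show v = pPrime p from Subtype.ext h]; exact D.mem)
  have : Finite M := Module.finite_of_finite (ZMod p)
  have : Finite M' := Module.finite_of_finite (ZMod p)
  obtain ⟨φ, hφ⟩ := exists_isFrobeniusAt v.2 (placeAt_spec v)
  obtain ⟨hfin, hcard⟩ := GR.RT.card_H1_unramified_le (ρ := repAt v ρ) ⟨v.2, placeAt_spec v⟩
    (Ne.symm hvp) (D.smoothAt v)
    (fun σ => rho_eq_one_of_inertia D.smooth (fun h => hv h) (placeAt_spec v) σ.2) hφ
  -- `φ - v` on the module; the orthogonal of its image is fixed by Frobenius on the dual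
  set B := ρ φ - ((v : ℕ) : ZMod p) • (1 : M →ₗ[ZMod p] M)
  have hK : Nat.card {m : M // repAt v ρ ⟨φ, hφ.mem_decompositionSubgroup⟩ m =
      ((v : ℕ) : ZMod p) • m} = Nat.card (LinearMap.ker B) :=
    Nat.card_congr (Equiv.subtypeEquivRight fun m => by
      rw [LinearMap.mem_ker, LinearMap.sub_apply, LinearMap.smul_apply, Module.End.one_apply,
        sub_eq_zero]
      rfl)
  have hperp : Devissage.perp D.P (LinearMap.range B) ≤ LinearMap.ker (d₀ (repAt v ρ')) := by
    intro f hf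
    refine mem_ker_d₀.mpr fun g => ?_
    refine fixed_of_frobenius D.flip h2 hv hφ ?_ g g.2
    refine (LinearMap.flip_bijective_iff₁.mpr D.bij).1 (LinearMap.ext fun m => ?_)
    change D.P m (ρ' φ f) = D.P m f
    obtain ⟨m, rfl⟩ : ∃ m', ρ φ m' = m := (ρ.apply_bijective φ).2 m
    rw [D.isPairing, charRep_apply, cycloChar_frobenius v.2 hvp (placeAt_spec v) hφ]
    have h1 : D.P (B m) f = 0 := Devissage.mem_perp.mp hf _ ⟨m, rfl⟩
    rw [LinearMap.sub_apply, LinearMap.smul_apply, Module.End.one_apply, map_sub, map_smul,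
      LinearMap.sub_apply, LinearMap.smul_apply, sub_eq_zero, smul_eq_mul] at h1
    exact h1.symm
  have e1 := Devissage.finrank_perp D.bij (LinearMap.range B)
  have e2 := B.finrank_range_add_finrank_ker
  have e3 := Submodule.finrank_mono hperp
  rw [hK, Module.natCard_eq_pow_finrank (K := ZMod p)
      (V := H1 (glev ((placeAt v).decompositionSubgroup ℚ).subtype) (repAt v ρ)),
    Module.natCard_eq_pow_finrank (K := ZMod p) (V := LinearMap.ker B),
    Module.natCard_eq_pow_finrank (K := ZMod p) (V := H0 (repAt v ρ)), Nat.card_zmod,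
    ← pow_add] at hcard
  have h5 : Module.finrank (ZMod p) (LH1 v ρ) ≤
      Module.finrank (ZMod p) (LinearMap.ker B) + Module.finrank (ZMod p) (H0 (repAt v ρ)) :=
    (Nat.pow_le_pow_iff_right hp.out.one_lt).mp hcard
  have h6 : Module.finrank (ZMod p) (LinearMap.ker B) ≤
      Module.finrank (ZMod p) (H0 (repAt v ρ')) := le_trans (by omega) e3
  omega

/-- **The orthogonal of the unramified classes consists of unramified classes.** -/
theorem perp_unrSub_le : Devissage.perp (D.q₁ h2 v) (unrSub ρ v) ≤ unrSub ρ' v := by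
  have hvp : (v : ℕ) ≠ p := fun h =>
    hv (by rw [show v = pPrime p from Subtype.ext h]; exact D.mem)
  have := D.finite_LH1 h2 v
  have := D.flip.finite_LH1 h2 v
  have hle : unrSub ρ' v ≤ Devissage.perp (D.q₁ h2 v) (unrSub ρ v) := fun y hy =>
    Devissage.mem_perp.mpr fun x hx => q₁_unrSub D h2 hv hvp hx hy
  refine (Submodule.eq_of_le_of_finrank_le hle ?_).ge
  have e1 := Devissage.finrank_perp (D.q₁_bijective h2 v) (unrSub ρ v)
  have e2 := finrank_LH1_le D h2 hv
  have e3 := finrank_H0_le_unrSub D h2 hv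
  have e4 := finrank_H0_le_unrSub D.flip h2 hv
  omega

/-- The unramified classes of a pair take up at most the whole local group. -/
theorem finrank_unrSub_add_le :
    Module.finrank (ZMod p) (unrSub ρ v) + Module.finrank (ZMod p) (unrSub ρ' v) ≤
      Module.finrank (ZMod p) (LH1 v ρ) := by
  have hvp : (v : ℕ) ≠ p := fun h =>
    hv (by rw [show v = pPrime p from Subtype.ext h]; exact D.mem)
  have := D.finite_LH1 h2 v
  have := D.flip.finite_LH1 h2 v
  have hle : unrSub ρ' v ≤ Devissage.perp (D.q₁ h2 v) (unrSub ρ v) := fun y hy =>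
    Devissage.mem_perp.mpr fun x hx => q₁_unrSub D h2 hv hvp hx hy
  have e1 := Devissage.finrank_perp (D.q₁_bijective h2 v) (unrSub ρ v)
  have e5 := Submodule.finrank_mono hle
  omega

/-- At most as many unramified classes as invariants. -/
theorem finrank_unrSub_le :
    Module.finrank (ZMod p) (unrSub ρ v) ≤ Module.finrank (ZMod p) (H0 (repAt v ρ)) := by
  have e2 := finrank_LH1_le D h2 hv
  have e4 := finrank_H0_le_unrSub D.flip h2 hv
  have e6 := finrank_unrSub_add_le D h2 hv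
  omega

end Fermat.CFT
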