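import Fermat.Agent.CFT.Global.Unram
import Fermat.Agent.CFT.Coh.Devissage

/-!
# Localisation at finitely many primes and the pairings of Poitou–Tate theory

The pairings come from the local duality of `CFT/Local/Data`; `Induced` and `Devissage` show that
the image of localisation is its own orthogonal.
-/

set_option autoImplicit false
set_option linter.unusedSectionVars false

noncomputable section

open ExtCitation Fermat.CFT.Coh

namespace Fermat.CFT

local notation "Γℚ" => (AlgebraicClosure ℚ ≃ₐ[ℚ] AlgebraicClosure ℚ)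

/-! ### Products -/

section Pi

variable {k : Type} [Field k] {ι : Type} [Fintype ι] {V W : ι → Type}
  [∀ i, AddCommGroup (V i)] [∀ i, Module k (V i)] [∀ i, AddCommGroup (W i)] [∀ i, Module k (W i)]

/-- The sum of pairings on the factors. -/
def piPair (B : ∀ i, V i →ₗ[k] W i →ₗ[k] k) : (∀ i, V i) →ₗ[k] (∀ i, W i) →ₗ[k] k :=
  ∑ i, (B i).compl₁₂ (LinearMap.proj i) (LinearMap.proj i)

/-- The sum of pairings, evaluated. -/
lemma piPair_apply (B : ∀ i, V i →ₗ[k] W i →ₗ[k] k) (x : ∀ i, V i) (y : ∀ i, W i) :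
    piPair B x y = ∑ i, B i (x i) (y i) := by
  simp [piPair]

/-- A sum of perfect pairings is perfect. -/
lemma piPair_bijective {B : ∀ i, V i →ₗ[k] W i →ₗ[k] k} (h : ∀ i, Function.Bijective (B i)) :
    Function.Bijective (piPair B) := by
  classical
  have e : ∀ (x : ∀ i, V i) (i : ι) (w : W i),
      piPair B x (Pi.single i w) = B i (x i) w := fun x i w => by
    rw [piPair_apply, Finset.sum_eq_single i (fun j _ hj => by simp [hj]) (by simp),
      Pi.single_eq_same]
  refine ⟨fun x x' hx => funext fun i => (h i).1 (LinearMap.ext fun w => ?_), fun Φ => ?_⟩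
  · rw [← e, ← e, hx]
  · choose x hx using fun i => (h i).2 (Φ.comp (LinearMap.single k W i))
    refine ⟨x, LinearMap.pi_ext fun i w => ?_⟩
    rw [e, hx]
    rfl

variable {U : ι → Type} [∀ i, AddCommGroup (U i)] [∀ i, Module k (U i)]

/-- A product of exact sequences is exact. -/
lemma exact_piMap {f : ∀ i, V i →ₗ[k] W i} {g : ∀ i, W i →ₗ[k] U i}
    (h : ∀ i, Function.Exact (f i) (g i)) :
    Function.Exact (LinearMap.piMap f) (LinearMap.piMap g) := fun y => by
  refine ⟨fun hy => ?_, ?_⟩
  · choose x hx using fun i => (h i (y i)).mp (congrFun hy i)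
    exact ⟨x, funext hx⟩
  · rintro ⟨x, rfl⟩
    exact funext fun i => (h i).apply_apply_eq_zero _

end Pi

/-! ### Localisation -/

/-- Levels unramified outside `T` as levels of a decomposition group. -/
lemma locHom (T : Set Nat.Primes) (v : Nat.Primes) :
    IsLevelsHom (galLevels T) (glev (decAt v).subtype) (decAt v).subtype :=
  (toUniv T).comp (isLevelsHom_glev (MonoidHom.id Γℚ) (decAt v).subtype)

variable {p : ℕ} [hp : Fact p.Prime]

/-- The cyclotomic character is smooth for the levels unramified outside a set containing `p`. -/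
lemma charSmooth_galLevels {T : Set Nat.Primes} (hpT : pPrime p ∈ T) :
    CharSmooth (galLevels T) (cycloChar p) := by
  obtain ⟨K, z, hK, hKn, hz, -, hfix⟩ := exists_zetaField p
  refine ⟨K.fixingSubgroup, ⟨K, hK, hKn, fun q hq A hA σ hσ => (hfix σ).mpr ?_, rfl⟩,
    fun s hs => ?_⟩
  · refine cycChar_eq_one_of_mem_inertia q.2 (fun h => hq ?_) hA hσ
    rwa [show q = pPrime p from Subtype.ext h]
  · have h1 := apply_eq_pow_cycChar (q := p) s (zetaU_spec p).pow_eq_one
    rw [(hfix s).mp hs, Units.val_one, ZMod.val_one, pow_one] at h1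
    have h2 := unitsRep_zpw (r := MonoidHom.id Γℚ) (p := p) s 1
    have h4 := zpw_natCast (p := p) 1
    rw [Nat.cast_one, one_smul] at h4
    rw [show unitsRep (MonoidHom.id Γℚ) s (zpw p 1) = zpw p 1 from by
      rw [h4]; exact uval_injective h1] at h2
    refine Units.ext ?_
    simpa using (zpw_injective h2).symm

variable {M : Type} [AddCommGroup M] [Module (ZMod p) M]

/-- Restriction of a representation to the chosen decomposition group. -/
abbrev repAt (v : Nat.Primes) (ρ : Representation (ZMod p) Γℚ M) :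
    Representation (ZMod p) (decAt v) M := ρ.comp (decAt v).subtype

/-- Local cohomology in degree one. -/
abbrev LH1 (v : Nat.Primes) (ρ : Representation (ZMod p) Γℚ M) : Type :=
  H1 (glev (decAt v).subtype) (repAt v ρ)

/-- Local cohomology in degree two. -/
abbrev LH2 (v : Nat.Primes) (ρ : Representation (ZMod p) Γℚ M) : Type :=
  H2 (glev (decAt v).subtype) (repAt v ρ)

variable (T : Finset Nat.Primes) (ρ : Representation (ZMod p) Γℚ M)

/-- Invariants at the primes of `T`. -/
def P0 : Type := (v : T) → H0 (repAt (v : Nat.Primes) ρ)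

/-- Local classes of degree one at the primes of `T`. -/
def P1 : Type := (v : T) → LH1 (v : Nat.Primes) ρ

/-- Local classes of degree two at the primes of `T`. -/
def P2 : Type := (v : T) → LH2 (v : Nat.Primes) ρ

/-- `P⁰` is an abelian group. -/
instance : AddCommGroup (P0 T ρ) :=
  inferInstanceAs (AddCommGroup ((v : T) → H0 (repAt (v : Nat.Primes) ρ)))

/-- `P⁰` is a vector space over `ℤ/p`. -/
instance : Module (ZMod p) (P0 T ρ) :=
  inferInstanceAs (Module (ZMod p) ((v : T) → H0 (repAt (v : Nat.Primes) ρ)))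

/-- `P¹` is an abelian group. -/
instance : AddCommGroup (P1 T ρ) :=
  inferInstanceAs (AddCommGroup ((v : T) → LH1 (v : Nat.Primes) ρ))

/-- `P¹` is a vector space over `ℤ/p`. -/
instance : Module (ZMod p) (P1 T ρ) :=
  inferInstanceAs (Module (ZMod p) ((v : T) → LH1 (v : Nat.Primes) ρ))

/-- `P²` is an abelian group. -/
instance : AddCommGroup (P2 T ρ) :=
  inferInstanceAs (AddCommGroup ((v : T) → LH2 (v : Nat.Primes) ρ))

/-- `P²` is a vector space over `ℤ/p`. -/
instance : Module (ZMod p) (P2 T ρ) :=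
  inferInstanceAs (Module (ZMod p) ((v : T) → LH2 (v : Nat.Primes) ρ))

/-- `P¹` is finite dimensional when its factors are. -/
instance [∀ v : T, FiniteDimensional (ZMod p) (LH1 (v : Nat.Primes) ρ)] :
    FiniteDimensional (ZMod p) (P1 T ρ) :=
  inferInstanceAs (Module.Finite (ZMod p) ((v : T) → LH1 (v : Nat.Primes) ρ))

/-- `P²` is finite dimensional when its factors are. -/
instance [∀ v : T, FiniteDimensional (ZMod p) (LH2 (v : Nat.Primes) ρ)] :
    FiniteDimensional (ZMod p) (P2 T ρ) :=
  inferInstanceAs (Module.Finite (ZMod p) ((v : T) → LH2 (v : Nat.Primes) ρ))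

/-- `P⁰` of a finite module is finite dimensional. -/
instance [FiniteDimensional (ZMod p) M] : FiniteDimensional (ZMod p) (P0 T ρ) :=
  inferInstanceAs (Module.Finite (ZMod p) ((v : T) → H0 (repAt (v : Nat.Primes) ρ)))

/-- Localisation of invariants. -/
def loc₀ : H0 ρ →ₗ[ZMod p] P0 T ρ :=
  LinearMap.pi fun v : T => map₀ (IsEquivariant.restrict ρ (decAt (v : Nat.Primes)).subtype)

/-- Localisation in degree one. -/
def loc₁ : H1 (galLevels (T : Set Nat.Primes)) ρ →ₗ[ZMod p] P1 T ρ :=
  LinearMap.pi fun v : T => map₁ (locHom (T : Set Nat.Primes) (v : Nat.Primes))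
    (IsEquivariant.restrict ρ (decAt (v : Nat.Primes)).subtype)

/-- Localisation in degree two. -/
def loc₂ : H2 (galLevels (T : Set Nat.Primes)) ρ →ₗ[ZMod p] P2 T ρ :=
  LinearMap.pi fun v : T => map₂ (locHom (T : Set Nat.Primes) (v : Nat.Primes))
    (IsEquivariant.restrict ρ (decAt (v : Nat.Primes)).subtype)

variable {T ρ}

/-- Invariants are detected by any one place. -/
lemma loc₀_injective (hT : T.Nonempty) : Function.Injective (loc₀ T ρ) := fun x y h => by
  obtain ⟨v, hv⟩ := hT
  have h1 := congrArg Subtype.val (congrFun h ⟨v, hv⟩)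
  exact Subtype.ext h1

/-! ### Reciprocity for classes unramified outside `T` -/

/-- A class unramified outside `T` has local invariants with zero sum. -/
theorem sum_gInv_loc (h2 : 2 < p) (hpT : pPrime p ∈ T)
    (c : H2 (galLevels (T : Set Nat.Primes)) (charRep (cycloChar p))) :
    ∑ v : T, gInv h2 (v : Nat.Primes)
      (map₂ (locHom (T : Set Nat.Primes) (v : Nat.Primes))
        (cycHom_equivariant (MonoidHom.id Γℚ) (decAt (v : Nat.Primes)).subtype) c) = 0 := by
  obtain ⟨z, rfl⟩ := cl₂_surjective c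
  set d : GlobalH2 p := map₂ (toUniv (T : Set Nat.Primes))
    (IsEquivariant.id (charRep (cycloChar p)))
    (cl₂ (galLevels (T : Set Nat.Primes)) (charRep (cycloChar p)) z) with hd
  -- outside `T` the class is unramified, so its localisation vanishes
  have hs : ∀ v ∉ T, locRes p v d = 0 := fun v hv => by
    have h := res₂_eq_zero_of_unram h2 (isSmooth_charRep (charSmooth_galLevels
      (p := p) (T := (T : Set Nat.Primes)) hpT))
      (cl₂ (galLevels (T : Set Nat.Primes)) (charRep (cycloChar p)) z) (fun h => hv h)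
      (placeAt_spec v)
    let j : decAt v →* placeGrp (MonoidHom.id Γℚ) (placeAt v) :=
      MonoidHom.mk' (fun g => ⟨g.1, g.2⟩) fun _ _ => rfl
    have hj : IsLevelsHom (subLevels (glev (MonoidHom.id Γℚ))
        (placeGrp (MonoidHom.id Γℚ) (placeAt v))) (glev (decAt v).subtype) j := by
      rintro _ ⟨_, ⟨N, hN, rfl⟩, rfl⟩
      exact ⟨_, ⟨N, hN, rfl⟩, fun x hx => hx⟩
    have hje : IsEquivariant ((charRep (cycloChar p)).comp
        (placeGrp (MonoidHom.id Γℚ) (placeAt v)).subtype)
        (charRep (cycHom p (decAt v).subtype)) j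
        (LinearMap.id : ZMod p →ₗ[ZMod p] ZMod p) := fun _ _ => rfl
    have h' := congrArg (map₂ hj hje) h
    rw [map_zero] at h'
    exact h'
  -- hence the global reciprocity sum runs over `T`
  have h := sum_gInv_eq_zero h2 hs
  rw [← Finset.sum_coe_sort T fun v => gInv h2 v (locRes p v d)] at h
  exact h

/-! ### Dual pairs -/

variable {M' : Type} [AddCommGroup M'] [Module (ZMod p) M']

/-- A perfect pairing of modules unramified outside `T` into `μ_p`. -/
structure DualPair (T : Finset Nat.Primes) (ρ : Representation (ZMod p) Γℚ M)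
    (ρ' : Representation (ZMod p) Γℚ M') where
  /-- The bilinear pairing of `M` and `M'` with values in `μ_p`. -/
  P : M →ₗ[ZMod p] M' →ₗ[ZMod p] ZMod p
  /-- The pairing is equivariant into `μ_p`. -/
  isPairing : IsPairing ρ ρ' (charRep (cycloChar p)) P
  /-- The pairing is perfect. -/
  bij : Function.Bijective P
  /-- The first module is smooth outside `T`. -/
  smooth : IsSmooth (galLevels (T : Set Nat.Primes)) ρ
  /-- The second module is smooth outside `T`. -/
  smooth' : IsSmooth (galLevels (T : Set Nat.Primes)) ρ'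
  /-- `p` lies in `T`. -/
  mem : pPrime p ∈ T

namespace DualPair

variable [FiniteDimensional (ZMod p) M] [FiniteDimensional (ZMod p) M']
  {ρ' : Representation (ZMod p) Γℚ M'} (D : DualPair T ρ ρ')

omit [FiniteDimensional (ZMod p) M] in
/-- The pair with the roles exchanged. -/
def flip : DualPair T ρ' ρ where
  P := D.P.flip
  isPairing := D.isPairing.flip
  bij := LinearMap.flip_bijective_iff₁.mpr D.bij
  smooth := D.smooth'
  smooth' := D.smooth
  mem := D.mem

omit [FiniteDimensional (ZMod p) M] [FiniteDimensional (ZMod p) M'] in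
/-- A dual pair restricts to a pairing at every place. -/
lemma pairingAt (v : Nat.Primes) :
    IsPairing (repAt v ρ) (repAt v ρ') (charRep (cycHom p (decAt v).subtype)) D.P :=
  fun g a b => D.isPairing (g : Γℚ) a b

omit [FiniteDimensional (ZMod p) M] [FiniteDimensional (ZMod p) M'] in
/-- At a place the second module maps equivariantly to the twisted dual of the first. -/
lemma toDual_equivariant (v : Nat.Primes) :
    IsEquivariant (repAt v ρ') (dualRep (cycHom p (decAt v).subtype) (repAt v ρ)) (MonoidHom.id _)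
      D.P.flip := fun g f => LinearMap.ext fun m => by
  have h := D.pairingAt v g (repAt v ρ g⁻¹ m) f
  rw [charRep_apply, ← Module.End.mul_apply, ← map_mul, mul_inv_cancel, map_one] at h
  exact h

include D in
omit [FiniteDimensional (ZMod p) M] [FiniteDimensional (ZMod p) M'] in
/-- The first module of a dual pair is smooth at every place. -/
lemma smoothAt (v : Nat.Primes) : IsSmooth (glev (decAt v).subtype) (repAt v ρ) :=
  D.smooth.comp (locHom (T : Set Nat.Primes) v)

variable (h2 : 2 < p)

/-- The local pairing in degrees `(1, 1)`. -/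
def q₁ (v : Nat.Primes) : LH1 v ρ →ₗ[ZMod p] LH1 v ρ' →ₗ[ZMod p] ZMod p :=
  (cup11 (D.pairingAt v) (D.flip.smoothAt v) (D.smoothAt v)).compr₂ (gInv h2 v).toLinearMap

/-- The local pairing in degrees `(2, 0)`. -/
def q₂ (v : Nat.Primes) : LH2 v ρ →ₗ[ZMod p] H0 (repAt v ρ') →ₗ[ZMod p] ZMod p :=
  ((cup02 (D.pairingAt v).flip).compr₂ (gInv h2 v).toLinearMap).flip

/-- The local pairing in degrees `(1, 1)`, evaluated. -/
lemma q₁_apply (v : Nat.Primes) (x : LH1 v ρ) (y : LH1 v ρ') :
    D.q₁ h2 v x y = gInv h2 v (cup11 (D.pairingAt v) (D.flip.smoothAt v) (D.smoothAt v) x y) := rfl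

/-- The local pairing in degrees `(2, 0)`, evaluated. -/
lemma q₂_apply (v : Nat.Primes) (x : LH2 v ρ) (a : H0 (repAt v ρ')) :
    D.q₂ h2 v x a = gInv h2 v (cup02 (D.pairingAt v).flip a x) := rfl

/-- The local pairing in degree one is perfect. -/
theorem q₁_bijective (v : Nat.Primes) : Function.Bijective (D.q₁ h2 v) := by
  set d := localData h2 v.2 (placeAt_spec v) with hd
  set e := LinearEquiv.ofBijective _ (map₁_bijective (L := glev (decAt v).subtype)
    (D.toDual_equivariant v) (LinearMap.flip_bijective_iff₁.mpr D.bij))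
  have key : ∀ x, D.q₁ h2 v x =
      (Units.mk0 _ (invScale_ne_zero h2 v) • (d.α₁ (D.smoothAt v) x).comp e.toLinearMap) := by
    intro x
    refine LinearMap.ext fun y => ?_
    refine congrArg (fun t => invScale h2 v * d.inv t) ?_ -- unfolds the pairing and `gInv`
    have h := map_cup11 (D.pairingAt v) (D.flip.smoothAt v)
      (isPairing_eval (χ := cycHom p (decAt v).subtype) (repAt v ρ)) (IsLevelsHom.id _)
      (IsEquivariant.id _) (D.toDual_equivariant v) (IsEquivariant.id _) (fun _ _ => rfl)
      (D.smoothAt v) (D.smoothAt v) (isSmooth_dualRep (charSmooth_cycHom _) (D.smoothAt v)) x y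
    simp only [map₂_id, map₁_id] at h
    exact h
  have h1 : Function.Bijective fun Φ : Module.Dual (ZMod p)
      (H1 (glev (decAt v).subtype) (dualRep (cycHom p (decAt v).subtype) (repAt v ρ))) =>
      Units.mk0 _ (invScale_ne_zero h2 v) • Φ.comp e.toLinearMap :=
    (MulAction.bijective _).comp e.dualMap.bijective
  have h3 := h1.comp (d.α₁_bijective (D.smoothAt v))
  convert h3 using 1
  exact funext key

/-- The local pairing of degree two with degree zero is perfect. -/
theorem q₂_bijective (v : Nat.Primes) : Function.Bijective (D.q₂ h2 v) := by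
  set d := localData h2 v.2 (placeAt_spec v) with hd
  set e := LinearEquiv.ofBijective _ (map₀_bijective (D.toDual_equivariant v)
    (LinearMap.flip_bijective_iff₁.mpr D.bij))
  have key : ∀ x, D.q₂ h2 v x =
      (Units.mk0 _ (invScale_ne_zero h2 v) • (d.α₂ (repAt v ρ) x).comp e.toLinearMap) := by
    intro x
    refine LinearMap.ext fun y => ?_
    refine congrArg (fun t => invScale h2 v * d.inv t) ?_ -- unfolds the pairing and `gInv`
    have h := map_cup02 (D.pairingAt v).flip
      (isPairing_eval (χ := cycHom p (decAt v).subtype) (repAt v ρ)).flip (IsLevelsHom.id _)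
      (D.toDual_equivariant v) (IsEquivariant.id _) (IsEquivariant.id _) (fun _ _ => rfl) y x
    simp only [map₂_id] at h
    exact h
  have h1 : Function.Bijective fun Φ : Module.Dual (ZMod p)
      (H0 (dualRep (cycHom p (decAt v).subtype) (repAt v ρ))) =>
      Units.mk0 _ (invScale_ne_zero h2 v) • Φ.comp e.toLinearMap :=
    (MulAction.bijective _).comp e.dualMap.bijective
  have h3 := h1.comp (d.α₂_bijective (D.smoothAt v))
  convert h3 using 1
  exact funext key

include D h2 in
/-- Local cohomology in degree one is finite dimensional. -/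
lemma finite_LH1 (v : Nat.Primes) : FiniteDimensional (ZMod p) (LH1 v ρ) :=
  (localData h2 v.2 (placeAt_spec v)).finiteDimensional_H1 (D.smoothAt v)

include D h2 in
/-- Local cohomology in degree two is finite dimensional. -/
lemma finite_LH2 (v : Nat.Primes) : FiniteDimensional (ZMod p) (LH2 v ρ) :=
  (localData h2 v.2 (placeAt_spec v)).finiteDimensional_H2 (D.smoothAt v)

include D h2 in
/-- Local `H²` has the dimension of the invariants of the dual. -/
lemma finrank_LH2 (v : Nat.Primes) :
    Module.finrank (ZMod p) (LH2 v ρ) = Module.finrank (ZMod p) (H0 (repAt v ρ')) :=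
  (LinearEquiv.ofBijective _ (D.q₂_bijective h2 v)).finrank_eq.trans Subspace.dual_finrank_eq

include D h2 in
/-- Local `H¹` has the dimension of the local `H¹` of the dual. -/
lemma finrank_LH1 (v : Nat.Primes) :
    Module.finrank (ZMod p) (LH1 v ρ) = Module.finrank (ZMod p) (LH1 v ρ') :=
  (LinearEquiv.ofBijective _ (D.q₁_bijective h2 v)).finrank_eq.trans Subspace.dual_finrank_eq

/-- The pairing of `P¹` with `P¹`. -/
def Q₁ : P1 T ρ →ₗ[ZMod p] P1 T ρ' →ₗ[ZMod p] ZMod p :=
  piPair (V := fun v : T => LH1 (v : Nat.Primes) ρ) (W := fun v : T => LH1 (v : Nat.Primes) ρ')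
    fun v => D.q₁ h2 (v : Nat.Primes)

/-- The pairing of `P²` with `P⁰`. -/
def Q₂ : P2 T ρ →ₗ[ZMod p] P0 T ρ' →ₗ[ZMod p] ZMod p :=
  piPair (V := fun v : T => LH2 (v : Nat.Primes) ρ) (W := fun v : T =>
    H0 (repAt (v : Nat.Primes) ρ'))
    fun v => D.q₂ h2 (v : Nat.Primes)

/-- The pairing of `P¹` with `P¹`, evaluated. -/
lemma Q₁_apply (x : P1 T ρ) (y : P1 T ρ') :
    D.Q₁ h2 x y = ∑ v : T, D.q₁ h2 (v : Nat.Primes) (x v) (y v) := piPair_apply _ x y

/-- The pairing of `P²` with `P⁰`, evaluated. -/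
lemma Q₂_apply (x : P2 T ρ) (a : P0 T ρ') :
    D.Q₂ h2 x a = ∑ v : T, D.q₂ h2 (v : Nat.Primes) (x v) (a v) := piPair_apply _ x a

/-- The pairing of `P¹` with `P¹` is perfect. -/
theorem Q₁_bijective : Function.Bijective (D.Q₁ h2) := piPair_bijective fun _ => D.q₁_bijective h2 _

/-- The pairing of `P²` with `P⁰` is perfect. -/
theorem Q₂_bijective : Function.Bijective (D.Q₂ h2) := piPair_bijective fun _ => D.q₂_bijective h2 _

/-- Exchanging the roles changes the sign of the local pairing in degrees `(1, 1)`. -/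
lemma q₁_flip (v : Nat.Primes) (x : LH1 v ρ) (y : LH1 v ρ') :
    D.flip.q₁ h2 v y x = -D.q₁ h2 v x y := by
  refine Eq.trans (congrArg (gInv h2 v) ?_) (map_neg (gInv h2 v) _)
  exact cup11_comm (D.flip.pairingAt v) _ _ y x

/-- Global classes of degree one are orthogonal at `T`. -/
theorem Q₁_loc (x : H1 (galLevels (T : Set Nat.Primes)) ρ)
    (y : H1 (galLevels (T : Set Nat.Primes)) ρ') : D.Q₁ h2 (loc₁ T ρ x) (loc₁ T ρ' y) = 0 := by
  rw [Q₁_apply]
  refine Eq.trans (Finset.sum_congr rfl fun v _ => ?_) (sum_gInv_loc h2 D.mem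
    (cup11 D.isPairing D.smooth' D.smooth x y))
  rw [q₁_apply]
  refine congrArg (gInv h2 (v : Nat.Primes)) ?_
  have hc := cycHom_equivariant (p := p) (MonoidHom.id Γℚ) (decAt (v : Nat.Primes)).subtype
  rw [MonoidHom.id_comp] at hc
  exact (map_cup11 D.isPairing D.smooth' (D.pairingAt v) (locHom _ _)
    (IsEquivariant.restrict ρ _) (IsEquivariant.restrict ρ' _)
    hc (fun _ _ => rfl) D.smooth (D.smoothAt v) (D.flip.smoothAt v) x y).symm

/-- Global classes of degree two are orthogonal to invariants at `T`. -/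
theorem Q₂_loc (x : H2 (galLevels (T : Set Nat.Primes)) ρ) (a : H0 ρ') :
    D.Q₂ h2 (loc₂ T ρ x) (loc₀ T ρ' a) = 0 := by
  rw [Q₂_apply]
  refine Eq.trans (Finset.sum_congr rfl fun v _ => ?_) (sum_gInv_loc h2 D.mem
    (cup02 D.isPairing.flip a x))
  rw [q₂_apply]
  refine congrArg (gInv h2 (v : Nat.Primes)) ?_
  have hc := cycHom_equivariant (p := p) (MonoidHom.id Γℚ) (decAt (v : Nat.Primes)).subtype
  rw [MonoidHom.id_comp] at hc
  exact (map_cup02 D.isPairing.flip (D.pairingAt v).flip (locHom _ _)
    (IsEquivariant.restrict ρ' _) (IsEquivariant.restrict ρ _)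
    hc (fun _ _ => rfl) a x).symm

/-- The image of localisation in degree one is orthogonal to that of the dual. -/
theorem range_loc₁_le :
    LinearMap.range (loc₁ T ρ) ≤
      Devissage.perp (V := P1 T ρ') (W := P1 T ρ) (D.Q₁ h2).flip (LinearMap.range (loc₁ T ρ')) := by
  rintro _ ⟨x, rfl⟩
  refine Devissage.mem_perp.mpr ?_
  rintro _ ⟨y, rfl⟩
  exact D.Q₁_loc h2 x y

/-- The image of localisation in degree two is orthogonal to the invariants of the dual. -/
theorem range_loc₂_le :
    LinearMap.range (loc₂ T ρ) ≤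
      Devissage.perp (V := P0 T ρ') (W := P2 T ρ) (D.Q₂ h2).flip (LinearMap.range (loc₀ T ρ')) := by
  rintro _ ⟨x, rfl⟩
  refine Devissage.mem_perp.mpr ?_
  rintro _ ⟨y, rfl⟩
  exact D.Q₂_loc h2 x y

/-! ### Adjoint maps -/

variable {N N' : Type} [AddCommGroup N] [Module (ZMod p) N] [AddCommGroup N'] [Module (ZMod p) N']
  [FiniteDimensional (ZMod p) N] [FiniteDimensional (ZMod p) N']
  {σ : Representation (ZMod p) Γℚ N} {σ' : Representation (ZMod p) Γℚ N'}
  (E : DualPair T σ σ') {f : M →ₗ[ZMod p] N} {f' : N' →ₗ[ZMod p] M'}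
  (hf : IsEquivariant ρ σ (MonoidHom.id Γℚ) f) (hf' : IsEquivariant σ' ρ' (MonoidHom.id Γℚ) f')
  (hadj : ∀ m n, E.P (f m) n = D.P m (f' n))

omit [FiniteDimensional (ZMod p) M] [FiniteDimensional (ZMod p) M']
  [FiniteDimensional (ZMod p) N] [FiniteDimensional (ZMod p) N'] in
include hf in
/-- An equivariant map composed with a pairing gives a pairing at a place. -/
lemma mixed (v : Nat.Primes) :
    IsPairing (repAt v ρ) (repAt v σ') (charRep (cycHom p (decAt v).subtype)) (E.P.comp f) := by
  intro g a b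
  change E.P (f (ρ (g : Γℚ) a)) (σ' (g : Γℚ) b) = _
  rw [show f (ρ (g : Γℚ) a) = σ (g : Γℚ) (f a) from hf (g : Γℚ) a]
  exact E.pairingAt v g (f a) b

omit [FiniteDimensional (ZMod p) M] [FiniteDimensional (ZMod p) N] in
/-- A map on local coefficients. -/
lemma equivariantAt (hf : IsEquivariant ρ σ (MonoidHom.id Γℚ) f) (v : Nat.Primes) :
    IsEquivariant (repAt v ρ) (repAt v σ) (MonoidHom.id _) f := fun g m => hf (g : Γℚ) m

include hadj in
/-- The local pairings in degrees `(1, 1)` respect adjoint maps. -/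
theorem q₁_adjoint (v : Nat.Primes) (x : LH1 v ρ) (y : LH1 v σ') :
    E.q₁ h2 v (map₁ (IsLevelsHom.id _) (equivariantAt hf v) x) y =
      D.q₁ h2 v x (map₁ (IsLevelsHom.id _) (equivariantAt hf' v) y) := by
  refine congrArg (gInv h2 v) ?_
  have e1 := map_cup11 (E.mixed hf v) (E.flip.smoothAt v) (E.pairingAt v) (IsLevelsHom.id _)
    (equivariantAt hf v) (IsEquivariant.id _) (IsEquivariant.id _) (fun _ _ => rfl) (D.smoothAt v)
    (E.smoothAt v) (E.flip.smoothAt v) x y
  have e2 := map_cup11 (E.mixed hf v) (E.flip.smoothAt v) (D.pairingAt v) (IsLevelsHom.id _)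
    (IsEquivariant.id _) (equivariantAt hf' v) (IsEquivariant.id _)
    (fun a b => (hadj a b).symm) (D.smoothAt v)
    (D.smoothAt v) (D.flip.smoothAt v) x y
  simp only [map₂_id, map₁_id] at e1 e2
  exact e1.symm.trans e2

include hadj in
/-- The local pairings in degrees `(2, 0)` respect adjoint maps. -/
theorem q₂_adjoint (v : Nat.Primes) (x : LH2 v ρ) (a : H0 (repAt v σ')) :
    E.q₂ h2 v (map₂ (IsLevelsHom.id _) (equivariantAt hf v) x) a =
      D.q₂ h2 v x (map₀ (equivariantAt hf' v) a) := by
  refine congrArg (gInv h2 v) ?_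
  have e1 := map_cup02 (E.mixed hf v).flip (E.pairingAt v).flip (IsLevelsHom.id _)
    (IsEquivariant.id _) (equivariantAt hf v) (IsEquivariant.id _) (fun _ _ => rfl) a x
  have e2 := map_cup02 (E.mixed hf v).flip (D.pairingAt v).flip (IsLevelsHom.id _)
    (equivariantAt hf' v) (IsEquivariant.id _) (IsEquivariant.id _)
    (fun b m => (hadj m b).symm) a x
  simp only [map₂_id] at e1 e2
  exact e1.symm.trans e2

variable (T) in
/-- Functoriality of `P⁰`. -/
def mapP0 (hf : IsEquivariant ρ σ (MonoidHom.id Γℚ) f) : P0 T ρ →ₗ[ZMod p] P0 T σ :=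
  LinearMap.piMap fun v : T => map₀ (equivariantAt hf (v : Nat.Primes))

variable (T) in
/-- Functoriality of `P¹`. -/
def mapP1 (hf : IsEquivariant ρ σ (MonoidHom.id Γℚ) f) : P1 T ρ →ₗ[ZMod p] P1 T σ :=
  LinearMap.piMap fun v : T =>
    map₁ (IsLevelsHom.id (glev (decAt (v : Nat.Primes)).subtype))
      (equivariantAt hf (v : Nat.Primes))

variable (T) in
/-- Functoriality of `P²`. -/
def mapP2 (hf : IsEquivariant ρ σ (MonoidHom.id Γℚ) f) : P2 T ρ →ₗ[ZMod p] P2 T σ :=
  LinearMap.piMap fun v : T =>
    map₂ (IsLevelsHom.id (glev (decAt (v : Nat.Primes)).subtype))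
      (equivariantAt hf (v : Nat.Primes))

include hadj in
/-- The pairings of `P¹` with `P¹` respect adjoint maps. -/
theorem Q₁_adjoint (x : P1 T ρ) (y : P1 T σ') :
    E.Q₁ h2 (mapP1 T hf x) y = D.Q₁ h2 x (mapP1 T hf' y) := by
  rw [Q₁_apply, Q₁_apply]
  exact Finset.sum_congr rfl fun v _ => D.q₁_adjoint h2 E hf hf' hadj v (x v) (y v)

include hadj in
/-- The pairings of `P²` with `P⁰` respect adjoint maps. -/
theorem Q₂_adjoint (x : P2 T ρ) (a : P0 T σ') :
    E.Q₂ h2 (mapP2 T hf x) a = D.Q₂ h2 x (mapP0 T hf' a) := by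
  rw [Q₂_apply, Q₂_apply]
  exact Finset.sum_congr rfl fun v _ => D.q₂_adjoint h2 E hf hf' hadj v (x v) (a v)

end DualPair

end Fermat.CFT
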