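import Fermat.Agent.CFT.Global.GWLinked
import Fermat.Agent.CFT.Global.UnrClasses
import Fermat.Agent.GR.RT.Count

/-!
# The Greenberg–Wiles bound

`gwBound` proves `GR.RT.GWBound`. A linked set `S ⊇ T` exists (`exists_linked`) and `gw_linked`
gives the inequality there. At the new primes the condition is the unramified one: its orthogonal is
unramified and its dimension at most that of `H⁰`, so the inequality descends to `T`.
-/

set_option autoImplicit false

noncomputable section

open Fermat.CFT.Coh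
open scoped Pointwise

namespace Fermat.CFT

local notation "ℚbar" => AlgebraicClosure ℚ
local notation "Γℚ" => (AlgebraicClosure ℚ ≃ₐ[ℚ] AlgebraicClosure ℚ)

variable {p : ℕ} [hp : Fact p.Prime] {M M' : Type} [AddCommGroup M] [Module (ZMod p) M]
  [AddCommGroup M'] [Module (ZMod p) M'] {T T' : Finset Nat.Primes}
  {ρ : Representation (ZMod p) Γℚ M} {ρ' : Representation (ZMod p) Γℚ M'}

/-- Enlarging the set of primes of a pair. -/
def DualPair.mono (D : DualPair T ρ ρ') (h : T ⊆ T') : DualPair T' ρ ρ' where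
  P := D.P
  isPairing := D.isPairing
  bij := D.bij
  smooth := D.smooth.comp (galLevels_mono (Finset.coe_subset.mpr h))
  smooth' := D.smooth'.comp (galLevels_mono (Finset.coe_subset.mpr h))
  mem := h D.mem

/-- Inflation is injective on classes. -/
lemma infl_injective {S S' : Set Nat.Primes} (h : S ⊆ S') :
    Function.Injective (GR.RT.infl ρ h) := by
  refine (injective_iff_map_eq_zero _).mpr fun x hx => ?_
  obtain ⟨z, rfl⟩ := cl₁_surjective x
  rw [GR.RT.infl, map₁_cl₁, cl₁_eq_zero] at hx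
  obtain ⟨m, hm⟩ := hx
  exact cl₁_eq_zero.mpr ⟨m, hm⟩

/-- A class unramified at the new primes comes from the old ones. -/
theorem exists_infl_of_unrSub [FiniteDimensional (ZMod p) M] {S S' : Set Nat.Primes}
    (h : S ⊆ S') (hsm : IsSmooth (galLevels S) ρ) (x : H1 (galLevels S') ρ)
    (hx : ∀ v ∈ S', v ∉ S → GR.RT.locAt S' ρ v x ∈ unrSub ρ v) :
    ∃ y, GR.RT.infl ρ h y = x := by
  obtain ⟨z, rfl⟩ := cl₁_surjective x
  obtain ⟨N₀, hN₀, hfix⟩ := hsm.exists_fix_all
  -- the kernel of the cocycle on `ker ρ` contains inertia outside `S`, so a level of `S`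
  let H : Subgroup Γℚ :=
    { carrier := {g | ρ g = 1 ∧ z.1 g = 0}
      mul_mem' := by
        rintro a b ⟨ha, ha'⟩ ⟨hb, hb'⟩
        exact ⟨by rw [map_mul, ha, hb, one_mul],
          by rw [cocycle₁ z.2, ha', hb', map_zero, add_zero]⟩
      one_mem' := ⟨map_one ρ, Z1_one z.2⟩
      inv_mem' := by
        rintro a ⟨ha, ha'⟩
        refine ⟨?_, by rw [Z1_inv z.2, ha', map_zero, neg_zero]⟩
        have h : ρ a⁻¹ * ρ a = 1 := by rw [← map_mul, inv_mul_cancel, map_one]
        rwa [ha, mul_one] at h }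
  obtain ⟨N, hN, hNH⟩ := exists_level_le_of_inertia (T := S) (H := H) (by
      obtain ⟨N₁, hN₁, hz⟩ := z.2.1
      obtain ⟨N₀', hN₀', hle₀⟩ := galLevels_mono h N₀ hN₀
      obtain ⟨N₂, hN₂, i1, i2⟩ := (galLevels S').exists_le N₁ N₀' hN₁ hN₀'
      obtain ⟨N₃, hN₃, hle₃⟩ := galLevels_mono (Set.subset_univ S') N₂ hN₂
      refine ⟨N₃, hN₃, fun g hg => ⟨LinearMap.ext fun m => hfix g (hle₀ (i2 (hle₃ hg))) m, ?_⟩⟩
      have := hz 1 g (i1 (hle₃ hg))
      rwa [one_mul, Z1_one z.2] at this)
    fun q hq A hA σ hσ => by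
      have hρσ : ρ σ = 1 := rho_eq_one_of_inertia hsm hq hA hσ
      refine ⟨hρσ, ?_⟩
      by_cases hq' : q ∈ S'
      · obtain ⟨g, hg⟩ := exists_smul_place q.2 hA (placeAt_spec q)
        have hσ' : g * σ * g⁻¹ ∈ (placeAt q).inertiaSubgroupIn ℚ :=
          hg ▸ mem_inertiaSubgroupIn_smul q.2 hA hσ g
        have h0 : z.1 (g * σ * g⁻¹) = 0 := by
          have hv := hx q hq' hq
          rw [GR.RT.locAt, map₁_cl₁] at hv
          exact apply_eq_zero_of_mem_unrSub hsm hq hv hσ'
        rw [cocycle₁ z.2, cocycle₁ z.2, map_mul, hρσ, mul_one, Z1_inv z.2, map_neg,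
          ← Module.End.mul_apply (ρ g) (ρ g⁻¹), ← map_mul, mul_inv_cancel, map_one,
          Module.End.one_apply] at h0
        have h2 : ρ g (z.1 σ) = 0 := by
          rw [← h0]
          abel
        exact (ρ.apply_bijective g).1 (h2.trans (map_zero _).symm)
      · obtain ⟨_, ⟨F₁, -, -, hF₁, rfl⟩, hz⟩ := z.2.1
        have := hz 1 σ (hF₁ q hq' A hA hσ)
        rwa [one_mul, Z1_one z.2] at this
  refine ⟨cl₁ (galLevels S) ρ ⟨z.1, ⟨N, hN, fun g s hs => ?_⟩, z.2.2⟩, ?_⟩
  · rw [cocycle₁ z.2, (hNH hs).2, map_zero, zero_add]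
  · rw [GR.RT.infl, map₁_cl₁]
    exact congrArg _ (Subtype.ext rfl)

/-- **The Greenberg–Wiles bound.** Proof of `GR.RT.GWBound`, comparing a Selmer group with the one
of orthogonal conditions. -/
theorem gwBound : GR.RT.GWBound p := by
  intro h2 M M' _ _ _ _ _ _ T ρ ρ' D L
  classical
  have : FiniteDimensional (ZMod p) M := Module.Finite.of_finite
  have : FiniteDimensional (ZMod p) M' := Module.Finite.of_finite
  -- a field `K` splitting `M` and containing `μ_p`, and a linked set `S ⊇ T` for it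
  obtain ⟨_, ⟨E, hEf, hEn, hEu, rfl⟩, hfix⟩ := D.smooth.exists_fix_all
  obtain ⟨F, ζ, hF, hFn, hζ, -, -⟩ := exists_zetaField p
  set K : IntermediateField ℚ ℚbar := E ⊔ F
  have : Normal ℚ K := @IntermediateField.normal_sup _ _ _ _ _ E F hEn hFn
  have hζK : ∃ z : K, IsPrimitiveRoot z p :=
    ⟨IntermediateField.inclusion le_sup_right ζ,
      hζ.map_of_injective (IntermediateField.inclusion (le_sup_right : F ≤ K)).toRingHom.injective⟩
  obtain ⟨S, hTS, hS, hlink⟩ := exists_linked h2 hζK T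
  have hρ : Factors K ρ := fun n hn => LinearMap.ext fun m =>
    hfix n (IntermediateField.fixingSubgroup_le le_sup_left hn) m
  set D' := D.mono hTS
  have hρ' := D'.factors' hS hρ
  have := finite_H1_of_factors hS hlink h2 D' hρ
  have := finite_H1_of_factors hS hlink h2 D'.flip hρ'
  have : Finite (H1 (galLevels (S : Set Nat.Primes)) ρ) := Module.finite_of_finite (ZMod p)
  have : Finite (H1 (galLevels (S : Set Nat.Primes)) ρ') := Module.finite_of_finite (ZMod p)
  have hTS' : (T : Set Nat.Primes) ⊆ S := Finset.coe_subset.mpr hTS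
  have : Finite (H1 (galLevels (T : Set Nat.Primes)) ρ) :=
    Finite.of_injective _ (infl_injective hTS')
  have : Finite (H1 (galLevels (T : Set Nat.Primes)) ρ') :=
    Finite.of_injective _ (infl_injective hTS')
  refine ⟨inferInstance, inferInstance, ?_⟩
  -- the conditions at the linked set
  let L' : ∀ v : S, Submodule (ZMod p) (LH1 (v : Nat.Primes) ρ) := fun v =>
    if (v : Nat.Primes) ∈ T then L v else unrSub ρ v
  have hLT : ∀ v : S, (v : Nat.Primes) ∈ T → L' v = L v := fun v hv => if_pos hv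
  have hLU : ∀ v : S, (v : Nat.Primes) ∉ T → L' v = unrSub ρ v := fun v hv => if_neg hv
  have key := gw_linked hS hlink h2 D' hρ L'
  set A := GR.RT.selAt T ρ L
  set A' := GR.RT.selAt T ρ' (GR.RT.orth h2 D L)
  -- the Selmer groups
  have hA : A.map (GR.RT.infl ρ hTS') ≤ (piSub L').comap (loc₁ S ρ) := by
    rintro _ ⟨x, hx, rfl⟩ v
    change GR.RT.locAt (S : Set Nat.Primes) ρ v (GR.RT.infl ρ hTS' x) ∈ L' v
    rw [GR.RT.locAt_infl]
    by_cases hv : (v : Nat.Primes) ∈ T
    · rw [hLT v hv]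
      exact GR.RT.mem_selAt.mp hx v hv
    · rw [hLU v hv]
      exact map₁_mem_unrSub (fun h => hv h) x
  have hA' : (piSub fun v : S => Devissage.perp (D'.q₁ h2 (v : Nat.Primes)) (L' v)).comap
      (loc₁ S ρ') ≤ A'.map (GR.RT.infl ρ' hTS') := by
    intro x hx
    have hx' : ∀ v, ∀ hv : v ∈ S, GR.RT.locAt (S : Set Nat.Primes) ρ' v x ∈
        Devissage.perp (D'.q₁ h2 v) (L' ⟨v, hv⟩) := fun v hv => hx ⟨v, hv⟩
    obtain ⟨y, rfl⟩ := exists_infl_of_unrSub hTS' D.smooth' x fun v hv hvT => by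
      have h := hx' v hv
      rw [hLU ⟨v, hv⟩ (fun h => hvT h)] at h
      exact perp_unrSub_le D h2 (fun h => hvT h) h
    refine ⟨y, GR.RT.mem_selAt.mpr fun v hv => ?_, rfl⟩
    have h := hx' v (hTS hv)
    rw [hLT ⟨v, hTS hv⟩ hv, GR.RT.locAt_infl] at h
    exact h
  have e1 := (Devissage.finrank_map_of_injective (infl_injective hTS') A).symm.trans_le
    (Submodule.finrank_mono hA)
  have e2 := (Submodule.finrank_mono hA').trans_eq
    (Devissage.finrank_map_of_injective (infl_injective hTS') A')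
  -- the local terms at the new primes
  have : ∀ v, FiniteDimensional (ZMod p) (LH1 v ρ) := fun v => D.finite_LH1 h2 v
  let l : Nat.Primes → ℕ := fun v =>
    if v ∈ T then Module.finrank (ZMod p) (L v) else Module.finrank (ZMod p) (unrSub ρ v)
  let f : Nat.Primes → ℕ := fun v => Module.finrank (ZMod p) (H0 (repAt v ρ))
  have hl : ∀ v : S, Module.finrank (ZMod p) (L' v) = l v := fun v => by
    by_cases hv : (v : Nat.Primes) ∈ T
    · rw [hLT v hv]; exact (if_pos hv).symm
    · rw [hLU v hv]; exact (if_neg hv).symm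
  rw [Finset.sum_congr rfl fun v _ => hl v, Finset.sum_coe_sort S l,
    Finset.sum_coe_sort S f] at key
  have e3 : ∑ v ∈ S, l v + ∑ v ∈ T, f v ≤ ∑ v ∈ T, Module.finrank (ZMod p) (L v) +
      ∑ v ∈ S, f v := by
    rw [← Finset.sum_sdiff hTS, ← Finset.sum_sdiff hTS (f := f)]
    have i1 : ∑ v ∈ S \ T, l v ≤ ∑ v ∈ S \ T, f v := Finset.sum_le_sum fun v hv => by
      have hvT := (Finset.mem_sdiff.mp hv).2
      simp only [l, if_neg hvT]
      exact finrank_unrSub_le D h2 hvT
    have i2 : ∑ v ∈ T, l v = ∑ v ∈ T, Module.finrank (ZMod p) (L v) :=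
      Finset.sum_congr rfl fun v hv => if_pos hv
    omega
  -- from dimensions to cardinalities
  have hc : Nat.card {m : M // ρ complexConjugation m = m} =
      p ^ Module.finrank (ZMod p) (conjFix ρ) := by
    rw [Nat.card_congr (Equiv.subtypeEquivRight fun m => (mem_conjFix (ρ := ρ)).symm),
      Module.natCard_eq_pow_finrank (K := ZMod p) (V := conjFix ρ), Nat.card_zmod]
  have hpow : ∀ (V : Type) [AddCommGroup V] [Module (ZMod p) V] [FiniteDimensional (ZMod p) V],
      Nat.card V = p ^ Module.finrank (ZMod p) V := fun V _ _ _ => by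
    rw [Module.natCard_eq_pow_finrank (K := ZMod p) (V := V), Nat.card_zmod]
  have : FiniteDimensional (ZMod p) (H1 (galLevels (T : Set Nat.Primes)) ρ) :=
    Module.Finite.of_finite
  have : FiniteDimensional (ZMod p) (H1 (galLevels (T : Set Nat.Primes)) ρ') :=
    Module.Finite.of_finite
  rw [hc, hpow A, hpow A', hpow (H0 ρ), hpow (H0 ρ'),
    Finset.prod_congr rfl fun v _ => hpow (H0 (repAt v ρ)),
    Finset.prod_congr rfl fun v _ => hpow (L v), Finset.prod_pow_eq_pow_sum,
    Finset.prod_pow_eq_pow_sum, ← pow_add, ← pow_add, ← pow_add, ← pow_add, ← pow_add]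
  refine Nat.pow_le_pow_right hp.out.pos ?_
  change Module.finrank (ZMod p) A + _ + ∑ v ∈ T, f v + _ ≤ _
  omega

end Fermat.CFT
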