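import Fermat.Agent.CFT.Euler.EulerChar

/-!
# The Greenberg–Wiles inequality at linked sets of primes

Global and local classes are orthogonal in the pairing of the sums of local classes; with the Euler
characteristic and the duality of the locally trivial classes this bounds the Selmer dimensions.
-/

set_option autoImplicit false

noncomputable section

open Fermat.CFT.Coh
open scoped Pointwise

namespace Fermat.CFT

local notation "ℚbar" => AlgebraicClosure ℚ
local notation "Γℚ" => (AlgebraicClosure ℚ ≃ₐ[ℚ] AlgebraicClosure ℚ)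

variable {p : ℕ} [hp : Fact p.Prime] {K : IntermediateField ℚ ℚbar} [FiniteDimensional ℚ K]
  [Normal ℚ K] {T : Finset Nat.Primes}
  {M M' : Type} [AddCommGroup M] [Module (ZMod p) M] [FiniteDimensional (ZMod p) M]
  [AddCommGroup M'] [Module (ZMod p) M'] [FiniteDimensional (ZMod p) M']
  {ρ : Representation (ZMod p) Γℚ M} {ρ' : Representation (ZMod p) Γℚ M'}

/-- The vectors fixed by complex conjugation. -/
abbrev conjFix (ρ : Representation (ZMod p) Γℚ M) : Submodule (ZMod p) M :=
  LinearMap.ker (ρ complexConjugation - 1)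

omit [FiniteDimensional (ZMod p) M] in
/-- Membership in `conjFix`. -/
lemma mem_conjFix {m : M} : m ∈ conjFix ρ ↔ ρ complexConjugation m = m := by
  rw [LinearMap.mem_ker, LinearMap.sub_apply, sub_eq_zero, Module.End.one_apply]

/-- The fixed vectors of complex conjugation in the two modules of a pair have dimensions adding up
to at most `dim M`. -/
lemma DualPair.finrank_conjFix_add_le (D : DualPair T ρ ρ') (h2 : 2 < p) :
    Module.finrank (ZMod p) (conjFix ρ) + Module.finrank (ZMod p) (conjFix ρ') ≤
      Module.finrank (ZMod p) M := by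
  have h20 : (2 : ZMod p) ≠ 0 := fun h => by
    have := (ZMod.natCast_eq_zero_iff 2 p).mp (by exact_mod_cast h)
    exact absurd (Nat.le_of_dvd two_pos this) (by omega)
  have hle : conjFix ρ' ≤ Devissage.perp D.P (conjFix ρ) := fun f hf =>
    Devissage.mem_perp.mpr fun m hm => by
      have h := D.isPairing complexConjugation m f
      rw [mem_conjFix.mp hm, mem_conjFix.mp hf, charRep_apply,
          Fermat.CFT.cycloChar_complexConjugation,
        neg_one_mul, eq_neg_iff_add_eq_zero, ← two_mul] at h
      exact (mul_eq_zero.mp h).resolve_left h20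
  have h1 := Devissage.finrank_perp D.bij (conjFix ρ)
  have h3 := Submodule.finrank_mono hle
  omega

/-- The product of local subspaces. -/
def piSub (L : ∀ v : T, Submodule (ZMod p) (LH1 (v : Nat.Primes) ρ)) :
    Submodule (ZMod p) (P1 T ρ) where
  carrier := {x | ∀ v, x v ∈ L v}
  zero_mem' v := (L v).zero_mem
  add_mem' hx hy v := (L v).add_mem (hx v) (hy v)
  smul_mem' c _ hx v := (L v).smul_mem c (hx v)

omit [FiniteDimensional (ZMod p) M] in
/-- The dimension of a product of local subspaces. -/
lemma finrank_piSub [∀ v : T, FiniteDimensional (ZMod p) (LH1 (v : Nat.Primes) ρ)]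
    (L : ∀ v : T, Submodule (ZMod p) (LH1 (v : Nat.Primes) ρ)) :
    Module.finrank (ZMod p) (piSub L) = ∑ v, Module.finrank (ZMod p) (L v) := by
  have : ∀ v : T, Module.Finite (ZMod p) (L v) := fun v => inferInstance
  have : ∀ v : T, Module.Free (ZMod p) (L v) := fun v => inferInstance
  rw [← Module.finrank_pi_fintype (ZMod p)]
  exact LinearEquiv.finrank_eq
    { toFun := fun x v => ⟨x.1 v, x.2 v⟩
      map_add' := fun x y => rfl
      map_smul' := fun c x => rfl
      invFun := fun y => ⟨fun v => (y v).1, fun v => (y v).2⟩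
      left_inv := fun x => rfl
      right_inv := fun y => rfl }

variable (hT : IsAdmissible p K T) (hL : Linked p K T) (h2 : 2 < p)

include hT hL h2

/-- **Tate's formula** for a module split by a linked field. -/
theorem euler_char (hρ : Factors K ρ) :
    Module.finrank (ZMod p) (H1 (galLevels (T : Set Nat.Primes)) ρ) +
        Module.finrank (ZMod p) (conjFix ρ) =
      Module.finrank (ZMod p) (H0 ρ) +
        Module.finrank (ZMod p) (H2 (galLevels (T : Set Nat.Primes)) ρ) +
          Module.finrank (ZMod p) M := by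
  obtain ⟨σ, rfl⟩ : ∃ σ : Representation (ZMod p) (Euler.GalQ K) M, Euler.infl σ = ρ :=
    ⟨QuotientGroup.lift K.fixingSubgroup ρ fun n hn => MonoidHom.mem_ker.mpr (hρ n hn),
      MonoidHom.ext fun g => rfl⟩
  have h := Euler.eu_eq_zero hT hL h2 σ
  have hc : Module.finrank (ZMod p) (Euler.fixC σ) =
      Module.finrank (ZMod p) (conjFix (Euler.infl σ)) := rfl
  rw [Euler.eu, hc] at h
  omega

/-- **The Greenberg–Wiles inequality**, in dimensions, at a linked set. -/
theorem gw_linked (D : DualPair T ρ ρ') (hρ : Factors K ρ)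
    (L : ∀ v : T, Submodule (ZMod p) (LH1 (v : Nat.Primes) ρ)) :
    Module.finrank (ZMod p) ((piSub L).comap (loc₁ T ρ)) + Module.finrank (ZMod p) (H0 ρ') +
        ∑ v : T, Module.finrank (ZMod p) (H0 (repAt (v : Nat.Primes) ρ)) +
          Module.finrank (ZMod p) (conjFix ρ) ≤
      Module.finrank (ZMod p)
          ((piSub fun v : T => Devissage.perp (D.q₁ h2 (v : Nat.Primes)) (L v)).comap (loc₁ T ρ')) +
        Module.finrank (ZMod p) (H0 ρ) + ∑ v, Module.finrank (ZMod p) (L v) := by
  have hρ' := D.factors' hT hρ
  have := finite_H1_of_factors hT hL h2 D hρ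
  have := finite_H1_of_factors hT hL h2 D.flip hρ'
  have : ∀ v : T, FiniteDimensional (ZMod p) (LH1 (v : Nat.Primes) ρ) := fun v => D.finite_LH1 h2 v
  have : ∀ v : T, FiniteDimensional (ZMod p) (LH1 (v : Nat.Primes) ρ') :=
    fun v => D.flip.finite_LH1 h2 v
  -- orthogonality: conditions meeting global classes annihilate the sum of the dual ones
  set L' := fun v : T => Devissage.perp (D.q₁ h2 (v : Nat.Primes)) (L v)
  have hle : piSub L ⊓ LinearMap.range (loc₁ T ρ) ≤
      Devissage.perp (V := P1 T ρ') (W := P1 T ρ) (D.Q₁ (T := T) h2).flip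
        (LinearMap.range (loc₁ T ρ') ⊔ piSub L') := by
    rw [Devissage.perp_sup]
    refine le_inf ((inf_le_right).trans (D.range_loc₁_le h2))
      (inf_le_left.trans fun x hx => Devissage.mem_perp.mpr fun y hy => ?_)
    change D.Q₁ h2 x y = 0
    rw [DualPair.Q₁_apply]
    exact Finset.sum_eq_zero fun v _ => Devissage.mem_perp.mp (hy v) _ (hx v)
  -- the dimensions
  have e1 := Devissage.finrank_comap_add (loc₁ T ρ) (piSub L)
  have e2 := Devissage.finrank_comap_add (loc₁ T ρ') (piSub L')
  have e3 := Submodule.finrank_mono hle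
  have e4 := Devissage.finrank_perp (V := P1 T ρ') (W := P1 T ρ)
    (LinearMap.flip_bijective_iff₁.mpr (D.Q₁_bijective h2)) (LinearMap.range (loc₁ T ρ') ⊔ piSub L')
  have e5 := Submodule.finrank_sup_add_finrank_inf_eq (LinearMap.range (loc₁ T ρ')) (piSub L')
  rw [inf_comm] at e5
  have e6 := (loc₁ T ρ').finrank_range_add_finrank_ker
  have e7 : Module.finrank (ZMod p) (P1 T ρ') =
      ∑ v, Module.finrank (ZMod p) (L v) + Module.finrank (ZMod p) (piSub L') := by
    rw [finrank_piSub, ← Finset.sum_add_distrib]
    have : ∀ v : T, Module.Free (ZMod p) (LH1 (v : Nat.Primes) ρ') := fun v => inferInstance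
    refine (Module.finrank_pi_fintype (ZMod p)
      (M := fun v : T => LH1 (v : Nat.Primes) ρ')).trans (Finset.sum_congr rfl fun v _ => ?_)
    rw [← D.finrank_LH1 h2 (v : Nat.Primes)]
    exact (Devissage.finrank_perp (D.q₁_bijective h2 (v : Nat.Primes)) (L v)).symm
  -- the Euler characteristic, duality in degree two and complex conjugation
  have e8 := euler_char hT hL h2 hρ'
  have e9 := Euler.finrank_H2_add hT hL h2 D.flip hρ'
  have e10 := D.finrank_conjFix_add_le h2
  have e11 : Module.finrank (ZMod p) M = Module.finrank (ZMod p) M' :=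
    (LinearEquiv.ofBijective D.P D.bij).finrank_eq.trans Subspace.dual_finrank_eq
  omega

end Fermat.CFT
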