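import Fermat.Agent.CFT.Local.Tower

/-!
# The Hasse principle for classes of degree two with values in `μ_p`

`IsGlobalAt.hasse`, by induction along the levels of `p`-power index with the norm theorem
(`CFT/Kummer/NormTheorem`); `Recip` states it over `ℚ`.
-/

set_option autoImplicit false

noncomputable section

open Fermat.CFT.Coh
open scoped Pointwise

namespace Fermat.CFT

attribute [local instance] Subgroup.fintypeQuotientOfFiniteIndex

local notation "ℚbar" => AlgebraicClosure ℚ
local notation "Γℚ" => (AlgebraicClosure ℚ ≃ₐ[ℚ] AlgebraicClosure ℚ)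

variable {G : Type} [Group G] {r : G →* Γℚ} {K : IntermediateField ℚ ℚbar}
  {p : ℕ} [hp : Fact p.Prime]

/-- The image of `r` is the Galois group over `K`. -/
structure IsGlobalAt (r : G →* Γℚ) (K : IntermediateField ℚ ℚbar) : Prop where
  /-- The image fixes `K`. -/
  range_le : ∀ g, r g ∈ K.fixingSubgroup
  /-- Every element fixing `K` is in the image. -/
  exists_eq : ∀ x ∈ K.fixingSubgroup, ∃ g, r g = x

/-- The subgroup fixing `K` is the Galois group over `K`. -/
lemma isGlobalAt_subtype (K : IntermediateField ℚ ℚbar) : IsGlobalAt K.fixingSubgroup.subtype K :=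
  ⟨fun g => g.2, fun x hx => ⟨⟨x, hx⟩, rfl⟩⟩

/-- The absolute Galois group is the Galois group over `ℚ`. -/
lemma isGlobalAt_id : IsGlobalAt (MonoidHom.id Γℚ) ⊥ :=
  ⟨fun g => by rw [IntermediateField.fixingSubgroup_bot]; exact Subgroup.mem_top _,
    fun x _ => ⟨x, rfl⟩⟩

/-- The subgroup of a place. -/
def placeGrp (r : G →* Γℚ) (A : ValuationSubring ℚbar) : Subgroup G :=
  (A.decompositionSubgroup ℚ).comap r

/-- A class which vanishes at every finite place. -/
def LocZero {R : Type} [CommRing R] {M : Type} [AddCommGroup M] [Module R M] (L : Levels G)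
    (ρ : Representation R G M) (r : G →* Γℚ) (c : H2 L ρ) : Prop :=
  ∀ (ℓ : ℕ) (A : ValuationSubring ℚbar), ℓ.Prime → A.LiesOverPrime ℓ →
    res₂ L ρ (placeGrp r A) c = 0

/-- Adjoining a root of an element which is not a `p`-th power gives degree `p`. -/
private lemma finrank_adjoin_root {x : ℚbar} {a : K} (hx : x ^ p = algebraMap K ℚbar a)
    (ha : ∀ y : K, y ^ p ≠ a) :
    FiniteDimensional K (IntermediateField.adjoin K {x}) ∧
      Module.finrank K (IntermediateField.adjoin K {x}) = p := by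
  have hint : IsIntegral K x :=
    IsIntegral.of_pow hp.out.pos (by rw [hx]; exact isIntegral_algebraMap (x := a))
  have hirr : Irreducible (Polynomial.X ^ p - Polynomial.C a) :=
    X_pow_sub_C_irreducible_of_prime hp.out ha
  refine ⟨IntermediateField.adjoin.finiteDimensional hint, ?_⟩
  rw [IntermediateField.adjoin.finrank hint,
    ← minpoly.eq_of_irreducible_of_monic hirr (by simp [hx])
      (Polynomial.monic_X_pow_sub_C a hp.out.ne_zero), Polynomial.natDegree_X_pow_sub_C]

/-- With a primitive root of unity below, that extension is normal. -/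
private lemma normal_adjoin_root {ζ : K} (hζ : IsPrimitiveRoot ζ p) {x : ℚbar} {a : K}
    (hx : x ^ p = algebraMap K ℚbar a) (ha : a ≠ 0) :
    Normal K (IntermediateField.adjoin K {x}) := by
  have : IsAlgClosure K ℚbar := ⟨inferInstance, Algebra.IsAlgebraic.tower_top (K := ℚ) K⟩
  have : Normal K ℚbar := IsAlgClosure.normal K ℚbar
  have hζb : IsPrimitiveRoot (algebraMap K ℚbar ζ) p :=
    hζ.map_of_injective (algebraMap K ℚbar).injective
  have hx0 : x ≠ 0 := fun h => ha <| (_root_.map_eq_zero _).mp <| by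
    rw [← hx, h, zero_pow hp.out.ne_zero]
  rw [IntermediateField.normal_iff_forall_map_le']
  intro τ
  rw [IntermediateField.adjoin_map, IntermediateField.adjoin_le_iff]
  rintro _ ⟨z, hz, rfl⟩
  rw [Set.mem_singleton_iff.mp hz]
  obtain ⟨i, -, hi⟩ := hζb.eq_pow_of_pow_eq_one (show (τ x / x) ^ p = 1 by
    rw [div_pow, ← map_pow, hx, AlgEquiv.commutes, div_self]
    exact (_root_.map_ne_zero _).mpr ha)
  rw [eq_div_iff hx0] at hi
  change τ x ∈ IntermediateField.adjoin K {x}
  rw [← hi]
  exact mul_mem (pow_mem (IntermediateField.algebraMap_mem _ ζ) i)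
    (IntermediateField.mem_adjoin_simple_self K _)

namespace IsGlobalAt

variable (hr : IsGlobalAt r K)

include hr

/-- Elements of `K` are fixed. -/
lemma apply_eq {x : ℚbar} (hx : x ∈ K) (g : G) : r g x = x :=
  (IntermediateField.mem_fixingSubgroup_iff K _).mp (hr.range_le g) x hx

/-- A fixed unit lies in `K`. -/
lemma mem_of_fixed {x : QU} (hx : ∀ g, unitsRep r g x = x) : uval x ∈ K :=
  Fermat.CFT.mem_of_fixed fun h hh => by
    obtain ⟨g, rfl⟩ := hr.exists_eq h hh
    exact congrArg uval (hx g)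

/-- Units of `K` as fixed units. -/
def kq : Additive (K : Type)ˣ →+ H0 (unitsRep r) where
  toFun a := ⟨Additive.ofMul (Units.map (K.val : K →* ℚbar) (Additive.toMul a)),
    mem_ker_d₀.mpr fun g => uval_injective (hr.apply_eq (Subtype.prop _) g)⟩
  map_zero' := Subtype.ext (uval_injective (by simp [uval]))
  map_add' a b := Subtype.ext (uval_injective (by simp [uval]))

/-- The value of a unit of `K` seen as a fixed unit. -/
@[simp] lemma uval_kq (a : Additive (K : Type)ˣ) :
    uval (hr.kq a).1 = (((Additive.toMul a : (K : Type)ˣ) : K) : ℚbar) := rfl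

/-- Every fixed unit comes from `K`. -/
lemma exists_kq_eq (b : H0 (unitsRep r)) : ∃ a, hr.kq a = b :=
  ⟨Additive.ofMul (Units.mk0 (⟨uval b.1, hr.mem_of_fixed fun g => H0_fixed b g⟩ : K)
    fun h => uval_ne_zero b.1 (congrArg Subtype.val h)), Subtype.ext (uval_injective rfl)⟩

/-- At a place one gets the group of that place over `K`. -/
lemma isLocalAt (A : ValuationSubring ℚbar) : IsLocalAt (r.comp (placeGrp r A).subtype) A K :=
  ⟨fun g => ⟨g.2, hr.range_le g⟩, fun x hx N hN => by
    obtain ⟨g, rfl⟩ := hr.exists_eq x hx.2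
    exact ⟨⟨g, hx.1⟩, by simp⟩⟩

/-- An open subgroup is the Galois group of a finite extension. -/
theorem exists_sub [FiniteDimensional ℚ K] {H : Subgroup G} (hH : ContainsLevel (glev r) H) :
    ∃ K' : IntermediateField ℚ ℚbar, FiniteDimensional ℚ K' ∧ K ≤ K' ∧
      IsGlobalAt (r.comp H.subtype) K' := by
  obtain ⟨_, ⟨_, ⟨E₀, hE₀, -, -, rfl⟩, rfl⟩, hle⟩ := hH
  obtain ⟨E, hE, hEn, hE₀E, -⟩ := exists_field_containing (K ⊔ E₀) Set.finite_empty
  set X : Subgroup Γℚ := H.map r with hX
  set K' : IntermediateField ℚ ℚbar := E ⊓ IntermediateField.fixedField X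
  have : FiniteDimensional ℚ K' := FiniteDimensional.of_injective
    (IntermediateField.inclusion (inf_le_left : K' ≤ E)).toLinearMap
    (IntermediateField.inclusion (inf_le_left : K' ≤ E)).injective
  have hKK' : K ≤ K' := le_inf (le_sup_left.trans hE₀E) fun x hx g => by
    obtain ⟨g, h, -, rfl⟩ := g
    exact hr.apply_eq hx h
  refine ⟨K', inferInstance, hKK', fun g => ?_, fun x hx => ?_⟩
  · change r g ∈ K'.fixingSubgroup
    rw [IntermediateField.mem_fixingSubgroup_iff]
    exact fun y hy => hy.2 ⟨r g, _, g.2, rfl⟩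
  -- the restriction of `x` to `E` comes from `H`
  have hxX : AlgEquiv.restrictNormalHom E x ∈ X.map (AlgEquiv.restrictNormalHom E) := by
    rw [← IntermediateField.fixingSubgroup_fixedField (X.map (AlgEquiv.restrictNormalHom E)),
      IntermediateField.mem_fixingSubgroup_iff]
    intro y hy
    refine Subtype.ext ((AlgEquiv.restrictNormal_commutes x E y).trans
      ((IntermediateField.mem_fixingSubgroup_iff K' _).mp hx _ ⟨y.2, fun g => ?_⟩))
    have h1 := hy ⟨_, Subgroup.mem_map_of_mem _ g.2⟩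
    exact (AlgEquiv.restrictNormal_commutes (g : Γℚ) E y).symm.trans (congrArg Subtype.val h1)
  obtain ⟨_, ⟨g₀, hg₀, rfl⟩, e⟩ := hxX
  obtain ⟨g, rfl⟩ := hr.exists_eq x (IntermediateField.fixingSubgroup_le hKK' hx)
  have h1 : g₀⁻¹ * g ∈ H := hle (show r (g₀⁻¹ * g) ∈ E₀.fixingSubgroup from
    IntermediateField.fixingSubgroup_le ((le_sup_right (a := K)).trans hE₀E) (by
      rw [← restrict_eq_one_iff, map_mul, map_inv, map_mul, map_inv, e, inv_mul_cancel]))
  have := H.mul_mem hg₀ h1
  rw [mul_inv_cancel_left] at this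
  exact ⟨⟨g, this⟩, rfl⟩

variable [FiniteDimensional ℚ K] (hχ : ∀ g, cycHom p r g = 1)

include hχ

omit [FiniteDimensional ℚ K] in
/-- With trivial cyclotomic character the roots of unity of order `p` lie in `K`. -/
lemma zetaU_mem : uval (zetaU p) ∈ K := hr.mem_of_fixed fun g => by
  have h := unitsRep_zpw (r := r) (p := p) g 1
  have h2 : zpw p (1 : ZMod p) = zetaU p := by
    have := zpw_natCast (p := p) 1
    rwa [Nat.cast_one, one_smul] at this
  simpa [hχ g, h2] using h

/-- A norm from `K(α)`, `α ^ p = a`, has trivial symbol with `a`. -/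
private lemma lsym_eq_zero_of_norm {a c : Additive (K : Type)ˣ} {α : QU}
    (hα : p • α = (hr.kq a).1) [FiniteDimensional K (IntermediateField.adjoin K {uval α})]
    [IsGalois K (IntermediateField.adjoin K {uval α})]
    (hF : Module.finrank K (IntermediateField.adjoin K {uval α}) = p)
    {σ : IntermediateField.adjoin K {uval α} ≃ₐ[K] IntermediateField.adjoin K {uval α}}
    (hσ1 : σ ≠ 1) {g₀ : G}
    (hσapp : ∀ y : IntermediateField.adjoin K {uval α}, ((σ y :
      IntermediateField.adjoin K {uval α}) : ℚbar) = r g₀ (y : ℚbar))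
    (hψ0 : (toZHom hχ (rootCocycle (r := r) (isRoot_of_eq (p := p) (hr.kq a) hα))).1 g₀ = 1)
    {y : IntermediateField.adjoin K {uval α}} (hy : y ≠ 0)
    (hcy : ((Additive.toMul c : (K : Type)ˣ) : K) = Algebra.norm K y) :
    lsym hχ (kum p r (hr.kq c)) (kum p r (hr.kq a)) = 0 := by
  classical
  have : NumberField (IntermediateField.adjoin K {uval α}) :=
    NumberField.of_module_finite K _
  set f := rootCocycle (r := r) (isRoot_of_eq (p := p) (hr.kq a) hα) with hf
  have hfa : kum p r (hr.kq a) = cl₁ (glev r) (charRep (cycHom p r)) f := kum_root _ hα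
  set ψ := toZHom hχ f with hψ
  -- the kernel of the character of `a` fixes `α`
  have hker : ∀ g, g ∈ homKer ψ → r g (uval α) = uval α := fun g hg => by
    rw [mem_homKer, toZHom_apply, ← zpw_injective.eq_iff, map_zero, hf, zpw_rootCocycle, d₀_apply,
      sub_eq_zero, ← uval_injective.eq_iff, uval_unitsRep] at hg
    exact hg
  have hσpow : ∀ (k : ℕ) (y : IntermediateField.adjoin K {uval α}),
      (((σ ^ k) y : IntermediateField.adjoin K {uval α}) : ℚbar) = r (g₀ ^ k) (y : ℚbar) := by
    intro k y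
    induction k with
    | zero => rw [pow_zero, pow_zero, map_one]; rfl
    | succ k ih =>
      rw [pow_succ', pow_succ', map_mul, AlgEquiv.mul_apply, AlgEquiv.mul_apply, hσapp, ih]
  have hy0 : (y : ℚbar) ≠ 0 := fun h => hy (Subtype.ext h)
  -- the cup product with a norm from the fixed field vanishes
  rw [hfa, ← cycCup_toZHom, cycCup_eq_zero_iff _ hψ0]
  refine ⟨ofVal _ hy0, fun g hg => uval_injective ?_, uval_injective ?_⟩
  · rw [uval_unitsRep, uval_ofVal]
    exact apply_eq_of_mem_adjoin (fun x hx => hr.apply_eq hx g) (hker g hg) y.2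
  · have e := congrArg (IntermediateField.adjoin K {uval α}).val
      (algebraMap_norm_eq_prod_pow hF hσ1 y)
    rw [map_prod] at e
    simp only [IntermediateField.coe_val, hσpow] at e
    rw [hr.uval_kq, hcy]
    refine Eq.trans ?_ e.symm
    clear e
    induction Finset.range p using Finset.induction with
    | empty => simp
    | insert k s hk ih => rw [Finset.sum_insert hk, Finset.prod_insert hk, uval_add, ih,
        uval_unitsRep, uval_ofVal]

/-- An element of trivial symbol with `a` at every place is a local norm from `K(α)` at the places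
not split there. -/
private lemma mem_localNorms_of_lsym (h2 : 2 < p) {a b : Additive (K : Type)ˣ}
    (hloc : ∀ (ℓ : ℕ) (A : ValuationSubring ℚbar), ℓ.Prime → A.LiesOverPrime ℓ →
      map₂ (isLevelsHom_glev r (placeGrp r A).subtype) (cycHom_equivariant r (placeGrp r A).subtype)
        (lsym hχ (kum p r (hr.kq b)) (kum p r (hr.kq a))) = 0)
    {F : IntermediateField K ℚbar} [NumberField F] [IsGalois K F]
    {ζ : K} (hζ : IsPrimitiveRoot ζ p) (hF : Module.finrank K F = p) {σ : F ≃ₐ[K] F} (hσ1 : σ ≠ 1)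
    {β : F} (hβ : β ^ p = algebraMap K F (Additive.toMul a : (K : Type)ˣ))
    (hσβ : σ β = algebraMap K F ζ * β)
    (hnorm : ∀ (c : Additive (K : Type)ˣ) (y : F), y ≠ 0 →
      ((Additive.toMul c : (K : Type)ˣ) : K) = Algebra.norm K y →
      lsym hχ (kum p r (hr.kq c)) (kum p r (hr.kq a)) = 0)
    {v : Pl K} (hv : IsNonsplit σ v) :
    (Additive.toMul b : (K : Type)ˣ) ∈ localNorms p ζ F v := by
  classical
  obtain ⟨ℓ, hℓ, hℓv⟩ := exists_prime_natCast_mem v
  obtain ⟨B, hB, rfl⟩ := exists_plBelow_eq (L := K) hℓ v hℓv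
  have hl := hr.isLocalAt B
  have hres : ∀ c : Additive (K : Type)ˣ, map₁ (isLevelsHom_glev r (placeGrp r B).subtype)
      (cycHom_equivariant r (placeGrp r B).subtype) (kum p r (hr.kq c)) = hl.kumK p c := fun c => by
    rw [map₁_kum]; rfl
  -- restricted to the place the symbol is the local symbol
  have hmap : ∀ c : Additive (K : Type)ˣ,
      map₂ (isLevelsHom_glev r (placeGrp r B).subtype) (cycHom_equivariant r (placeGrp r B).subtype)
        (lsym hχ (kum p r (hr.kq c)) (kum p r (hr.kq a))) =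
      lsym (hl.cycHom_eq_one hζ) (hl.kumK p c) (hl.kumK p a) := fun c => by
    rw [← hres, ← hres]
    obtain ⟨z, hz⟩ := cl₁_surjective (kum p r (hr.kq c))
    obtain ⟨z', hz'⟩ := cl₁_surjective (kum p r (hr.kq a))
    rw [← hz, ← hz']
    exact cl₂_congr fun g g' => rfl
  have ha0 : hl.kumK p a ≠ 0 := fun h =>
    not_isNonsplit_of_mem_localPowers hζ hβ hσβ
      ((hl.kumK_eq_zero_iff hℓ hB hζ a).mp h) hv
  -- the local norm group has index `p` and contains the global norms, so equals theirs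
  obtain ⟨N, hNi, hlp, hN⟩ := hl.exists_localNorms hℓ hB hζ h2 a ha0
  have hle : localNorms p ζ F (plBelow K hℓ hB) ≤ N := by
    refine sup_le ?_ hlp
    rintro _ ⟨y, rfl⟩
    refine (hN (Additive.ofMul (Units.map (Algebra.norm K : F →* K) y))).mp ?_
    rw [← hmap, hnorm _ (y : F) y.ne_zero rfl, map_zero]
  have heq : N ≤ localNorms p ζ F (plBelow K hℓ hB) := by
    rw [← Subgroup.relIndex_eq_one]
    have h5 := Subgroup.relIndex_mul_index hle
    rw [hNi, Fermat.CFT.index_localNorms hF hσ1 hζ h2 hv] at h5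
    exact Nat.eq_of_mul_eq_mul_right hp.out.pos (h5.trans (one_mul _).symm)
  exact heq ((hN b).mp (by rw [← hmap]; exact hloc ℓ B hℓ hB))

/-- A symbol which vanishes at every place is zero. -/
theorem lsym_eq_zero (h2 : 2 < p) (a b : Additive (K : Type)ˣ)
    (hloc : ∀ (ℓ : ℕ) (A : ValuationSubring ℚbar), ℓ.Prime → A.LiesOverPrime ℓ →
      map₂ (isLevelsHom_glev r (placeGrp r A).subtype) (cycHom_equivariant r (placeGrp r A).subtype)
        (lsym hχ (kum p r (hr.kq b)) (kum p r (hr.kq a))) = 0) :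
    lsym hχ (kum p r (hr.kq b)) (kum p r (hr.kq a)) = 0 := by
  classical
  rcases eq_or_ne (kum p r (hr.kq a)) 0 with h0 | h0
  · rw [h0, map_zero]
  set ζ : K := ⟨uval (zetaU p), hr.zetaU_mem hχ⟩
  have hζ : IsPrimitiveRoot ζ p :=
    IsPrimitiveRoot.of_map_of_injective (f := K.val) (zetaU_spec p) Subtype.val_injective
  set au : (K : Type)ˣ := Additive.toMul a
  obtain ⟨α, hα⟩ := exists_root p (hr.kq a).1
  have hαp : uval α ^ p = ((au : K) : ℚbar) := by rw [← uval_nsmul, hα, hr.uval_kq]
  have hanp : ∀ x : K, x ^ p ≠ (au : K) := by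
    intro x hx
    have hx0 : x ≠ 0 := fun h => au.ne_zero (by rw [← hx, h, zero_pow hp.out.ne_zero])
    refine h0 (kum_eq_zero_iff.mpr ⟨hr.kq (Additive.ofMul (Units.mk0 x hx0)),
      Subtype.ext (uval_injective ?_)⟩)
    change uval (p • (hr.kq _).1) = _
    rw [uval_nsmul, hr.uval_kq, hr.uval_kq, ← hx]
    rfl
  -- the extension
  have hαK : uval α ^ p = algebraMap K ℚbar (au : K) := hαp
  set F : IntermediateField K ℚbar := IntermediateField.adjoin K {uval α}
  have hαF : uval α ∈ F := IntermediateField.mem_adjoin_simple_self K _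
  obtain ⟨_, hF⟩ := finrank_adjoin_root hαK hanp
  have : NumberField F := NumberField.of_module_finite K F
  have : Normal K F := normal_adjoin_root hζ hαK au.ne_zero
  have : IsGalois K F := ⟨⟩
  set β : F := ⟨uval α, hαF⟩
  have hβ : β ^ p = algebraMap K F (au : K) := Subtype.ext hαK
  obtain ⟨σ, hσ1, hσβ⟩ := exists_aut_mul_root hζ hβ hanp
  obtain ⟨σK, hσK⟩ := AlgEquiv.restrictNormalHom_surjective ℚbar σ
  obtain ⟨g₀, hg₀⟩ := hr.exists_eq (σK.restrictScalars ℚ)
    ((IntermediateField.mem_fixingSubgroup_iff K _).mpr fun x hx => σK.commutes ⟨x, hx⟩)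
  have hσapp : ∀ y : F, ((σ y : F) : ℚbar) = r g₀ (y : ℚbar) := fun y => by
    rw [hg₀, ← hσK]
    exact AlgEquiv.restrictNormal_commutes σK F y
  -- the cocycle
  set f := rootCocycle (r := r) (isRoot_of_eq (p := p) (hr.kq a) hα) with hf
  set ψ := toZHom hχ f with hψ
  have hψ0 : ψ.1 g₀ = 1 := by
    refine zpw_injective ?_
    rw [toZHom_apply, hf, zpw_rootCocycle, d₀_apply]
    have h2 : zpw p (1 : ZMod p) = zetaU p := by
      have := zpw_natCast (p := p) 1
      rwa [Nat.cast_one, one_smul] at this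
    rw [h2, sub_eq_iff_eq_add]
    refine uval_injective ?_
    rw [uval_unitsRep, uval_add, ← hσapp β, hσβ]
    rfl
  -- norms have trivial symbol
  have hnorm : ∀ (c : Additive (K : Type)ˣ) (y : F), y ≠ 0 →
      ((Additive.toMul c : (K : Type)ˣ) : K) = Algebra.norm K y →
      lsym hχ (kum p r (hr.kq c)) (kum p r (hr.kq a)) = 0 :=
    fun c y hy hcy => hr.lsym_eq_zero_of_norm hχ hα hF hσ1 hσapp hψ0 hy hcy
  -- local norms everywhere
  set bu : (K : Type)ˣ := Additive.toMul b
  have hbloc : ∀ v : Pl K, IsNonsplit σ v → bu ∈ localNorms p ζ F v :=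
    fun v hv => hr.mem_localNorms_of_lsym hχ h2 hloc hζ hF hσ1 hβ hσβ hnorm hv
  obtain ⟨y, hy⟩ := exists_norm_eq_of_localNorms hF hσ1 hζ h2 bu.ne_zero
    fun v hv => (Units.mk0_val bu bu.ne_zero).symm ▸ hbloc v hv
  refine hnorm b y (fun h => bu.ne_zero ?_) hy.symm
  rw [← hy, h, Algebra.norm_zero]

end IsGlobalAt

/-! ### The induction -/

/-- Local triviality passes to subgroups. -/
lemma LocZero.res {R : Type} [CommRing R] {M : Type} [AddCommGroup M] [Module R M] {L : Levels G}
    {ρ : Representation R G M} {c : H2 L ρ} (hc : LocZero L ρ r c) (H : Subgroup G) :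
    LocZero (subLevels L H) (ρ.comp H.subtype) (r.comp H.subtype) (res₂ L ρ H c) := by
  intro ℓ A hℓ hA
  let j : placeGrp (r.comp H.subtype) A →* placeGrp r A :=
    MonoidHom.mk' (fun x => ⟨x.1.1, x.2⟩) fun _ _ => rfl
  have hj : IsLevelsHom (subLevels L (placeGrp r A))
      (subLevels (subLevels L H) (placeGrp (r.comp H.subtype) A)) j := by
    rintro _ ⟨N', hN', rfl⟩
    exact ⟨_, ⟨_, ⟨N', hN', rfl⟩, rfl⟩, fun x hx => hx⟩
  have hje : IsEquivariant (ρ.comp (placeGrp r A).subtype)
      ((ρ.comp H.subtype).comp (placeGrp (r.comp H.subtype) A).subtype) j LinearMap.id :=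
    fun _ _ => rfl
  have h := congrArg (map₂ hj hje) (hc ℓ A hℓ hA)
  rw [map_zero] at h
  obtain ⟨z, rfl⟩ := cl₂_surjective c
  exact h

/-- The inductive step of the Hasse principle. -/
theorem IsGlobalAt.eq_zero_of_split (hr : IsGlobalAt r K) [FiniteDimensional ℚ K] (h2 : 2 < p)
    (hχ : ∀ g, cycHom p r g = 1) (z : Z1 (glev r) (triv p G))
    (hz : cl₁ (glev r) (triv p G) z ≠ 0) {c : H2 (glev r) (triv p G)}
    (hc : res₂ (glev r) (triv p G) (homKer z) c = 0) (hloc : LocZero (glev r) (triv p G) r c) :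
    c = 0 := by
  set e₂ := map₂ (IsLevelsHom.id (glev r)) (triv_charRep_equivariant (p := p) hχ) with he₂
  have hb₂ : Function.Bijective e₂ := map₂_bijective _ Function.bijective_id
  obtain ⟨g₁, hg₁⟩ : ∃ g, z.1 g ≠ 0 := by
    by_contra hno
    push Not at hno
    exact hz (cl₁_eq_zero.mpr ⟨0, by rw [map_zero]; exact (funext hno).symm⟩)
  -- `c` dies on the kernel of the surjective character `z`
  set ψ : ZHom p r := z with hψ
  have hσ : ψ.1 (g₁ ^ ((z.1 g₁)⁻¹).val) = 1 := by
    rw [triv_pow, ZMod.natCast_zmod_val, inv_mul_cancel₀ hg₁]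
  have hc' : zres ψ (e₂ c) = 0 := zres_map₂_eq_zero_of_res₂ hχ z hc
  -- so it is a symbol, and symbols satisfy the Hasse principle
  obtain ⟨b, hb⟩ := exists_cycCup_eq ψ hσ hc'
  set f : Z1 (glev r) (charRep (cycHom p r)) :=
    mapZ1 (IsLevelsHom.id (glev r)) (triv_charRep_equivariant (p := p) hχ) z
  have hψf : toZHom hχ f = ψ := Subtype.ext rfl
  obtain ⟨a₀, ha₀⟩ := kum_surjective (cl₁ (glev r) (charRep (cycHom p r)) f)
  obtain ⟨a, rfl⟩ := hr.exists_kq_eq a₀
  obtain ⟨b', rfl⟩ := hr.exists_kq_eq b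
  rw [← hψf, cycCup_toZHom, ← ha₀] at hb
  refine hb₂.injective ?_
  rw [map_zero, ← hb]
  refine hr.lsym_eq_zero hχ h2 a b' fun ℓ A hℓ hA => ?_
  rw [hb]
  have hje' : IsEquivariant ((triv p G).comp (placeGrp r A).subtype)
      (charRep (cycHom p (r.comp (placeGrp r A).subtype))) (MonoidHom.id _)
      (LinearMap.id : ZMod p →ₗ[ZMod p] ZMod p) := fun h x => by
    change x = charRep (cycHom p r) (h : G) x
    simp [hχ (h : G)]
  have hj' : IsLevelsHom (subLevels (glev r) (placeGrp r A))
      (glev (r.comp (placeGrp r A).subtype)) (MonoidHom.id _) := by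
    rintro _ ⟨_, ⟨N, hN, rfl⟩, rfl⟩
    exact ⟨_, ⟨N, hN, rfl⟩, fun x hx => hx⟩
  have h := congrArg (map₂ hj' hje') (hloc ℓ A hℓ hA)
  rw [map_zero] at h
  obtain ⟨w, rfl⟩ := cl₂_surjective c
  exact h

/-- The Hasse principle for classes split by a level of `p`-power index, `p` odd. -/
lemma hasse_of_level (h2 : 2 < p) : ∀ (k : ℕ) {G : Type} [Group G] {r : G →* Γℚ}
    {K : IntermediateField ℚ ℚbar} [FiniteDimensional ℚ K], IsGlobalAt r K →
    (∀ g, cycHom p r g = 1) → ∀ (L : Levels G), L = glev r →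
    ∀ (N : Subgroup G), L.IsLevel N → N.index = p ^ k → ∀ c : H2 L (triv p G),
      res₂ L (triv p G) N c = 0 → LocZero L (triv p G) r c → c = 0 := by
  intro k
  induction k with
  | zero =>
    intro G _ r K _ _ _ L _ N hN hk c hc _
    have := L.finiteIndex N hN
    exact res₂_eq_zero ⟨N, hN, le_rfl⟩ (isSmooth_trivial L)
      (by rw [hk, pow_zero, Nat.cast_one]; exact isUnit_one) hc
  | succ k ih =>
    intro G _ r K _ hr hχ L hL N hN hk c hc hloc
    subst hL
    obtain ⟨z, hz, hzidx, hNz⟩ := exists_homKer_ge hN hk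
    set M := homKer z
    have hM := containsLevel_homKer z
    have hNidx : (N.comap M.subtype).index = p ^ k := by
      have h1 := Subgroup.relIndex_mul_index hNz
      rw [hk, hzidx, pow_succ] at h1
      exact Nat.eq_of_mul_eq_mul_right hp.out.pos h1
    obtain ⟨K', hK', -, hr'⟩ := hr.exists_sub hM
    exact hr.eq_zero_of_split h2 hχ z hz
      (ih hr' (fun g => hχ g) (subLevels (glev r) M) (Levels.comap_comap _ _ _)
        (N.comap M.subtype) ⟨N, hN, rfl⟩ hNidx _ (res₂_comap_eq_zero hc) (hloc.res M)) hloc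

/-- **The Hasse principle**, when the cyclotomic character is trivial. -/
theorem IsGlobalAt.hasse_triv (hr : IsGlobalAt r K) [FiniteDimensional ℚ K] (h2 : 2 < p)
    (hχ : ∀ g, cycHom p r g = 1) {c : H2 (glev r) (triv p G)}
    (hloc : LocZero (glev r) (triv p G) r c) : c = 0 := by
  obtain ⟨N, hN, hc⟩ := exists_res₂_eq_zero c
  obtain ⟨P, k, hNP, hPf, hPd, hPk⟩ := exists_sylow_above (p := p) hN
  have hP : ContainsLevel (glev r) P := ⟨N, hN, hNP⟩
  obtain ⟨K', hK', -, hr'⟩ := hr.exists_sub hP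
  refine res₂_eq_zero hP (isSmooth_trivial _) (isUnit_index hPd) ?_
  exact hasse_of_level h2 k hr' (fun g => hχ g) (subLevels (glev r) P) (Levels.comap_comap _ _ _)
    (N.comap P.subtype) ⟨N, hN, rfl⟩ hPk _ (res₂_comap_eq_zero hc) (hloc.res P)

/-- **The Hasse principle** for `μ_p`. -/
theorem IsGlobalAt.hasse (hr : IsGlobalAt r K) [FiniteDimensional ℚ K] (h2 : 2 < p)
    {c : H2 (glev r) (charRep (cycHom p r))}
    (hloc : LocZero (glev r) (charRep (cycHom p r)) r c) : c = 0 := by
  set H := (cycHom p r).ker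
  have hH : ContainsLevel (glev r) H := charSmooth_cycHom r
  have : H.FiniteIndex := hH.finiteIndex
  obtain ⟨K', hK', -, hr'⟩ := hr.exists_sub hH
  refine res₂_eq_zero hH (isSmooth_charRep (charSmooth_cycHom r))
    (isUnit_index (not_dvd_of_dvd_pred (index_ker_dvd _))) ?_
  -- transport to the trivial line
  have hje : IsEquivariant ((charRep (cycHom p r)).comp H.subtype) (triv p H) (MonoidHom.id H)
      (LinearMap.id : ZMod p →ₗ[ZMod p] ZMod p) := fun h a => by
    have h1 : cycHom p r (h : G) = 1 := h.2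
    simp [h1]
  have hj : IsLevelsHom (subLevels (glev r) H) (glev (r.comp H.subtype)) (MonoidHom.id H) := by
    rintro _ ⟨_, ⟨N, hN, rfl⟩, rfl⟩
    exact ⟨_, ⟨N, hN, rfl⟩, fun x hx => hx⟩
  have hje' : IsEquivariant (triv p H) ((charRep (cycHom p r)).comp H.subtype) (MonoidHom.id H)
      (LinearMap.id : ZMod p →ₗ[ZMod p] ZMod p) := fun h a => by
    have h1 : cycHom p r (h : G) = 1 := h.2
    simp [h1]
  have hj' : IsLevelsHom (glev (r.comp H.subtype)) (subLevels (glev r) H) (MonoidHom.id H) := by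
    rintro _ ⟨N, hN, rfl⟩
    exact ⟨_, ⟨_, ⟨N, hN, rfl⟩, rfl⟩, fun x hx => hx⟩
  have hzero : map₂ hj hje (res₂ (glev r) (charRep (cycHom p r)) H c) = 0 := by
    refine hr'.hasse_triv h2 (fun g => g.2) ?_
    intro ℓ A hℓ hA
    have h1 := hloc.res H ℓ A hℓ hA
    have hje'' : IsEquivariant
        (((charRep (cycHom p r)).comp H.subtype).comp (placeGrp (r.comp H.subtype) A).subtype)
        ((triv p H).comp (placeGrp (r.comp H.subtype) A).subtype) (MonoidHom.id _)
        (LinearMap.id : ZMod p →ₗ[ZMod p] ZMod p) := fun x a => hje x.1 a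
    have hj'' : IsLevelsHom (subLevels (subLevels (glev r) H) (placeGrp (r.comp H.subtype) A))
        (subLevels (glev (r.comp H.subtype)) (placeGrp (r.comp H.subtype) A)) (MonoidHom.id _) := by
      rintro _ ⟨_, ⟨_, ⟨N, hN, rfl⟩, rfl⟩, rfl⟩
      exact ⟨_, ⟨_, ⟨N, hN, rfl⟩, rfl⟩, fun x hx => hx⟩
    have h := congrArg (map₂ hj'' hje'') h1
    rw [map_zero] at h
    obtain ⟨w, rfl⟩ := cl₂_surjective c
    exact h
  have h := congrArg (map₂ hj' hje') hzero
  rw [map_zero] at h
  obtain ⟨w, rfl⟩ := cl₂_surjective c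
  exact h

end Fermat.CFT
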