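import Fermat.Agent.CFT.Global.Orbit
import Fermat.Agent.CFT.Global.Devissage

/-!
# The induced dual pair of a Galois field

The functions on `Gal(K/ℚ)` with values in `(ℤ/p)^ι` are self-dual with values in `μ_p`.
Localisation at `T` is injective in degrees one and two and its image in degree one is a maximal
isotropic subspace.
-/

set_option autoImplicit false
set_option linter.unusedSectionVars false

noncomputable section

open NumberField ExtCitation Fermat.CFT.Coh
open scoped Pointwise

namespace Fermat.CFT

local notation "ℚbar" => AlgebraicClosure ℚ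
local notation "Γℚ" => (AlgebraicClosure ℚ ≃ₐ[ℚ] AlgebraicClosure ℚ)

variable {p : ℕ} [hp : Fact p.Prime] {K : IntermediateField ℚ ℚbar} [FiniteDimensional ℚ K]
  [Normal ℚ K] {ι : Type} {T : Finset Nat.Primes}

/-- The cosets form a finite type. -/
local instance fintypeCosetsK : Fintype (Γℚ ⧸ K.fixingSubgroup) :=
  Subgroup.fintypeQuotientOfFiniteIndex

/-! ### Multipliers -/

/-- Pointwise multiplication. -/
def mulK (m : (Γℚ ⧸ K.fixingSubgroup) → ι → ZMod p) : IndK p K ι →ₗ[ZMod p] IndK p K ι :=
  LinearMap.mul (ZMod p) ((Γℚ ⧸ K.fixingSubgroup) → ι → ZMod p) m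

/-- Pointwise multiplication, evaluated. -/
@[simp] lemma mulK_apply (m : (Γℚ ⧸ K.fixingSubgroup) → ι → ZMod p) (f : IndK p K ι)
    (y : Γℚ ⧸ K.fixingSubgroup) (i : ι) : mulK m f y i = m y i * f y i := rfl

/-- A multiplier invariant under a decomposition group is equivariant for it. -/
lemma mulK_equivariant (v : Nat.Primes) {m : (Γℚ ⧸ K.fixingSubgroup) → ι → ZMod p}
    (hm : ∀ d : decAt v, ∀ y, m ((d : Γℚ) • y) = m y) :
    IsEquivariant (repAt v (indK p K ι)) (repAt v (indK p K ι)) (MonoidHom.id _) (mulK m) :=
  fun d f => funext fun y => funext fun i => by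
    have h := hm d⁻¹ y
    rw [Subgroup.coe_inv] at h
    change m y i * f ((d : Γℚ)⁻¹ • y) i = m ((d : Γℚ)⁻¹ • y) i * f ((d : Γℚ)⁻¹ • y) i
    rw [h]

variable [Fintype ι]

/-- A pairing for which multipliers are self-adjoint. -/
def IsDiag (D : DualPair T (indK p K ι) (indK p K ι)) : Prop :=
  ∀ m f f', D.P (mulK m f) f' = D.P f (mulK m f')

/-- Being diagonal is symmetric in the two arguments. -/
lemma IsDiag.flip {D : DualPair T (indK p K ι) (indK p K ι)} (hD : IsDiag D) : IsDiag D.flip :=
  fun m f f' => (hD m f' f).symm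

/-! ### The pair -/

variable (hT : IsAdmissible p K T)

include hT

/-- The subgroup fixing `K` contains a level unramified outside `T`. -/
lemma containsLevel_fixing : ContainsLevel (galLevels (T : Set Nat.Primes)) K.fixingSubgroup :=
  exists_galLevel_le K hT.unram

/-- The cyclotomic character depends only on the coset of the subgroup fixing `K`. -/
lemma cycloChar_eq_of_coset {g h : Γℚ}
    (he : (g : Γℚ ⧸ K.fixingSubgroup) = (h : Γℚ ⧸ K.fixingSubgroup)) :
    cycloChar p g = cycloChar p h := by
  have h1 : cycloChar p (g⁻¹ * h) = 1 := hT.cycHom_eq_one ⟨g⁻¹ * h, QuotientGroup.eq.mp he⟩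
  rw [map_mul, map_inv, inv_mul_eq_one] at h1
  exact h1

omit hT in
/-- The cyclotomic weight of a coset. -/
def cosetChi (p : ℕ) [Fact p.Prime] {K : IntermediateField ℚ ℚbar}
    (x : Γℚ ⧸ K.fixingSubgroup) : (ZMod p)ˣ := cycloChar p x.out

/-- Translation multiplies the weight of a coset by the cyclotomic character. -/
lemma cosetChi_smul (g : Γℚ) (x : Γℚ ⧸ K.fixingSubgroup) :
    cosetChi p (g • x) = cycloChar p g * cosetChi p x := by
  rw [cosetChi, cosetChi, ← map_mul]
  refine cycloChar_eq_of_coset hT ?_
  rw [QuotientGroup.out_eq']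
  conv_lhs => rw [← QuotientGroup.out_eq' x]
  rfl

omit hT in
variable (p K ι) in
/-- The bilinear form of the self-duality. -/
def indForm : IndK p K ι →ₗ[ZMod p] IndK p K ι →ₗ[ZMod p] ZMod p :=
  LinearMap.mk₂ (ZMod p)
    (fun f f' => ∑ x, (cosetChi p x : ZMod p) * ∑ i, f x i * f' x i)
    (fun f f₂ f' => by simp [add_mul, mul_add, Finset.sum_add_distrib])
    (fun c f f' => by simp [Finset.mul_sum, mul_left_comm, mul_assoc])
    (fun f f' f₂ => by simp [mul_add, Finset.sum_add_distrib])
    (fun c f f' => by simp [Finset.mul_sum, mul_left_comm])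

omit hT in
/-- The form of the self-duality, evaluated. -/
lemma indForm_apply (f f' : IndK p K ι) :
    indForm p K ι f f' = ∑ x, (cosetChi p x : ZMod p) * ∑ i, f x i * f' x i := rfl

omit hT in
/-- The form of the self-duality is non-degenerate. -/
lemma indForm_injective : Function.Injective (indForm p K ι) := by
  classical
  refine (injective_iff_map_eq_zero _).mpr fun f hf => funext fun x => funext fun i => ?_
  have h := LinearMap.congr_fun hf (Pi.single x (Pi.single i 1))
  rw [LinearMap.zero_apply, indForm_apply, Finset.sum_eq_single x,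
    Finset.sum_eq_single i] at h
  · simpa using h
  · intro j _ hj
    simp [hj]
  · simp
  · intro y _ hy
    simp [hy]
  · simp

variable (ι) in
/-- The self-duality of the induced module. -/
def indPair : DualPair T (indK p K ι) (indK p K ι) where
  P := indForm p K ι
  isPairing g f f' := by
    rw [indForm_apply, indForm_apply, charRep_apply, Finset.mul_sum]
    refine (Fintype.sum_equiv (MulAction.toPerm g) _ _ fun x => ?_).symm
    simp only [MulAction.toPerm_apply, indRep_apply, Representation.trivial_apply, inv_smul_smul,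
      cosetChi_smul hT, Units.val_mul]
    ring
  bij := ⟨indForm_injective,
    (LinearMap.injective_iff_surjective_of_finrank_eq_finrank
      Subspace.dual_finrank_eq.symm).mp indForm_injective⟩
  smooth := isSmooth_indRep (containsLevel_fixing hT) (isSmooth_trivial _)
  smooth' := isSmooth_indRep (containsLevel_fixing hT) (isSmooth_trivial _)
  mem := hT.mem

/-- The self-duality of the induced module is diagonal. -/
lemma indPair_isDiag : IsDiag (indPair ι hT) := fun m f f' => by
  change indForm p K ι _ _ = indForm p K ι _ _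
  simp only [indForm_apply, mulK_apply]
  exact Finset.sum_congr rfl fun x _ => congrArg _ (Finset.sum_congr rfl fun i _ => by ring)

/-! ### Injectivity -/

/-- Localisation in degree one of the induced module is injective. -/
theorem loc₁_indK_injective (h2 : 2 < p) : Function.Injective (loc₁ T (indK p K ι)) := by
  refine (injective_iff_map_eq_zero _).mpr fun c hc =>
    eq_zero_of_gcomp₁ (containsLevel_fixing hT) fun i => eq_zero_of_kloc₁ hT h2 fun w hw => ?_
  rw [kloc₁_gcomp₁ w (mem_plsOver.mp hw), hc]
  exact (wcomp₁ w rfl i).map_zero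

/-- Localisation in degree two of the induced module is injective. -/
theorem loc₂_indK_injective (h2 : 2 < p) : Function.Injective (loc₂ T (indK p K ι)) := by
  refine (injective_iff_map_eq_zero _).mpr fun c hc =>
    eq_zero_of_gcomp₂ (containsLevel_fixing hT) fun i => subToUniv₂_injective hT ?_
  rw [map_zero]
  refine (isGlobalAt_subtype K).hasse_triv h2 hT.cycHom_eq_one fun ℓ A hℓ hA => ?_
  have h := res₂_eq_zero_of_loc₂ h2 (isSmooth_indRep (containsLevel_fixing hT) (isSmooth_trivial _))
    hc hℓ hA
  set Q := placeGrp K.fixingSubgroup.subtype A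
  let j : Q →* placeGrp (MonoidHom.id Γℚ) A :=
    MonoidHom.mk' (fun x => ⟨x.1.1, x.2⟩) fun _ _ => rfl
  have hj : IsLevelsHom (subLevels (glev (MonoidHom.id Γℚ)) (placeGrp (MonoidHom.id Γℚ) A))
      (subLevels (glev K.fixingSubgroup.subtype) Q) j := by
    rintro _ ⟨_, ⟨N, hN, rfl⟩, rfl⟩
    exact ⟨_, ⟨_, ⟨N, hN, rfl⟩, rfl⟩, fun x hx => hx⟩
  have hje : IsEquivariant ((indK p K ι).comp (placeGrp (MonoidHom.id Γℚ) A).subtype)
      ((triv p K.fixingSubgroup).comp Q.subtype) j
      (evQ p ((1 : Γℚ) : Γℚ ⧸ K.fixingSubgroup) i) := fun g f =>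
    evQ_equivariant K.fixingSubgroup.subtype (fun g => g.2) _ i g.1 f
  have h' := congrArg (map₂ hj hje) h
  rw [map_zero] at h'
  obtain ⟨z, rfl⟩ := cl₂_surjective c
  simp only [gcomp₂, res₂, map₂_cl₂] at h' ⊢
  rw [← h']
  refine congrArg _ (Subtype.ext (funext₂ fun g g' => ?_))
  rfl

/-! ### Local classes of degree one -/

omit hT [Fintype ι] in
variable (p K ι T) in
/-- Local classes at all places over `T`. -/
def PK1 : Type := (x : plsOver K T × ι) →
  H1 (glev (decGrp (placeOver (x.1 : Pl K)) K).subtype) (triv p (decGrp (placeOver (x.1 : Pl K)) K))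

omit hT in
/-- The local classes over `T` form an abelian group. -/
instance : AddCommGroup (PK1 p K ι T) :=
  inferInstanceAs (AddCommGroup ((x : plsOver K T × ι) →
    H1 (glev (decGrp (placeOver (x.1 : Pl K)) K).subtype)
      (triv p (decGrp (placeOver (x.1 : Pl K)) K))))

omit hT in
/-- The local classes over `T` form a vector space over `ℤ/p`. -/
instance : Module (ZMod p) (PK1 p K ι T) :=
  inferInstanceAs (Module (ZMod p) ((x : plsOver K T × ι) →
    H1 (glev (decGrp (placeOver (x.1 : Pl K)) K).subtype)
      (triv p (decGrp (placeOver (x.1 : Pl K)) K))))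

omit hT in
variable (p K ι T) in
/-- All components of local classes. -/
def wcompAll₁ : P1 T (indK p K ι) →ₗ[ZMod p] PK1 p K ι T :=
  LinearMap.pi fun x : plsOver K T × ι => (wcomp₁ (x.1 : Pl K) rfl x.2).comp
    (LinearMap.proj (φ := fun v : T => LH1 (v : Nat.Primes) (indK p K ι))
      ⟨resChar (x.1 : Pl K), mem_plsOver.mp x.1.2⟩)

omit hT in
/-- The components detect local classes at `T`. -/
lemma wcompAll₁_injective : Function.Injective (wcompAll₁ p K ι T) := by
  refine (injective_iff_map_eq_zero _).mpr fun y hy => funext fun v => ?_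
  refine eq_zero_of_wcomp₁ (v : Nat.Primes) fun w hv i => ?_
  obtain ⟨v, hvT⟩ := v
  change resChar w = v at hv
  subst hv
  exact congrFun hy (⟨w, mem_plsOver.mpr hvT⟩, i)

/-- Local `H¹` of `K` at a place has as order the index of the local `p`-th powers. -/
lemma natCard_localH1 (w : Pl K) :
    Nat.card (H1 (glev (decGrp (placeOver w) K).subtype) (triv p (decGrp (placeOver w) K))) =
      (localPowers p hT.root w).index := by
  set A := placeOver w
  set hl := isLocalAt_subtype A K
  have hχ := hl.cycHom_eq_one (p := p) hT.root_spec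
  rw [Nat.card_congr (Equiv.ofBijective _ (map₁_bijective (L := glev (decGrp A K).subtype)
    (triv_charRep_equivariant (p := p) hχ) Function.bijective_id))]
  have hker : (hl.kumK p).ker = Subgroup.toAddSubgroup (localPowers p hT.root w) :=
    AddSubgroup.ext fun a => by
      rw [AddMonoidHom.mem_ker,
        hl.kumK_eq_zero_iff (resChar w).2 (placeOver_spec w) hT.root_spec, plBelow_placeOver]
      rfl
  rw [← Subgroup.index_toAddSubgroup, ← hker, AddSubgroup.index_ker,
    (AddMonoidHom.range_eq_top (f := hl.kumK p)).mpr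
      (hl.kumK_surjective (resChar w).2 (placeOver_spec w)), AddSubgroup.card_top]

/-- The order of the group of local classes over `T`. -/
lemma natCard_PK1 (h2 : 2 < p) : Nat.card (PK1 p K ι T) =
    p ^ (2 * (Fintype.card ι * (Fintype.card (InfinitePlace K) + (plsOver K T).card))) := by
  have := isTotallyComplex_of_primitiveRoot hT.root_spec h2
  rw [PK1, Nat.card_pi]
  simp only [natCard_localH1 hT, index_localPowers hT.root_spec]
  rw [Fintype.prod_prod_type]
  simp only [Finset.prod_const]
  rw [Finset.prod_pow, Finset.prod_coe_sort (plsOver K T) fun v : Pl K =>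
      p * p * Ideal.absNorm v.asIdeal ^ ((p - 1) * zetaOrd hT.root v),
    Finset.prod_mul_distrib, Finset.prod_const,
    prod_absNorm_zetaOrd hT.root_spec (plsOver K T)
      (fun v hv => ord_natCast_eq_zero_of_notMem hT.mem hv),
    ← two_mul_card_infinitePlace (K := K), Finset.card_univ, ← sq, ← pow_mul, ← pow_add, ← pow_mul]
  congr 1
  ring

/-- The group of local classes over `T` is finite. -/
lemma finite_PK1 (h2 : 2 < p) : Finite (PK1 p K ι T) :=
  Nat.finite_of_card_ne_zero (by rw [natCard_PK1 hT h2]; exact pow_ne_zero _ hp.out.ne_zero)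

/-- The dimension of the group of local classes over `T`. -/
lemma finrank_PK1 (h2 : 2 < p) : Module.finrank (ZMod p) (PK1 p K ι T) =
    2 * (Fintype.card ι * (Fintype.card (InfinitePlace K) + (plsOver K T).card)) := by
  have := finite_PK1 (ι := ι) hT h2
  have h := Module.natCard_eq_pow_finrank (K := ZMod p) (V := PK1 p K ι T)
  rw [natCard_PK1 hT h2, Nat.card_zmod] at h
  exact (Nat.pow_right_injective hp.out.two_le h).symm

/-- The image of localisation in degree one has dimension at least `#ι` times the number of
places of `K` at infinity and over `T`. -/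
lemma finrank_range_loc₁_ge (h2 : 2 < p) :
    Fintype.card ι * (Fintype.card (InfinitePlace K) + (plsOver K T).card) ≤
      Module.finrank (ZMod p) (LinearMap.range (loc₁ T (indK p K ι))) := by
  have := finite_KH1 hT
  have := (indPair ι hT).finite_P1 h2
  have hfin : FiniteDimensional (ZMod p) (H1 (galLevels (T : Set Nat.Primes)) (indK p K ι)) :=
    FiniteDimensional.of_injective (loc₁ T (indK p K ι)) (loc₁_indK_injective hT h2)
  rw [LinearMap.finrank_range_of_inj (loc₁_indK_injective hT h2)]
  let g : H1 (galLevels (T : Set Nat.Primes)) (indK p K ι) →ₗ[ZMod p] (ι → KH1 p K T) :=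
    LinearMap.pi fun i => gcomp₁ T i
  have hg : Function.Surjective g := fun x => by
    obtain ⟨c, hc⟩ := exists_gcomp₁ (containsLevel_fixing hT) x
    exact ⟨c, funext hc⟩
  refine le_trans (le_of_eq ?_) (LinearMap.finrank_le_finrank_of_surjective hg)
  have h := Module.natCard_eq_pow_finrank (K := ZMod p) (V := ι → KH1 p K T)
  rw [Nat.card_fun, natCard_KH1 hT, Nat.card_zmod, Nat.card_eq_fintype_card, ← pow_mul,
    mul_comm _ (Fintype.card ι)] at h
  exact Nat.pow_right_injective hp.out.two_le h

/-- **Localisation in degree one has maximal isotropic image.** -/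
theorem range_loc₁_indK (D : DualPair T (indK p K ι) (indK p K ι)) (h2 : 2 < p) :
    LinearMap.range (loc₁ T (indK p K ι)) =
      Devissage.perp (V := P1 T (indK p K ι)) (W := P1 T (indK p K ι)) (D.Q₁ h2).flip
        (LinearMap.range (loc₁ T (indK p K ι))) := by
  have := D.finite_P1 h2
  have := finite_PK1 (ι := ι) hT h2
  refine Submodule.eq_of_le_of_finrank_le (D.range_loc₁_le h2) ?_
  have h1 := Devissage.finrank_perp (LinearMap.flip_bijective_iff₁.mpr (D.Q₁_bijective h2))
    (LinearMap.range (loc₁ T (indK p K ι)))
  have h3 : Module.finrank (ZMod p) (P1 T (indK p K ι)) ≤ _ :=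
    LinearMap.finrank_le_finrank_of_injective (wcompAll₁_injective (p := p) (K := K) (ι := ι)
      (T := T))
  rw [finrank_PK1 hT h2] at h3
  have h4 := finrank_range_loc₁_ge (ι := ι) hT h2
  omega

/-- Local classes have independent components. -/
theorem wcompAll₁_surjective (h2 : 2 < p) : Function.Surjective (wcompAll₁ p K ι T) := by
  have := (indPair ι hT).finite_P1 h2
  have := finite_PK1 (ι := ι) hT h2
  refine (LinearMap.injective_iff_surjective_of_finrank_eq_finrank (le_antisymm
    (LinearMap.finrank_le_finrank_of_injective wcompAll₁_injective) ?_)).mp wcompAll₁_injective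
  rw [finrank_PK1 hT h2]
  have h1 := Devissage.finrank_perp
    (LinearMap.flip_bijective_iff₁.mpr ((indPair ι hT).Q₁_bijective h2))
    (LinearMap.range (loc₁ T (indK p K ι)))
  rw [← range_loc₁_indK hT (indPair ι hT) h2] at h1
  have h4 := finrank_range_loc₁_ge (ι := ι) hT h2
  omega

end Fermat.CFT
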