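import Fermat.Agent.CFT.Global.Induced

/-!
# Localisation in degree two for induced modules

When the places of `K` over `T` are linked by classes of degree two, the induced pair is good:
classes at `T` orthogonal to the global invariants are localisations.
-/

set_option autoImplicit false
set_option linter.unusedSectionVars false

noncomputable section

open Fermat.CFT.Coh
open scoped Pointwise

namespace Fermat.CFT

local notation "ℚbar" => AlgebraicClosure ℚ
local notation "Γℚ" => (AlgebraicClosure ℚ ≃ₐ[ℚ] AlgebraicClosure ℚ)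

variable {p : ℕ} [hp : Fact p.Prime] {K : IntermediateField ℚ ℚbar} [FiniteDimensional ℚ K]
  [Normal ℚ K] {ι : Type} [Fintype ι] {T : Finset Nat.Primes}

variable (p K T) in
/-- The places over `T` are linked by classes with few nonzero localisations. -/
def Linked : Prop :=
  ∃ A : Finset (Pl K), A ⊆ plsOver K T ∧
    (∀ w₁ ∈ A, ∀ w₂ ∈ A, w₁ ≠ w₂ → ∃ d : KH2 p K T,
      (kloc₂ p T w₁ d ≠ 0 ∨ kloc₂ p T w₂ d ≠ 0) ∧
      ∀ w ∈ plsOver K T, w ≠ w₁ → w ≠ w₂ → kloc₂ p T w d = 0) ∧
    ∀ w ∈ plsOver K T, w ∉ A → ∃ d : KH2 p K T, kloc₂ p T w d ≠ 0 ∧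
      ∀ x ∈ plsOver K T, x ∉ A → x ≠ w → kloc₂ p T x d = 0

/-! ### A place and a coordinate -/

open Classical in
variable (p) in
/-- The indicator of an orbit and a coordinate. -/
def placeInd (v : Nat.Primes) (w : Pl K) (i : ι) : (Γℚ ⧸ K.fixingSubgroup) → ι → ZMod p :=
  fun y j => orbInd v w y * (if j = i then 1 else 0)

/-- The indicator of an orbit is invariant. -/
lemma orbInd_smul (v : Nat.Primes) (w : Pl K) (d : decAt v) (y : Γℚ ⧸ K.fixingSubgroup) :
    orbInd (p := p) v w ((d : Γℚ) • y) = orbInd v w y := by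
  classical
  have h : (d : Γℚ) • y ∈ Set.range (orbMap v w) ↔ y ∈ Set.range (orbMap v w) := by
    constructor
    · rintro ⟨e, he⟩
      exact ⟨d⁻¹ • e, by rw [orbMap_smul, he, Subgroup.coe_inv, inv_smul_smul]⟩
    · rintro ⟨e, rfl⟩
      exact ⟨d • e, orbMap_smul v w d e⟩
  simp only [orbInd, h]

/-- The indicator of an orbit and a coordinate is invariant. -/
lemma placeInd_smul (v : Nat.Primes) (w : Pl K) (i : ι) (d : decAt v) (y : Γℚ ⧸ K.fixingSubgroup) :
    placeInd p v w i ((d : Γℚ) • y) = placeInd p v w i y := by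
  funext j
  rw [placeInd, placeInd, orbInd_smul]

variable (p) in
/-- The invariant function of a place and a coordinate. -/
def placeInv (v : Nat.Primes) (w : Pl K) (i : ι) : H0 (repAt v (indK p K ι)) :=
  ⟨placeInd p v w i, mem_ker_d₀.mpr fun d => funext fun y => by
    change placeInd p v w i ((d : Γℚ)⁻¹ • y) = placeInd p v w i y
    rw [← Subgroup.coe_inv, placeInd_smul]⟩

/-- The value of an invariant at the base point of an orbit. -/
def baseVal {v : Nat.Primes} (a : H0 (repAt v (indK p K ι))) (w : Pl K) (i : ι) : ZMod p :=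
  a.1 (((plConj w)⁻¹ : Γℚ) : Γℚ ⧸ K.fixingSubgroup) i

/-- An invariant is constant on each orbit. -/
lemma apply_eq_baseVal {v : Nat.Primes} (a : H0 (repAt v (indK p K ι))) {w : Pl K}
    {y : Γℚ ⧸ K.fixingSubgroup} (hy : y ∈ Set.range (orbMap v w)) (i : ι) :
    a.1 y i = baseVal a w i := by
  obtain ⟨e, rfl⟩ := hy
  induction e using QuotientGroup.induction_on with
  | _ d =>
    have h := congrFun (congrFun (mem_ker_d₀.mp a.2 d) (orbMap v w
      (d : decAt v ⧸ K.fixingSubgroup.subgroupOf (decAt v)))) i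
    rw [← h]
    change a.1 ((d : Γℚ)⁻¹ • orbMap v w (d : decAt v ⧸ K.fixingSubgroup.subgroupOf (decAt v))) i = _
    rw [← Subgroup.coe_inv, ← orbMap_smul, MulAction.Quotient.smul_mk, smul_eq_mul,
      inv_mul_cancel, orbMap_one]
    rfl

/-- An invariant times the indicator of an orbit is a multiple of that indicator. -/
lemma orbInd_mul_apply {v : Nat.Primes} (a : H0 (repAt v (indK p K ι))) (w : Pl K)
    (y : Γℚ ⧸ K.fixingSubgroup) (i : ι) :
    orbInd v w y * a.1 y i = baseVal a w i * orbInd v w y := by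
  classical
  by_cases hy : y ∈ Set.range (orbMap v w)
  · rw [apply_eq_baseVal a hy, mul_comm]
  · rw [orbInd, if_neg hy, zero_mul, mul_zero]

/-- Multiplying an invariant by an indicator gives a multiple of the indicator. -/
lemma map₀_placeInd {v : Nat.Primes} (a : H0 (repAt v (indK p K ι))) (w : Pl K) (i : ι) :
    map₀ (mulK_equivariant v (placeInd_smul v w i)) a = baseVal a w i • placeInv p v w i := by
  classical
  refine Subtype.ext (funext fun y => funext fun j => ?_)
  change placeInd p v w i y j * a.1 y j = baseVal a w i * placeInd p v w i y j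
  rcases eq_or_ne j i with rfl | hj
  · simp only [placeInd, if_pos, mul_one]
    exact orbInd_mul_apply a w y j
  · simp [placeInd, hj]

/-- The indicators of orbits and coordinates span the invariants. -/
lemma eq_sum_placeInv {v : Nat.Primes} (a : H0 (repAt v (indK p K ι))) :
    a = ∑ w ∈ plsOver K {v}, ∑ i, baseVal a w i • placeInv p v w i := by
  classical
  refine Subtype.ext (funext fun y => funext fun j => ?_)
  simp only [Submodule.coe_sum, Finset.sum_apply, Submodule.coe_smul, Pi.smul_apply, smul_eq_mul]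
  conv_lhs => rw [← sum_orbProj K v a.1]
  rw [Finset.sum_apply, Finset.sum_apply]
  refine Finset.sum_congr rfl fun w _ => ?_
  rw [Finset.sum_eq_single j]
  · change orbExt v w (orbRes v w a.1) y j = baseVal a w j *
        (orbInd v w y * (if j = j then 1 else 0))
    rw [orbExt_orbRes, if_pos rfl, mul_one, Pi.smul_apply, smul_eq_mul, orbInd_mul_apply]
  · intro i _ hi
    change baseVal a w i * (orbInd v w y * (if j = i then 1 else 0)) = 0
    rw [if_neg (Ne.symm hi), mul_zero, mul_zero]
  · simp

/-! ### The local functionals -/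

namespace IsDiag

variable {D : DualPair T (indK p K ι) (indK p K ι)} (hD : IsDiag D) (h2 : 2 < p)

include hD

/-- Multiplication by an invariant function is self-adjoint for the local pairing in degree two. -/
theorem q₂_mulK (v : Nat.Primes) {m : (Γℚ ⧸ K.fixingSubgroup) → ι → ZMod p}
    (hm : ∀ d : decAt v, ∀ y, m ((d : Γℚ) • y) = m y) (y : LH2 v (indK p K ι))
    (a : H0 (repAt v (indK p K ι))) :
    D.q₂ h2 v (map₂ (IsLevelsHom.id _) (mulK_equivariant v hm) y) a =
      D.q₂ h2 v y (map₀ (mulK_equivariant v hm) a) := by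
  rw [DualPair.q₂_apply, DualPair.q₂_apply]
  refine congrArg (gInv h2 v) ?_
  have hmix : IsPairing (repAt v (indK p K ι)) (repAt v (indK p K ι))
      (charRep (cycHom p (decAt v).subtype)) (D.P.comp (mulK m)) := fun g f f' => by
    rw [LinearMap.comp_apply, show mulK m (repAt v (indK p K ι) g f) =
      repAt v (indK p K ι) g (mulK m f) from mulK_equivariant v hm g f]
    exact D.pairingAt v g (mulK m f) f'
  have e1 := map_cup02 hmix.flip (D.pairingAt v).flip (IsLevelsHom.id _) (IsEquivariant.id _)
    (mulK_equivariant v hm) (IsEquivariant.id _) (fun _ _ => rfl) a y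
  have e2 := map_cup02 hmix.flip (D.pairingAt v).flip (IsLevelsHom.id _)
    (mulK_equivariant v hm) (IsEquivariant.id _) (IsEquivariant.id _)
    (fun b f => (hD m f b).symm) a y
  rw [map₂_id, map₂_id] at e2
  rw [map₂_id] at e1
  exact e1.symm.trans e2

/-- The functional of a place and a coordinate vanishes exactly with the component there. -/
theorem q₂_placeInv_eq_zero_iff (v : Nat.Primes) (w : Pl K) (hv : resChar w = v) (i : ι)
    (y : LH2 v (indK p K ι)) :
    D.q₂ h2 v y (placeInv p v w i) = 0 ↔ wcomp₂ w hv i y = 0 := by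
  classical
  set π := map₂ (IsLevelsHom.id (glev (decAt v).subtype))
    (mulK_equivariant (p := p) v (placeInd_smul v w i)) with hπ
  have hbase : baseVal (placeInv p v w i) w i = 1 := by
    change orbInd v w _ * (if i = i then 1 else 0) = (1 : ZMod p)
    rw [if_pos rfl, mul_one, orbInd, if_pos ⟨_, orbMap_one v w⟩]
  have hfix : map₀ (mulK_equivariant v (placeInd_smul v w i)) (placeInv p v w i) =
      placeInv p v w i := by
    rw [map₀_placeInd, hbase, one_smul]
  -- projecting to the orbit of `(w, i)` loses nothing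
  have hiff : π y = 0 ↔ wcomp₂ w hv i y = 0 := by
    constructor
    · intro h
      have h1 := congrArg (wcomp₂ w hv i) h
      rw [map_zero] at h1
      rw [← h1]
      obtain ⟨z, rfl⟩ := cl₂_surjective y
      simp only [hπ, wcomp₂, map₂_cl₂]
      refine congrArg _ (Subtype.ext (funext₂ fun d d' => ?_))
      change (z.1 _ _) _ i = placeInd p v w i _ i * (z.1 _ _) _ i
      rw [placeInd, orbInd, if_pos ⟨_, orbMap_one v w⟩, if_pos rfl, one_mul, one_mul]
      rfl
    · intro h
      let m : (Γℚ ⧸ K.fixingSubgroup) → ι → ZMod p := fun _ j => if j = i then 1 else 0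
      set y' := map₂ (IsLevelsHom.id (glev (decAt v).subtype))
        (mulK_equivariant (p := p) v (m := m) fun _ _ => rfl) y
      have hy' : ∀ j, wcomp₂ w hv j y' = 0 := fun j => by
        rcases eq_or_ne j i with rfl | hj
        · rw [← h]
          obtain ⟨z, rfl⟩ := cl₂_surjective y
          simp only [y', wcomp₂, map₂_cl₂]
          refine congrArg _ (Subtype.ext (funext₂ fun d d' => ?_))
          change m (((plConj w)⁻¹ : Γℚ) : Γℚ ⧸ K.fixingSubgroup) j *
              (z.1 (conjDec w hv d) (conjDec w hv d'))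
                (((plConj w)⁻¹ : Γℚ) : Γℚ ⧸ K.fixingSubgroup) j =
            (z.1 (conjDec w hv d) (conjDec w hv d')) (((plConj w)⁻¹ : Γℚ) : Γℚ ⧸ K.fixingSubgroup) j
          simp [m]
        · obtain ⟨z, rfl⟩ := cl₂_surjective y
          simp only [y', wcomp₂, map₂_cl₂]
          refine (congrArg _ ?_).trans (map_zero _)
          refine Subtype.ext (funext₂ fun d d' => ?_)
          change m (((plConj w)⁻¹ : Γℚ) : Γℚ ⧸ K.fixingSubgroup) j *
              (z.1 (conjDec w hv d) (conjDec w hv d'))
                (((plConj w)⁻¹ : Γℚ) : Γℚ ⧸ K.fixingSubgroup) j = 0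
          simp [m, hj]
      have h1 := map₂_orbProj_eq_zero v w hv hy'
      rw [← h1]
      obtain ⟨z, rfl⟩ := cl₂_surjective y
      simp only [hπ, y', map₂_cl₂]
      refine congrArg _ (Subtype.ext (funext₂ fun d d' => funext fun x => funext fun j => ?_))
      change placeInd p v w i x j * (z.1 d d') x j =
        orbExt v w (orbRes v w fun x j => m x j * (z.1 d d') x j) x j
      rw [orbExt_orbRes, Pi.smul_apply, smul_eq_mul, placeInd]
      simp [m]
  -- and the invariant of the placed test element detects the projection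
  rw [← hiff]
  constructor
  · intro h
    refine (D.q₂_bijective h2 v).1 (LinearMap.ext fun a => ?_)
    rw [hπ, hD.q₂_mulK h2 v (placeInd_smul v w i), map₀_placeInd, map_smul, h, smul_zero, map_zero,
      LinearMap.zero_apply]
  · intro h
    rw [← hfix, ← hD.q₂_mulK h2 v (placeInd_smul v w i), ← hπ, h, map_zero, LinearMap.zero_apply]

end IsDiag

variable (hT : IsAdmissible p K T)

include hT

/-- Every class of degree two of `K` is a single component of a class of the induced module. -/
lemma exists_gcomp₂ (i : ι) (d : KH2 p K T) :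
    ∃ c : H2 (galLevels (T : Set Nat.Primes)) (indK p K ι),
      gcomp₂ T i c = d ∧ ∀ j, j ≠ i → gcomp₂ T j c = 0 := by
  classical
  have he : IsEquivariant (triv p K.fixingSubgroup)
      ((Representation.trivial (ZMod p) Γℚ (ι → ZMod p)).comp K.fixingSubgroup.subtype)
      (MonoidHom.id K.fixingSubgroup) (LinearMap.single (ZMod p) (fun _ : ι => ZMod p) i) :=
    fun _ _ => rfl
  obtain ⟨c, hc⟩ := (shapiro₂_bijective (containsLevel_fixing hT)
    (isSmooth_trivial _)).surjective (map₂ (IsLevelsHom.id _) he d)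
  have key : ∀ j, gcomp₂ T j c = (if j = i then (1 : ZMod p) else 0) • d := fun j => by
    have hj : IsEquivariant
        ((Representation.trivial (ZMod p) Γℚ (ι → ZMod p)).comp K.fixingSubgroup.subtype)
        (triv p K.fixingSubgroup) (MonoidHom.id K.fixingSubgroup)
        (LinearMap.proj (φ := fun _ : ι => ZMod p) j) := fun _ _ => rfl
    have h := congrArg (map₂ (IsLevelsHom.id _) hj) hc
    obtain ⟨z, rfl⟩ := cl₂_surjective c
    obtain ⟨z', rfl⟩ := cl₂_surjective d
    simp only [gcomp₂, shapiro₂, map₂_cl₂, ← map_smul] at h ⊢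
    refine Eq.trans (congrArg _ (Subtype.ext (funext₂ fun g g' => ?_)))
      (h.trans (congrArg _ (Subtype.ext (funext₂ fun g g' => ?_))))
    · rfl
    · change (Pi.single i (z'.1 g g') : ι → ZMod p) j = (if j = i then (1 : ZMod p)
        else 0) * z'.1 g g'
      rw [Pi.single_apply, ite_mul, one_mul, zero_mul]
  exact ⟨c, by rw [key, if_pos rfl, one_smul], fun j hj => by rw [key, if_neg hj, zero_smul]⟩

variable {D : DualPair T (indK p K ι) (indK p K ι)} (hD : IsDiag D) (h2 : 2 < p)

include hD h2

open Classical in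
/-- The coordinate of a family of invariants at a place of `K`. -/
private def placeVal (a : P0 T (indK p K ι)) (w : Pl K) (i : ι) : ZMod p :=
  if h : resChar w ∈ T then baseVal (a ⟨resChar w, h⟩) w i else 0

open Classical in
/-- The functional of a class at a place of `K` and an index. -/
private def placeFun (D : DualPair T (indK p K ι) (indK p K ι)) (h2 : 2 < p)
    (c : H2 (galLevels (T : Set Nat.Primes)) (indK p K ι)) (w : Pl K) (i : ι) : ZMod p :=
  if h : resChar w ∈ T then
    D.q₂ h2 (resChar w) (loc₂ T (indK p K ι) c ⟨resChar w, h⟩) (placeInv p (resChar w) w i)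
  else 0

omit hT hD in
/-- The pairing is a sum over the places of `K`. -/
private lemma Q₂_loc₂_eq_sum (b : P0 T (indK p K ι))
    (c : H2 (galLevels (T : Set Nat.Primes)) (indK p K ι)) :
    D.Q₂ h2 (loc₂ T (indK p K ι) c) b =
      ∑ w ∈ plsOver K T, ∑ i, placeVal b w i * placeFun D h2 c w i := by
  classical
  simp only [placeVal]
  rw [DualPair.Q₂_apply, ← Finset.sum_fiberwise_of_maps_to
    (g := fun w : Pl K => resChar w) (t := T) fun w hw => mem_plsOver.mp hw,
    ← Finset.sum_coe_sort T]
  refine Finset.sum_congr rfl fun v _ => ?_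
  conv_lhs => rw [eq_sum_placeInv (b v)]
  rw [map_sum]
  refine Finset.sum_congr ?_ fun w hw => ?_
  · ext w
    simp only [mem_plsOver, Finset.mem_singleton, Finset.mem_filter]
    exact ⟨fun h => ⟨h ▸ v.2, h⟩, fun h => h.2⟩
  · obtain ⟨v, hv⟩ := v
    obtain rfl : resChar w = v := (Finset.mem_filter.mp hw).2
    rw [map_sum]
    refine Finset.sum_congr rfl fun i _ => ?_
    simp only [placeFun]
    rw [dif_pos hv, dif_pos hv, map_smul, smul_eq_mul]

/-- The two relations satisfied by the functionals of a class. -/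
private lemma exists_placeFun_relations {a : P0 T (indK p K ι)}
    (ha : ∀ c, D.Q₂ h2 (loc₂ T (indK p K ι) c) a = 0) (i : ι) (d : KH2 p K T) :
    ∃ f : Pl K → ZMod p,
      (∀ w ∈ plsOver K T, f w = 0 ↔ kloc₂ p T w d = 0) ∧
      ∑ w ∈ plsOver K T, f w = 0 ∧ ∑ w ∈ plsOver K T, placeVal a w i * f w = 0 := by
  classical
  have hφ : ∀ c w, w ∈ plsOver K T → ∀ j,
      placeFun D h2 c w j = 0 ↔ kloc₂ p T w (gcomp₂ T j c) = 0 := by
    intro c w hw j
    simp only [placeFun]
    rw [dif_pos (mem_plsOver.mp hw),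
      kloc₂_gcomp₂ w (mem_plsOver.mp hw) j c]
    exact hD.q₂_placeInv_eq_zero_iff h2 (resChar w) w rfl j _
  obtain ⟨c, hc, hc'⟩ := exists_gcomp₂ hT i d
  refine ⟨fun w => placeFun D h2 c w i, fun w hw => by rw [hφ c w hw, hc], ?_, ?_⟩
  · have h0 := D.Q₂_loc h2 c (⟨fun _ j => if j = i then 1 else 0, mem_ker_d₀.mpr fun g =>
      rfl⟩ : H0 (indK p K ι))
    rw [Q₂_loc₂_eq_sum h2] at h0
    refine Eq.trans (Finset.sum_congr rfl fun w hw => ?_) h0
    rw [Finset.sum_eq_single i]
    · simp only [placeVal]
      rw [dif_pos (mem_plsOver.mp hw)]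
      change placeFun D h2 c w i = (if i = i then (1 : ZMod p) else 0) * placeFun D h2 c w i
      rw [if_pos rfl, one_mul]
    · intro j _ hj
      rw [(hφ c w hw j).mpr (by rw [hc' j hj, map_zero]), mul_zero]
    · simp
  · have h0 := ha c
    rw [Q₂_loc₂_eq_sum h2] at h0
    refine Eq.trans (Finset.sum_congr rfl fun w hw => ?_) h0
    rw [Finset.sum_eq_single i]
    · intro j _ hj
      rw [(hφ c w hw j).mpr (by rw [hc' j hj, map_zero]), mul_zero]
    · simp

omit hT hD h2 [Fintype ι] in
/-- At linked places a function annihilated by the relations is constant. -/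
private lemma exists_const_of_linked (hL : Linked p K T) {v : Pl K → ZMod p}
    (hrel : ∀ d : KH2 p K T, ∃ f : Pl K → ZMod p,
      (∀ w ∈ plsOver K T, f w = 0 ↔ kloc₂ p T w d = 0) ∧
      ∑ w ∈ plsOver K T, f w = 0 ∧ ∑ w ∈ plsOver K T, v w * f w = 0) :
    ∃ k : ZMod p, ∀ w ∈ plsOver K T, v w = k := by
  classical
  obtain ⟨A, hA, hpair, hgood⟩ := hL
  -- equal values on the linked set, from the classes with two nonzero localisations
  have hA' : ∀ w₁ ∈ A, ∀ w₂ ∈ A, v w₁ = v w₂ := by
    intro w₁ h₁ w₂ h₂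
    by_contra hne
    have hw : w₁ ≠ w₂ := fun h => hne (by rw [h])
    obtain ⟨d, hd, hd0⟩ := hpair w₁ h₁ w₂ h₂ hw
    obtain ⟨f, hf, hf1, hf2⟩ := hrel d
    have hsupp : ∀ w ∈ plsOver K T, w ≠ w₁ ∧ w ≠ w₂ → f w = 0 :=
      fun w hw h => (hf w hw).mpr (hd0 w hw h.1 h.2)
    rw [Finset.sum_eq_add w₁ w₂ hw (fun w hw h => hsupp w hw h)
      (fun h => absurd (hA h₁) h) (fun h => absurd (hA h₂) h)] at hf1
    rw [Finset.sum_eq_add w₁ w₂ hw (fun w hw h => by rw [hsupp w hw h, mul_zero])
      (fun h => absurd (hA h₁) h) (fun h => absurd (hA h₂) h),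
      eq_neg_of_add_eq_zero_right hf1] at hf2
    have h3 : (v w₁ - v w₂) * f w₁ = 0 := by linear_combination hf2
    have h4 := (mul_eq_zero.mp h3).resolve_left (sub_ne_zero.mpr hne)
    rcases hd with hd | hd
    · exact hd ((hf w₁ (hA h₁)).mp h4)
    · refine hd ((hf w₂ (hA h₂)).mp ?_)
      rw [eq_neg_of_add_eq_zero_right hf1, h4, neg_zero]
  obtain ⟨k, hk⟩ : ∃ k, ∀ w ∈ A, v w = k := by
    rcases A.eq_empty_or_nonempty with h | ⟨w₀, hw₀⟩
    · exact ⟨0, by simp [h]⟩
    · exact ⟨v w₀, fun w hw => hA' w hw w₀ hw₀⟩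
  -- the remaining places, from the classes with one localisation outside the set
  refine ⟨k, fun w hw => ?_⟩
  by_contra hne
  have hwA : w ∉ A := fun h => hne (hk w h)
  obtain ⟨d, hd, hd0⟩ := hgood w hw hwA
  obtain ⟨f, hf, hf1, hf2⟩ := hrel d
  have h3 : ∑ x ∈ plsOver K T, (v x - k) * f x = 0 := by
    simp only [sub_mul, Finset.sum_sub_distrib, ← Finset.mul_sum, hf1, hf2, mul_zero, sub_zero]
  rw [Finset.sum_eq_single w] at h3
  · exact hd ((hf w hw).mp ((mul_eq_zero.mp h3).resolve_left (sub_ne_zero.mpr hne)))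
  · intro x hx hxw
    by_cases hxA : x ∈ A
    · rw [hk x hxA, sub_self, zero_mul]
    · rw [(hf x hx).mpr (hd0 x hx hxA hxw), mul_zero]
  · exact fun h => absurd hw h

/-- **Localisation in degree two has the expected image.** -/
theorem range_loc₂_indK (hL : Linked p K T) :
    LinearMap.range (loc₂ T (indK p K ι)) =
      Devissage.perp (V := P0 T (indK p K ι)) (W := P2 T (indK p K ι)) (D.Q₂ h2).flip
        (LinearMap.range (loc₀ T (indK p K ι))) := by
  classical
  have := D.finite_P2 h2
  refine le_antisymm (D.range_loc₂_le h2) ?_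
  have hle : Devissage.perp (V := P2 T (indK p K ι)) (W := P0 T (indK p K ι)) (D.Q₂ h2)
      (LinearMap.range (loc₂ T (indK p K ι))) ≤ LinearMap.range (loc₀ T (indK p K ι)) := by
    intro a ha
    rw [Devissage.mem_perp] at ha
    have hconst : ∀ i, ∃ k : ZMod p, ∀ w ∈ plsOver K T, placeVal a w i = k := fun i =>
      exists_const_of_linked hL fun d =>
        exists_placeFun_relations hT hD h2 (fun c => ha _ ⟨c, rfl⟩) i d
    choose k hk using hconst
    refine ⟨⟨fun _ i => k i, mem_ker_d₀.mpr fun g => rfl⟩, funext fun v => Subtype.ext ?_⟩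
    funext y i
    obtain ⟨w, ⟨hw, hy⟩, -⟩ := existsUnique_orbit (v : Nat.Primes) y
    obtain ⟨v, hv⟩ := v
    obtain rfl : resChar w = v := hw
    change k i = (a ⟨resChar w, hv⟩).1 y i
    rw [apply_eq_baseVal _ hy, ← hk i w (mem_plsOver.mpr hv)]
    exact dif_pos hv
  have hb : Function.Bijective (D.Q₂ h2) := D.Q₂_bijective h2
  calc Devissage.perp (V := P0 T (indK p K ι)) (W := P2 T (indK p K ι)) (D.Q₂ h2).flip
        (LinearMap.range (loc₀ T (indK p K ι))) ≤
      Devissage.perp (V := P0 T (indK p K ι)) (W := P2 T (indK p K ι)) (D.Q₂ h2).flip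
        (Devissage.perp (V := P2 T (indK p K ι)) (W := P0 T (indK p K ι)) (D.Q₂ h2)
          (LinearMap.range (loc₂ T (indK p K ι)))) := Devissage.perp_antitone hle
    _ = LinearMap.range (loc₂ T (indK p K ι)) := Devissage.perp_perp hb _

omit hD in
/-- **The induced pair is good.** If the places over `T` are linked, localisation is injective on
the induced pair with orthogonal images. -/
theorem indPair_isGood (hL : Linked p K T) : (indPair ι hT).IsGood h2 where
  inj₁ := loc₁_indK_injective hT h2
  inj₁' := loc₁_indK_injective hT h2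
  inj₂ := loc₂_indK_injective hT h2
  inj₂' := loc₂_indK_injective hT h2
  range₁ := range_loc₁_indK hT _ h2
  range₁' := range_loc₁_indK hT _ h2
  range₂ := range_loc₂_indK hT (indPair_isDiag hT) h2 hL
  range₂' := range_loc₂_indK hT (indPair_isDiag hT).flip h2 hL

end Fermat.CFT
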