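import Fermat.Agent.CFT.Global.KUnits

/-!
# `H²` of `K` unramified outside `T` injects into the cohomology of all levels

A cochain with coboundary unramified outside `T` is corrected by the Kummer class of an element
with prescribed valuations modulo `p` outside `T`.
-/

set_option autoImplicit false

noncomputable section

open Fermat.CFT.Coh
open scoped Pointwise

namespace Fermat.CFT

local notation "ℚbar" => AlgebraicClosure ℚ
local notation "Γℚ" => (AlgebraicClosure ℚ ≃ₐ[ℚ] AlgebraicClosure ℚ)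

/-- Valuations do not change in an extension without inertia. -/
lemma ord_inclusion_eq_of_unram {E K : IntermediateField ℚ ℚbar} [FiniteDimensional ℚ E]
    [Normal ℚ E] [FiniteDimensional ℚ K] [Normal ℚ K] (hKE : K ≤ E) {ℓ : ℕ} (hℓ : ℓ.Prime)
    {A : ValuationSubring ℚbar} (hA : A.LiesOverPrime ℓ)
    (hI : A.inertiaSubgroupIn ℚ ≤ E.fixingSubgroup) (x : K) :
    ord (plBelow E hℓ hA) (IntermediateField.inclusion hKE x) = ord (plBelow K hℓ hA) x := by
  have key : ∀ (L : IntermediateField ℚ ℚbar) [FiniteDimensional ℚ L] [Normal ℚ L],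
      A.inertiaSubgroupIn ℚ ≤ L.fixingSubgroup → ord (plBelow L hℓ hA) (ℓ : L) = 1 := by
    intro L _ _ hIL
    have : IsGalois ℚ L := qbar_isGalois_intermediate L
    rw [ord_natCast_prime_of_mem hℓ _ (natCast_mem_plBelow L hℓ hA), plRamIdx_rat_eq_card]
    have hbot : (plBelow L hℓ hA).asIdeal.inertia (L ≃ₐ[ℚ] L) = ⊥ := by
      rw [Subgroup.eq_bot_iff_forall]
      intro τ hτ
      obtain ⟨τ', hτ', rfl⟩ := exists_mem_inertia_restrict (L := L) hℓ hA hτ
      exact (restrict_eq_one_iff L τ').mpr (hIL hτ')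
    rw [hbot, Subgroup.card_bot, Nat.cast_one]
  obtain ⟨e, -, hord⟩ := exists_ord_inclusion (E := E) hℓ hA hKE
  have h1 := hord (ℓ : K)
  rw [map_natCast, key E hI,
    key K (hI.trans (IntermediateField.fixingSubgroup_le hKE)), mul_one] at h1
  rw [hord, ← h1, one_mul]

/-- The inclusion of the group of a place over `K₁` into the group of `K ≤ K₁`. -/
def levelIncl {K K₁ : IntermediateField ℚ ℚbar} (hK : K ≤ K₁) (A : ValuationSubring ℚbar)
    (g : decGrp A K₁) : K.fixingSubgroup :=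
  ⟨g.1, IntermediateField.fixingSubgroup_le hK g.2.2⟩

/-- A cochain additive on `K₁` and constant on inertia outside `T` is constant on a level
unramified outside `T`. -/
lemma exists_level_of_inertia_hom {K K₁ : IntermediateField ℚ ℚbar} (hK : K ≤ K₁) {R : Type}
    [CommRing R] {T : Set Nat.Primes} (u : K.fixingSubgroup → R)
    (hur : ∀ g s : K.fixingSubgroup, (s : Γℚ) ∈ K₁.fixingSubgroup → u (g * s) = u g + u s - u 1)
    (hM : ∃ M, (galLevels Set.univ).IsLevel M ∧ ∀ σ ∈ M, ∃ hσ : σ ∈ K₁.fixingSubgroup,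
      u ⟨σ, IntermediateField.fixingSubgroup_le hK hσ⟩ = u 1)
    (hI : ∀ q : Nat.Primes, q ∉ T → ∀ A : ValuationSubring ℚbar, A.LiesOverPrime (q : ℕ) →
      ∀ σ ∈ A.inertiaSubgroupIn ℚ, ∃ hσ : σ ∈ K₁.fixingSubgroup,
        u ⟨σ, IntermediateField.fixingSubgroup_le hK hσ⟩ = u 1) :
    ∃ N, (galLevels T).IsLevel N ∧ ∀ σ ∈ N, ∃ hσ : σ ∈ K₁.fixingSubgroup,
      u ⟨σ, IntermediateField.fixingSubgroup_le hK hσ⟩ = u 1 := by
  -- the elements fixing the value form a subgroup containing inertia outside `T`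
  let H : Subgroup Γℚ :=
    { carrier := {σ | ∃ hσ : σ ∈ K₁.fixingSubgroup,
        u ⟨σ, IntermediateField.fixingSubgroup_le hK hσ⟩ = u 1}
      one_mem' := ⟨one_mem _, rfl⟩
      mul_mem' := fun {σ σ'} ⟨hσ, h1⟩ ⟨hσ', h2⟩ => ⟨mul_mem hσ hσ', by
        refine (hur ⟨σ, IntermediateField.fixingSubgroup_le hK hσ⟩
          ⟨σ', IntermediateField.fixingSubgroup_le hK hσ'⟩ hσ').trans ?_
        rw [h1, h2]
        ring⟩
      inv_mem' := fun {σ} ⟨hσ, h1⟩ => ⟨inv_mem hσ, by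
        have h2 := hur ⟨σ, IntermediateField.fixingSubgroup_le hK hσ⟩
          ⟨σ⁻¹, IntermediateField.fixingSubgroup_le hK (inv_mem hσ)⟩ (inv_mem hσ)
        rw [h1] at h2
        rw [show (⟨σ, IntermediateField.fixingSubgroup_le hK hσ⟩ : K.fixingSubgroup) *
          ⟨σ⁻¹, IntermediateField.fixingSubgroup_le hK (inv_mem hσ)⟩ = 1 from
          Subtype.ext (mul_inv_cancel σ)] at h2
        linear_combination -h2⟩ }
  obtain ⟨M, hM, hMH⟩ := hM
  exact exists_level_le_of_inertia (H := H) ⟨M, hM, hMH⟩ hI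

variable {p : ℕ} [hp : Fact p.Prime] {K : IntermediateField ℚ ℚbar} [FiniteDimensional ℚ K]
  [Normal ℚ K] {T : Finset Nat.Primes} (hT : IsAdmissible p K T)

include hT

/-- A homomorphism on the group of an unramified extension is matched on inertia by the Kummer
classes of all elements of a given valuation modulo `p`. -/
lemma exists_ord_of_decHom {K₁ : IntermediateField ℚ ℚbar} [FiniteDimensional ℚ K₁]
    [Normal ℚ K₁] (hK : K ≤ K₁) {ℓ : ℕ} (hℓ : ℓ.Prime) (hℓp : ℓ ≠ p)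
    {A : ValuationSubring ℚbar} (hA : A.LiesOverPrime ℓ)
    (hI : A.inertiaSubgroupIn ℚ ≤ K₁.fixingSubgroup) {f : decGrp A K₁ → ZMod p}
    (hf : IsDecHom A K₁ f) :
    ∃ m : ℤ, ∀ (a : Additive (K : Type)ˣ) (α : QU),
      uval α ^ p = (((Additive.toMul a : (K : Type)ˣ) : K) : ℚbar) →
      (p : ℤ) ∣ ord (plBelow K hℓ hA) ((Additive.toMul a : (K : Type)ˣ) : K) - m →
      ∀ g : decGrp A K₁, (g : Γℚ) ∈ A.inertiaSubgroupIn ℚ →
        zpw p (f g) = d₀ (unitsRep (decGrp A K₁).subtype) α g := by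
  set hl := isLocalAt_subtype A K₁
  set ζ : K₁ := IntermediateField.inclusion hK hT.root
  have hζ : IsPrimitiveRoot ζ p :=
    hT.root_spec.map_of_injective (IntermediateField.inclusion hK).injective
  have hz : f ∈ Z1 (glev (decGrp A K₁).subtype) (charRep (cycHom p (decGrp A K₁).subtype)) :=
    ⟨hf.lc, funext₂ fun g h => by simp [hl.cycHom_eq_one hζ g, hf.mul g h]⟩
  -- the homomorphism is the Kummer class of some `b`
  obtain ⟨b, hb⟩ := hl.kumK_surjective hℓ hA
    (cl₁ (glev (decGrp A K₁).subtype) (charRep (cycHom p (decGrp A K₁).subtype)) ⟨f, hz⟩)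
  refine ⟨ord (plBelow K₁ hℓ hA) ((Additive.toMul b : (K₁ : Type)ˣ) : K₁),
    fun a α hα hd g hg => ?_⟩
  set a₁ : Additive (K₁ : Type)ˣ := Additive.ofMul
    (Units.map (IntermediateField.inclusion hK : K →* K₁) (Additive.toMul a))
  obtain ⟨fb, -, hfb, hb', hfbc⟩ := exists_decKum hζ (A := A) b
  obtain ⟨fd, -, hfd, hd', hfdc⟩ := exists_decKum hζ (A := A) (a₁ - b)
  have hffb : ∀ g, f g = fb g := by
    rw [hfbc, ← sub_eq_zero, ← map_sub] at hb
    obtain ⟨c, hc⟩ := cl₁_eq_zero.mp hb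
    intro g
    have := congrFun hc g
    simp [hl.cycHom_eq_one hζ g] at this
    exact (sub_eq_zero.mp this.symm).symm
  have hdd : (p : ℤ) ∣ ord (plBelow K₁ hℓ hA)
      ((Additive.toMul (a₁ - b) : (K₁ : Type)ˣ) : K₁) := by
    rw [toMul_sub, Units.val_div_eq_div_val, ord_div _ (Units.ne_zero _) (Units.ne_zero _)]
    change (p : ℤ) ∣ ord _ (IntermediateField.inclusion hK
      ((Additive.toMul a : (K : Type)ˣ) : K)) - _
    rw [ord_inclusion_eq_of_unram hK hℓ hA hI]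
    exact hd
  -- so the class of `a / b` kills inertia
  have hzero := killsInertia_of_dvd_ord hℓ hA hℓp hdd hfd g hg
  obtain ⟨β, hβ⟩ := exists_root p (hl.kq b).1
  have hβp : uval β ^ p = (((Additive.toMul b : (K₁ : Type)ˣ) : K₁) : ℚbar) := by
    rw [← uval_nsmul, hβ, hl.uval_kq]
  have h1 := hfd (α - β) (by
    rw [uval_sub, div_pow, hα, hβp, toMul_sub, Units.val_div_eq_div_val, IntermediateField.coe_div]
    rfl) g
  rw [hzero, map_zero, map_sub, Pi.sub_apply, eq_comm, sub_eq_zero] at h1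
  rw [hffb, hfb β hβp, h1]

/-- The exponents at the places matching `x` on inertia. -/
lemma exists_inertia_exponent {K₁ E₀ : IntermediateField ℚ ℚbar} [FiniteDimensional ℚ K₁]
    [Normal ℚ K₁] [FiniteDimensional ℚ E₀] [Normal ℚ E₀] (hK : K ≤ K₁)
    (hK₁u : UnramOutside (T : Set Nat.Primes) K₁) {x : K.fixingSubgroup → ZMod p}
    (hxLC : ∀ g s : K.fixingSubgroup, (s : Γℚ) ∈ E₀.fixingSubgroup → x (g * s) = x g)
    (hdec : ∀ A, IsDecHom A K₁ fun g => x (levelIncl hK A g) - x 1) (w : Pl K) :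
    ∃ m : ℤ, w ∉ plsOver K T →
      ((resChar w : ℕ) ∉ exceptionalPrimes (K₁ ⊔ E₀ : IntermediateField ℚ ℚbar) → m = 0) ∧
      ∀ (a : Additive (K : Type)ˣ) (α : QU),
        uval α ^ p = (((Additive.toMul a : (K : Type)ˣ) : K) : ℚbar) →
        (p : ℤ) ∣ ord w ((Additive.toMul a : (K : Type)ˣ) : K) - m →
        ∀ g : decGrp (placeOver w) K₁, (g : Γℚ) ∈ (placeOver w).inertiaSubgroupIn ℚ →
          zpw p (x (levelIncl hK _ g) - x 1)
            = d₀ (unitsRep (decGrp (placeOver w) K₁).subtype) α g := by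
  by_cases hw : w ∈ plsOver K T
  · exact ⟨0, fun h => absurd hw h⟩
  have hv : resChar w ∉ T := fun h => hw (mem_plsOver.mpr h)
  have hA := placeOver_spec w
  by_cases hgood : (resChar w : ℕ) ∉ exceptionalPrimes (K₁ ⊔ E₀ : IntermediateField ℚ ℚbar)
  · refine ⟨0, fun _ => ⟨fun _ => rfl, fun a α hα hd g hg => ?_⟩⟩
    rw [sub_zero] at hd
    have : Normal ℚ ↥(K₁ ⊔ E₀) := @IntermediateField.normal_sup _ _ _ _ _ K₁ E₀ ‹_› ‹_›
    have hgE : (levelIncl hK _ g : K.fixingSubgroup).1 ∈ E₀.fixingSubgroup :=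
      IntermediateField.fixingSubgroup_le le_sup_right
        (inertiaSubgroupIn_le_fixingSubgroup (K₁ ⊔ E₀) (resChar w).2 hgood hA hg)
    have h1 : x (levelIncl hK _ g) = x 1 := by
      conv_lhs => rw [← one_mul (levelIncl hK _ g)]
      exact hxLC 1 _ hgE
    rw [h1, sub_self, map_zero, d₀_apply, eq_comm, sub_eq_zero]
    refine uval_injective ?_
    exact apply_eq_of_inertia (resChar w).2 hA (hT.ne_p_of_notMem hv) (Units.ne_zero _)
      ((plBelow_placeOver w).symm ▸ hd) hα hg (levelIncl hK _ g).2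
  · obtain ⟨m, hm⟩ := exists_ord_of_decHom hT hK (resChar w).2 (hT.ne_p_of_notMem hv) hA
      (hK₁u (resChar w) (fun h => hv h) _ hA) (hdec (placeOver w))
    refine ⟨m, fun _ => ⟨fun h => absurd h hgood, fun a α hα hd => ?_⟩⟩
    exact hm a α hα ((plBelow_placeOver w).symm ▸ hd)

omit hT in
/-- A cochain matched on inertia at one place over each prime is matched at all of them. -/
lemma sub_cocycle_eq_on_inertia {K₁ : IntermediateField ℚ ℚbar}
    (hK : K ≤ K₁) (hK₁u : UnramOutside (T : Set Nat.Primes) K₁)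
    {x : K.fixingSubgroup → ZMod p}
    (zψ : Z1 (glev K.fixingSubgroup.subtype) (triv p K.fixingSubgroup))
    (hmulr : ∀ g s : K.fixingSubgroup, (s : Γℚ) ∈ K₁.fixingSubgroup → x (g * s) = x g + x s - x 1)
    (hmull : ∀ g s : K.fixingSubgroup, (s : Γℚ) ∈ K₁.fixingSubgroup → x (s * g) = x g + x s - x 1)
    (hkey : ∀ w : Pl K, w ∉ plsOver K T → ∀ g : decGrp (placeOver w) K₁,
      (g : Γℚ) ∈ (placeOver w).inertiaSubgroupIn ℚ →
        zψ.1 (levelIncl hK _ g) = x (levelIncl hK _ g) - x 1)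
    {q : Nat.Primes} (hq : q ∉ T) {A : ValuationSubring ℚbar} (hA : A.LiesOverPrime (q : ℕ))
    {τ : K.fixingSubgroup} (hτ : (τ : Γℚ) ∈ A.inertiaSubgroupIn ℚ) :
    x τ - zψ.1 τ = x 1 := by
  set w := plBelow K q.2 hA with hwdef
  have hwv : resChar w = q := resChar_plBelow hA
  have hw : w ∉ plsOver K T := fun h => hq (hwv ▸ mem_plsOver.mp h)
  -- conjugate to the chosen place over the same prime of `K`
  obtain ⟨k, hk, hkA⟩ := exists_smul_of_plBelow_eq (K := K) (resChar w).2 (placeOver_spec w)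
    (B := A) (hwv.symm ▸ hA) (by
      rw [plBelow_placeOver]
      exact plBelow_congr q.2 (resChar w).2 hA (hwv.symm ▸ hA) rfl)
  set τ₀ : Γℚ := k⁻¹ * (τ : Γℚ) * k with hτ₀
  have hτ₀I : τ₀ ∈ (placeOver w).inertiaSubgroupIn ℚ := by
    have h := mem_inertiaSubgroupIn_smul q.2 hA hτ k⁻¹
    rwa [inv_inv, inv_smul_eq_iff.mpr hkA.symm] at h
  have hI₀ := hK₁u (resChar w) (fun h => hw (mem_plsOver.mpr h)) _ (placeOver_spec w) hτ₀I
  have hτ₀D : τ₀ ∈ (placeOver w).decompositionSubgroup ℚ := by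
    obtain ⟨t, -, ht⟩ := hτ₀I
    rw [← ht]
    exact t.2
  set g₀ : decGrp (placeOver w) K₁ := ⟨τ₀, hτ₀D, hI₀⟩
  set kk : K.fixingSubgroup := ⟨k, hk⟩
  have hτK : (τ : Γℚ) ∈ K₁.fixingSubgroup := hK₁u q (fun h => hq h) A hA hτ
  have hrel : kk * levelIncl hK _ g₀ = τ * kk := Subtype.ext (by
    change k * τ₀ = (τ : Γℚ) * k
    rw [hτ₀]
    group)
  have e1 : x (levelIncl hK _ g₀) = x τ := by
    have h1 := hmulr kk (levelIncl hK _ g₀) hI₀
    rw [hrel, hmull kk τ hτK] at h1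
    linear_combination -h1
  have e2 : zψ.1 (levelIncl hK _ g₀) = zψ.1 τ := by
    have h1 := triv_hom zψ kk (levelIncl hK _ g₀)
    rw [hrel, triv_hom zψ τ kk] at h1
    linear_combination -h1
  rw [← e2, hkey w hw g₀ hτ₀I, e1]
  ring

omit hT [FiniteDimensional ℚ K] [Normal ℚ K] in
/-- A corrected cochain is constant on some level. -/
lemma exists_level_sub_cocycle_eq {K₁ E₀ : IntermediateField ℚ ℚbar} [FiniteDimensional ℚ K₁]
    [FiniteDimensional ℚ E₀] (hK : K ≤ K₁)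
    {x : K.fixingSubgroup → ZMod p}
    (hxLC : ∀ g s : K.fixingSubgroup, (s : Γℚ) ∈ E₀.fixingSubgroup → x (g * s) = x g)
    (zψ : Z1 (glev K.fixingSubgroup.subtype) (triv p K.fixingSubgroup)) :
    ∃ M, (galLevels Set.univ).IsLevel M ∧ ∀ σ ∈ M, ∃ hσ : σ ∈ K₁.fixingSubgroup,
      x ⟨σ, IntermediateField.fixingSubgroup_le hK hσ⟩
        - zψ.1 ⟨σ, IntermediateField.fixingSubgroup_le hK hσ⟩ = x 1 := by
  obtain ⟨M₂, hM₂, hψ2⟩ := containsLevel_homKer zψ
  obtain ⟨M₂', hM₂', rfl⟩ := hM₂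
  obtain ⟨M₁, hM₁, h1⟩ := exists_level_univ_le (K₁ ⊔ E₀)
  obtain ⟨M₃, hM₃, i1, i2⟩ := (galLevels Set.univ).exists_le M₁ M₂' hM₁ hM₂'
  refine ⟨M₃, hM₃, fun σ hσ => ?_⟩
  have hσL := h1 (i1 hσ)
  have hσK₁ := IntermediateField.fixingSubgroup_le (le_sup_left (b := E₀)) hσL
  refine ⟨hσK₁, ?_⟩
  have e1 : x ⟨σ, IntermediateField.fixingSubgroup_le hK hσK₁⟩ = x 1 := by
    conv_lhs => rw [← one_mul (⟨σ, _⟩ : K.fixingSubgroup)]
    exact hxLC 1 _ (IntermediateField.fixingSubgroup_le (le_sup_right (a := K₁)) hσL)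
  have e2 : zψ.1 ⟨σ, IntermediateField.fixingSubgroup_le hK hσK₁⟩ = 0 :=
    hψ2 (show (⟨σ, IntermediateField.fixingSubgroup_le hK hσK₁⟩ : K.fixingSubgroup)
      ∈ M₂'.comap K.fixingSubgroup.subtype from i2 hσ)
  rw [e1, e2, sub_zero]

/-- **Injectivity** of `H²` unramified outside `T` into `H²` of all levels. -/
theorem subToUniv₂_injective : Function.Injective
    (map₂ (subToUniv K T) (IsEquivariant.id (triv p K.fixingSubgroup))) := by
  classical
  refine (injective_iff_map_eq_zero _).mpr fun c hc => ?_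
  obtain ⟨z, rfl⟩ := cl₂_surjective c
  rw [map₂_cl₂] at hc
  obtain ⟨x, hx, hxz⟩ := cl₂_eq_zero.mp hc
  have hxz' : ∀ g h : K.fixingSubgroup, x h - x (g * h) + x g = z.1 g h := fun g h => by
    have h0 := congrFun (congrFun hxz g) h
    rw [d₁_apply, Representation.trivial_apply] at h0
    exact h0
  -- a level of `z`
  obtain ⟨_, ⟨_, ⟨E, hE, hEn, hEu, rfl⟩, rfl⟩, hzLC⟩ := z.2.1
  set K₁ : IntermediateField ℚ ℚbar := K ⊔ E
  have : Normal ℚ K₁ := @IntermediateField.normal_sup _ _ _ _ _ K E ‹_› hEn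
  have hK₁u : UnramOutside (T : Set Nat.Primes) K₁ := hT.unram.sup hEu
  have hmulr : ∀ g s : K.fixingSubgroup, (s : Γℚ) ∈ K₁.fixingSubgroup →
      x (g * s) = x g + x s - x 1 := fun g s hs => by
    have h0 := hzLC g 1 1 (one_mem _) s (IntermediateField.fixingSubgroup_le le_sup_right hs)
    rw [mul_one, one_mul, ← hxz', ← hxz', mul_one] at h0
    linear_combination -h0
  have hmull : ∀ g s : K.fixingSubgroup, (s : Γℚ) ∈ K₁.fixingSubgroup →
      x (s * g) = x g + x s - x 1 := fun g s hs => by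
    have h0 := hzLC 1 g s (IntermediateField.fixingSubgroup_le le_sup_right hs) 1 (one_mem _)
    rw [one_mul, mul_one, ← hxz', ← hxz', one_mul] at h0
    linear_combination -h0
  -- a level of `x`
  obtain ⟨_, ⟨_, ⟨E₀, hE₀, hE₀n, -, rfl⟩, rfl⟩, hxLC⟩ := hx
  set L : IntermediateField ℚ ℚbar := K₁ ⊔ E₀
  -- the inclusion of the group of a place over `K₁`
  let incl : ∀ A : ValuationSubring ℚbar, decGrp A K₁ → K.fixingSubgroup := levelIncl le_sup_left
  have hdec : ∀ A, IsDecHom A K₁ fun g => x (incl A g) - x 1 := fun A => by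
    refine ⟨fun g h => ?_, ⟨_, ⟨E₀.fixingSubgroup, ⟨E₀, hE₀, hE₀n, unramOutside_univ _, rfl⟩, rfl⟩,
      fun g s hs => ?_⟩⟩
    · change x (incl A g * incl A h) - x 1 = _
      rw [hmulr _ _ h.2.2]
      ring
    · change x (incl A g * incl A s) - x 1 = _
      rw [hxLC (incl A g) (incl A s) hs]
  -- the exponents
  choose m hm using exists_inertia_exponent hT (K₁ := K₁) (E₀ := E₀) le_sup_left hK₁u hxLC hdec
  -- the element
  set n : Pl K → ℤ := fun w => if w ∈ plsOver K T then 0 else m w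
  have hnfin : {w | n w ≠ 0}.Finite := by
    refine ((exceptionalPrimes L).finite_toSet.preimage
      (f := fun v : Nat.Primes => (v : ℕ)) (fun a _ b _ h => Subtype.ext h)).biUnion
        (fun v _ => finite_resChar_eq (F := K) v) |>.subset fun w (hw : n w ≠ 0) => ?_
    simp only [n] at hw
    split_ifs at hw with h
    · exact absurd rfl hw
    · refine Set.mem_iUnion₂.mpr ⟨resChar w, ?_, rfl⟩
      by_contra h'
      exact hw ((hm w h).1 h')
  obtain ⟨y, hy0, hy⟩ := hT.gen n hnfin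
  set a : Additive (K : Type)ˣ := Additive.ofMul (Units.mk0 y hy0)
  obtain ⟨zψ, -, α, hα, hψ⟩ := exists_gkum_cocycle hT.cycHom_eq_one a
  -- the corrected cochain
  set u : K.fixingSubgroup → ZMod p := fun g => x g - zψ.1 g with hu
  have hu1 : u 1 = x 1 := by rw [hu]; simp only [Z1_one zψ.2, sub_zero]
  have huI : ∀ q : Nat.Primes, q ∉ T → ∀ A : ValuationSubring ℚbar, A.LiesOverPrime (q : ℕ) →
      ∀ (τ : K.fixingSubgroup), (τ : Γℚ) ∈ A.inertiaSubgroupIn ℚ → u τ = u 1 :=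
        fun q hq A hA τ hτ => by
    rw [hu1, hu]
    refine sub_cocycle_eq_on_inertia le_sup_left hK₁u zψ hmulr hmull (fun w hw g hg => ?_) hq hA hτ
    refine zpw_injective ((hψ _).trans ((hm w hw).2 a α hα ?_ g hg).symm)
    change (p : ℤ) ∣ ord w y - m w
    rw [hy w hw]
    simp only [n, if_neg hw, sub_self, dvd_zero]
  have hur : ∀ g s : K.fixingSubgroup, (s : Γℚ) ∈ K₁.fixingSubgroup →
      u (g * s) = u g + u s - u 1 := fun g s hs => by
    rw [hu1]
    simp only [hu, hmulr g s hs, triv_hom]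
    ring
  obtain ⟨N, hN, hNH⟩ := exists_level_of_inertia_hom (T := (T : Set Nat.Primes))
    (le_sup_left : K ≤ K₁) u hur
    ((exists_level_sub_cocycle_eq le_sup_left hxLC zψ).imp fun M h =>
      ⟨h.1, fun σ hσ => (h.2 σ hσ).imp fun _ e => e.trans hu1.symm⟩)
    fun q hq A hA σ hσ => ⟨hK₁u q (fun h => hq h) A hA hσ, huI q (fun h => hq h) A hA _ hσ⟩
  refine cl₂_eq_zero.mpr ⟨u, ⟨_, ⟨N, hN, rfl⟩, fun g s hs => ?_⟩, funext₂ fun g h => ?_⟩
  · obtain ⟨hs1, hs2⟩ := hNH _ hs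
    rw [hur g s hs1, show u s = u 1 from hs2]
    ring
  · change d₁ (triv p K.fixingSubgroup) u g h = z.1 g h
    rw [← hxz', d₁_apply, Representation.trivial_apply]
    simp only [hu, triv_hom]
    ring

end Fermat.CFT
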