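import Fermat.Agent.CFT.Global.UnramKummer

/-!
# Cohomology of `K` unramified outside `T`

For a Galois field `K ∋ ζ_p` unramified outside `T` whose primes over `T` generate the class
group, `H¹` with coefficients `ℤ/p` is the group of `T`-units modulo `p`-th powers and
localisation at `T` detects it; `H²` injects into the cohomology of all levels.
-/

set_option autoImplicit false
set_option linter.unusedSectionVars false

noncomputable section

open NumberField ExtCitation Fermat.CFT.Coh
open scoped Pointwise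

namespace Fermat.CFT

local notation "ℚbar" => AlgebraicClosure ℚ
local notation "Γℚ" => (AlgebraicClosure ℚ ≃ₐ[ℚ] AlgebraicClosure ℚ)

/-- An open subgroup containing the inertia groups outside `T` contains a level unramified
outside `T`. -/
lemma exists_level_le_of_inertia {T : Set Nat.Primes} {H : Subgroup Γℚ}
    (hH : ∃ N, (galLevels Set.univ).IsLevel N ∧ N ≤ H)
    (hI : ∀ q : Nat.Primes, q ∉ T → ∀ A : ValuationSubring ℚbar, A.LiesOverPrime (q : ℕ) →
      A.inertiaSubgroupIn ℚ ≤ H) :
    ∃ N, (galLevels T).IsLevel N ∧ N ≤ H := by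
  obtain ⟨N, hN, hle⟩ := hH
  obtain ⟨K', hK', -, hr⟩ := isGlobalAt_id.exists_sub (H := H)
    (⟨_, ⟨N, hN, rfl⟩, fun x hx => hle hx⟩ : ContainsLevel (glev (MonoidHom.id Γℚ)) H)
  have hfix : K'.fixingSubgroup ≤ H := fun x hx => by
    obtain ⟨g, rfl⟩ := hr.exists_eq x hx
    exact g.2
  obtain ⟨N', hN', hle'⟩ := exists_galLevel_le (T := T) K' fun q hq A hA σ hσ =>
    hr.range_le ⟨σ, hI q hq A hA hσ⟩
  exact ⟨N', hN', hle'.trans hfix⟩

variable {p : ℕ} [hp : Fact p.Prime] {K : IntermediateField ℚ ℚbar} [FiniteDimensional ℚ K]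
  [Normal ℚ K]

/-- The hypotheses on `K` and `T`. -/
structure IsAdmissible (p : ℕ) [Fact p.Prime] (K : IntermediateField ℚ ℚbar)
    [FiniteDimensional ℚ K] (T : Finset Nat.Primes) : Prop where
  /-- `p` lies in `T`. -/
  mem : pPrime p ∈ T
  /-- `K` is unramified outside `T`. -/
  unram : UnramOutside (T : Set Nat.Primes) K
  /-- `K` contains a primitive `p`-th root of unity. -/
  zeta : ∃ z : K, IsPrimitiveRoot z p
  /-- The primes over `T` generate the class group. -/
  gen : GeneratesClassGroup (plsOver K T : Set (Pl K))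

variable {T : Finset Nat.Primes} (hT : IsAdmissible p K T)

include hT

namespace IsAdmissible

/-- A primitive root of unity in `K`. -/
def root : K := hT.zeta.choose

/-- The chosen root of unity is primitive. -/
lemma root_spec : IsPrimitiveRoot hT.root p := hT.zeta.choose_spec

/-- The cyclotomic character is trivial over `K`. -/
lemma cycHom_eq_one (g : K.fixingSubgroup) : cycHom p K.fixingSubgroup.subtype g = 1 := by
  have hz : IsPrimitiveRoot ((hT.root : K) : ℚbar) p :=
    hT.root_spec.map_of_injective (f := K.val) Subtype.val_injective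
  obtain ⟨a, ha⟩ := exists_zpw_eq (p := p) (x := ofVal _ (hz.ne_zero hp.out.ne_zero))
    (uval_injective (by rw [uval_nsmul, uval_ofVal, hz.pow_eq_one, uval_zero]))
  have ha0 : a ≠ 0 := fun h => hz.ne_one hp.out.one_lt (by
    rw [← uval_ofVal ((hT.root : K) : ℚbar) (hz.ne_zero hp.out.ne_zero), ← ha, h, map_zero,
      uval_zero])
  have h1 : unitsRep K.fixingSubgroup.subtype g (zpw p a) = zpw p a := uval_injective (by
    rw [uval_unitsRep, ha, uval_ofVal]
    exact (IntermediateField.mem_fixingSubgroup_iff K _).mp g.2 _ hT.root.2)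
  rw [unitsRep_zpw] at h1
  have h2 : ((cycHom p K.fixingSubgroup.subtype g : ZMod p)) * a = a := by
    simpa using zpw_injective h1
  exact Units.ext ((mul_eq_right₀ ha0).mp h2)

/-- A prime outside `T` is not `p`. -/
lemma ne_p_of_notMem {v : Nat.Primes} (hv : v ∉ T) : (v : ℕ) ≠ p := fun h =>
  hv (by rw [show v = pPrime p from Subtype.ext h]; exact hT.mem)

/-- Inertia outside `T` fixes `K`. -/
lemma inertia_le {v : Nat.Primes} (hv : v ∉ T) {A : ValuationSubring ℚbar}
    (hA : A.LiesOverPrime (v : ℕ)) : A.inertiaSubgroupIn ℚ ≤ K.fixingSubgroup :=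
  hT.unram v (fun h => hv h) A hA

end IsAdmissible

omit hT

variable (p K T) in
/-- `H¹` of `K` unramified outside `T`. -/
abbrev KH1 : Type :=
  H1 (subLevels (galLevels (T : Set Nat.Primes)) K.fixingSubgroup) (triv p K.fixingSubgroup)

variable (p K T) in
/-- `H²` of `K` unramified outside `T`. -/
abbrev KH2 : Type :=
  H2 (subLevels (galLevels (T : Set Nat.Primes)) K.fixingSubgroup) (triv p K.fixingSubgroup)

variable (K T) in
/-- Levels unramified outside `T` are levels of the group of `K`. -/
lemma subToUniv : IsLevelsHom (subLevels (galLevels (T : Set Nat.Primes)) K.fixingSubgroup)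
    (glev K.fixingSubgroup.subtype) (MonoidHom.id K.fixingSubgroup) := by
  rintro _ ⟨N, hN, rfl⟩
  obtain ⟨N', hN', hle⟩ := galLevels_mono (Set.subset_univ (T : Set Nat.Primes)) N hN
  exact ⟨_, ⟨N', hN', rfl⟩, fun x hx => hle hx⟩

/-- With trivial coefficients only the zero cocycle has class zero. -/
lemma cl₁_triv_eq_zero {G : Type} [Group G] {L : Levels G} {z : Z1 L (triv p G)} :
    cl₁ L (triv p G) z = 0 ↔ z = 0 := by
  refine ⟨fun h => ?_, fun h => by rw [h, map_zero]⟩
  obtain ⟨m, hm⟩ := cl₁_eq_zero.mp h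
  exact Subtype.ext (hm.symm.trans (funext fun g => by simp))

variable (K T) in
/-- In degree one, classes unramified outside `T` inject into all classes. -/
lemma subToUniv₁_injective : Function.Injective
    (map₁ (subToUniv K T) (IsEquivariant.id (triv p K.fixingSubgroup))) := by
  refine (injective_iff_map_eq_zero _).mpr fun x hx => ?_
  obtain ⟨z, rfl⟩ := cl₁_surjective x
  refine cl₁_triv_eq_zero.mpr (Subtype.ext ?_)
  rw [map₁_cl₁] at hx
  have h := congrArg Subtype.val (cl₁_triv_eq_zero.mp hx)
  exact h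

/-- The group of a place over `K` inside the group of `K`. -/
def decIncl (A : ValuationSubring ℚbar) (K : IntermediateField ℚ ℚbar) :
    decGrp A K →* K.fixingSubgroup :=
  Subgroup.inclusion inf_le_right

variable (K) in
/-- The inclusion of the group of a place respects levels. -/
lemma isLevelsHom_decIncl (T : Set Nat.Primes) (A : ValuationSubring ℚbar) :
    IsLevelsHom (subLevels (galLevels T) K.fixingSubgroup) (glev (decGrp A K).subtype)
      (decIncl A K) := by
  rintro _ ⟨N, hN, rfl⟩
  obtain ⟨N', hN', hle⟩ := galLevels_mono (Set.subset_univ T) N hN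
  exact ⟨_, ⟨N', hN', rfl⟩, fun x hx => hle hx⟩

variable (p) in
/-- Trivial coefficients restrict to trivial coefficients at a place. -/
lemma decIncl_equivariant (A : ValuationSubring ℚbar) (K : IntermediateField ℚ ℚbar) :
    IsEquivariant (triv p K.fixingSubgroup) (triv p (decGrp A K)) (decIncl A K)
      (LinearMap.id : ZMod p →ₗ[ZMod p] ZMod p) := fun _ _ => rfl

variable (p T) in
/-- Localisation at the chosen place over `w`. -/
def kloc₁ (w : Pl K) : KH1 p K T →ₗ[ZMod p]
    H1 (glev (decGrp (placeOver w) K).subtype) (triv p (decGrp (placeOver w) K)) :=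
  map₁ (isLevelsHom_decIncl K (T : Set Nat.Primes) (placeOver w))
    (decIncl_equivariant p (placeOver w) K)

variable (p T) in
/-- Localisation at the chosen place over `w`, in degree two. -/
def kloc₂ (w : Pl K) : KH2 p K T →ₗ[ZMod p]
    H2 (glev (decGrp (placeOver w) K).subtype) (triv p (decGrp (placeOver w) K)) :=
  map₂ (isLevelsHom_decIncl K (T : Set Nat.Primes) (placeOver w))
    (decIncl_equivariant p (placeOver w) K)

/-! ### Kummer classes -/

variable (hχ : ∀ g, cycHom p K.fixingSubgroup.subtype g = 1)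

/-- The Kummer map of `K` into `ℤ/p`. -/
def gkum : Additive (K : Type)ˣ →+
    H1 (glev K.fixingSubgroup.subtype) (triv p K.fixingSubgroup) :=
  (map₁ (IsLevelsHom.id _) (charRep_triv_equivariant hχ)).toAddMonoidHom.comp
    ((kum p K.fixingSubgroup.subtype).comp (isGlobalAt_subtype K).kq)

/-- Every class of degree one of `K` is a Kummer class. -/
lemma gkum_surjective : Function.Surjective (gkum hχ) := by
  intro c
  obtain ⟨b, rfl⟩ := (map₁_bijective (L := glev K.fixingSubgroup.subtype)
    (charRep_triv_equivariant (p := p) hχ) Function.bijective_id).surjective c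
  obtain ⟨b, rfl⟩ := kum_surjective b
  obtain ⟨a, rfl⟩ := (isGlobalAt_subtype K).exists_kq_eq b
  exact ⟨a, rfl⟩

/-- A Kummer class vanishes exactly for `p`-th powers. -/
lemma gkum_eq_zero_iff {a : Additive (K : Type)ˣ} :
    gkum hχ a = 0 ↔ ∃ y, p • y = a := by
  refine ⟨fun h => ?_, ?_⟩
  · have h0 := (map₁_bijective (L := glev K.fixingSubgroup.subtype)
      (charRep_triv_equivariant (p := p) hχ) Function.bijective_id).injective
      (h.trans (map_zero _).symm)
    obtain ⟨z, hz⟩ := kum_eq_zero_iff.mp h0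
    obtain ⟨y, rfl⟩ := (isGlobalAt_subtype K).exists_kq_eq z
    refine ⟨y, Additive.toMul.injective (Units.ext (Subtype.ext ?_))⟩
    have h1 := congrArg uval (congrArg Subtype.val hz)
    rw [← map_nsmul, IsGlobalAt.uval_kq, IsGlobalAt.uval_kq] at h1
    exact h1
  · rintro ⟨y, rfl⟩
    rw [map_nsmul, ← Nat.cast_smul_eq_nsmul (ZMod p), ZMod.natCast_self, zero_smul]

/-- The Kummer class of `a` is given by the cocycle of a `p`-th root of `a`. -/
lemma exists_gkum_cocycle (a : Additive (K : Type)ˣ) :
    ∃ z : Z1 (glev K.fixingSubgroup.subtype) (triv p K.fixingSubgroup),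
      gkum hχ a = cl₁ (glev K.fixingSubgroup.subtype) (triv p K.fixingSubgroup) z ∧
      ∃ α : QU, uval α ^ p = (((Additive.toMul a : (K : Type)ˣ) : K) : ℚbar) ∧
        ∀ g, zpw p (z.1 g) = d₀ (unitsRep K.fixingSubgroup.subtype) α g := by
  set hr := isGlobalAt_subtype K
  obtain ⟨α, hα⟩ := exists_root p (hr.kq a).1
  refine ⟨mapZ1 (IsLevelsHom.id _) (charRep_triv_equivariant hχ)
    (rootCocycle (isRoot_of_eq (p := p) (hr.kq a) hα)), ?_, α, by
      rw [← uval_nsmul, hα, hr.uval_kq],
        fun g => zpw_rootCocycle (isRoot_of_eq (p := p) (hr.kq a) hα) g⟩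
  rw [show gkum hχ a = map₁ (IsLevelsHom.id _) (charRep_triv_equivariant hχ)
      (kum p K.fixingSubgroup.subtype (hr.kq a)) from rfl, kum_root _ hα, map₁_cl₁]

/-- A Kummer class at a place is the local Kummer class. -/
lemma map₁_gkum (A : ValuationSubring ℚbar)
    (hχl : ∀ g, cycHom p (decGrp A K).subtype g = 1) (a : Additive (K : Type)ˣ) :
    map₁ (IsLevelsHom.id _) (triv_charRep_equivariant hχl)
        (map₁ (isLevelsHom_decIncl K Set.univ A) (decIncl_equivariant p A K) (gkum hχ a)) =
      (isLocalAt_subtype A K).kumK p a := by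
  obtain ⟨α, hα⟩ := exists_root p ((isGlobalAt_subtype K).kq a).1
  have hα' : p • α = ((isLocalAt_subtype A K).kq a).1 := hα
  rw [show gkum hχ a = map₁ (IsLevelsHom.id _) (charRep_triv_equivariant hχ)
      (kum p K.fixingSubgroup.subtype ((isGlobalAt_subtype K).kq a)) from rfl]
  rw [show (isLocalAt_subtype A K).kumK p a =
      kum p (decGrp A K).subtype ((isLocalAt_subtype A K).kq a) from rfl]
  rw [kum_root _ hα, kum_root _ hα', map₁_cl₁, map₁_cl₁, map₁_cl₁]
  congr 1

include hT

/-- Classes unramified outside `T` are those of elements with valuations divisible by `p` there. -/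
theorem mem_range_subToUniv₁_iff (a : Additive (K : Type)ˣ) :
    gkum hχ a ∈ LinearMap.range (map₁ (subToUniv K T)
      (IsEquivariant.id (triv p K.fixingSubgroup))) ↔
      ∀ w : Pl K, w ∉ plsOver K T →
        (p : ℤ) ∣ ord w ((Additive.toMul a : (K : Type)ˣ) : K) := by
  obtain ⟨z, hz, α, hαp, hzα⟩ := exists_gkum_cocycle hχ a
  constructor
  -- a class from level `T` is unramified outside `T`
  · rintro ⟨x, hx⟩ w hw
    obtain ⟨y, rfl⟩ := cl₁_surjective x
    rw [hz, map₁_cl₁, ← sub_eq_zero, ← map_sub, cl₁_triv_eq_zero, sub_eq_zero] at hx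
    have hyz : ∀ g, y.1 g = z.1 g := fun g => congrFun (congrArg Subtype.val hx) g
    have hv : resChar w ∉ T := fun h => hw (mem_plsOver.mpr h)
    set A := placeOver w
    have hA := placeOver_spec w
    have hw' := plBelow_placeOver w
    rw [← hw']
    refine dvd_ord_of_killsInertia hT.root_spec (resChar w).2 hA (hT.ne_p_of_notMem hv)
      (hT.inertia_le hv hA) (a := a) (f := fun g => z.1 (decIncl A K g)) (fun β hβ g => ?_) ?_
    · rw [hzα]
      obtain ⟨c, hc⟩ := exists_zpw_eq (p := p) (x := α - β) (by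
        refine uval_injective ?_
        rw [uval_nsmul, uval_sub, div_pow, hαp, hβ, uval_zero, div_self]
        exact fun h => (Additive.toMul a).ne_zero (Subtype.ext h))
      have h1 : unitsRep K.fixingSubgroup.subtype (decIncl A K g) (zpw p c) = zpw p c := by
        rw [unitsRep_zpw]
        simp [hχ (decIncl A K g)]
      rw [show α = β + zpw p c by rw [hc, add_sub_cancel], d₀_apply, d₀_apply, map_add, h1]
      change unitsRep K.fixingSubgroup.subtype (decIncl A K g) β + _ - _ =
        unitsRep (decGrp A K).subtype g β - β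
      rw [add_sub_add_right_eq_sub]
      rfl
    · intro g hg
      obtain ⟨_, ⟨_, ⟨E, hEf, hEn, hEu, rfl⟩, rfl⟩, hLC⟩ := y.2.1
      have hgE : decIncl A K g ∈ E.fixingSubgroup.comap K.fixingSubgroup.subtype :=
        hEu (resChar w) (fun h => hv h) A hA hg
      change z.1 (decIncl A K g) = 0
      rw [← hyz]
      have := hLC 1 _ hgE
      rw [one_mul, Z1_one y.2] at this
      exact this
  -- conversely inertia outside `T` fixes the root, so the cocycle factors through level `T`
  · intro hd
    set H : Subgroup Γℚ := (homKer z).map K.fixingSubgroup.subtype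
    obtain ⟨N, hN, hle⟩ : ∃ N, (galLevels (T : Set Nat.Primes)).IsLevel N ∧ N ≤ H := by
      refine exists_level_le_of_inertia ?_ fun q hq A hA σ hσ => ?_
      · obtain ⟨_, ⟨M, hM, rfl⟩, hle⟩ := containsLevel_homKer z
        obtain ⟨E, hE, hEn, -, rfl⟩ := hM
        obtain ⟨M', hM', h'⟩ := exists_level_univ_le (K ⊔ E)
        refine ⟨M', hM', fun x hx => ?_⟩
        have hxK := IntermediateField.fixingSubgroup_le (le_sup_left (b := E)) (h' hx)
        exact ⟨⟨x, hxK⟩, hle (IntermediateField.fixingSubgroup_le (le_sup_right (a := K)) (h' hx)),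
          rfl⟩
      · have hσK := hT.inertia_le (fun h => hq h) hA hσ
        refine ⟨⟨σ, hσK⟩, mem_homKer.mpr (zpw_injective ?_), rfl⟩
        rw [hzα, map_zero, d₀_apply, sub_eq_zero]
        refine uval_injective ?_
        exact apply_eq_of_inertia q.2 hA (hT.ne_p_of_notMem fun h => hq h)
          (Units.ne_zero (Additive.toMul a)) (hd _ fun h => hq (by
            rw [mem_plsOver, resChar_plBelow] at h
            exact h)) hαp hσ hσK
    refine ⟨cl₁ (subLevels (galLevels (T : Set Nat.Primes)) K.fixingSubgroup)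
      (triv p K.fixingSubgroup) ⟨z.1, ⟨_, ⟨N, hN, rfl⟩, fun g s hs => ?_⟩, z.2.2⟩, ?_⟩
    · obtain ⟨t, ht, hts⟩ := hle hs
      rw [show s = t from Subtype.ext hts.symm, triv_hom, show z.1 t = 0 from ht, add_zero]
    · rw [hz]
      rfl

/-- The Kummer map on `T`-units. -/
def ekum : Additive (sUnits K (plsOver K T : Set (Pl K))) →+ KH1 p K T :=
  AddMonoidHom.mk' (fun e : Additive (sUnits K (plsOver K T : Set (Pl K))) =>
    ((mem_range_subToUniv₁_iff hT hT.cycHom_eq_one
      (Additive.ofMul (Additive.toMul e).1)).mpr fun w hw =>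
        ((Additive.toMul e).2 w (Finset.mem_coe.not.mpr hw)).symm ▸ dvd_zero _).choose)
    fun e e' => subToUniv₁_injective K T (by
      rw [(map₁ (subToUniv K T) (IsEquivariant.id (triv p K.fixingSubgroup))).map_add]
      have h := fun e : Additive (sUnits K (plsOver K T : Set (Pl K))) =>
        ((mem_range_subToUniv₁_iff hT hT.cycHom_eq_one (Additive.ofMul (Additive.toMul e).1)).mpr
          fun w hw => ((Additive.toMul e).2 w (Finset.mem_coe.not.mpr hw)).symm ▸
            dvd_zero _).choose_spec
      rw [h, h, h, ← map_add]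
      rfl)

/-- The class of a `T`-unit among all classes is its Kummer class. -/
lemma map_ekum (e : Additive (sUnits K (plsOver K T : Set (Pl K)))) :
    map₁ (subToUniv K T) (IsEquivariant.id (triv p K.fixingSubgroup)) (ekum hT e) =
      gkum hT.cycHom_eq_one (Additive.ofMul (Additive.toMul e).1) :=
  ((mem_range_subToUniv₁_iff hT hT.cycHom_eq_one (Additive.ofMul (Additive.toMul e).1)).mpr
    fun w hw => ((Additive.toMul e).2 w (Finset.mem_coe.not.mpr hw)).symm ▸ dvd_zero _).choose_spec

/-- Every class of degree one of `K` unramified outside `T` is the Kummer class of a `T`-unit. -/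
theorem ekum_surjective : Function.Surjective (ekum hT) := by
  intro x
  obtain ⟨a, ha⟩ := gkum_surjective hT.cycHom_eq_one
    (map₁ (subToUniv K T) (IsEquivariant.id (triv p K.fixingSubgroup)) x)
  have hd := (mem_range_subToUniv₁_iff hT hT.cycHom_eq_one a).mp ⟨x, ha.symm⟩
  set au : (K : Type)ˣ := Additive.toMul a
  set n : Pl K → ℤ := fun w => ord w (au : K) / p with hn
  obtain ⟨y, hy0, hy⟩ := hT.gen n ((finite_ord_ne_zero (au : K)).subset fun w hw h => hw (by
    simp only [hn, h, EuclideanDomain.zero_div]))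
  set yu : (K : Type)ˣ := Units.mk0 y hy0
  have hmem : au / yu ^ p ∈ sUnits K (plsOver K T : Set (Pl K)) := fun w hw => by
    rw [Units.val_div_eq_div_val, Units.val_pow_eq_pow_val, ord_div w au.ne_zero
      (pow_ne_zero _ yu.ne_zero), ord_pow]
    change ord w (au : K) - p * ord w y = 0
    rw [hy w hw, hn]
    simp only
    rw [Int.mul_ediv_cancel' (hd w hw), sub_self]
  refine ⟨Additive.ofMul ⟨au / yu ^ p, hmem⟩, subToUniv₁_injective K T ?_⟩
  rw [map_ekum, ← ha]
  change gkum _ (Additive.ofMul (au / yu ^ p)) = gkum _ a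
  rw [ofMul_div, ofMul_pow, map_sub, map_nsmul, ← Nat.cast_smul_eq_nsmul (ZMod p),
    ZMod.natCast_self, zero_smul, sub_zero]
  rfl

/-- The class of a `T`-unit vanishes exactly for `p`-th powers of `T`-units. -/
theorem ekum_eq_zero_iff {e : Additive (sUnits K (plsOver K T : Set (Pl K)))} :
    ekum hT e = 0 ↔ ∃ y, p • y = e := by
  refine ⟨fun h => ?_, ?_⟩
  · have h0 := congrArg (map₁ (subToUniv K T) (IsEquivariant.id (triv p K.fixingSubgroup))) h
    rw [map_ekum, map_zero] at h0
    obtain ⟨y, hy⟩ := (gkum_eq_zero_iff _).mp h0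
    have hyu : (Additive.toMul y : (K : Type)ˣ) ^ p = (Additive.toMul e).1 :=
      congrArg Additive.toMul hy
    refine ⟨Additive.ofMul ⟨Additive.toMul y, fun w hw => ?_⟩,
      Additive.toMul.injective (Subtype.ext hyu)⟩
    have h1 := congrArg (fun u : (K : Type)ˣ => ord w (u : K)) hyu
    simp only [Units.val_pow_eq_pow_val, ord_pow, (Additive.toMul e).2 w hw] at h1
    exact (mul_eq_zero.mp h1).resolve_left (Int.natCast_ne_zero.mpr hp.out.ne_zero)
  · rintro ⟨y, rfl⟩
    rw [map_nsmul, ← Nat.cast_smul_eq_nsmul (ZMod p), ZMod.natCast_self, zero_smul]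

/-- The order of `H¹`. -/
theorem natCard_KH1 :
    Nat.card (KH1 p K T) = p ^ (Fintype.card (InfinitePlace K) + (plsOver K T).card) := by
  rw [← index_range_nsmul_sUnits (plsOver K T) hT.root_spec]
  have hk : (ekum hT).ker =
      (nsmulAddMonoidHom p : Additive (sUnits K (plsOver K T : Set (Pl K))) →+ _).range :=
    AddSubgroup.ext fun e => (AddMonoidHom.mem_ker).trans (ekum_eq_zero_iff hT)
  rw [← hk, AddSubgroup.index_ker, AddMonoidHom.range_eq_top.mpr (ekum_surjective hT),
    AddSubgroup.card_top]

/-- `H¹` of `K` unramified outside `T` is finite. -/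
theorem finite_KH1 : Finite (KH1 p K T) :=
  Nat.finite_of_card_ne_zero (by rw [natCard_KH1 hT]; exact pow_ne_zero _ hp.out.ne_zero)

/-- Localisation of a `T`-unit class. -/
lemma kloc₁_ekum (w : Pl K) (e : Additive (sUnits K (plsOver K T : Set (Pl K))))
    (hχl : ∀ g, cycHom p (decGrp (placeOver w) K).subtype g = 1) :
    map₁ (IsLevelsHom.id _) (triv_charRep_equivariant hχl) (kloc₁ p T w (ekum hT e)) =
      (isLocalAt_subtype (placeOver w) K).kumK p (Additive.ofMul (Additive.toMul e).1) := by
  have h : kloc₁ p T w (ekum hT e) =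
      map₁ (isLevelsHom_decIncl K Set.univ (placeOver w))
        (decIncl_equivariant p (placeOver w) K)
        (map₁ (subToUniv K T) (IsEquivariant.id (triv p K.fixingSubgroup)) (ekum hT e)) := by
    obtain ⟨z, hz⟩ := cl₁_surjective (ekum hT e)
    rw [← hz]
    rfl
  rw [h, map_ekum, map₁_gkum _ _ hχl]

/-- The class of a `T`-unit vanishes at a place exactly for local powers. -/
lemma kloc₁_ekum_eq_zero_iff (w : Pl K) (e : Additive (sUnits K (plsOver K T : Set (Pl K)))) :
    kloc₁ p T w (ekum hT e) = 0 ↔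
      (Additive.toMul e).1 ∈ localPowers p hT.root w := by
  have hχl := (isLocalAt_subtype (placeOver w) K).cycHom_eq_one (p := p) hT.root_spec
  rw [← (map₁_bijective (L := glev (decGrp (placeOver w) K).subtype)
    (triv_charRep_equivariant (p := p) hχl) Function.bijective_id).injective.eq_iff, map_zero,
    kloc₁_ekum hT w e hχl,
    (isLocalAt_subtype (placeOver w) K).kumK_eq_zero_iff (resChar w).2 (placeOver_spec w)
      hT.root_spec, plBelow_placeOver]
  rfl

/-- **Localisation at `T` detects `H¹`.** A class in `H¹` of `K` whose localisations at all places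
over `T` vanish is zero. -/
theorem eq_zero_of_kloc₁ (h2 : 2 < p) {x : KH1 p K T}
    (hx : ∀ w ∈ plsOver K T, kloc₁ p T w x = 0) : x = 0 := by
  classical
  obtain ⟨e, rfl⟩ := ekum_surjective hT x
  obtain ⟨y, hy⟩ := exists_pow_eq_of_localPowers (S := plsOver K T) (T := ∅) hT.root_spec h2
    (fun w hw => ord_natCast_eq_zero_of_notMem hT.mem hw) hT.gen (by simp) (by simp [localKer])
    (a := (Additive.toMul e).1) (by rw [Finset.union_empty]; exact (Additive.toMul e).2)
    fun w hw => (kloc₁_ekum_eq_zero_iff hT w e).mp (hx w hw)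
  have hy0 : y ≠ 0 := fun h => by
    rw [h, zero_pow hp.out.ne_zero] at hy
    exact Units.ne_zero _ hy.symm
  refine (ekum_eq_zero_iff hT).mpr ⟨Additive.ofMul ⟨Units.mk0 y hy0, fun w hw => ?_⟩,
    Additive.toMul.injective (Subtype.ext (Units.ext hy))⟩
  have h1 := congrArg (ord w) hy
  rw [ord_pow, (Additive.toMul e).2 w hw] at h1
  exact (mul_eq_zero.mp h1).resolve_left (Int.natCast_ne_zero.mpr hp.out.ne_zero)

end Fermat.CFT
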