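import Fermat.Agent.CFT.Global.InducedH2

/-!
# Linking the places over `T`

Symbols of units give classes of degree two with prescribed support: for two places over the
starting set one uses the norm residues of a cyclic extension of degree `p`, for the auxiliary
places an element of valuation one there.  Every finite set of primes lies in a linked one.
-/

set_option autoImplicit false
set_option linter.unusedSectionVars false

noncomputable section

open NumberField ExtCitation Fermat.CFT.Coh
open scoped Pointwise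

namespace Fermat.CFT

local notation "ℚbar" => AlgebraicClosure ℚ

variable {p : ℕ} [hp : Fact p.Prime] {K : IntermediateField ℚ ℚbar} [FiniteDimensional ℚ K]
  [Normal ℚ K] {T T₀ : Finset Nat.Primes}

/-- A larger set of primes is still admissible. -/
lemma IsAdmissible.mono (h : IsAdmissible p K T₀) (hle : T₀ ⊆ T) : IsAdmissible p K T where
  mem := hle h.mem
  unram := h.unram.mono (Finset.coe_subset.mpr hle)
  zeta := h.zeta
  gen := h.gen.mono (Finset.coe_subset.mpr (plsOver_mono hle))

/-! ### Galois -/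

/-- Conjugate primes lie over the same prime number. -/
lemma resChar_smul (g : K ≃ₐ[ℚ] K) (w : Pl K) : resChar (g • w) = resChar w := by
  refine resChar_eq ?_
  rw [smul_asIdeal, Ideal.mem_pointwise_smul_iff_inv_smul_mem]
  have h : g⁻¹ • ((resChar w : ℕ) : 𝓞 K) = ((resChar w : ℕ) : 𝓞 K) :=
    map_natCast (MulSemiringAction.toRingHom (K ≃ₐ[ℚ] K) (𝓞 K) g⁻¹) _
  rw [h]
  exact natCast_resChar_mem w

/-- Primes over the same prime number are conjugate. -/
lemma exists_smul_eq_of_resChar_eq {v w : Pl K} (h : resChar v = resChar w) :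
    ∃ g : K ≃ₐ[ℚ] K, g • v = w := by
  obtain ⟨σ, hσ⟩ := exists_smul_place (resChar v).2 (placeOver_spec v)
    (B := placeOver w) (h ▸ placeOver_spec w)
  refine ⟨AlgEquiv.restrictNormalHom K σ, ?_⟩
  conv_lhs => rw [← plBelow_placeOver v]
  rw [← plBelow_smul (resChar v).2 (placeOver_spec v) σ]
  conv_rhs => rw [← plBelow_placeOver w]
  exact plBelow_congr _ _ _ _ hσ

/-- Galois carries local `p`-th powers at a place to those at the image place. -/
lemma smul_mem_localPowers {ζ : K} (hζ : IsPrimitiveRoot ζ p) (g : K ≃ₐ[ℚ] K) {v : Pl K}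
    {a : (K : Type)ˣ} (ha : a ∈ localPowers p ζ v) :
    Units.map (g : K →* K) a ∈ localPowers p ζ (g • v) := by
  obtain ⟨y, hy⟩ := ha
  have hlev : localLevel p ζ (g • v) = localLevel p ζ v := by
    have h1 : ord (g • v) (g (1 - ζ)) = ord v (1 - ζ) := ord_smul g v _
    rw [map_sub, map_one, ord_one_sub_of_primitive hζ (hζ.map_of_injective g.injective),
      ord_one_sub_zeta hζ] at h1
    rw [localLevel, localLevel, Int.natCast_inj.mp h1]
  refine ⟨Units.map (g : K →* K) y, ?_⟩
  rw [hlev]
  have he : (g (a : K)) / (g (y : K)) ^ p = g ((a : K) / (y : K) ^ p) := by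
    rw [map_div₀, map_pow]
  change CloseOne (g • v) _ (g (a : K) / g (y : K) ^ p)
  rw [he]
  rcases hy with h | h
  · exact Or.inl (by rw [h, map_one])
  · refine Or.inr ?_
    rw [← map_one g, ← map_sub]
    rw [show ord (g • v) (g ((a : K) / (y : K) ^ p - 1)) = ord v ((a : K) / (y : K) ^ p - 1) from
      ord_smul g v _]
    exact h

/-- If `i • a + j • b = 0` and `b = 0` then `i • a = 0`. -/
lemma nsmul_eq_zero_of_add {A : Type} [AddMonoid A] {a b : A} {i j : ℕ} (hb : b = 0)
    (h : i • a + j • b = 0) : i • a = 0 := by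
  simpa [hb] using h

/-- If `j • b + i • a = 0` and `b = 0` then `i • a = 0`. -/
lemma nsmul_eq_zero_of_add' {A : Type} [AddMonoid A] {a b : A} {i j : ℕ} (hb : b = 0)
    (h : j • b + i • a = 0) : i • a = 0 := by
  simpa [hb] using h

/-- A combination of zeros is zero. -/
lemma nsmul_add_nsmul_zero {A : Type} [AddMonoid A] {a b : A} (i j : ℕ) (ha : a = 0)
    (hb : b = 0) : i • a + j • b = 0 := by
  simp [ha, hb]

/-! ### Classes in norm residue groups -/

/-- Two residues modulo `p` are equal if `p` divides the representative of their difference. -/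
lemma fin_eq_of_dvd_sub_add {a b : Fin p} (h : p ∣ (p - a) + b) : a = b := by
  have := a.isLt; have := b.isLt
  obtain ⟨c, hc⟩ := h
  refine Fin.ext ?_
  rcases Nat.lt_trichotomy c 1 with hc1 | hc1 | hc1
  · interval_cases c; omega
  · subst hc1; omega
  · have : p * 2 ≤ p * c := Nat.mul_le_mul_left p hc1
    omega

/-- Two elements killed by `p` are dependent modulo a subgroup of index `p`. -/
lemma exists_nsmul_add_nsmul_mem {A : Type*} [AddCommGroup A] {R : AddSubgroup A}
    (hR : R.index = p) {x₁ x₂ : A} (h₁ : p • x₁ = 0) (h₂ : p • x₂ = 0) :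
    ∃ i j : ℕ, (¬ p ∣ i ∨ ¬ p ∣ j) ∧ i • x₁ + j • x₂ ∈ R := by
  let f : Fin p × Fin p → A ⧸ R := fun x =>
    QuotientAddGroup.mk ((x.1 : ℕ) • x₁ + (x.2 : ℕ) • x₂)
  have hcard : Nat.card (A ⧸ R) = p := by rw [← AddSubgroup.index_eq_card]; exact hR
  have : Finite (A ⧸ R) := Nat.finite_of_card_ne_zero (by rw [hcard]; exact hp.out.ne_zero)
  obtain ⟨a, a', hne', heq⟩ : ∃ a a', a ≠ a' ∧ f a = f a' := by
    by_contra hall
    push Not at hall
    have hinj : Function.Injective f := fun a a' h => by_contra fun hn => hall a a' hn h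
    have h := Nat.card_le_card_of_injective f hinj
    rw [hcard, Nat.card_prod, Nat.card_fin] at h
    exact absurd h (not_le.mpr (lt_mul_self hp.out.one_lt))
  rw [QuotientAddGroup.eq] at heq
  refine ⟨(p - a.1) + a'.1, (p - a.2) + a'.2, ?_, ?_⟩
  · by_contra hall
    push Not at hall
    exact hne' (Prod.ext (fin_eq_of_dvd_sub_add hall.1) (fin_eq_of_dvd_sub_add hall.2))
  · convert heq using 1
    have hneg : ∀ (m : ℕ) (x : A), p • x = 0 → m < p → (p - m) • x = -(m • x) := fun m x hx hm =>
      by rw [eq_neg_iff_add_eq_zero, ← add_smul, Nat.sub_add_cancel hm.le, hx]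
    rw [add_smul, add_smul, hneg _ _ h₁ a.1.isLt, hneg _ _ h₂ a.2.isLt]
    abel

section Residue

variable {k : Type} [Field k] [NumberField k] {ζ : k} {F : Type} [Field F] [NumberField F]
  [Algebra k F] [IsGalois k F]

/-- The norm residue groups are killed by `p`. -/
lemma nsmul_locN_eq_zero {A : Finset (Pl k)} (x : LocN p ζ F A) : p • x = 0 :=
  funext fun v => by
    change p • x v = 0
    obtain ⟨c, hc⟩ := QuotientGroup.mk_surjective (Additive.toMul (x v))
    rw [← ofMul_toMul (x v), ← hc, ← ofMul_pow, ← QuotientGroup.mk_pow]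
    exact congrArg Additive.ofMul ((QuotientGroup.eq_one_iff _).mpr
      (Subgroup.mem_sup_right (pow_mem_localPowers (p := p) (ζ := ζ) _ c)))

/-- A class at a place of index `p` alone, of order `p`. -/
lemma exists_single_residue (A : Finset (Pl k)) {w : Pl k}
    (hidx : (localNorms p ζ F w).index = p) :
    ∃ x : LocN p ζ F A, (∀ v : A, (v : Pl k) ≠ w → x v = 0) ∧
      ∀ v : A, (v : Pl k) = w → ∀ n : ℕ, n • x v = 0 → p ∣ n := by
  classical
  obtain ⟨c, hc⟩ : ∃ c : kˣ, c ∉ localNorms p ζ F w := by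
    by_contra hall
    push Not at hall
    exact hp.out.ne_one (hidx ▸ Subgroup.index_eq_one.mpr (eq_top_iff.mpr fun x _ => hall x))
  refine ⟨fun v => if h : (v : Pl k) = w then
    Additive.ofMul (QuotientGroup.mk c) else 0, fun v hv => dif_neg hv, fun v hv n hn => ?_⟩
  have hn' : n • (Additive.ofMul (QuotientGroup.mk c) :
      Additive (kˣ ⧸ localNorms p ζ F (v : Pl k))) = 0 := by
    refine Eq.trans ?_ hn
    congr 1
    dsimp only
    rw [dif_pos hv]
  have hn'' : c ^ n ∈ localNorms p ζ F (v : Pl k) := by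
    rw [← QuotientGroup.eq_one_iff, QuotientGroup.mk_pow]
    exact hn'
  rw [hv] at hn''
  by_contra hdvd
  refine hc ?_
  obtain ⟨i, j, hij⟩ := Int.isCoprime_iff_gcd_eq_one.mpr
    (show Int.gcd (n : ℤ) (p : ℤ) = 1 by
      rw [Int.gcd_natCast_natCast]
      exact ((hp.out.coprime_iff_not_dvd).mpr hdvd).symm)
  have hcp : c ^ p ∈ localNorms p ζ F w :=
    Subgroup.mem_sup_right (pow_mem_localPowers (p := p) (ζ := ζ) w c)
  rw [← zpow_one c, ← hij, zpow_add, mul_comm i, mul_comm j, zpow_mul, zpow_mul, zpow_natCast,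
    zpow_natCast]
  exact mul_mem (zpow_mem hn'' i) (zpow_mem hcp j)

end Residue

/-! ### Symbols in `H²` -/

variable (p K T) in
/-- The cup product of two classes of degree one. -/
def ksym : KH1 p K T →ₗ[ZMod p] KH1 p K T →ₗ[ZMod p] KH2 p K T :=
  sym p (subLevels (galLevels (T : Set Nat.Primes)) K.fixingSubgroup)

/-- Localisation of a cup product is the cup product of the localisations. -/
lemma kloc₂_ksym (w : Pl K) (x y : KH1 p K T) :
    kloc₂ p T w (ksym p K T x y) =
      sym p (glev (decGrp (placeOver w) K).subtype) (kloc₁ p T w x) (kloc₁ p T w y) := by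
  obtain ⟨f, rfl⟩ := cl₁_surjective x
  obtain ⟨f', rfl⟩ := cl₁_surjective y
  exact cl₂_congr fun g g' => rfl

variable (hT : IsAdmissible p K T)

include hT

/-- The symbol of two units at a place. -/
lemma kloc₂_ksym_eq_zero_iff (w : Pl K)
    (u b : Additive (sUnits K (plsOver K T : Set (Pl K)))) :
    kloc₂ p T w (ksym p K T (ekum hT u) (ekum hT b)) = 0 ↔
      lsym ((isLocalAt_subtype (placeOver w) K).cycHom_eq_one hT.root_spec)
        ((isLocalAt_subtype (placeOver w) K).kumK p (Additive.ofMul (Additive.toMul u).1))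
        ((isLocalAt_subtype (placeOver w) K).kumK p (Additive.ofMul (Additive.toMul b).1)) = 0 := by
  have hχl := (isLocalAt_subtype (placeOver w) K).cycHom_eq_one (p := p) hT.root_spec
  rw [kloc₂_ksym, ← kloc₁_ekum hT w u hχl, ← kloc₁_ekum hT w b hχl, ← map₂_sym hχl]
  refine ⟨fun h => by rw [h, map_zero], fun h => ?_⟩
  exact (map₂_bijective (L := glev (decGrp (placeOver w) K).subtype)
    (triv_charRep_equivariant (p := p) hχl) Function.bijective_id).injective
      (h.trans (map_zero _).symm)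

/-- At every place over `T` some unit is not a local power. -/
theorem exists_not_localPower (h2 : 2 < p) {w : Pl K} (hw : w ∈ plsOver K T) :
    ∃ e : Additive (sUnits K (plsOver K T : Set (Pl K))),
      (Additive.toMul e).1 ∉ localPowers p hT.root w := by
  classical
  -- otherwise every localisation at `w` vanishes
  by_contra hno
  push Not at hno
  set D := indPair (ι := Unit) hT
  have hzero : ∀ c : H1 (galLevels (T : Set Nat.Primes)) (indK p K Unit),
      wcompAll₁ p K Unit T (loc₁ T (indK p K Unit) c) (⟨w, hw⟩, ()) = 0 := fun c => by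
    obtain ⟨e, he⟩ := ekum_surjective hT (gcomp₁ T () c)
    change wcomp₁ w rfl () (loc₁ T (indK p K Unit) c ⟨resChar w, _⟩) = 0
    rw [← kloc₁_gcomp₁ w (mem_plsOver.mp hw) () c, ← he]
    exact (kloc₁_ekum_eq_zero_iff hT w e).mpr (hno e)
  -- there is a nonzero local class at `w`
  obtain ⟨t, ht⟩ : ∃ t : H1 (glev (decGrp (placeOver w) K).subtype)
      (triv p (decGrp (placeOver w) K)), t ≠ 0 := by
    by_contra hall
    push Not at hall
    have h1 : Nat.card (H1 (glev (decGrp (placeOver w) K).subtype)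
        (triv p (decGrp (placeOver w) K))) = 1 :=
      Nat.card_eq_one_iff_unique.mpr ⟨⟨fun a b => by rw [hall a, hall b]⟩, ⟨0⟩⟩
    rw [natCard_localH1 hT, index_localPowers hT.root_spec, mul_assoc] at h1
    exact hp.out.ne_one (Nat.eq_one_of_mul_eq_one_right h1)
  -- place it at `w` alone
  let X : PK1 p K Unit T := fun x =>
    if h : (x.1 : Pl K) = w then h ▸ t else 0
  obtain ⟨y, hy⟩ := wcompAll₁_surjective (ι := Unit) hT h2 X
  have hcomp : ∀ x, wcompAll₁ p K Unit T y x = X x := fun x => by rw [hy]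
  -- supported at `w` only, it is orthogonal to the global classes, which vanish at `w`
  have horth : y ∈ Devissage.perp (V := P1 T (indK p K Unit)) (W := P1 T (indK p K Unit))
      (D.Q₁ h2).flip (LinearMap.range (loc₁ T (indK p K Unit))) := by
    refine Devissage.mem_perp.mpr ?_
    rintro _ ⟨c, rfl⟩
    change D.Q₁ h2 y (loc₁ T (indK p K Unit) c) = 0
    rw [DualPair.Q₁_apply]
    refine Finset.sum_eq_zero fun v _ => ?_
    have hmask : ∀ z : P1 T (indK p K Unit), ∀ w' : Pl K, ∀ hw' : resChar w' = (v : Nat.Primes),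
        (∀ i, wcompAll₁ p K Unit T z (⟨w', mem_plsOver.mpr (hw' ▸ v.2)⟩, i) = 0) →
        map₁ (IsLevelsHom.id _) (orbProj_equivariant (v : Nat.Primes) w') (z v) = 0 := by
      intro z w' hw' h
      obtain ⟨v, hv⟩ := v
      obtain rfl : resChar w' = v := hw'
      exact map₁_orbProj_eq_zero _ w' rfl h
    rw [← sum_map₁_orbProj (v : Nat.Primes) (y v), map_sum, LinearMap.sum_apply]
    refine Finset.sum_eq_zero fun w' hw' => ?_
    have hv' : resChar w' = (v : Nat.Primes) := Finset.mem_singleton.mp (mem_plsOver.mp hw')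
    by_cases heq : w' = w
    · subst heq
      have hadj : D.q₁ h2 (v : Nat.Primes)
          (map₁ (IsLevelsHom.id _) (orbProj_equivariant (v : Nat.Primes) w') (y v))
          (loc₁ T (indK p K Unit) c v) =
          D.q₁ h2 (v : Nat.Primes) (y v) (map₁ (IsLevelsHom.id _)
            (orbProj_equivariant (v : Nat.Primes) w') (loc₁ T (indK p K Unit) c v)) := by
        have hpr : ∀ f : IndK p K Unit, orbProj (v : Nat.Primes) w' f =
            mulK (fun x _ => orbInd (v : Nat.Primes) w' x) f := fun f =>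
          funext fun x => funext fun i => by
            rw [orbProj, LinearMap.comp_apply, orbExt_orbRes, Pi.smul_apply,
              smul_eq_mul, mulK_apply]
        rw [DualPair.q₁_apply, DualPair.q₁_apply]
        refine congrArg (gInv h2 (v : Nat.Primes)) ?_
        have hmix : IsPairing (repAt (v : Nat.Primes) (indK p K Unit))
            (repAt (v : Nat.Primes) (indK p K Unit))
            (charRep (cycHom p (decAt (v : Nat.Primes)).subtype))
            (D.P.comp (orbProj (v : Nat.Primes) w')) := fun g f f' => by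
          rw [LinearMap.comp_apply, show orbProj (v : Nat.Primes) w' (repAt _ (indK p K Unit) g f) =
            repAt _ (indK p K Unit) g (orbProj (v : Nat.Primes) w' f) from
              orbProj_equivariant (v : Nat.Primes) w' g f]
          exact D.pairingAt _ g _ f'
        have e1 := map_cup11 hmix (D.flip.smoothAt (v : Nat.Primes)) (D.pairingAt _)
          (IsLevelsHom.id _) (orbProj_equivariant (v : Nat.Primes) w') (IsEquivariant.id _)
          (IsEquivariant.id _) (fun _ _ => rfl) (D.smoothAt _) (D.smoothAt _)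
          (D.flip.smoothAt _) (y v) (loc₁ T (indK p K Unit) c v)
        have e2 := map_cup11 hmix (D.flip.smoothAt (v : Nat.Primes)) (D.pairingAt _)
          (IsLevelsHom.id _) (IsEquivariant.id _) (orbProj_equivariant (v : Nat.Primes) w')
          (IsEquivariant.id _) (fun f f' => by
            change D.P f (orbProj _ w' f') = D.P (orbProj _ w' f) f'
            rw [hpr, hpr]
            exact (indPair_isDiag hT _ f f').symm) (D.smoothAt _) (D.smoothAt _)
          (D.flip.smoothAt _) (y v) (loc₁ T (indK p K Unit) c v)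
        simp only [map₂_id, map₁_id] at e1 e2
        exact e1.symm.trans e2
      rw [hadj, hmask (loc₁ T (indK p K Unit) c) w' hv' fun _ => hzero c, map_zero]
    · rw [hmask y w' hv' fun i => by rw [hcomp]; exact dif_neg heq, map_zero, LinearMap.zero_apply]
  -- so it is global, hence zero at `w`
  rw [← range_loc₁_indK hT D h2] at horth
  obtain ⟨c, rfl⟩ := horth
  have := hzero c
  rw [hcomp] at this
  simp only [X, dif_pos] at this
  exact ht this

omit hT

variable (hT₀ : IsAdmissible p K T₀)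

include hT₀

/-- Two places have a common unit which is a local power at neither. -/
lemma exists_not_localPower_two (h2 : 2 < p) {w₁ w₂ : Pl K} (h₁ : w₁ ∈ plsOver K T₀)
    (h₂ : w₂ ∈ plsOver K T₀) :
    ∃ e : Additive (sUnits K (plsOver K T₀ : Set (Pl K))),
      (Additive.toMul e).1 ∉ localPowers p hT₀.root w₁ ∧
      (Additive.toMul e).1 ∉ localPowers p hT₀.root w₂ := by
  obtain ⟨e₁, he₁⟩ := exists_not_localPower hT₀ h2 h₁
  obtain ⟨e₂, he₂⟩ := exists_not_localPower hT₀ h2 h₂
  by_cases h12 : (Additive.toMul e₁).1 ∈ localPowers p hT₀.root w₂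
  · by_cases h21 : (Additive.toMul e₂).1 ∈ localPowers p hT₀.root w₁
    · refine ⟨e₁ + e₂, fun h => he₁ ?_, fun h => he₂ ?_⟩
      · exact (Subgroup.mul_mem_cancel_right _ h21).mp h
      · exact (Subgroup.mul_mem_cancel_left _ h12).mp h
    · exact ⟨e₂, h21, he₂⟩
  · exact ⟨e₁, he₁, h12⟩

/-- The symbol of two units vanishes at a good place. -/
lemma lsym_eq_zero_of_units (h2 : 2 < p) {w : Pl K} (hw : w ∉ plsOver K T₀)
    {a b : (K : Type)ˣ} (ha : ord w (a : K) = 0) (hb : ord w (b : K) = 0) :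
    lsym ((isLocalAt_subtype (placeOver w) K).cycHom_eq_one hT₀.root_spec)
      ((isLocalAt_subtype (placeOver w) K).kumK p (Additive.ofMul a))
      ((isLocalAt_subtype (placeOver w) K).kumK p (Additive.ofMul b)) = 0 := by
  have hv : resChar w ∉ T₀ := fun h => hw (mem_plsOver.mpr h)
  refine lsym_eq_zero_of_dvd_ord hT₀.root_spec (resChar w).2 (placeOver_spec w) h2
    (hT₀.ne_p_of_notMem hv) (hT₀.inertia_le hv (placeOver_spec w)) ?_ ?_
  · rw [plBelow_placeOver]
    change (p : ℤ) ∣ ord w (b : K)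
    rw [hb]
    exact dvd_zero _
  · rw [plBelow_placeOver]
    change (p : ℤ) ∣ ord w (a : K)
    rw [ha]
    exact dvd_zero _

/-- An element which is not a local power somewhere has no `p`-th root. -/
lemma pow_ne_of_not_localPower {w : Pl K} {b : (K : Type)ˣ}
    (hb : b ∉ localPowers p hT₀.root w) (x : K) : x ^ p ≠ (b : K) := fun hx => by
  have hx0 : x ≠ 0 := fun h => b.ne_zero (by rw [← hx, h, zero_pow hp.out.ne_zero])
  refine hb ?_
  convert pow_mem_localPowers (p := p) (ζ := hT₀.root) w (Units.mk0 x hx0)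
  exact Units.ext hx.symm

/-- The Kummer class at a place vanishes exactly for local powers. -/
lemma kumK_eq_zero_iff_localPowers (w : Pl K) (b : (K : Type)ˣ) :
    (isLocalAt_subtype (placeOver w) K).kumK p (Additive.ofMul b) = 0 ↔
      b ∈ localPowers p hT₀.root w := by
  rw [(isLocalAt_subtype (placeOver w) K).kumK_eq_zero_iff (resChar w).2 (placeOver_spec w)
    hT₀.root_spec, plBelow_placeOver]
  rfl

/-- Where an element is not a local power, its Kummer field does not split and the symbol with it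
detects the norms. -/
lemma isNonsplit_and_lsym_iff {b : (K : Type)ˣ} {α : QU}
    (hαp : uval α ^ p = ((b : K) : ℚbar))
    [NumberField (IntermediateField.adjoin K {uval α})]
    [IsGalois K (IntermediateField.adjoin K {uval α})]
    (hF : Module.finrank K (IntermediateField.adjoin K {uval α}) = p)
    (σ : IntermediateField.adjoin K {uval α} ≃ₐ[K] IntermediateField.adjoin K {uval α})
    {w : Pl K} (hw : b ∉ localPowers p hT₀.root w) :
    IsNonsplit σ w ∧ ∀ u : (K : Type)ˣ,
      lsym ((isLocalAt_subtype (placeOver w) K).cycHom_eq_one hT₀.root_spec)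
        ((isLocalAt_subtype (placeOver w) K).kumK p (Additive.ofMul u))
        ((isLocalAt_subtype (placeOver w) K).kumK p (Additive.ofMul b)) = 0 ↔
      u ∈ localNorms p hT₀.root (IntermediateField.adjoin K {uval α}) w := by
  have hα' : p • α = ((isLocalAt_subtype (placeOver w) K).kq (Additive.ofMul b)).1 :=
    uval_injective (by rw [uval_nsmul, IsLocalAt.uval_kq, hαp]; rfl)
  obtain ⟨h, h'⟩ := (isLocalAt_subtype (placeOver w) K).kummerField_localNorms (resChar w).2
    (placeOver_spec w) hT₀.root_spec (Additive.ofMul b)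
    (fun h => hw ((kumK_eq_zero_iff_localPowers hT₀ w b).mp h)) hα' hF
  refine ⟨?_, fun u => ?_⟩
  · have := h σ
    rwa [plBelow_placeOver] at this
  · have := h' (Additive.ofMul u)
    rw [plBelow_placeOver] at this
    exact this

open Classical in
/-- A class supported at two places of the starting set, after adding good primes. -/
theorem exists_pair_class (h2 : 2 < p) {w₁ w₂ : Pl K} (h₁ : w₁ ∈ plsOver K T₀)
    (h₂ : w₂ ∈ plsOver K T₀) (hne : w₁ ≠ w₂) :
    ∃ W : Finset (Pl K),
      (∀ v ∈ W, v ∉ plsOver K T₀ ∧ ∃ e : Additive (sUnits K (plsOver K T₀ : Set (Pl K))),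
        (Additive.toMul e).1 ∉ localPowers p hT₀.root v) ∧
      ∀ T : Finset Nat.Primes, T₀ ⊆ T → W ⊆ plsOver K T →
        ∃ d : KH2 p K T, (kloc₂ p T w₁ d ≠ 0 ∨ kloc₂ p T w₂ d ≠ 0) ∧
          ∀ w ∈ plsOver K T, w ≠ w₁ → w ≠ w₂ → kloc₂ p T w d = 0 := by
  set S := plsOver K T₀
  obtain ⟨b, hb₁, hb₂⟩ := exists_not_localPower_two hT₀ h2 h₁ h₂
  set b' : (K : Type)ˣ := (Additive.toMul b).1 with hb'
  have hanp := pow_ne_of_not_localPower hT₀ (b := b') hb₁
  obtain ⟨α, hα⟩ := exists_root p ((isGlobalAt_subtype K).kq (Additive.ofMul b')).1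
  have hαp : uval α ^ p = ((b' : K) : ℚbar) := by
    rw [← uval_nsmul, hα, IsGlobalAt.uval_kq]
    rfl
  obtain ⟨hnf, hgal, hF⟩ := kummerField_data hT₀.root_spec hαp hanp
  set F : IntermediateField K ℚbar := IntermediateField.adjoin K {uval α}
  have : FiniteDimensional K F := Module.finite_of_finrank_pos (by rw [hF]; exact hp.out.pos)
  set β : F := ⟨uval α, IntermediateField.mem_adjoin_simple_self K _⟩
  have hβ : β ^ p = algebraMap K F (b' : K) := Subtype.ext hαp
  obtain ⟨σ, hσ, hσβ⟩ := exists_aut_mul_root hT₀.root_spec hβ hanp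
  have := isTotallyComplex_of_primitiveRoot hT₀.root_spec h2
  obtain ⟨W, hW, -, hidx, -⟩ := normResidue_data hF hσ hT₀.root_spec hT₀.gen
    (fun v hv => ord_natCast_eq_zero_of_notMem hT₀.mem hv) (a₀ := b') (Additive.toMul b).2 hβ hσβ
  refine ⟨W, fun v hv => ⟨(hW v hv).1, ?_⟩, fun T hle hWT => ?_⟩
  · obtain ⟨e, he⟩ := (hW v hv).2.2
    exact ⟨e, fun h => he h⟩
  set U := S ∪ W with hU
  set ns := U.filter (IsNonsplit σ)
  -- the two places do not split
  have hdata := fun w (hw : b' ∉ localPowers p hT₀.root w) =>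
    isNonsplit_and_lsym_iff hT₀ hαp hF σ hw
  have hns₁ : w₁ ∈ ns := Finset.mem_filter.mpr
    ⟨Finset.mem_union_left _ h₁, (hdata w₁ hb₁).1⟩
  have hns₂ : w₂ ∈ ns := Finset.mem_filter.mpr
    ⟨Finset.mem_union_left _ h₂, (hdata w₂ hb₂).1⟩
  -- a unit with residues at the two places only
  set R := (normResidue p hT₀.root F ns U).range
  have hex := fun w (hw : w ∈ ns) => exists_single_residue (p := p) (ζ := hT₀.root) (F := F) ns
    (w := w) (index_localNorms hF hσ hT₀.root_spec h2 (Finset.mem_filter.mp hw).2)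
  obtain ⟨x₁, hx₁, hx₁'⟩ := hex w₁ hns₁
  obtain ⟨x₂, hx₂, hx₂'⟩ := hex w₂ hns₂
  obtain ⟨i, j, hij, hmem⟩ : ∃ i j : ℕ, (¬ p ∣ i ∨ ¬ p ∣ j) ∧ i • x₁ + j • x₂ ∈ R :=
    exists_nsmul_add_nsmul_mem hidx (nsmul_locN_eq_zero x₁) (nsmul_locN_eq_zero x₂)
  obtain ⟨u, hu⟩ := hmem
  have hres : ∀ v : ns, (i • x₁ + j • x₂) v =
      Additive.ofMul (QuotientGroup.mk (Additive.toMul u).1) := fun v => (congrFun hu v).symm
  -- the classes
  have hTadm := hT₀.mono hle
  have hUT : (U : Set (Pl K)) ⊆ plsOver K T := by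
    rw [hU, Finset.coe_subset]
    exact Finset.union_subset (plsOver_mono hle) hWT
  set uT : Additive (sUnits K (plsOver K T : Set (Pl K))) :=
    Additive.ofMul ⟨(Additive.toMul u).1, sUnits_mono hUT (Additive.toMul u).2⟩
  set bT : Additive (sUnits K (plsOver K T : Set (Pl K))) :=
    Additive.ofMul ⟨b', sUnits_mono (Finset.coe_subset.mpr (plsOver_mono hle)) (Additive.toMul b).2⟩
  refine ⟨ksym p K T (ekum hTadm uT) (ekum hTadm bT), ?_, fun w hw hw₁ hw₂ => ?_⟩
  · have key : ∀ w (hw : w ∈ ns), b' ∉ localPowers p hT₀.root w →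
        (i • x₁ + j • x₂) ⟨w, hw⟩ ≠ 0 →
        kloc₂ p T w (ksym p K T (ekum hTadm uT) (ekum hTadm bT)) ≠ 0 := by
      intro w hw hbw hx h
      rw [kloc₂_ksym_eq_zero_iff hTadm] at h
      refine hx ((hres ⟨w, hw⟩).trans ?_)
      exact (QuotientGroup.eq_one_iff _).mpr (((hdata w hbw).2 _).mp h)
    rcases hij with hi | hj
    · refine Or.inl (key w₁ hns₁ hb₁ fun h => hi (hx₁' ⟨w₁, hns₁⟩ rfl i ?_))
      have h0 := hx₂ ⟨w₁, hns₁⟩ hne
      change i • x₁ ⟨w₁, hns₁⟩ + j • x₂ ⟨w₁, hns₁⟩ = 0 at h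
      exact nsmul_eq_zero_of_add h0 h
    · refine Or.inr (key w₂ hns₂ hb₂ fun h => hj (hx₂' ⟨w₂, hns₂⟩ rfl j ?_))
      have h0 := hx₁ ⟨w₂, hns₂⟩ (Ne.symm hne)
      change i • x₁ ⟨w₂, hns₂⟩ + j • x₂ ⟨w₂, hns₂⟩ = 0 at h
      exact nsmul_eq_zero_of_add' h0 h
  · rw [kloc₂_ksym_eq_zero_iff hTadm]
    by_cases hwU : w ∈ U
    · by_cases hbw : b' ∈ localPowers p hT₀.root w
      · have h0 : (isLocalAt_subtype (placeOver w) K).kumK p
            (Additive.ofMul (Additive.toMul bT).1) = 0 :=
          (kumK_eq_zero_iff_localPowers hT₀ w b').mpr hbw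
        rw [h0, map_zero]
      · have hwns : w ∈ ns := Finset.mem_filter.mpr ⟨hwU, (hdata w hbw).1⟩
        refine ((hdata w hbw).2 _).mpr ((QuotientGroup.eq_one_iff _).mp ?_)
        have h0 : i • x₁ ⟨w, hwns⟩ + j • x₂ ⟨w, hwns⟩ = 0 :=
          nsmul_add_nsmul_zero i j (hx₁ ⟨w, hwns⟩ hw₁) (hx₂ ⟨w, hwns⟩ hw₂)
        exact congrArg Additive.toMul ((hres ⟨w, hwns⟩).symm.trans h0)
    · have hwS : w ∉ S := fun h => hwU (Finset.mem_union_left _ h)
      exact lsym_eq_zero_of_units hT₀ h2 hwS ((Additive.toMul u).2 w (by simpa using hwU))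
        ((Additive.toMul b).2 w (by exact fun h => hwS (Finset.mem_coe.mp h)))

/-- A class nonzero at a good place and zero at the other places outside the starting set. -/
theorem exists_good_class (h2 : 2 < p) (hle : T₀ ⊆ T) {w : Pl K} (hw : w ∈ plsOver K T)
    (hwS : w ∉ plsOver K T₀)
    (hex : ∃ v : Pl K, resChar v = resChar w ∧
      ∃ e : Additive (sUnits K (plsOver K T₀ : Set (Pl K))),
        (Additive.toMul e).1 ∉ localPowers p hT₀.root v) :
    ∃ d : KH2 p K T, kloc₂ p T w d ≠ 0 ∧
      ∀ x ∈ plsOver K T, x ∉ plsOver K T₀ → x ≠ w → kloc₂ p T x d = 0 := by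
  classical
  obtain ⟨v, hvw, e, he⟩ := hex
  -- move the unit to `w`
  obtain ⟨g, hg⟩ := exists_smul_eq_of_resChar_eq hvw
  set e' : (K : Type)ˣ := Units.map (g : K →* K) (Additive.toMul e).1
  have he'S : e' ∈ sUnits K (plsOver K T₀ : Set (Pl K)) := fun x hx => by
    have h := ord_smul g (g⁻¹ • x) ((Additive.toMul e).1 : K)
    rw [smul_inv_smul] at h
    refine h.trans ((Additive.toMul e).2 _ fun h' => hx ?_)
    rw [Finset.mem_coe, mem_plsOver] at h' ⊢
    rwa [resChar_smul] at h'
  have he' : e' ∉ localPowers p hT₀.root w := fun h => he (by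
    have h1 := smul_mem_localPowers hT₀.root_spec g⁻¹ h
    rw [inv_smul_eq_iff.mpr hg.symm] at h1
    convert h1 using 1
    refine Units.ext ?_
    change ((Additive.toMul e).1 : K) = g⁻¹ (g ((Additive.toMul e).1 : K))
    rw [← AlgEquiv.mul_apply, inv_mul_cancel, AlgEquiv.one_apply])
  -- an element of valuation one at `w` and zero off `T₀` otherwise
  obtain ⟨π, hπ0, hπ⟩ := hT₀.gen (fun x => if x = w then 1 else 0)
    ((Set.finite_singleton w).subset fun x (hx : (if x = w then (1 : ℤ) else 0) ≠ 0) => by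
      by_contra hxw
      exact hx (if_neg hxw))
  have hπT : Units.mk0 π hπ0 ∈ sUnits K (plsOver K T : Set (Pl K)) := fun x hx => by
    have hxS : x ∉ (plsOver K T₀ : Set (Pl K)) := fun h => hx (plsOver_mono hle h)
    rw [Units.val_mk0, hπ x hxS]
    exact if_neg (show x ≠ w from fun h => hx (h ▸ hw))
  have hTadm := hT₀.mono hle
  set eT : Additive (sUnits K (plsOver K T : Set (Pl K))) :=
    Additive.ofMul ⟨e', sUnits_mono (Finset.coe_subset.mpr (plsOver_mono hle)) he'S⟩
  -- their symbol
  refine ⟨ksym p K T (ekum hTadm (Additive.ofMul ⟨_, hπT⟩)) (ekum hTadm eT), ?_,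
    fun x _ hxS hxw => ?_⟩
  · rw [Ne, kloc₂_ksym_eq_zero_iff hTadm]
    have hv : resChar w ∉ T₀ := fun h => hwS (mem_plsOver.mpr h)
    refine lsym_ne_zero_of_not_dvd_ord hT₀.root_spec (resChar w).2 (placeOver_spec w) h2
      (hT₀.ne_p_of_notMem hv) (hT₀.inertia_le hv (placeOver_spec w)) ?_ ?_ ?_
    · rw [plBelow_placeOver]
      change (p : ℤ) ∣ ord w (e' : K)
      rw [he'S w (by simpa using hwS)]
      exact dvd_zero _
    · rw [plBelow_placeOver]
      exact he'
    · rw [plBelow_placeOver]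
      change ¬ (p : ℤ) ∣ ord w π
      rw [hπ w (by simpa using hwS), if_pos rfl]
      exact fun h => hp.out.one_lt.ne' (Nat.dvd_one.mp (Int.natCast_dvd_natCast.mp h))
  · rw [kloc₂_ksym_eq_zero_iff hTadm]
    refine lsym_eq_zero_of_units hT₀ h2 hxS ?_ (he'S x (by simpa using hxS))
    change ord x π = 0
    rw [hπ x (by simpa using hxS), if_neg hxw]

omit hT₀

/-- Every finite set of primes lies in an admissible one. -/
theorem exists_admissible (hζ : ∃ z : K, IsPrimitiveRoot z p) (S : Finset Nat.Primes) :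
    ∃ T₀ : Finset Nat.Primes, S ⊆ T₀ ∧ IsAdmissible p K T₀ := by
  classical
  obtain ⟨S₁, hS₁⟩ := exists_finset_generatesClassGroup K
  set T₀ := S ∪ {pPrime p} ∪ (exceptionalPrimes K).subtype Nat.Prime ∪ S₁.image resChar with hT₀
  refine ⟨T₀, fun v hv => by simp [hT₀, hv], by simp [hT₀], fun q hq A hA => ?_, hζ,
    hS₁.mono fun w hw => mem_plsOver.mpr (by
      simp only [hT₀, Finset.mem_union, Finset.mem_image]
      exact Or.inr ⟨w, Finset.mem_coe.mp hw, rfl⟩)⟩
  refine inertiaSubgroupIn_le_fixingSubgroup K q.2 (fun h => hq ?_) hA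
  simp only [hT₀, Finset.mem_coe, Finset.mem_union]
  exact Or.inl (Or.inr (Finset.mem_subtype.mpr h))

/-- **Every finite set of primes lies in a linked admissible one.** -/
theorem exists_linked (h2 : 2 < p) (hζ : ∃ z : K, IsPrimitiveRoot z p) (S : Finset Nat.Primes) :
    ∃ T : Finset Nat.Primes, S ⊆ T ∧ IsAdmissible p K T ∧ Linked p K T := by
  classical
  obtain ⟨T₀, hS, hT₀⟩ := exists_admissible hζ S
  set A := plsOver K T₀
  have hpair : ∀ x : {x : Pl K × Pl K // x ∈ (A ×ˢ A).filter fun x => x.1 ≠ x.2}, _ := fun x =>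
    exists_pair_class hT₀ h2 (w₁ := x.1.1) (w₂ := x.1.2)
      (Finset.mem_product.mp (Finset.mem_filter.mp x.2).1).1
      (Finset.mem_product.mp (Finset.mem_filter.mp x.2).1).2 (Finset.mem_filter.mp x.2).2
  choose W hW hWd using hpair
  set T := T₀ ∪ Finset.univ.biUnion fun x => (W x).image resChar
  have hle : T₀ ⊆ T := Finset.subset_union_left
  have hWT : ∀ x, W x ⊆ plsOver K T := fun x v hv => mem_plsOver.mpr
    (Finset.mem_union_right _ (Finset.mem_biUnion.mpr
      ⟨x, Finset.mem_univ _, Finset.mem_image.mpr ⟨v, hv, rfl⟩⟩))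
  refine ⟨T, hS.trans hle, hT₀.mono hle, A, plsOver_mono hle, fun w₁ h₁ w₂ h₂ hne => ?_,
    fun w hw hwA => ?_⟩
  · exact hWd ⟨(w₁, w₂), Finset.mem_filter.mpr ⟨Finset.mem_product.mpr ⟨h₁, h₂⟩, hne⟩⟩ T hle (hWT _)
  · refine exists_good_class hT₀ h2 hle hw hwA ?_
    have h := mem_plsOver.mp hw
    rcases Finset.mem_union.mp h with h | h
    · exact absurd (mem_plsOver.mpr h) hwA
    · obtain ⟨x, -, hx⟩ := Finset.mem_biUnion.mp h
      obtain ⟨v, hv, hvw⟩ := Finset.mem_image.mp hx
      exact ⟨v, hvw, (hW x v hv).2⟩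

end Fermat.CFT
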