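import Fermat.Agent.CFT.Global.HP
import Fermat.Agent.CFT.Local.Data
import Fermat.Agent.CFT.Herbrand.DLog

/-!
# Cup products of rationals with characters at a place

`cupFun` is the invariant of the cup product; it vanishes with it and is surjective for a surjective
character (`cupFun_eq_zero_iff`, `cupFun_surjective`).
-/

set_option autoImplicit false

noncomputable section

open Fermat.CFT.Coh
open scoped Pointwise

namespace Fermat.CFT

local notation "ℚbar" => AlgebraicClosure ℚ
local notation "Γℚ" => (AlgebraicClosure ℚ ≃ₐ[ℚ] AlgebraicClosure ℚ)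

namespace Coh.DualityData

variable {G : Type} [Group G] {R : Type} [Field R] {L : Levels G} {χ : G →* Rˣ}

/-- Restriction kills `H²(χ)` on subgroups whose index vanishes in the coefficients. -/
lemma res₂_eq_zero_of_index (D : DualityData L χ) {H : Subgroup G} [H.FiniteIndex]
    (hH : ContainsLevel L H) (h0 : (H.index : R) = 0) (c : H2 L (charRep χ)) :
    res₂ L (charRep χ) H c = 0 := by
  have h1 : diag₂ L (charRep χ) H c = 0 := D.sum_injective H hH (by
    rw [map_zero]
    change cor₂ L (charRep χ) H (diag₂ L (charRep χ) H c) = 0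
    rw [cor₂_diag₂, ← Nat.cast_smul_eq_nsmul R, h0, zero_smul])
  rw [← shapiro₂_diag₂, h1, map_zero]

end Coh.DualityData

variable {G G' : Type} [Group G] [Group G'] {r : G →* Γℚ} {p : ℕ} [hp : Fact p.Prime]

/-! ### Rationals as fixed units -/

/-- Rationals as fixed units. -/
def ratU (r : G →* Γℚ) : Additive ℚˣ →+ H0 (unitsRep r) where
  toFun a := ⟨Additive.ofMul (Units.map (algebraMap ℚ ℚbar : ℚ →* ℚbar) (Additive.toMul a)),
    mem_ker_d₀.mpr fun g => uval_injective ((r g).commutes _)⟩
  map_zero' := Subtype.ext (uval_injective (by simp [uval]))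
  map_add' a b := Subtype.ext (uval_injective (by simp [uval]))

/-- The value of a rational seen as a fixed unit. -/
@[simp] lemma uval_ratU (r : G →* Γℚ) (a : Additive ℚˣ) :
    uval (ratU r a).1 = algebraMap ℚ ℚbar ((Additive.toMul a : ℚˣ) : ℚ) := rfl

/-! ### Characters restricted along a homomorphism -/

/-- A character composed with a homomorphism. -/
def zcomp (ψ : ZHom p r) (f : G' →* G) : ZHom p (r.comp f) :=
  ⟨fun g => ψ.1 (f g), (isLevelsHom_glev r f).isLC₁ ψ.2.1, funext₂ fun g h => by
    simp [triv_hom]⟩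

/-- A character composed with a homomorphism, evaluated. -/
@[simp] lemma zcomp_apply (ψ : ZHom p r) (f : G' →* G) (g : G') :
    (zcomp ψ f).1 g = ψ.1 (f g) := rfl

/-- Restriction of the cup product of a character and a unit. -/
lemma map₂_cycCup (ψ : ZHom p r) (f : G' →* G) (b : H0 (unitsRep r)) :
    map₂ (isLevelsHom_glev r f) (cycHom_equivariant r f) (cycCup ψ b) =
      cycCup (zcomp ψ f) (resUnits r f b) := by
  obtain ⟨β, hβ⟩ := exists_root p b.1
  have hβ' : p • β = (resUnits r f b).1 := hβ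
  rw [cycCup_eq ψ b hβ, cycCup_eq (zcomp ψ f) _ hβ', map₂_cl₂]
  exact cl₂_congr fun g g' => rfl

/-- The cup product with the zero character vanishes. -/
lemma cycCup_eq_zero_of_forall (ψ : ZHom p r) (h : ∀ g, ψ.1 g = 0) (b : H0 (unitsRep r)) :
    cycCup ψ b = 0 := by
  obtain ⟨β, hβ⟩ := exists_root p b.1
  rw [cycCup_eq ψ b hβ]
  refine cl₂_eq_zero.mpr ⟨0, Levels.IsLC₁.const 0, ?_⟩
  rw [map_zero]
  funext g g'
  simp [h g']

/-- The kernel of a surjective character has index `p`. -/
lemma index_homKer {ψ : ZHom p r} {σ : G} (hσ : ψ.1 σ = 1) : (homKer ψ).index = p := by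
  let φ : G →* Multiplicative (ZMod p) :=
    MonoidHom.mk' (fun g => Multiplicative.ofAdd (ψ.1 g)) fun a b => by rw [triv_hom, ofAdd_add]
  have hk : φ.ker = homKer ψ := by
    ext g
    exact (Multiplicative.ofAdd (α := ZMod p)).injective.eq_iff' ofAdd_zero
  have hs : Function.Surjective φ := fun x => ⟨σ ^ (Multiplicative.toAdd x).val, by
    change Multiplicative.ofAdd _ = x
    rw [triv_pow, hσ, mul_one, ZMod.natCast_zmod_val, ofAdd_toAdd]⟩
  rw [← hk, Subgroup.index_ker, MonoidHom.range_eq_top.mpr hs, Subgroup.card_top,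
    Nat.card_congr Multiplicative.toAdd, Nat.card_zmod]

/-- With duality data, a class vanishes on the kernel of a surjective character. -/
theorem zres_eq_zero_of_data (d : DualityData (glev r) (cycHom p r)) {ψ : ZHom p r} {σ : G}
    (hσ : ψ.1 σ = 1) (c : H2 (glev r) (charRep (cycHom p r))) : zres ψ c = 0 := by
  have hH : ContainsLevel (glev r) (homKer ψ) := containsLevel_homKer _
  have := hH.finiteIndex
  have h := d.res₂_eq_zero_of_index hH (by rw [index_homKer hσ, ZMod.natCast_self]) c
  have hj : IsLevelsHom (subLevels (glev r) (homKer ψ))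
      (glev (r.comp (homKer ψ).subtype)) (MonoidHom.id _) := by
    rintro _ ⟨_, ⟨N, hN, rfl⟩, rfl⟩
    exact ⟨_, ⟨N, hN, rfl⟩, fun x hx => hx⟩
  have hje : IsEquivariant ((charRep (cycHom p r)).comp (homKer ψ).subtype)
      (charRep (cycHom p (r.comp (homKer ψ).subtype))) (MonoidHom.id _)
      (LinearMap.id : ZMod p →ₗ[ZMod p] ZMod p) := fun _ _ => rfl
  have h' := congrArg (map₂ hj hje) h
  rw [map_zero] at h'
  obtain ⟨w, rfl⟩ := cl₂_surjective c
  exact h'

/-! ### The local functional -/

section Local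

variable {A : ValuationSubring ℚbar} {ℓ : ℕ} (h2 : 2 < p) (hℓ : ℓ.Prime) (hA : A.LiesOverPrime ℓ)

local notation "D" => A.decompositionSubgroup ℚ

include h2 hℓ hA in
/-- A class at a place vanishes on the kernel of a surjective character. -/
theorem zres_eq_zero_of_surjective {ψ : ZHom p (D).subtype} {σ : D} (hσ : ψ.1 σ = 1)
    (c : H2 (glev (D).subtype) (charRep (cycHom p (D).subtype))) : zres ψ c = 0 :=
  zres_eq_zero_of_data (localData h2 hℓ hA) hσ c

/-- `a ↦ inv (ψ ∪ a)`. -/
def cupFun (ψ : ZHom p (D).subtype) : Additive ℚˣ →+ ZMod p :=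
  ((localData h2 hℓ hA).inv.toLinearMap.toAddMonoidHom.comp (cycCup ψ)).comp (ratU (D).subtype)

/-- The local functional of a character, evaluated. -/
lemma cupFun_apply (ψ : ZHom p (D).subtype) (a : Additive ℚˣ) :
    cupFun h2 hℓ hA ψ a = (localData h2 hℓ hA).inv (cycCup ψ (ratU (D).subtype a)) := rfl

/-- The local functional vanishes exactly with the cup product. -/
lemma cupFun_eq_zero_iff (ψ : ZHom p (D).subtype) (a : Additive ℚˣ) :
    cupFun h2 hℓ hA ψ a = 0 ↔ cycCup ψ (ratU (D).subtype a) = 0 :=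
  (localData h2 hℓ hA).inv.map_eq_zero_iff

include hℓ hA in
/-- Numbers fixed by the decomposition group are rationals up to `p`-th powers. -/
lemma exists_ratU_add_nsmul (x : H0 (unitsRep (D).subtype)) :
    ∃ a z, x = ratU (D).subtype a + p • z := by
  have hfix : ∀ g ∈ decGrp A ⊥, g (uval x.1) = uval x.1 := fun g hg =>
    congrArg uval (H0_fixed x ⟨g, hg.1⟩)
  obtain ⟨y, z, hy, hz, hxyz⟩ := exists_mem_add_nsmul (p := p) hℓ hA hfix
  obtain ⟨s, hs⟩ := IntermediateField.mem_bot.mp hy
  have hs0 : s ≠ 0 := fun h => uval_ne_zero y (by rw [← hs, h, map_zero])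
  refine ⟨Additive.ofMul (Units.mk0 s hs0), ⟨z, mem_ker_d₀.mpr fun g => uval_injective
    (hz g ⟨g.2, by rw [IntermediateField.fixingSubgroup_bot]; exact Subgroup.mem_top _⟩)⟩,
    Subtype.ext (hxyz.trans ?_)⟩
  exact congrArg (· + p • z) (uval_injective hs.symm)

/-- The local functional of a surjective character is surjective. -/
theorem cupFun_surjective {ψ : ZHom p (D).subtype} {σ : D} (hσ : ψ.1 σ = 1) :
    Function.Surjective (cupFun h2 hℓ hA ψ) := by
  intro t
  obtain ⟨b, hb⟩ := exists_cycCup_eq ψ hσ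
    (zres_eq_zero_of_surjective h2 hℓ hA hσ ((localData h2 hℓ hA).inv.symm t))
  obtain ⟨a, z, rfl⟩ := exists_ratU_add_nsmul (p := p) hℓ hA b
  refine ⟨a, ?_⟩
  rw [map_add, map_nsmul, ← Nat.cast_smul_eq_nsmul (ZMod p), ZMod.natCast_self, zero_smul,
    add_zero] at hb
  rw [cupFun_apply, hb, LinearEquiv.apply_symm_apply]

end Local

/-- A surjective functional vanishing only inside the kernel of a nonzero one has the same
kernel. -/
lemma eq_zero_iff_of_imp {V : Type} [AddCommGroup V] {f g : V →+ ZMod p}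
    (hf : Function.Surjective f) (hg : g ≠ 0) (h : ∀ a, f a = 0 → g a = 0) (a : V) :
    f a = 0 ↔ g a = 0 := by
  obtain ⟨a₀, ha₀⟩ := hf 1
  have key : ∀ b, g b = f b * g a₀ := fun b => by
    have h1 := h (b - (f b).val • a₀) (by
      rw [map_sub, map_nsmul, ha₀, nsmul_one, ZMod.natCast_zmod_val, sub_self])
    rw [map_sub, map_nsmul, sub_eq_zero] at h1
    rw [h1, nsmul_eq_mul, ZMod.natCast_zmod_val]
  have hg0 : g a₀ ≠ 0 := fun h0 => hg (AddMonoidHom.ext fun b => by
    rw [key, h0, mul_zero]; rfl)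
  exact ⟨h a, fun hga => (mul_eq_zero.mp ((key a).symm.trans hga)).resolve_right hg0⟩

end Fermat.CFT
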