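import Fermat.Agent.CFT.Global.KH2

/-!
# Local cohomology of modules induced from a Galois field

At a prime `v` the module of functions on `Gal(K/ℚ)` splits along the orbits of the decomposition
group, one orbit for each prime of `K` over `v`.
-/

set_option autoImplicit false
set_option linter.unusedSectionVars false

noncomputable section

open Fermat.CFT.Coh
open scoped Pointwise

namespace Fermat.CFT

local notation "ℚbar" => AlgebraicClosure ℚ
local notation "Γℚ" => (AlgebraicClosure ℚ ≃ₐ[ℚ] AlgebraicClosure ℚ)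

variable {p : ℕ} [hp : Fact p.Prime] {K : IntermediateField ℚ ℚbar} [FiniteDimensional ℚ K]
  [Normal ℚ K] {ι : Type}

variable (p K ι) in
/-- Functions on `Gal(K/ℚ)` with values in `(ℤ/p)^ι`. -/
abbrev IndK : Type := (Γℚ ⧸ K.fixingSubgroup) → ι → ZMod p

variable (p K ι) in
/-- The induced representation. -/
abbrev indK : Representation (ZMod p) Γℚ (IndK p K ι) :=
  indRep K.fixingSubgroup (Representation.trivial (ZMod p) Γℚ (ι → ZMod p))

/-- The subgroup fixing `K` has finite index. -/
instance finiteIndex_fixing : K.fixingSubgroup.FiniteIndex := fixingSubgroup_finiteIndex K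

/-- The subgroup fixing `K` fixes every coset. -/
lemma smul_coset_eq_self {n : Γℚ} (hn : n ∈ K.fixingSubgroup) (y : Γℚ ⧸ K.fixingSubgroup) :
    n • y = y := by
  obtain ⟨g, rfl⟩ := QuotientGroup.mk_surjective y
  rw [MulAction.Quotient.smul_mk, smul_eq_mul, QuotientGroup.eq]
  have := (fixingSubgroup_normal_qbar K).conj_mem _ (inv_mem hn) g⁻¹
  simpa [mul_assoc] using this

variable (p) in
/-- Evaluation of a coordinate at a coset. -/
def evQ (y : Γℚ ⧸ K.fixingSubgroup) (i : ι) : IndK p K ι →ₗ[ZMod p] ZMod p :=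
  (LinearMap.proj (φ := fun _ : ι => ZMod p) i).comp
    (LinearMap.proj (φ := fun _ : Γℚ ⧸ K.fixingSubgroup => ι → ZMod p) y)

/-- Evaluation at a coset is invariant under a group landing in the subgroup fixing `K`. -/
lemma evQ_equivariant {G' : Type} [Group G'] (j : G' →* Γℚ) (hj : ∀ g, j g ∈ K.fixingSubgroup)
    (y : Γℚ ⧸ K.fixingSubgroup) (i : ι) :
    IsEquivariant (indK p K ι) (triv p G') j (evQ p y i) := fun g f => by
  change (indK p K ι (j g) f) y i = f y i
  rw [indRep_apply, Representation.trivial_apply, smul_coset_eq_self (inv_mem (hj g))]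

/-! ### Global components -/

variable (T : Finset Nat.Primes)

/-- A component in degree one. -/
def gcomp₁ (i : ι) : H1 (galLevels (T : Set Nat.Primes)) (indK p K ι) →ₗ[ZMod p] KH1 p K T :=
  map₁ (IsLevelsHom.comap _ K.fixingSubgroup.subtype)
    (evQ_equivariant K.fixingSubgroup.subtype (fun g => g.2) ((1 : Γℚ) : Γℚ ⧸ K.fixingSubgroup) i)

/-- A component in degree two. -/
def gcomp₂ (i : ι) : H2 (galLevels (T : Set Nat.Primes)) (indK p K ι) →ₗ[ZMod p] KH2 p K T :=
  map₂ (IsLevelsHom.comap _ K.fixingSubgroup.subtype)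
    (evQ_equivariant K.fixingSubgroup.subtype (fun g => g.2) ((1 : Γℚ) : Γℚ ⧸ K.fixingSubgroup) i)

variable {T} [Fintype ι]

/-- Coordinates of the trivial module are equivariant. -/
lemma coord_equivariant {G' : Type} [Group G'] (i : ι) :
    IsEquivariant (Representation.trivial (ZMod p) G' (ι → ZMod p)) (triv p G') (MonoidHom.id G')
      ((Pi.basisFun (ZMod p) ι).coord i) := fun _ _ => rfl

/-- The components detect classes of degree one of the induced module. -/
lemma eq_zero_of_gcomp₁ (hN : ContainsLevel (galLevels (T : Set Nat.Primes)) K.fixingSubgroup)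
    {c : H1 (galLevels (T : Set Nat.Primes)) (indK p K ι)} (h : ∀ i, gcomp₁ T i c = 0) :
    c = 0 := by
  refine (shapiro₁_bijective hN).injective ?_
  rw [map_zero]
  refine (map₁_bijective (L := subLevels (galLevels (T : Set Nat.Primes)) K.fixingSubgroup)
    (IsEquivariant.id ((Representation.trivial (ZMod p) _ (ι → ZMod p)).comp
        K.fixingSubgroup.subtype)) Function.bijective_id).injective ?_
  rw [map_zero]
  refine cl₁_eq_zero_of_coords (Pi.basisFun (ZMod p) ι) (fun i => coord_equivariant i) _ fun i => ?_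
  obtain ⟨z, rfl⟩ := cl₁_surjective c
  have h' := h i
  simp only [gcomp₁, shapiro₁, map₁_cl₁] at h' ⊢
  rw [← h']
  refine congrArg _ (Subtype.ext (funext fun g => ?_))
  simp [evOne, evQ]

/-- The components detect classes of degree two of the induced module. -/
lemma eq_zero_of_gcomp₂ (hN : ContainsLevel (galLevels (T : Set Nat.Primes)) K.fixingSubgroup)
    {c : H2 (galLevels (T : Set Nat.Primes)) (indK p K ι)} (h : ∀ i, gcomp₂ T i c = 0) :
    c = 0 := by
  refine (shapiro₂_bijective hN (isSmooth_trivial _)).injective ?_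
  rw [map_zero]
  refine (map₂_bijective (L := subLevels (galLevels (T : Set Nat.Primes)) K.fixingSubgroup)
    (IsEquivariant.id ((Representation.trivial (ZMod p) _ (ι → ZMod p)).comp
        K.fixingSubgroup.subtype)) Function.bijective_id).injective ?_
  rw [map_zero]
  refine cl₂_eq_zero_of_coords (Pi.basisFun (ZMod p) ι) (fun i => coord_equivariant i) _ fun i => ?_
  obtain ⟨z, rfl⟩ := cl₂_surjective c
  have h' := h i
  simp only [gcomp₂, shapiro₂, map₂_cl₂] at h' ⊢
  rw [← h']
  refine congrArg _ (Subtype.ext (funext₂ fun g g' => ?_))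
  simp [evOne, evQ]

/-- Any family of classes of degree one of `K` gives the components of a class of the induced
module. -/
lemma exists_gcomp₁ (hN : ContainsLevel (galLevels (T : Set Nat.Primes)) K.fixingSubgroup)
    (x : ι → KH1 p K T) :
    ∃ c : H1 (galLevels (T : Set Nat.Primes)) (indK p K ι), ∀ i, gcomp₁ T i c = x i := by
  classical
  choose z hz using fun i => cl₁_surjective (x i)
  -- the family as one class of the trivial module, constant on a common level
  have hmem : (fun g i => (z i).1 g) ∈ Z1 (subLevels (galLevels (T : Set Nat.Primes))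
      K.fixingSubgroup) ((Representation.trivial (ZMod p) Γℚ (ι → ZMod p)).comp
        K.fixingSubgroup.subtype) := by
    refine ⟨?_, funext₂ fun g h => funext fun i => ?_⟩
    · have key : ∀ s : Finset ι, ∃ M, (subLevels (galLevels (T : Set Nat.Primes))
          K.fixingSubgroup).IsLevel M ∧ ∀ g, ∀ t ∈ M, ∀ i ∈ s, (z i).1 (g * t) = (z i).1 g := by
        intro s
        induction s using Finset.induction with
        | empty =>
          obtain ⟨M, hM⟩ := (subLevels (galLevels (T : Set Nat.Primes))
            K.fixingSubgroup).exists_level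
          exact ⟨M, hM, by simp⟩
        | insert i s _ ih =>
          obtain ⟨M, hM, h⟩ := ih
          obtain ⟨M', hM', h'⟩ := (z i).2.1
          obtain ⟨M'', hM'', i1, i2⟩ := (subLevels (galLevels (T : Set Nat.Primes))
            K.fixingSubgroup).exists_le M M' hM hM'
          refine ⟨M'', hM'', fun g t ht j hj => ?_⟩
          rcases Finset.mem_insert.mp hj with rfl | hj
          · exact h' g t (i2 ht)
          · exact h g t (i1 ht) j hj
      obtain ⟨M, hM, h⟩ := key Finset.univ
      exact ⟨M, hM, fun g t ht => funext fun i => h g t ht i (Finset.mem_univ i)⟩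
    · have := congrFun (congrFun (z i).2.2 g) h
      simpa using this
  -- then apply Shapiro's lemma
  obtain ⟨c, hc⟩ := (shapiro₁_bijective hN).surjective
    (cl₁ (subLevels (galLevels (T : Set Nat.Primes)) K.fixingSubgroup)
      ((Representation.trivial (ZMod p) Γℚ (ι → ZMod p)).comp K.fixingSubgroup.subtype) ⟨_, hmem⟩)
  refine ⟨c, fun i => ?_⟩
  rw [← hz i]
  have he : IsEquivariant ((Representation.trivial (ZMod p) Γℚ (ι → ZMod p)).comp
      K.fixingSubgroup.subtype) (triv p K.fixingSubgroup) (MonoidHom.id K.fixingSubgroup)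
      (LinearMap.proj i) := fun _ _ => rfl
  have h := congrArg (map₁ (IsLevelsHom.id _) he) hc
  obtain ⟨c', rfl⟩ := cl₁_surjective c
  simp only [gcomp₁, shapiro₁, map₁_cl₁] at h ⊢
  refine Eq.trans (congrArg _ (Subtype.ext (funext fun g => ?_)))
    (h.trans (congrArg _ (Subtype.ext (funext fun g => ?_))))
  · simp [evOne, evQ]
  · simp

/-! ### Components at a place -/

/-- Evaluation at the coset of the conjugating element is equivariant along conjugation. -/
lemma evQ_conjDec_equivariant (w : Pl K) {v : Nat.Primes} (hv : resChar w = v) (i : ι) :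
    IsEquivariant (repAt v (indK p K ι)) (triv p (decGrp (placeOver w) K)) (conjDec w hv)
      (evQ p (((plConj w)⁻¹ : Γℚ) : Γℚ ⧸ K.fixingSubgroup) i) := fun u f =>
    evQ_equivariant ((decAt v).subtype.comp (conjDec w hv)) (fun u => by
      change conjHom (plConj w) (u : Γℚ) ∈ K.fixingSubgroup
      rw [conjHom_apply]
      have := (fixingSubgroup_normal_qbar K).conj_mem _ u.2.2 (plConj w)⁻¹
      simpa using this) _ i u f

/-- A component at the chosen place over `w`, in degree one. -/
def wcomp₁ (w : Pl K) {v : Nat.Primes} (hv : resChar w = v) (i : ι) :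
    LH1 v (indK p K ι) →ₗ[ZMod p]
      H1 (glev (decGrp (placeOver w) K).subtype) (triv p (decGrp (placeOver w) K)) :=
  map₁ (isLevelsHom_conjDec w hv) (evQ_conjDec_equivariant w hv i)

/-- A component at the chosen place over `w`, in degree two. -/
def wcomp₂ (w : Pl K) {v : Nat.Primes} (hv : resChar w = v) (i : ι) :
    LH2 v (indK p K ι) →ₗ[ZMod p]
      H2 (glev (decGrp (placeOver w) K).subtype) (triv p (decGrp (placeOver w) K)) :=
  map₂ (isLevelsHom_conjDec w hv) (evQ_conjDec_equivariant w hv i)

/-- Localisations of components are components of localisations. -/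
lemma kloc₁_gcomp₁ (w : Pl K) (hw : resChar w ∈ T) (i : ι)
    (c : H1 (galLevels (T : Set Nat.Primes)) (indK p K ι)) :
    kloc₁ p T w (gcomp₁ T i c) = wcomp₁ w rfl i (loc₁ T (indK p K ι) c ⟨resChar w, hw⟩) := by
  conv_lhs => rw [← map₁_conj (plConj w) c]
  obtain ⟨z, rfl⟩ := cl₁_surjective c
  refine congrArg (cl₁ (glev (decGrp (placeOver w) K).subtype) (triv p (decGrp (placeOver w) K)))
    (Subtype.ext (funext fun u => ?_))
  change (indK p K ι (plConj w) (z.1 (conjHom (plConj w) (u : Γℚ))))
    ((1 : Γℚ) : Γℚ ⧸ K.fixingSubgroup) i = z.1 (conjHom (plConj w) (u : Γℚ)) _ i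
  rw [indRep_apply, Representation.trivial_apply, MulAction.Quotient.smul_mk, smul_eq_mul, mul_one]

/-- In degree two, localisations of components are components of localisations. -/
lemma kloc₂_gcomp₂
    (w : Pl K) (hw : resChar w ∈ T) (i : ι)
    (c : H2 (galLevels (T : Set Nat.Primes)) (indK p K ι)) :
    kloc₂ p T w (gcomp₂ T i c) = wcomp₂ w rfl i (loc₂ T (indK p K ι) c ⟨resChar w, hw⟩) := by
  conv_lhs => rw [← map₂_conj (plConj w) c]
  obtain ⟨z, rfl⟩ := cl₂_surjective c
  refine congrArg (cl₂ (glev (decGrp (placeOver w) K).subtype) (triv p (decGrp (placeOver w) K)))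
    (Subtype.ext (funext₂ fun u u' => ?_))
  change (indK p K ι (plConj w)
    (z.1 (conjHom (plConj w) (u : Γℚ)) (conjHom (plConj w) (u' : Γℚ))))
      ((1 : Γℚ) : Γℚ ⧸ K.fixingSubgroup) i =
    z.1 (conjHom (plConj w) (u : Γℚ)) (conjHom (plConj w) (u' : Γℚ)) _ i
  rw [indRep_apply, Representation.trivial_apply, MulAction.Quotient.smul_mk, smul_eq_mul, mul_one]

/-! ### Orbits -/

variable (v : Nat.Primes)

/-- The cosets in the orbit belonging to `w`. -/
def orbMap (w : Pl K) : decAt v ⧸ K.fixingSubgroup.subgroupOf (decAt v) → Γℚ ⧸ K.fixingSubgroup :=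
  Quotient.map' (fun d => (d : Γℚ) * (plConj w)⁻¹) fun a b h => by
    rw [QuotientGroup.leftRel_apply] at h ⊢
    have := (fixingSubgroup_normal_qbar K).conj_mem _ h (plConj w)
    simpa [mul_assoc, Subgroup.mem_subgroupOf] using this

/-- The parametrisation of an orbit is equivariant. -/
lemma orbMap_smul (w : Pl K) (d : decAt v) (e : decAt v ⧸ K.fixingSubgroup.subgroupOf (decAt v)) :
    orbMap v w (d • e) = (d : Γℚ) • orbMap v w e := by
  induction e using QuotientGroup.induction_on with
  | _ a =>
    change QuotientGroup.mk (((d * a : decAt v) : Γℚ) * (plConj w)⁻¹) = _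
    rw [Subgroup.coe_mul, mul_assoc]
    rfl

/-- The parametrisation of an orbit is injective. -/
lemma orbMap_injective (w : Pl K) : Function.Injective (orbMap (K := K) v w) := by
  intro e e' h
  induction e using QuotientGroup.induction_on with
  | _ a =>
    induction e' using QuotientGroup.induction_on with
    | _ b =>
      have h' := QuotientGroup.eq.mp h
      refine QuotientGroup.eq.mpr ?_
      have := (fixingSubgroup_normal_qbar K).conj_mem _ h' (plConj w)⁻¹
      simpa [mul_assoc, Subgroup.mem_subgroupOf] using this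

/-- Every coset lies in exactly one orbit. -/
lemma existsUnique_orbit (y : Γℚ ⧸ K.fixingSubgroup) :
    ∃! w : Pl K, resChar w = v ∧ y ∈ Set.range (orbMap v w) := by
  obtain ⟨g, rfl⟩ := QuotientGroup.mk_surjective y
  obtain ⟨w, hw, n, hn, d, hd, hg⟩ := exists_eq_mul_plConj (K := K) v g⁻¹
  refine ⟨w, ⟨hw, ((⟨d, hd⟩ : decAt v)⁻¹ : decAt v), ?_⟩, ?_⟩
  · refine QuotientGroup.eq.mpr ?_
    have e : g = d⁻¹ * (plConj w)⁻¹ * n⁻¹ := by
      rw [← inv_inv g, hg]; group
    rw [e]
    change ((d⁻¹) * (plConj w)⁻¹)⁻¹ * (d⁻¹ * (plConj w)⁻¹ * n⁻¹) ∈ K.fixingSubgroup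
    rw [inv_mul_cancel_left]
    exact inv_mem hn
  · rintro w' ⟨hw', e', he'⟩
    induction e' using QuotientGroup.induction_on with
    | _ d' =>
      have h' := QuotientGroup.eq.mp he'
      set m := ((d' : Γℚ) * (plConj w')⁻¹)⁻¹ * g with hm
      have hmn : plConj w' = (m * n) * plConj w * (d * (d' : Γℚ)) := by
        have e : g⁻¹ = n * plConj w * d := hg
        rw [hm, show g = (n * plConj w * d)⁻¹ by rw [← e, inv_inv]]
        group
      have hmem : d * (d' : Γℚ) ∈ decAt v := mul_mem hd d'.2
      subst hw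
      have hmnK : m * n ∈ K.fixingSubgroup := mul_mem h' hn
      have hpl : placeOver w' = (m * n) • placeOver w := by
        rw [placeOver, placeOver, hw', hmn, mul_smul, mul_smul,
          MulAction.mem_stabilizer_iff.mp hmem]
      conv_lhs => rw [← plBelow_placeOver w']
      conv_rhs => rw [← plBelow_placeOver w]
      have h1 := plBelow_smul (L := K) (resChar w).2 (placeOver_spec w) (m * n)
      rw [(restrict_eq_one_iff K _).mpr hmnK, one_smul] at h1
      rw [← h1]
      exact plBelow_congr _ _ _ _ hpl

/-- Restriction to an orbit. -/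
def orbRes (w : Pl K) :
    IndK p K ι →ₗ[ZMod p] (decAt v ⧸ K.fixingSubgroup.subgroupOf (decAt v)) → ι → ZMod p :=
  LinearMap.funLeft (ZMod p) (ι → ZMod p) (orbMap v w)

/-- Extension by zero from an orbit. -/
def orbExt (w : Pl K) :
    ((decAt v ⧸ K.fixingSubgroup.subgroupOf (decAt v)) → ι → ZMod p) →ₗ[ZMod p] IndK p K ι where
  toFun F := Function.extend (orbMap v w) F 0
  map_add' F F' := by
    conv_lhs => rw [← add_zero (0 : IndK p K ι)]
    exact Function.extend_add _ _ _ _ _
  map_smul' c F := by
    conv_lhs => rw [← smul_zero c (A := IndK p K ι)]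
    exact Function.extend_smul _ _ _ _

/-- Restriction to an orbit is equivariant. -/
lemma orbRes_equivariant (w : Pl K) :
    IsEquivariant (repAt v (indK p K ι))
      (indRep (K.fixingSubgroup.subgroupOf (decAt v))
        (Representation.trivial (ZMod p) (decAt v) (ι → ZMod p))) (MonoidHom.id _) (orbRes v w) :=
  fun d f => funext fun e => by
    change f (((d : Γℚ))⁻¹ • orbMap v w e) = f (orbMap v w (d⁻¹ • e))
    rw [orbMap_smul, Subgroup.coe_inv]

/-- Extension by zero from an orbit is equivariant. -/
lemma orbExt_equivariant (w : Pl K) :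
    IsEquivariant (indRep (K.fixingSubgroup.subgroupOf (decAt v))
        (Representation.trivial (ZMod p) (decAt v) (ι → ZMod p))) (repAt v (indK p K ι))
      (MonoidHom.id _) (orbExt v w) := fun d F => funext fun y => by
  change Function.extend (orbMap v w) (fun e => F (d⁻¹ • e)) 0 y =
    Function.extend (orbMap v w) F 0 ((d : Γℚ)⁻¹ • y)
  by_cases hy : ∃ e, orbMap v w e = y
  · obtain ⟨e, rfl⟩ := hy
    rw [(orbMap_injective v w).extend_apply, ← Subgroup.coe_inv, ← orbMap_smul,
      (orbMap_injective v w).extend_apply]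
  · rw [Function.extend_apply' _ _ _ hy, Function.extend_apply']
    · rfl
    · rintro ⟨e, he⟩
      exact hy ⟨d • e, by rw [orbMap_smul, he, smul_inv_smul]⟩

/-- The orbit of `w` as a scalar function. -/
def orbInd (w : Pl K) (y : Γℚ ⧸ K.fixingSubgroup) : ZMod p :=
  open Classical in if y ∈ Set.range (orbMap v w) then 1 else 0

/-- Restricting to an orbit and extending multiplies by its indicator. -/
lemma orbExt_orbRes (w : Pl K) (f : IndK p K ι) (y : Γℚ ⧸ K.fixingSubgroup) :
    orbExt v w (orbRes v w f) y = orbInd (p := p) v w y • f y := by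
  classical
  change Function.extend (orbMap v w) (fun e => f (orbMap v w e)) 0 y = _
  by_cases hy : ∃ e, orbMap v w e = y
  · obtain ⟨e, rfl⟩ := hy
    rw [(orbMap_injective v w).extend_apply, orbInd, if_pos (Set.mem_range_self e), one_smul]
  · rw [Function.extend_apply' _ _ _ hy, orbInd,
      if_neg (show y ∉ Set.range (orbMap v w) from hy), zero_smul]
    rfl

/-- The projection to an orbit. -/
def orbProj (w : Pl K) : IndK p K ι →ₗ[ZMod p] IndK p K ι := (orbExt v w).comp (orbRes v w)

/-- The projection to an orbit is equivariant. -/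
lemma orbProj_equivariant (w : Pl K) :
    IsEquivariant (repAt v (indK p K ι)) (repAt v (indK p K ι)) (MonoidHom.id _) (orbProj v w) :=
  fun d f => (congrArg (orbExt v w) (orbRes_equivariant v w d f)).trans
    (orbExt_equivariant v w d (orbRes v w f))

variable (K) in
/-- The projections to the orbits add up to the identity. -/
lemma sum_orbProj (f : IndK p K ι) : ∑ w ∈ plsOver K {v}, orbProj v w f = f := by
  classical
  funext y
  obtain ⟨w, ⟨hw, hyw⟩, huniq⟩ := existsUnique_orbit v y
  rw [Finset.sum_apply, Finset.sum_eq_single w]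
  · rw [orbProj, LinearMap.comp_apply, orbExt_orbRes, orbInd, if_pos hyw, one_smul]
  · intro w' hw' hne
    rw [orbProj, LinearMap.comp_apply, orbExt_orbRes, orbInd, if_neg, zero_smul]
    exact fun h => hne (huniq w' ⟨by simpa using hw', h⟩)
  · intro h
    exact absurd (by simpa using hw) h

/-- The decomposition group over `K` at the chosen place over `w`, from the orbit stabiliser. -/
def orbStab (w : Pl K) (hv : resChar w = v) :
    K.fixingSubgroup.subgroupOf (decAt v) →* decGrp (placeOver w) K :=
  MonoidHom.mk' (fun d => ⟨plConj w * (d.1 : Γℚ) * (plConj w)⁻¹, by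
      refine MulAction.mem_stabilizer_iff.mpr ?_
      change (plConj w * (d.1 : Γℚ) * (plConj w)⁻¹) • placeOver w = placeOver w
      have hd : (d.1 : Γℚ) • placeAt (resChar w) = placeAt (resChar w) := by
        rw [hv]
        exact MulAction.mem_stabilizer_iff.mp d.1.2
      rw [placeOver, mul_smul, mul_smul, inv_smul_smul, hd],
      (fixingSubgroup_normal_qbar K).conj_mem _ (Subgroup.mem_subgroupOf.mp d.2) _⟩)
    fun a b => Subtype.ext (by
      change plConj w * ((a.1 : Γℚ) * (b.1 : Γℚ)) * (plConj w)⁻¹ =
        plConj w * (a.1 : Γℚ) * (plConj w)⁻¹ * (plConj w * (b.1 : Γℚ) * (plConj w)⁻¹)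
      group)

/-- The map from the orbit stabiliser respects levels. -/
lemma isLevelsHom_orbStab (w : Pl K) (hv : resChar w = v) :
    IsLevelsHom (glev (decGrp (placeOver w) K).subtype)
      (subLevels (glev (decAt v).subtype) (K.fixingSubgroup.subgroupOf (decAt v)))
      (orbStab v w hv) := by
  rintro _ ⟨N, hN, rfl⟩
  refine ⟨_, ⟨_, ⟨N, hN, rfl⟩, rfl⟩, fun x hx => ?_⟩
  have h := (galLevels Set.univ).conj_mem hN hx (plConj w)⁻¹
  rw [inv_inv] at h
  exact h

/-- Moving back into the decomposition group gives back the element of the stabiliser. -/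
lemma conjHom_orbStab (w : Pl K) (hv : resChar w = v)
    (d : K.fixingSubgroup.subgroupOf (decAt v)) :
    conjDec w hv (orbStab v w hv d) = d.1 := by
  refine Subtype.ext ?_
  change conjHom (plConj w) (plConj w * (d.1 : Γℚ) * (plConj w)⁻¹) = (d.1 : Γℚ)
  rw [conjHom_apply]
  group

/-- The orbit stabiliser contains a level. -/
lemma containsLevel_subgroupOf :
    ContainsLevel (glev (decAt v).subtype) (K.fixingSubgroup.subgroupOf (decAt v)) := by
  obtain ⟨N, hN, hle⟩ := exists_level_univ_le K
  exact ⟨_, ⟨N, hN, rfl⟩, fun x hx => hle hx⟩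

/-- The base point of an orbit. -/
lemma orbMap_one (w : Pl K) :
    orbMap v w ((1 : decAt v) : decAt v ⧸ K.fixingSubgroup.subgroupOf (decAt v)) =
      (((plConj w)⁻¹ : Γℚ) : Γℚ ⧸ K.fixingSubgroup) := by
  change QuotientGroup.mk (((1 : decAt v) : Γℚ) * (plConj w)⁻¹) = _
  rw [Subgroup.coe_one, one_mul]

/-- An orbit part vanishes with its components. -/
lemma map₁_orbProj_eq_zero (w : Pl K) (hv : resChar w = v) {y : LH1 v (indK p K ι)}
    (h : ∀ i, wcomp₁ w hv i y = 0) :
    map₁ (IsLevelsHom.id _) (orbProj_equivariant v w) y = 0 := by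
  suffices h0 : map₁ (IsLevelsHom.id _) (orbRes_equivariant v w) y = 0 by
    have h1 := congrArg (map₁ (IsLevelsHom.id _) (orbExt_equivariant (p := p) (ι := ι) v w)) h0
    rw [map_zero] at h1
    obtain ⟨z, rfl⟩ := cl₁_surjective y
    simp only [map₁_cl₁] at h1 ⊢
    exact h1
  refine (shapiro₁_bijective (containsLevel_subgroupOf v)).injective ?_
  rw [map_zero]
  refine (map₁_bijective (L := subLevels (glev (decAt v).subtype)
    (K.fixingSubgroup.subgroupOf (decAt v)))
    (IsEquivariant.id ((Representation.trivial (ZMod p) _ (ι → ZMod p)).comp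
        (K.fixingSubgroup.subgroupOf (decAt v)).subtype))
    Function.bijective_id).injective ?_
  rw [map_zero]
  refine cl₁_eq_zero_of_coords (Pi.basisFun (ZMod p) ι) (fun i => coord_equivariant i) _ fun i => ?_
  have h1 := congrArg (map₁ (isLevelsHom_orbStab v w hv)
    (show IsEquivariant (triv p (decGrp (placeOver w) K))
      (triv p (K.fixingSubgroup.subgroupOf (decAt v))) (orbStab v w hv) LinearMap.id from
      fun _ _ => rfl)) (h i)
  rw [map_zero] at h1
  obtain ⟨z, rfl⟩ := cl₁_surjective y
  simp only [wcomp₁, shapiro₁, map₁_cl₁] at h1 ⊢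
  rw [← h1]
  refine congrArg _ (Subtype.ext (funext fun d => ?_))
  change (z.1 d.1) (orbMap v w _) i = (z.1 (conjDec w hv (orbStab v w hv d))) _ i
  rw [conjHom_orbStab, orbMap_one]

/-- A local class with vanishing components over `w` has vanishing projection to the orbit of
`w`. -/
lemma map₂_orbProj_eq_zero (w : Pl K) (hv : resChar w = v) {y : LH2 v (indK p K ι)}
    (h : ∀ i, wcomp₂ w hv i y = 0) :
    map₂ (IsLevelsHom.id _) (orbProj_equivariant v w) y = 0 := by
  suffices h0 : map₂ (IsLevelsHom.id _) (orbRes_equivariant v w) y = 0 by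
    have h1 := congrArg (map₂ (IsLevelsHom.id _) (orbExt_equivariant (p := p) (ι := ι) v w)) h0
    rw [map_zero] at h1
    obtain ⟨z, rfl⟩ := cl₂_surjective y
    simp only [map₂_cl₂] at h1 ⊢
    exact h1
  refine (shapiro₂_bijective (containsLevel_subgroupOf v) (isSmooth_trivial _)).injective ?_
  rw [map_zero]
  refine (map₂_bijective (L := subLevels (glev (decAt v).subtype)
    (K.fixingSubgroup.subgroupOf (decAt v)))
    (IsEquivariant.id ((Representation.trivial (ZMod p) _ (ι → ZMod p)).comp
        (K.fixingSubgroup.subgroupOf (decAt v)).subtype))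
    Function.bijective_id).injective ?_
  rw [map_zero]
  refine cl₂_eq_zero_of_coords (Pi.basisFun (ZMod p) ι) (fun i => coord_equivariant i) _ fun i => ?_
  have h1 := congrArg (map₂ (isLevelsHom_orbStab v w hv)
    (show IsEquivariant (triv p (decGrp (placeOver w) K))
      (triv p (K.fixingSubgroup.subgroupOf (decAt v))) (orbStab v w hv) LinearMap.id from
      fun _ _ => rfl)) (h i)
  rw [map_zero] at h1
  obtain ⟨z, rfl⟩ := cl₂_surjective y
  simp only [wcomp₂, shapiro₂, map₂_cl₂] at h1 ⊢
  rw [← h1]
  refine congrArg _ (Subtype.ext (funext₂ fun d d' => ?_))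
  change (z.1 d.1 d'.1) (orbMap v w _) i =
    (z.1 (conjDec w hv (orbStab v w hv d)) (conjDec w hv (orbStab v w hv d'))) _ i
  rw [conjHom_orbStab, conjHom_orbStab, orbMap_one]

/-- A local class is the sum of its projections to the orbits. -/
lemma sum_map₁_orbProj (y : LH1 v (indK p K ι)) :
    ∑ w ∈ plsOver K {v}, map₁ (IsLevelsHom.id _) (orbProj_equivariant v w) y = y := by
  obtain ⟨z, rfl⟩ := cl₁_surjective y
  simp only [map₁_cl₁, ← map_sum]
  refine congrArg (cl₁ (glev (decAt v).subtype) (repAt v (indK p K ι))) (Subtype.ext ?_)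
  rw [Submodule.coe_sum]
  funext d
  rw [Finset.sum_apply]
  exact sum_orbProj K v (z.1 d)

/-- **Components detect local classes of degree one.** -/
theorem eq_zero_of_wcomp₁ {y : LH1 v (indK p K ι)}
    (h : ∀ (w : Pl K) (hv : resChar w = v) (i : ι), wcomp₁ w hv i y = 0) : y = 0 := by
  rw [← sum_map₁_orbProj v y]
  exact Finset.sum_eq_zero fun w hw =>
    map₁_orbProj_eq_zero v w (Finset.mem_singleton.mp (mem_plsOver.mp hw)) (h w _)

end Fermat.CFT
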