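import Fermat.Agent.CFT.Global.Setup

/-!
# The places of a Galois field over the primes of `T`

`res₂_eq_zero_of_loc₂`: localisation at the chosen places detects vanishing at every place, as
`Induced` needs.
-/

set_option autoImplicit false
set_option linter.unusedSectionVars false

noncomputable section

open NumberField ExtCitation Fermat.CFT.Coh
open scoped Pointwise

namespace Fermat.CFT

local notation "ℚbar" => AlgebraicClosure ℚ
local notation "Γℚ" => (AlgebraicClosure ℚ ≃ₐ[ℚ] AlgebraicClosure ℚ)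

section Residue

variable {F : Type} [Field F] [NumberField F]

/-- A prime contains only one prime number. -/
lemma eq_of_natCast_mem {q q' : ℕ} (hq : q.Prime) (hq' : q'.Prime) (w : Pl F)
    (h : (q : 𝓞 F) ∈ w.asIdeal) (h' : (q' : 𝓞 F) ∈ w.asIdeal) : q = q' := by
  by_contra hne
  refine natCast_notMem_of_ne hq w h (n := q') (fun hd => hne ?_) h'
  exact (Nat.prime_dvd_prime_iff_eq hq hq').mp hd

/-- The prime number below a prime. -/
def resChar (w : Pl F) : Nat.Primes :=
  ⟨(exists_prime_natCast_mem w).choose, (exists_prime_natCast_mem w).choose_spec.1⟩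

/-- A prime contains the prime number below it. -/
lemma natCast_resChar_mem (w : Pl F) : ((resChar w : ℕ) : 𝓞 F) ∈ w.asIdeal :=
  (exists_prime_natCast_mem w).choose_spec.2

/-- The prime number in a prime is the one below it. -/
lemma resChar_eq {v : Nat.Primes} {w : Pl F} (h : ((v : ℕ) : 𝓞 F) ∈ w.asIdeal) : resChar w = v :=
  Subtype.ext (eq_of_natCast_mem (resChar w).2 v.2 w (natCast_resChar_mem w) h)

/-- Finitely many primes lie over a prime number. -/
lemma finite_resChar_eq (v : Nat.Primes) : {w : Pl F | resChar w = v}.Finite := by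
  have h0 : (Ideal.span {((v : ℕ) : 𝓞 F)}) ≠ 0 := by
    rw [Ne, Ideal.zero_eq_bot, Ideal.span_singleton_eq_bot]
    exact_mod_cast v.2.ne_zero
  refine (Ideal.finite_factors h0).subset fun w (hw : resChar w = v) => ?_
  change w.asIdeal ∣ _
  rw [Ideal.dvd_span_singleton, ← hw]
  exact natCast_resChar_mem w

variable (F) in
/-- The primes over the primes of `T`. -/
def plsOver (T : Finset Nat.Primes) : Finset (Pl F) :=
  ((T.finite_toSet.biUnion fun v _ => finite_resChar_eq (F := F) v).subset
    (fun w (hw : resChar w ∈ T) => Set.mem_iUnion₂.mpr ⟨resChar w, hw, rfl⟩) :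
      {w : Pl F | resChar w ∈ T}.Finite).toFinset

/-- Membership in the set of primes over `T`. -/
@[simp] lemma mem_plsOver {T : Finset Nat.Primes} {w : Pl F} :
    w ∈ plsOver F T ↔ resChar w ∈ T := Set.Finite.mem_toFinset _

/-- The primes over `T` grow with `T`. -/
lemma plsOver_mono {T T' : Finset Nat.Primes} (h : T ⊆ T') : plsOver F T ⊆ plsOver F T' :=
  fun _ hw => mem_plsOver.mpr (h (mem_plsOver.mp hw))

/-- `p` is a unit outside the primes over a set containing `p`. -/
lemma ord_natCast_eq_zero_of_notMem {p : ℕ} [hp : Fact p.Prime] {T : Finset Nat.Primes}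
    (hpT : pPrime p ∈ T) {w : Pl F} (hw : w ∉ plsOver F T) : ord w (p : F) = 0 := by
  rw [← Int.cast_natCast]
  refine ord_intCast_eq_zero (resChar w).2 w (natCast_resChar_mem w) fun h => hw ?_
  rw [mem_plsOver, show resChar w = pPrime p from Subtype.ext
    ((Nat.prime_dvd_prime_iff_eq (resChar w).2 hp.out).mp (Int.natCast_dvd_natCast.mp h))]
  exact hpT

end Residue

variable {K : IntermediateField ℚ ℚbar} [FiniteDimensional ℚ K]

/-- The prime below a place over `v` lies over `v`. -/
lemma resChar_plBelow {v : Nat.Primes} {A : ValuationSubring ℚbar}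
    (hA : A.LiesOverPrime (v : ℕ)) : resChar (plBelow K v.2 hA) = v :=
  resChar_eq (natCast_mem_plBelow K v.2 hA)

/-- The prime below a place depends only on the place. -/
lemma plBelow_congr {A B : ValuationSubring ℚbar} {ℓ ℓ' : ℕ} (hℓ : ℓ.Prime) (hℓ' : ℓ'.Prime)
    (hA : A.LiesOverPrime ℓ) (hB : B.LiesOverPrime ℓ') (h : A = B) :
    plBelow K hℓ hA = plBelow K hℓ' hB := by
  subst h
  rfl

variable [Normal ℚ K]

/-- Places over the same prime of `K` are conjugate over `K`. -/
lemma exists_smul_of_plBelow_eq {ℓ : ℕ} (hℓ : ℓ.Prime) {A B : ValuationSubring ℚbar}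
    (hA : A.LiesOverPrime ℓ) (hB : B.LiesOverPrime ℓ) (h : plBelow K hℓ hA = plBelow K hℓ hB) :
    ∃ n ∈ K.fixingSubgroup, n • A = B := by
  obtain ⟨σ, rfl⟩ := exists_smul_place hℓ hA hB
  have h1 : AlgEquiv.restrictNormalHom K σ • plBelow K hℓ hA = plBelow K hℓ hA :=
    (plBelow_smul hℓ hA σ).symm.trans h.symm
  obtain ⟨g, hg, hgσ⟩ := exists_decGrp_restrict (A := A) (K := (⊥ : IntermediateField ℚ ℚbar))
    (E := K) hℓ hA bot_le (τ := AlgEquiv.restrictNormalHom K σ) (fun x hx => by
      obtain ⟨q, hq⟩ := IntermediateField.mem_bot.mp hx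
      rw [show x = algebraMap ℚ K q from Subtype.ext hq.symm, AlgEquiv.commutes]) h1
  refine ⟨σ * g⁻¹, (restrict_eq_one_iff K _).mp (by rw [map_mul, map_inv, hgσ, mul_inv_cancel]), ?_⟩
  rw [mul_smul, MulAction.mem_stabilizer_iff.mp
    (inv_mem (show g ∈ A.decompositionSubgroup ℚ from hg.1))]

/-- Every prime lies below a translate of the chosen place. -/
lemma exists_smul_placeAt (w : Pl K) : ∃ γ : Γℚ,
    plBelow K (resChar w).2 (liesOverPrime_smul γ (placeAt_spec (resChar w))) = w := by
  obtain ⟨B, hB, hBw⟩ := exists_plBelow_eq (L := K) (resChar w).2 w (natCast_resChar_mem w)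
  obtain ⟨γ, rfl⟩ := exists_smul_place (resChar w).2 (placeAt_spec _) hB
  exact ⟨γ, hBw⟩

/-- A translation from the chosen place to a place over `w`. -/
def plConj (w : Pl K) : Γℚ := (exists_smul_placeAt w).choose

/-- A chosen place of `ℚ̄` over `w`. -/
def placeOver (w : Pl K) : ValuationSubring ℚbar := plConj w • placeAt (resChar w)

/-- The chosen place over `w` lies over the prime number below `w`. -/
lemma placeOver_spec (w : Pl K) : (placeOver w).LiesOverPrime (resChar w : ℕ) :=
  liesOverPrime_smul _ (placeAt_spec _)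

/-- The chosen place over `w` lies over `w`. -/
lemma plBelow_placeOver (w : Pl K) : plBelow K (resChar w).2 (placeOver_spec w) = w :=
  (exists_smul_placeAt w).choose_spec

/-- Every translate of a chosen place is a chosen place over `K`, up to the two stabilisers. -/
lemma exists_eq_mul_plConj (v : Nat.Primes) (γ : Γℚ) :
    ∃ w : Pl K, resChar w = v ∧
      ∃ n ∈ K.fixingSubgroup, ∃ d ∈ decAt v, γ = n * plConj w * d := by
  set w := plBelow K v.2 (liesOverPrime_smul γ (placeAt_spec v)) with hw
  have hv : resChar w = v := resChar_plBelow _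
  refine ⟨w, hv, ?_⟩
  obtain ⟨n, hn, hnA⟩ := exists_smul_of_plBelow_eq (K := K) (resChar w).2 (placeOver_spec w)
    (B := γ • placeAt (resChar w)) (liesOverPrime_smul γ (placeAt_spec _)) (by
      rw [plBelow_placeOver]
      rw [hw]
      exact plBelow_congr _ _ _ _ (by rw [hv]))
  refine ⟨n, hn, (n * plConj w)⁻¹ * γ, MulAction.mem_stabilizer_iff.mpr ?_, by group⟩
  rw [← hv, mul_smul, inv_smul_eq_iff, mul_smul]
  exact hnA.symm

/-- Conjugation moves the group of a chosen place over `K` into the decomposition group. -/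
lemma conjHom_mem_decAt (w : Pl K) {u : Γℚ} (hu : u ∈ decGrp (placeOver w) K) :
    conjHom (plConj w) u ∈ decAt (resChar w) := by
  rw [conjHom_apply]
  refine MulAction.mem_stabilizer_iff.mpr ?_
  rw [mul_smul, mul_smul, MulAction.mem_stabilizer_iff.mp
    (show u ∈ (plConj w • placeAt (resChar w)).decompositionSubgroup ℚ from hu.1), inv_smul_smul]

/-- The group of the chosen place over `w`, moved into the decomposition group. -/
def conjDec (w : Pl K) {v : Nat.Primes} (hv : resChar w = v) :
    decGrp (placeOver w) K →* decAt v :=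
  MonoidHom.mk' (fun u => ⟨conjHom (plConj w) (u : Γℚ), hv ▸ conjHom_mem_decAt w u.2⟩)
    fun _ _ => Subtype.ext (map_mul (conjHom (plConj w)) _ _)

/-- Moving the group of a chosen place into the decomposition group respects levels. -/
lemma isLevelsHom_conjDec (w : Pl K) {v : Nat.Primes} (hv : resChar w = v) :
    IsLevelsHom (glev (decAt v).subtype) (glev (decGrp (placeOver w) K).subtype)
      (conjDec w hv) := by
  rintro _ ⟨N, hN, rfl⟩
  refine ⟨_, ⟨N, hN, rfl⟩, fun x hx => ?_⟩
  change conjHom (plConj w) (x : Γℚ) ∈ N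
  rw [conjHom_apply]
  exact (galLevels Set.univ).conj_mem hN hx _

/-! ### Classes at an arbitrary place -/

variable {p : ℕ} [hp : Fact p.Prime] {M : Type} [AddCommGroup M] [Module (ZMod p) M]
  {ρ : Representation (ZMod p) Γℚ M}

/-- A class unramified outside `T` and trivial at `T` is trivial at every place. -/
theorem res₂_eq_zero_of_loc₂ [FiniteDimensional (ZMod p) M] (h2 : 2 < p) {T : Finset Nat.Primes}
    (hρ : IsSmooth (galLevels (T : Set Nat.Primes)) ρ)
    {c : H2 (galLevels (T : Set Nat.Primes)) ρ} (hc : loc₂ T ρ c = 0) {ℓ : ℕ} (hℓ : ℓ.Prime)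
    {A : ValuationSubring ℚbar} (hA : A.LiesOverPrime ℓ) :
    res₂ (glev (MonoidHom.id Γℚ)) ρ (placeGrp (MonoidHom.id Γℚ) A)
      (map₂ (toUniv (T : Set Nat.Primes)) (IsEquivariant.id ρ) c) = 0 := by
  by_cases hv : (⟨ℓ, hℓ⟩ : Nat.Primes) ∈ T
  · refine res₂_placeGrp_eq_zero' ⟨ℓ, hℓ⟩ ?_ hA
    have h := congrFun hc ⟨⟨ℓ, hℓ⟩, hv⟩
    obtain ⟨z, rfl⟩ := cl₂_surjective c
    exact h
  · exact res₂_eq_zero_of_unram h2 hρ c (fun h => hv h) hA

end Fermat.CFT
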