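import Fermat.Agent.CFT.Global.AuxPrime

/-!
# Reciprocity over `ℚ` for classes of degree two with values in `μ_p`

The local invariants are normalised so that their sum vanishes on global classes; no other
normalisation is needed. The two inputs are that a class supported at one prime is zero and that
classes supported at any two given primes exist, both from the classes `χ_q ∪ a` for an auxiliary
prime `q`. The invariant at `v` is scaled against the one at `p` by such a pair; removing pairs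
reduces every class to one supported at `p` (`sum_gInv_eq_zero`).
-/

set_option autoImplicit false

noncomputable section

open ExtCitation Fermat.CFT.Coh
open scoped Pointwise

namespace Fermat.CFT

local notation "ℚbar" => AlgebraicClosure ℚ
local notation "Γℚ" => (AlgebraicClosure ℚ ≃ₐ[ℚ] AlgebraicClosure ℚ)

/-- A chosen place over each prime. -/
def placeAt (v : Nat.Primes) : ValuationSubring ℚbar := (exists_place v.2).choose

/-- The chosen place lies over its prime. -/
lemma placeAt_spec (v : Nat.Primes) : (placeAt v).LiesOverPrime (v : ℕ) :=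
  (exists_place v.2).choose_spec

/-- The decomposition group of the chosen place. -/
abbrev decAt (v : Nat.Primes) : Subgroup Γℚ := (placeAt v).decompositionSubgroup ℚ

/-- Linear forms `f i` sum to zero on a vector with finite support if a vector supported at `i₀`
alone is killed by `f i₀` and, for each `i ≠ i₀`, some vector supported at `i₀`, `i` has sum zero
and `f i ≠ 0` on it. -/
lemma sum_eq_zero_of_pairs {ι k V : Type*} [Field k] [AddCommGroup V] [Module k V]
    (f : ι → V →ₗ[k] k) (i₀ : ι) (h0 : ∀ c, (∀ i, i ≠ i₀ → f i c = 0) → f i₀ c = 0)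
    (P : ∀ i, i ≠ i₀ → V) (hP : ∀ i hi u, u ≠ i → u ≠ i₀ → f u (P i hi) = 0)
    (hPi : ∀ i hi, f i (P i hi) ≠ 0) (hsum : ∀ i hi, f i₀ (P i hi) + f i (P i hi) = 0)
    {s : Finset ι} (c : V) (hs : ∀ i ∉ s, f i c = 0) : ∑ i ∈ s, f i c = 0 := by
  classical
  -- induction on the support, removing one index with the vector of the pair
  have key : ∀ t : Finset ι, i₀ ∉ t → ∀ c : V, (∀ i ∉ insert i₀ t, f i c = 0) →
      ∑ i ∈ insert i₀ t, f i c = 0 := by
    intro t
    induction t using Finset.induction with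
    | empty =>
      intro _ c hc
      rw [Finset.insert_empty, Finset.sum_singleton]
      exact h0 c fun i hi => hc i (by simp [hi])
    | @insert v t hvt ih =>
      intro hit c hc
      rw [Finset.mem_insert, not_or] at hit
      have hv : v ≠ i₀ := Ne.symm hit.1
      set a : k := f v c * (f v (P v hv))⁻¹
      have hv' : f v (c - a • P v hv) = 0 := by
        rw [map_sub, map_smul, smul_eq_mul, inv_mul_cancel_right₀ (hPi v hv), sub_self]
      have hrec := ih hit.2 (c - a • P v hv) fun i hi => by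
        by_cases hiv : i = v
        · rw [hiv, hv']
        simp only [Finset.mem_insert, not_or] at hi
        rw [map_sub, map_smul, hc i (by simp [hi.1, hiv, hi.2]), hP v hv i hiv hi.1, smul_zero,
          sub_zero]
      have hsub : ∀ i ∈ insert i₀ (insert v t), i ∉ insert i₀ t → f i (c - a • P v hv) = 0 := by
        intro i hi hi'
        simp only [Finset.mem_insert, not_or] at hi hi'
        rcases hi with h | h | h
        · exact absurd h hi'.1
        · rw [h, hv']
        · exact absurd h hi'.2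
      rw [Finset.sum_subset (s₂ := insert i₀ (insert v t)) (fun i hi => by simp at hi ⊢; tauto)
        hsub] at hrec
      have hpair : ∑ i ∈ insert i₀ (insert v t), f i (P v hv) = 0 := by
        rw [← Finset.sum_subset (s₁ := {i₀, v}) (fun i hi => by simp at hi ⊢; tauto)
          (fun i _ hi => by simp at hi; exact hP v hv i hi.2 hi.1), Finset.sum_pair hit.1, hsum]
      simp only [map_sub, map_smul, smul_eq_mul, Finset.sum_sub_distrib, ← Finset.mul_sum, hpair,
        mul_zero, sub_zero] at hrec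
      exact hrec
  have h := key (s.erase i₀) (Finset.notMem_erase _ _) c fun i hi =>
    hs i fun h => hi (by simp [h]; tauto)
  rw [← h]
  exact Finset.sum_subset (fun i hi => by simp [hi]; tauto) fun i _ hi => hs i hi

variable (p : ℕ) [hp : Fact p.Prime]

/-- `H²(ℚ, μ_p)`. -/
abbrev GlobalH2 : Type :=
  H2 (glev (MonoidHom.id Γℚ)) (charRep (cycHom p (MonoidHom.id Γℚ)))

/-- `H²(ℚ_v, μ_p)`. -/
abbrev LocalH2 (v : Nat.Primes) : Type :=
  H2 (glev (decAt v).subtype) (charRep (cycHom p (decAt v).subtype))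

/-- Localisation at the chosen place over `v`. -/
def locRes (v : Nat.Primes) : GlobalH2 p →ₗ[ZMod p] LocalH2 p v :=
  map₂ (isLevelsHom_glev (MonoidHom.id Γℚ) (decAt v).subtype)
    (cycHom_equivariant (MonoidHom.id Γℚ) (decAt v).subtype)

variable {p}

/-- A class vanishing at the chosen place vanishes at all places over the same prime. -/
lemma res₂_placeGrp_eq_zero' {M : Type} [AddCommGroup M] [Module (ZMod p) M]
    {ρ : Representation (ZMod p) Γℚ M}
    {c : H2 (glev (MonoidHom.id Γℚ)) ρ} (v : Nat.Primes)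
    (hc : map₂ (isLevelsHom_glev (MonoidHom.id Γℚ) (decAt v).subtype)
      (IsEquivariant.restrict ρ (decAt v).subtype) c = 0)
    {B : ValuationSubring ℚbar} (hB : B.LiesOverPrime (v : ℕ)) :
    res₂ (glev (MonoidHom.id Γℚ)) ρ (placeGrp (MonoidHom.id Γℚ) B) c = 0 := by
  obtain ⟨σ, rfl⟩ := exists_smul_place v.2 (placeAt_spec v) hB
  have hmem : ∀ g : placeGrp (MonoidHom.id Γℚ) (σ • placeAt v),
      conjHom σ (g : Γℚ) ∈ decAt v := fun g => by
    rw [conjHom_apply]
    refine MulAction.mem_stabilizer_iff.mpr ?_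
    rw [mul_smul, mul_smul, MulAction.mem_stabilizer_iff.mp (show (g : Γℚ) ∈
      (σ • placeAt v).decompositionSubgroup ℚ from g.2), inv_smul_smul]
  let j : placeGrp (MonoidHom.id Γℚ) (σ • placeAt v) →* decAt v :=
    MonoidHom.mk' (fun g => ⟨conjHom σ (g : Γℚ), hmem g⟩) fun a b =>
      Subtype.ext (map_mul (conjHom σ) _ _)
  have hj : IsLevelsHom (glev (decAt v).subtype)
      (subLevels (glev (MonoidHom.id Γℚ)) (placeGrp (MonoidHom.id Γℚ) (σ • placeAt v))) j := by
    rintro _ ⟨N, hN, rfl⟩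
    refine ⟨_, ⟨_, ⟨N, hN, rfl⟩, rfl⟩, fun x hx => ?_⟩
    change conjHom σ (x : Γℚ) ∈ N
    rw [conjHom_apply]
    exact (galLevels Set.univ).conj_mem hN hx σ
  have hje : IsEquivariant (ρ.comp (decAt v).subtype)
      (ρ.comp (placeGrp (MonoidHom.id Γℚ) (σ • placeAt v)).subtype) j (ρ σ) := fun g a =>
    conj_equivariant (ρ := ρ) σ (g : Γℚ) a
  have h := congrArg (map₂ hj hje) hc
  rw [map_zero] at h
  rw [← map₂_conj σ c]
  obtain ⟨z, rfl⟩ := cl₂_surjective c
  exact h

/-- **The Hasse principle over `ℚ`**, at the chosen places. -/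
theorem eq_zero_of_locRes (h2 : 2 < p) {c : GlobalH2 p} (h : ∀ v, locRes p v c = 0) : c = 0 :=
  isGlobalAt_id.hasse h2 fun ℓ _ hℓ hA => res₂_placeGrp_eq_zero' ⟨ℓ, hℓ⟩ (h ⟨ℓ, hℓ⟩) hA

section QChar

variable {q : ℕ} [hq : Fact q.Prime] (Λ : DLog p q)

/-- The class `χ_q ∪ a`. -/
def qClass (a : Additive ℚˣ) : GlobalH2 p := cycCup (qChar Λ) (ratU (MonoidHom.id Γℚ) a)

/-- The localisation of `χ_q ∪ a` is the local cup product. -/
lemma locRes_qClass (v : Nat.Primes) (a : Additive ℚˣ) :
    locRes p v (qClass Λ a) = cycCup (qCharAt Λ (placeAt v)) (ratU (decAt v).subtype a) := by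
  exact map₂_cycCup (qChar Λ) (decAt v).subtype (ratU (MonoidHom.id Γℚ) a)

variable (h2 : 2 < p)

include h2

/-- At `v ≠ q` the class `χ_q ∪ a` vanishes exactly when `ord_v(a) · log v` is zero. -/
lemma locRes_qClass_eq_zero_iff (v : Nat.Primes) (hv : (v : ℕ) ≠ q) (a : Additive ℚˣ) :
    locRes p v (qClass Λ a) = 0 ↔
      (padicValRat v ((Additive.toMul a : ℚˣ) : ℚ) : ZMod p) * Λ.log (v : ℕ) = 0 := by
  rw [locRes_qClass, ← cupFun_eq_zero_iff h2 v.2 (placeAt_spec v),
    cupFun_qChar_eq_zero_iff Λ v.2 (placeAt_spec v) hv h2]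

/-- At `q` the class `χ_q ∪ a` vanishes exactly when the logarithm of `a` is zero. -/
lemma locRes_qClass_self_eq_zero_iff (hqp : p ∣ q - 1) (a : Additive ℚˣ) :
    locRes p ⟨q, hq.out⟩ (qClass Λ a) = 0 ↔ Λ.ratLog ((Additive.toMul a : ℚˣ) : ℚ) = 0 := by
  rw [locRes_qClass, ← cupFun_eq_zero_iff h2 hq.out (placeAt_spec ⟨q, hq.out⟩),
    cupFun_qChar_self_eq_zero_iff Λ (placeAt_spec ⟨q, hq.out⟩) h2 hqp]

end QChar

/-- Transfer of local vanishing to the kernel of a character, at a place where it is split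
by that kernel. -/
lemma res₂_zres_eq_zero {G : Type} [Group G] {r : G →* Γℚ} (ψ : ZHom p r)
    (c : H2 (glev r) (charRep (cycHom p r))) (D : Subgroup G) (B : ValuationSubring ℚbar)
    (hD : ∀ g, r g ∈ B.decompositionSubgroup ℚ → g ∈ D)
    (h : zres (zcomp ψ D.subtype) (map₂ (isLevelsHom_glev r D.subtype)
      (cycHom_equivariant r D.subtype) c) = 0) :
    res₂ (glev (r.comp (homKer ψ).subtype)) (charRep (cycHom p (r.comp (homKer ψ).subtype)))
      (placeGrp (r.comp (homKer ψ).subtype) B) (zres ψ c) = 0 := by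
  let j : placeGrp (r.comp (homKer ψ).subtype) B →* homKer (zcomp ψ D.subtype) :=
    MonoidHom.mk' (fun g => ⟨⟨g.1.1, hD _ g.2⟩, g.1.2⟩) fun _ _ => rfl
  have hj : IsLevelsHom (glev ((r.comp D.subtype).comp (homKer (zcomp ψ D.subtype)).subtype))
      (subLevels (glev (r.comp (homKer ψ).subtype))
        (placeGrp (r.comp (homKer ψ).subtype) B)) j := by
    rintro _ ⟨N, hN, rfl⟩
    exact ⟨_, ⟨_, ⟨N, hN, rfl⟩, rfl⟩, fun x hx => hx⟩
  have hje : IsEquivariant
      (charRep (cycHom p ((r.comp D.subtype).comp (homKer (zcomp ψ D.subtype)).subtype)))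
      ((charRep (cycHom p (r.comp (homKer ψ).subtype))).comp
        (placeGrp (r.comp (homKer ψ).subtype) B).subtype) j
      (LinearMap.id : ZMod p →ₗ[ZMod p] ZMod p) := fun _ _ => rfl
  have h' := congrArg (map₂ hj hje) h
  rw [map_zero] at h'
  obtain ⟨z, rfl⟩ := cl₂_surjective c
  exact h'

/-- Vanishing at a decomposition group is inherited on passing to the kernel of a character. -/
lemma res₂_zres_eq_zero' {G : Type} [Group G] {r : G →* Γℚ} (ψ : ZHom p r)
    (c : H2 (glev r) (charRep (cycHom p r))) (B : ValuationSubring ℚbar)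
    (h : res₂ (glev r) (charRep (cycHom p r)) (placeGrp r B) c = 0) :
    res₂ (glev (r.comp (homKer ψ).subtype)) (charRep (cycHom p (r.comp (homKer ψ).subtype)))
      (placeGrp (r.comp (homKer ψ).subtype) B) (zres ψ c) = 0 := by
  let j : placeGrp (r.comp (homKer ψ).subtype) B →* placeGrp r B :=
    MonoidHom.mk' (fun g => ⟨g.1.1, g.2⟩) fun _ _ => rfl
  have hj : IsLevelsHom (subLevels (glev r) (placeGrp r B))
      (subLevels (glev (r.comp (homKer ψ).subtype))
        (placeGrp (r.comp (homKer ψ).subtype) B)) j := by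
    rintro _ ⟨_, ⟨N, hN, rfl⟩, rfl⟩
    exact ⟨_, ⟨_, ⟨N, hN, rfl⟩, rfl⟩, fun x hx => hx⟩
  have hje : IsEquivariant ((charRep (cycHom p r)).comp (placeGrp r B).subtype)
      ((charRep (cycHom p (r.comp (homKer ψ).subtype))).comp
        (placeGrp (r.comp (homKer ψ).subtype) B).subtype) j
      (LinearMap.id : ZMod p →ₗ[ZMod p] ZMod p) := fun _ _ => rfl
  have h' := congrArg (map₂ hj hje) h
  rw [map_zero] at h'
  obtain ⟨z, rfl⟩ := cl₂_surjective c
  exact h'

/-- **A class supported at a single prime is zero.** -/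
theorem eq_zero_of_support_single (h2 : 2 < p) (v : Nat.Primes) {c : GlobalH2 p}
    (h : ∀ w, w ≠ v → locRes p w c = 0) : c = 0 := by
  obtain ⟨q, hq, Λ, -, hqv, -, hqp, hlog, -⟩ := exists_qPrime (p := p) v.2 v.2 ∅
  obtain ⟨x, hx0, hx⟩ := Λ.exists_one
  obtain ⟨σ, hσ'⟩ := cycChar_surjective q (Units.mk0 x hx0)
  have hσ : (qChar Λ).1 σ = 1 := by rw [qChar_apply, hσ', Units.val_mk0, hx]
  -- `c` dies on the kernel of the auxiliary character
  set H := homKer (qChar Λ)
  obtain ⟨K', hK', -, hr'⟩ := isGlobalAt_id.exists_sub (H := H) (containsLevel_homKer _)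
  have hres : zres (qChar Λ) c = 0 := by
    refine hr'.hasse h2 fun ℓ B hℓ hB => ?_
    by_cases hℓv : ℓ = v
    · subst hℓv
      obtain ⟨τ, hτ⟩ := exists_qCharAt_eq_one Λ hℓ hB (Ne.symm hqv) hlog
      exact res₂_zres_eq_zero (qChar Λ) c (B.decompositionSubgroup ℚ) B (fun g hg => hg)
        (zres_eq_zero_of_surjective h2 hℓ hB hτ _)
    · exact res₂_zres_eq_zero' (qChar Λ) c B (res₂_placeGrp_eq_zero' ⟨ℓ, hℓ⟩
        (h ⟨ℓ, hℓ⟩ fun e => hℓv (congrArg Subtype.val e)) hB)
  obtain ⟨b, hb⟩ := exists_cycCup_eq (qChar Λ) hσ hres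
  -- `b` is a rational
  obtain ⟨a, rfl⟩ : ∃ a, ratU (MonoidHom.id Γℚ) a = b := by
    obtain ⟨s, hs⟩ := IntermediateField.mem_bot.mp
      (isGlobalAt_id.mem_of_fixed fun g => H0_fixed b g)
    exact ⟨Additive.ofMul (Units.mk0 s fun h0 => uval_ne_zero b.1 (by rw [← hs, h0, map_zero])),
      Subtype.ext (uval_injective hs)⟩
  set r : ℚ := ((Additive.toMul a : ℚˣ) : ℚ) with hr
  -- the vanishing of `χ_q ∪ a` off `v` forces vanishing at `v`
  refine eq_zero_of_locRes h2 fun w => ?_
  by_cases hwv : w = v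
  swap
  · exact h w hwv
  subst hwv
  have hzero : ∀ u : Nat.Primes, u ≠ w → locRes p u (qClass Λ a) = 0 := fun u hu => by
    rw [qClass, hb]; exact h u hu
  have hsingle := Λ.ratLog_eq_mul h2 (Units.ne_zero (Additive.toMul a)) w.2
    fun ℓ' hℓ' hne => by
      rcases eq_or_ne ℓ' q with rfl | hq'
      · rw [show Λ.intLog (ℓ' : ℤ) = 0 from by
          rw [Λ.intLog_eq (k := 1) (n' := 1) (by simp) (fun h1 => hq.out.ne_one
            (Nat.eq_one_of_dvd_one (by exact_mod_cast h1))), Int.cast_one, Λ.log_one], mul_zero]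
      · rw [Λ.intLog_of_not_dvd fun h1 => hq' ((Nat.prime_dvd_prime_iff_eq hq.out hℓ').mp
          (Int.natCast_dvd_natCast.mp h1)).symm, Int.cast_natCast]
        exact (locRes_qClass_eq_zero_iff Λ h2 ⟨ℓ', hℓ'⟩ hq' a).mp
          (hzero ⟨ℓ', hℓ'⟩ fun e => hne (congrArg Subtype.val e))
  rw [(locRes_qClass_self_eq_zero_iff Λ h2 hqp a).mp
      (hzero ⟨q, hq.out⟩ fun e => hqv (congrArg Subtype.val e)),
    Λ.intLog_of_not_dvd fun h1 => hqv ((Nat.prime_dvd_prime_iff_eq hq.out w.2).mp
      (Int.natCast_dvd_natCast.mp h1)), Int.cast_natCast, eq_comm] at hsingle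
  rw [← hb]
  exact (locRes_qClass_eq_zero_iff Λ h2 w (Ne.symm hqv) a).mpr hsingle

/-- **Classes supported at two given primes.** -/
theorem exists_support_pair (h2 : 2 < p) {v w : Nat.Primes} (hvw : v ≠ w) :
    ∃ c : GlobalH2 p, (∀ u, u ≠ v → u ≠ w → locRes p u c = 0) ∧
      locRes p v c ≠ 0 ∧ locRes p w c ≠ 0 := by
  obtain ⟨q, hq, Λ, -, hqv, hqw, hqp, hlv, hlw⟩ := exists_qPrime (p := p) v.2 w.2 ∅
  have := Fact.mk v.2
  have := Fact.mk w.2
  have hvne : (v : ℕ) ≠ (w : ℕ) := fun h => hvw (Subtype.ext h)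
  have hv0 : ((v : ℕ) : ℚ) ≠ 0 := Nat.cast_ne_zero.mpr v.2.ne_zero
  have hw0 : ((w : ℕ) : ℚ) ≠ 0 := Nat.cast_ne_zero.mpr w.2.ne_zero
  -- `a = v ^ x * w ^ y` with logarithm zero, so `χ_q ∪ a` lives at `v` and `w` alone
  set x : ℕ := (Λ.log (w : ℕ)).val
  set y : ℕ := (-Λ.log (v : ℕ)).val
  set a : Additive ℚˣ := x • Additive.ofMul (Units.mk0 _ hv0) + y • Additive.ofMul (Units.mk0 _ hw0)
  have hval : ((Additive.toMul a : ℚˣ) : ℚ) = ((v : ℕ) : ℚ) ^ x * ((w : ℕ) : ℚ) ^ y := by simp [a]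
  have hself : ∀ ℓ n : ℕ, ℓ.Prime → n.Prime →
      padicValRat ℓ (n : ℚ) = if ℓ = n then 1 else 0 := by
    intro ℓ n hℓ hn
    have := Fact.mk hℓ
    split_ifs with h
    · rw [h]; exact padicValRat.self hn.one_lt
    · rw [padicValRat.of_nat, padicValNat.eq_zero_of_not_dvd
        fun h' => h ((Nat.prime_dvd_prime_iff_eq hℓ hn).mp h')]
      rfl
  have hvu : ∀ u : Nat.Primes, padicValRat (u : ℕ) ((Additive.toMul a : ℚˣ) : ℚ) =
      (if (u : ℕ) = (v : ℕ) then (x : ℤ) else 0) + if (u : ℕ) = (w : ℕ) then (y : ℤ) else 0 := by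
    intro u
    have := Fact.mk u.2
    rw [hval, padicValRat.mul (pow_ne_zero _ hv0) (pow_ne_zero _ hw0), padicValRat.pow,
      padicValRat.pow, hself _ _ u.2 v.2, hself _ _ u.2 w.2]
    split_ifs <;> simp
  refine ⟨qClass Λ a, fun u hu hu' => ?_, ?_, ?_⟩
  · by_cases huq : (u : ℕ) = q
    · obtain rfl : u = ⟨q, hq.out⟩ := Subtype.ext huq
      rw [locRes_qClass_self_eq_zero_iff Λ h2 hqp, hval,
        Λ.ratLog_mul (pow_ne_zero _ hv0) (pow_ne_zero _ hw0), ← zpow_natCast, ← zpow_natCast,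
        Λ.ratLog_zpow hv0, Λ.ratLog_zpow hw0]
      have hl : ∀ n : ℕ, n.Prime → q ≠ n → Λ.ratLog (n : ℚ) = Λ.log n := fun n hn hne => by
        have h1 : (n : ℚ) = ((n : ℤ) : ℚ) / ((1 : ℤ) : ℚ) := by simp
        rw [h1, Λ.ratLog_div (Int.natCast_ne_zero.mpr hn.ne_zero) one_ne_zero, DLog.intLog_one,
          sub_zero, Λ.intLog_of_not_dvd fun h => hne ((Nat.prime_dvd_prime_iff_eq hq.out hn).mp
            (Int.natCast_dvd_natCast.mp h)), Int.cast_natCast]
      rw [hl _ v.2 hqv, hl _ w.2 hqw]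
      simp only [x, y, Int.cast_natCast, ZMod.natCast_zmod_val]
      ring
    · rw [locRes_qClass_eq_zero_iff Λ h2 u huq, hvu,
        if_neg fun h => hu (Subtype.ext h), if_neg fun h => hu' (Subtype.ext h)]
      simp
  · rw [Ne, locRes_qClass_eq_zero_iff Λ h2 v (Ne.symm hqv), hvu, if_pos rfl, if_neg hvne, add_zero,
      Int.cast_natCast, ZMod.natCast_zmod_val, mul_eq_zero, not_or]
    exact ⟨hlw, hlv⟩
  · rw [Ne, locRes_qClass_eq_zero_iff Λ h2 w (Ne.symm hqw), hvu, if_neg (Ne.symm hvne), if_pos rfl,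
      zero_add, Int.cast_natCast, ZMod.natCast_zmod_val, mul_eq_zero, not_or]
    exact ⟨neg_ne_zero.mpr hlv, hlw⟩

/-! ### Normalised invariants -/

variable (h2 : 2 < p)

/-- An unnormalised local invariant. -/
def rawInv (v : Nat.Primes) : LocalH2 p v ≃ₗ[ZMod p] ZMod p :=
  (localData h2 v.2 (placeAt_spec v)).inv

/-- A class supported at `v` and `p`. -/
def pairClass (v : Nat.Primes) (hv : v ≠ pPrime p) : GlobalH2 p :=
  (exists_support_pair h2 hv).choose

/-- The support of `pairClass`. -/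
lemma pairClass_spec (v : Nat.Primes) (hv : v ≠ pPrime p) :
    (∀ u, u ≠ v → u ≠ pPrime p → locRes p u (pairClass h2 v hv) = 0) ∧
      locRes p v (pairClass h2 v hv) ≠ 0 ∧ locRes p (pPrime p) (pairClass h2 v hv) ≠ 0 :=
  (exists_support_pair h2 hv).choose_spec

open Classical in
/-- The factor normalising the invariant at `v`. -/
def invScale (v : Nat.Primes) : ZMod p :=
  if hv : v = pPrime p then 1
  else -(rawInv h2 (pPrime p) (locRes p (pPrime p) (pairClass h2 v hv)) *
    (rawInv h2 v (locRes p v (pairClass h2 v hv)))⁻¹)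

/-- The normalising factors `invScale` are not zero. -/
lemma invScale_ne_zero (v : Nat.Primes) : invScale h2 v ≠ 0 := by
  rw [invScale]
  split_ifs with hv
  · exact one_ne_zero
  · obtain ⟨-, h1, h3⟩ := pairClass_spec h2 v hv
    exact neg_ne_zero.mpr (mul_ne_zero ((rawInv h2 _).map_ne_zero_iff.mpr h3)
      (inv_ne_zero ((rawInv h2 _).map_ne_zero_iff.mpr h1)))

/-- The normalised local invariant. -/
def gInv (v : Nat.Primes) : LocalH2 p v ≃ₗ[ZMod p] ZMod p :=
  (rawInv h2 v).trans (LinearEquiv.smulOfUnit (Units.mk0 _ (invScale_ne_zero h2 v)))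

/-- The invariant of a global class. -/
def invAt (v : Nat.Primes) : GlobalH2 p →ₗ[ZMod p] ZMod p :=
  (gInv h2 v).toLinearMap.comp (locRes p v)

/-- The normalisation: the invariants of `pairClass` cancel. -/
lemma invAt_pairClass (v : Nat.Primes) (hv : v ≠ pPrime p) :
    invAt h2 (pPrime p) (pairClass h2 v hv) + invAt h2 v (pairClass h2 v hv) = 0 := by
  have e : ∀ (u : Nat.Primes) (c : GlobalH2 p),
      invAt h2 u c = invScale h2 u * rawInv h2 u (locRes p u c) := fun _ _ => rfl
  have e1 : invScale h2 (pPrime p) = 1 := dif_pos rfl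
  have e2 : invScale h2 v = -(rawInv h2 (pPrime p) (locRes p (pPrime p) (pairClass h2 v hv)) *
      (rawInv h2 v (locRes p v (pairClass h2 v hv)))⁻¹) := dif_neg hv
  have e3 : rawInv h2 v (locRes p v (pairClass h2 v hv)) ≠ 0 :=
    (rawInv h2 v).map_ne_zero_iff.mpr (pairClass_spec h2 v hv).2.1
  rw [e (pPrime p), e v, e1, e2]
  generalize rawInv h2 (pPrime p) (locRes p (pPrime p) (pairClass h2 v hv)) = X at *
  generalize rawInv h2 v (locRes p v (pairClass h2 v hv)) = Y at *
  rw [one_mul, neg_mul, inv_mul_cancel_right₀ e3, add_neg_cancel]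

/-- **Reciprocity**: the normalised invariants of a global class sum to zero. -/
theorem sum_gInv_eq_zero {c : GlobalH2 p} {s : Finset Nat.Primes}
    (hs : ∀ v ∉ s, locRes p v c = 0) : ∑ v ∈ s, gInv h2 v (locRes p v c) = 0 := by
  have e : ∀ (v : Nat.Primes) (d : GlobalH2 p), invAt h2 v d = 0 → locRes p v d = 0 :=
    fun v d hd => (gInv h2 v).map_eq_zero_iff.mp hd
  refine sum_eq_zero_of_pairs (invAt h2) (pPrime p) (fun d hd => ?_) (pairClass h2)
    (fun v hv u huv hup => ?_) (fun v hv => ?_) (invAt_pairClass h2) c fun v hv => ?_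
  · rw [eq_zero_of_support_single h2 (pPrime p) (c := d) fun w hw => e w d (hd w hw)]
    exact (invAt h2 _).map_zero
  · change (gInv h2 u) (locRes p u (pairClass h2 v hv)) = 0
    rw [(pairClass_spec h2 v hv).1 u huv hup]
    exact (gInv h2 u).map_zero
  · exact (gInv h2 v).map_ne_zero_iff.mpr (pairClass_spec h2 v hv).2.1
  · change (gInv h2 v) (locRes p v c) = 0
    rw [hs v hv]
    exact (gInv h2 v).map_zero

end Fermat.CFT
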