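import Fermat.Agent.CFT.Global.Places

/-!
# Unramified Kummer classes at a place away from `p`

Roots of `p`-power order of elements of divisible valuation are fixed by inertia.
-/

set_option autoImplicit false
set_option linter.unusedSectionVars false

noncomputable section

open NumberField IsDedekindDomain Fermat.CFT.Coh
open scoped Pointwise

namespace Fermat.CFT

local notation "ℚbar" => AlgebraicClosure ℚ
local notation "Γℚ" => (AlgebraicClosure ℚ ≃ₐ[ℚ] AlgebraicClosure ℚ)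

variable {p : ℕ} [hp : Fact p.Prime] {ℓ : ℕ} {A : ValuationSubring ℚbar}
  {K : IntermediateField ℚ ℚbar} [FiniteDimensional ℚ K]

/-- A `p^j`-th root of an element of valuation divisible by `p^j` is fixed by inertia. -/
theorem apply_eq_of_inertia_pow (hℓ : ℓ.Prime) (hA : A.LiesOverPrime ℓ) (hℓp : ℓ ≠ p) {a : K}
    (ha : a ≠ 0) {j : ℕ} (hd : ((p ^ j : ℕ) : ℤ) ∣ ord (plBelow K hℓ hA) a) {α : ℚbar}
    (hα : α ^ p ^ j = (a : ℚbar)) {τ : Γℚ} (hτ : τ ∈ A.inertiaSubgroupIn ℚ)
    (hτK : τ ∈ K.fixingSubgroup) : τ α = α := by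
  obtain ⟨E, hE, hEn, hKE, hs⟩ := exists_field_containing K (Set.finite_singleton α)
  set w := plBelow E hℓ hA
  set αE : E := ⟨α, hs rfl⟩
  obtain ⟨π, hπ0, hπ⟩ := exists_ord_eq_one (plBelow K hℓ hA)
  obtain ⟨k, hk⟩ := hd
  obtain ⟨e, he, hord⟩ := exists_ord_inclusion (E := E) hℓ hA hKE
  have hαp : αE ^ p ^ j = IntermediateField.inclusion hKE a := Subtype.ext hα
  have hn0 : p ^ j ≠ 0 := pow_ne_zero _ hp.out.ne_zero
  have hα0 : αE ≠ 0 := fun h => by
    rw [h, zero_pow hn0, eq_comm, map_eq_zero] at hαp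
    exact ha hαp
  have hαord : ord w αE = e * k := by
    have h := ord_pow w αE (p ^ j)
    rw [hαp, hord, hk, mul_left_comm] at h
    exact mul_left_cancel₀ (Int.natCast_ne_zero.mpr hn0) h.symm
  -- `β = α / π^k` is a unit
  set P : E := IntermediateField.inclusion hKE (π ^ k)
  have hP0 : P ≠ 0 := (_root_.map_ne_zero _).mpr (zpow_ne_zero _ hπ0)
  have hPord : ord w P = e * k := by rw [hord, ord_zpow, hπ, mul_one]
  set β := αE / P
  have hβ0 : β ≠ 0 := div_ne_zero hα0 hP0
  have hβord : ord w β = 0 := by rw [ord_div w hα0 hP0, hαord, hPord, sub_self]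
  set τE := AlgEquiv.restrictNormalHom E τ
  have hg : ∀ x : 𝓞 E, τE • x - x ∈ w.asIdeal := fun x => by
    change _ ∈ primeBelow E A
    rw [primeBelow, Ideal.mem_comap, map_sub, algebraMap_restrict_smul]
    exact (mem_inertiaSubgroupIn_iff hℓ hA τ).mp hτ _
  have hτP : τE P = P := Subtype.ext ((AlgEquiv.restrictNormal_commutes τ E P).trans
    ((IntermediateField.mem_fixingSubgroup_iff K τ).mp hτK _ (π ^ k : K).2))
  have hτa : τE (αE ^ p ^ j) = αE ^ p ^ j := by
    rw [hαp]
    exact Subtype.ext ((AlgEquiv.restrictNormal_commutes τ E _).trans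
      ((IntermediateField.mem_fixingSubgroup_iff K τ).mp hτK _ a.2))
  have hratio : τE β / β = τE αE / αE := by
    rw [map_div₀, hτP, div_div_div_cancel_right₀ hP0]
  have hξ : (τE αE / αE) ^ p ^ j = 1 := by
    rw [div_pow, ← map_pow, hτa, div_self (pow_ne_zero _ hα0)]
  -- inertia multiplies it by a root of unity close to `1`, hence trivial
  by_contra hne
  have hne' : τE αE / αE ≠ 1 := fun h => hne <| by
    rw [div_eq_one_iff_eq hα0] at h
    exact (AlgEquiv.restrictNormal_commutes τ E αE).symm.trans (congrArg Subtype.val h)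
  obtain ⟨m, -, hm⟩ := (Nat.dvd_prime_pow hp.out).mp (orderOf_dvd_of_pow_eq_one hξ)
  obtain ⟨i, rfl⟩ : ∃ i, m = i + 1 := by
    refine ⟨m - 1, (Nat.sub_add_cancel (Nat.one_le_iff_ne_zero.mpr fun h => hne' ?_)).symm⟩
    rw [h, pow_zero] at hm
    exact orderOf_eq_one_iff.mp hm
  have hprim : IsPrimitiveRoot ((τE αE / αE) ^ p ^ i) p :=
    (IsPrimitiveRoot.iff_orderOf.mpr hm).pow (pow_pos hp.out.pos _) (pow_succ p i)
  have hclose := apply_div_closeOne hg (pow_ne_zero (p ^ i) hβ0)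
    (by rw [ord_pow, hβord, mul_zero])
  rw [map_pow, ← div_pow, hratio] at hclose
  have hp0 : ord w (p : E) = 0 := by
    rw [← Int.cast_natCast]
    exact ord_intCast_eq_zero hℓ w (natCast_mem_plBelow E hℓ hA) fun h => hℓp
      ((Nat.prime_dvd_prime_iff_eq hℓ hp.out).mp (Int.natCast_dvd_natCast.mp h))
  rcases hclose with h | h
  · exact hprim.ne_one hp.out.one_lt h
  · rw [← ord_neg, neg_sub, ord_one_sub_zeta hprim, zetaOrd_eq_zero_of_ord hprim w hp0] at h
    simp at h

/-- A `p`-th root of an element of valuation divisible by `p` is fixed by inertia. -/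
theorem apply_eq_of_inertia (hℓ : ℓ.Prime) (hA : A.LiesOverPrime ℓ) (hℓp : ℓ ≠ p) {a : K}
    (ha : a ≠ 0) (hd : (p : ℤ) ∣ ord (plBelow K hℓ hA) a) {α : ℚbar} (hα : α ^ p = (a : ℚbar))
    {τ : Γℚ} (hτ : τ ∈ A.inertiaSubgroupIn ℚ) (hτK : τ ∈ K.fixingSubgroup) : τ α = α :=
  apply_eq_of_inertia_pow hℓ hA hℓp ha (j := 1) (by rwa [pow_one]) (by rwa [pow_one]) hτ hτK

/-! ### Homomorphisms killing inertia -/

/-- A homomorphism on the group of a place over `K`, constant on a level. -/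
structure IsDecHom (A : ValuationSubring ℚbar) (K : IntermediateField ℚ ℚbar)
    (f : decGrp A K → ZMod p) : Prop where
  /-- The function is additive. -/
  mul : ∀ g h, f (g * h) = f g + f h
  /-- It is constant on the cosets of a level. -/
  lc : (glev (decGrp A K).subtype).IsLC₁ f

/-- Vanishing on inertia. -/
def KillsInertia (f : decGrp A K → ZMod p) : Prop :=
  ∀ g : decGrp A K, (g : Γℚ) ∈ A.inertiaSubgroupIn ℚ → f g = 0

/-- A homomorphism on the group of a place vanishes at one. -/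
lemma IsDecHom.one {f : decGrp A K → ZMod p} (hf : IsDecHom A K f) : f 1 = 0 := by
  have := hf.mul 1 1
  rw [mul_one] at this
  exact left_eq_add.mp this

/-- A homomorphism on the group of a place is additive on powers. -/
lemma IsDecHom.pow {f : decGrp A K → ZMod p} (hf : IsDecHom A K f) (g : decGrp A K) (n : ℕ) :
    f (g ^ n) = n * f g := by
  induction n with
  | zero => rw [pow_zero, hf.one, Nat.cast_zero, zero_mul]
  | succ n ih => rw [pow_succ, hf.mul, ih, Nat.cast_succ, add_mul, one_mul]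

/-- Combinations of homomorphisms are homomorphisms. -/
lemma IsDecHom.sub_smul {f f' : decGrp A K → ZMod p} (hf : IsDecHom A K f) (hf' : IsDecHom A K f')
    (c : ZMod p) : IsDecHom A K fun g => f g - c * f' g :=
  ⟨fun g h => by rw [hf.mul, hf'.mul]; ring, hf.lc.map₂ hf'.lc fun x y => x - c * y⟩

variable [Normal ℚ K]

/-- Two homomorphisms killing inertia are proportional. -/
theorem exists_smul_eq_of_killsInertia (hℓ : ℓ.Prime) (hA : A.LiesOverPrime ℓ)
    {f f' : decGrp A K → ZMod p} (hf : IsDecHom A K f) (hfI : KillsInertia f)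
    (hf' : IsDecHom A K f') (hf'I : KillsInertia f') (hI : A.inertiaSubgroupIn ℚ ≤ K.fixingSubgroup)
    (hne : ∃ g, f' g ≠ 0) : ∃ c : ZMod p, ∀ g, f g = c * f' g := by
  obtain ⟨φ, hφ⟩ := exists_isFrobeniusAt hℓ hA
  -- `φ₀` is the smallest power of Frobenius in the group over `K`
  set n := orderOf (AlgEquiv.restrictNormalHom K φ)
  set φ₀ : decGrp A K := ⟨φ ^ n, pow_mem hφ.1 n,
    (restrict_eq_one_iff K _).mp (by rw [map_pow, pow_orderOf_eq_one])⟩
  -- a homomorphism killing inertia is determined by its value at `φ₀`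
  have key : ∀ u : decGrp A K → ZMod p, IsDecHom A K u → KillsInertia u → u φ₀ = 0 →
      ∀ g, u g = 0 := by
    intro u hu huI hu0 g
    obtain ⟨_, ⟨_, ⟨E₀, hE₀, -, -, rfl⟩, rfl⟩, hLC⟩ := hu.lc
    obtain ⟨E, hE, hEn, hKE, -⟩ := exists_field_containing (K ⊔ E₀) Set.finite_empty
    have hw : AlgEquiv.restrictNormalHom E (g : Γℚ) • primeBelow E A = primeBelow E A :=
      congrArg HeightOneSpectrum.asIdeal (restrict_smul_plBelow (L := E) hℓ hA g.2.1)
    obtain ⟨k, hk⟩ := (isFrobeniusMod_restrict E hℓ hA hφ).exists_pow_mul_inertia hℓ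
      (primeBelow_isPrime E A) (natCast_mem_primeBelow E hA) hw
    obtain ⟨τ, hτ, hτe⟩ := exists_mem_inertia_restrict (L := E) hℓ hA hk
    have hτD : τ ∈ A.decompositionSubgroup ℚ := by
      obtain ⟨t, -, rfl⟩ := hτ
      exact t.2
    set s : Γℚ := (τ * φ ^ k)⁻¹ * (g : Γℚ) with hs
    have hsE : s ∈ E.fixingSubgroup := by
      rw [← restrict_eq_one_iff, hs, map_mul, map_inv, map_mul, hτe, map_pow, inv_mul_cancel_right,
        inv_mul_cancel]
    have hsK : s ∈ K.fixingSubgroup :=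
      IntermediateField.fixingSubgroup_le (le_sup_left.trans hKE) hsE
    have hτK : τ ∈ K.fixingSubgroup := hI hτ
    have hφK : φ ^ k ∈ K.fixingSubgroup := by
      have h : φ ^ k = τ⁻¹ * (g : Γℚ) * s⁻¹ := by rw [hs]; group
      rw [h]
      exact mul_mem (mul_mem (inv_mem hτK) g.2.2) (inv_mem hsK)
    obtain ⟨j, rfl⟩ : n ∣ k := orderOf_dvd_of_pow_eq_one (by
      rw [← map_pow, restrict_eq_one_iff]; exact hφK)
    set τ' : decGrp A K := ⟨τ, hτD, hτK⟩
    set s' : decGrp A K := ⟨s, (A.decompositionSubgroup ℚ).mul_mem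
      ((A.decompositionSubgroup ℚ).inv_mem
      ((A.decompositionSubgroup ℚ).mul_mem hτD ((A.decompositionSubgroup ℚ).pow_mem hφ.1 _)))
      g.2.1, hsK⟩
    have hg : g = τ' * φ₀ ^ j * s' := Subtype.ext (by
      change (g : Γℚ) = τ * (φ₀ ^ j : decGrp A K).1 * s
      rw [SubmonoidClass.coe_pow, show ((φ₀ : decGrp A K) : Γℚ) = φ ^ n from rfl, ← pow_mul, hs]
      group)
    rw [hg, hLC (τ' * φ₀ ^ j) s' (IntermediateField.fixingSubgroup_le (le_sup_right.trans hKE) hsE),
      hu.mul, huI τ' hτ, hu.pow, hu0, mul_zero, add_zero]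
  obtain ⟨g, hg⟩ := hne
  have h0 : f' φ₀ ≠ 0 := fun h => hg (key f' hf' hf'I h g)
  refine ⟨f φ₀ * (f' φ₀)⁻¹, fun g => sub_eq_zero.mp ?_⟩
  refine key _ (hf.sub_smul hf' _) (fun x hx => ?_) ?_ g
  · change f x - _ * f' x = 0
    rw [hfI x hx, hf'I x hx, mul_zero, sub_zero]
  · show f φ₀ - _ * f' φ₀ = 0
    rw [inv_mul_cancel_right₀ h0, sub_self]

/-! ### Local Kummer classes -/

variable {ζ : K} (hζ : IsPrimitiveRoot ζ p) (hℓ : ℓ.Prime) (hA : A.LiesOverPrime ℓ)

include hζ

/-- On a decomposition group the local Kummer class is given by a homomorphism, computed on every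
`p`-th root. -/
lemma exists_decKum (a : Additive (K : Type)ˣ) :
    ∃ f : decGrp A K → ZMod p, IsDecHom A K f ∧
      (∀ α : QU, uval α ^ p = (((Additive.toMul a : (K : Type)ˣ) : K) : ℚbar) →
        ∀ g : decGrp A K, zpw p (f g) = d₀ (unitsRep (decGrp A K).subtype) α g) ∧
      ∃ h : f ∈ Z1 (glev (decGrp A K).subtype) (charRep (cycHom p (decGrp A K).subtype)),
        (isLocalAt_subtype A K).kumK p a =
          cl₁ (glev (decGrp A K).subtype) (charRep (cycHom p (decGrp A K).subtype)) ⟨f, h⟩ := by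
  set hl := isLocalAt_subtype A K
  obtain ⟨α₀, hα₀⟩ := exists_root p (hl.kq a).1
  set z := rootCocycle (r := (decGrp A K).subtype) (isRoot_of_eq (p := p) (hl.kq a) hα₀) with hz
  refine ⟨z.1, ⟨fun g h => triv_hom (toZHom (hl.cycHom_eq_one hζ) z) g h, z.2.1⟩,
    fun α hα g => ?_, z.2, kum_root (hl.kq a) hα₀⟩
  have hαa : p • α = (hl.kq a).1 := uval_injective (by rw [uval_nsmul, hα, hl.uval_kq])
  obtain ⟨c, hc⟩ := exists_zpw_eq (p := p) (x := α₀ - α) (by rw [nsmul_sub, hαa, hα₀, sub_self])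
  rw [hz, zpw_rootCocycle]
  rw [show α₀ = α + zpw p c by rw [hc, add_sub_cancel], map_add, Pi.add_apply, ← zpw_d₀]
  have h0 : d₀ (charRep (cycHom p (decGrp A K).subtype)) c g = 0 := by
    simp [hl.cycHom_eq_one hζ g]
  rw [h0, map_zero, add_zero]

include hℓ hA

omit hζ in
/-- The Kummer homomorphism of an element of valuation divisible by `p` kills inertia. -/
lemma killsInertia_of_dvd_ord (hℓp : ℓ ≠ p) {a : Additive (K : Type)ˣ}
    (hd : (p : ℤ) ∣ ord (plBelow K hℓ hA) ((Additive.toMul a : (K : Type)ˣ) : K))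
    {f : decGrp A K → ZMod p}
    (hf : ∀ α : QU, uval α ^ p = (((Additive.toMul a : (K : Type)ˣ) : K) : ℚbar) →
      ∀ g : decGrp A K, zpw p (f g) = d₀ (unitsRep (decGrp A K).subtype) α g) :
    KillsInertia f := by
  intro g hg
  obtain ⟨α, hα⟩ := exists_root p ((isLocalAt_subtype A K).kq a).1
  have hαp : uval α ^ p = (((Additive.toMul a : (K : Type)ˣ) : K) : ℚbar) := by
    rw [← uval_nsmul, hα, IsLocalAt.uval_kq]
  refine zpw_injective ?_
  rw [hf α hαp, map_zero, d₀_apply, sub_eq_zero]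
  exact uval_injective (apply_eq_of_inertia hℓ hA hℓp (Units.ne_zero _) hd hαp hg g.2.2)

/-- A class killing inertia comes from an element of valuation divisible by `p`. -/
theorem dvd_ord_of_killsInertia (hℓp : ℓ ≠ p) (hI : A.inertiaSubgroupIn ℚ ≤ K.fixingSubgroup)
    {a : Additive (K : Type)ˣ} {f : decGrp A K → ZMod p}
    (hf : ∀ α : QU, uval α ^ p = (((Additive.toMul a : (K : Type)ˣ) : K) : ℚbar) →
      ∀ g : decGrp A K, zpw p (f g) = d₀ (unitsRep (decGrp A K).subtype) α g)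
    (hfI : KillsInertia f) :
    (p : ℤ) ∣ ord (plBelow K hℓ hA) ((Additive.toMul a : (K : Type)ˣ) : K) := by
  set v := plBelow K hℓ hA
  set hl := isLocalAt_subtype A K
  -- compare with a unit which is not a local power
  obtain ⟨b, hbu, hb⟩ : ∃ b : (K : Type)ˣ, b ∈ localUnits v ∧ b ∉ localPowers p ζ v := by
    by_contra hno
    push Not at hno
    have h := relIndex_localPowers_localUnits (v := v) hζ
    rw [Subgroup.relIndex_eq_one.mpr hno] at h
    exact hp.out.ne_one (Nat.eq_one_of_mul_eq_one_right h.symm)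
  obtain ⟨f', hf', hf'α, h', hf'c⟩ := exists_decKum hζ (A := A) (Additive.ofMul b)
  obtain ⟨f₁, hf₁, hf₁α, h₁, hf₁c⟩ := exists_decKum hζ (A := A) a
  have hff : f = f₁ := funext fun g => by
    obtain ⟨α, hα⟩ := exists_root p (hl.kq a).1
    have hαp : uval α ^ p = (((Additive.toMul a : (K : Type)ˣ) : K) : ℚbar) := by
      rw [← uval_nsmul, hα, hl.uval_kq]
    exact zpw_injective ((hf α hαp g).trans (hf₁α α hαp g).symm)
  have hf'I := killsInertia_of_dvd_ord hℓ hA hℓp (a := Additive.ofMul b)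
    (by rw [show ord v ((Additive.toMul (Additive.ofMul b) : (K : Type)ˣ) : K) = 0 from hbu]
        exact dvd_zero _) hf'α
  have hne : ∃ g, f' g ≠ 0 := by
    by_contra hno
    push Not at hno
    refine hb ((hl.kumK_eq_zero_iff hℓ hA hζ (Additive.ofMul b)).mp ?_)
    rw [hf'c, show (⟨f', h'⟩ : Z1 _ _) = 0 from Subtype.ext (funext hno), map_zero]
  obtain ⟨c, hc⟩ := exists_smul_eq_of_killsInertia hℓ hA hf₁ (hff ▸ hfI) hf' hf'I hI hne
  -- `a` is a power of the unit up to local powers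
  have hzero : hl.kumK p (a - c.val • Additive.ofMul b) = 0 := by
    rw [map_sub, map_nsmul, hf₁c, hf'c, ← map_nsmul, ← map_sub]
    rw [show (⟨f₁, h₁⟩ : Z1 (glev (decGrp A K).subtype)
      (charRep (cycHom p (decGrp A K).subtype))) - c.val • ⟨f', h'⟩ = 0 from
      Subtype.ext (funext fun g => by
        change f₁ g - c.val • f' g = 0
        rw [nsmul_eq_mul, ZMod.natCast_zmod_val, hc, sub_self]), map_zero]
  have hd := dvd_ord_of_mem_localPowers ((hl.kumK_eq_zero_iff hℓ hA hζ _).mp hzero)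
  rw [toMul_sub, toMul_nsmul, toMul_ofMul, Units.val_div_eq_div_val, Units.val_pow_eq_pow_val,
    ord_div v (Units.ne_zero _) (pow_ne_zero _ b.ne_zero), ord_pow, show ord v (b : K) = 0 from hbu,
    mul_zero, sub_zero] at hd
  exact hd

/-- The symbol of two elements of valuation divisible by `p` vanishes. -/
theorem lsym_eq_zero_of_dvd_ord (h2 : 2 < p) (hℓp : ℓ ≠ p)
    (hI : A.inertiaSubgroupIn ℚ ≤ K.fixingSubgroup) {a b : Additive (K : Type)ˣ}
    (ha : (p : ℤ) ∣ ord (plBelow K hℓ hA) ((Additive.toMul a : (K : Type)ˣ) : K))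
    (hb : (p : ℤ) ∣ ord (plBelow K hℓ hA) ((Additive.toMul b : (K : Type)ˣ) : K)) :
    lsym ((isLocalAt_subtype A K).cycHom_eq_one hζ) ((isLocalAt_subtype A K).kumK p b)
      ((isLocalAt_subtype A K).kumK p a) = 0 := by
  set hl := isLocalAt_subtype A K
  obtain ⟨fa, hfa, hfaα, ha', hfac⟩ := exists_decKum hζ (A := A) a
  obtain ⟨fb, hfb, hfbα, hb', hfbc⟩ := exists_decKum hζ (A := A) b
  by_cases hne : ∃ g, fa g ≠ 0
  · obtain ⟨c, hc⟩ := exists_smul_eq_of_killsInertia hℓ hA hfb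
      (killsInertia_of_dvd_ord hℓ hA hℓp hb hfbα) hfa
      (killsInertia_of_dvd_ord hℓ hA hℓp ha hfaα) hI hne
    have e : hl.kumK p b = c • hl.kumK p a := by
      rw [hfac, hfbc, ← map_smul]
      exact congrArg _ (Subtype.ext (funext fun g => hc g))
    have h := lsym_skew (hl.cycHom_eq_one hζ) (hl.kumK p a) (hl.kumK p a)
    rw [eq_neg_iff_add_eq_zero, ← two_smul (ZMod p)] at h
    have h2' : (2 : ZMod p) ≠ 0 := by
      intro h0
      have h1 : ((2 : ℕ) : ZMod p) = 0 := by exact_mod_cast h0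
      rw [ZMod.natCast_eq_zero_iff] at h1
      have := Nat.le_of_dvd two_pos h1
      omega
    rw [e, map_smul, LinearMap.smul_apply, (smul_eq_zero.mp h).resolve_left h2', smul_zero]
  · push Not at hne
    rw [hfac, show (⟨fa, ha'⟩ : Z1 _ _) = 0 from Subtype.ext (funext hne), map_zero, map_zero]

/-- The symbol of a nontrivial unit class and an element of valuation prime to `p` is nonzero. -/
theorem lsym_ne_zero_of_not_dvd_ord (h2 : 2 < p) (hℓp : ℓ ≠ p)
    (hI : A.inertiaSubgroupIn ℚ ≤ K.fixingSubgroup) {a π : Additive (K : Type)ˣ}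
    (ha : (p : ℤ) ∣ ord (plBelow K hℓ hA) ((Additive.toMul a : (K : Type)ˣ) : K))
    (ha0 : Additive.toMul a ∉ localPowers p ζ (plBelow K hℓ hA))
    (hπ : ¬ (p : ℤ) ∣ ord (plBelow K hℓ hA) ((Additive.toMul π : (K : Type)ˣ) : K)) :
    lsym ((isLocalAt_subtype A K).cycHom_eq_one hζ) ((isLocalAt_subtype A K).kumK p π)
      ((isLocalAt_subtype A K).kumK p a) ≠ 0 := by
  set hl := isLocalAt_subtype A K
  set v := plBelow K hℓ hA
  obtain ⟨N, hNi, -, hN⟩ := hl.exists_localNorms hℓ hA hζ h2 a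
    fun h => ha0 ((hl.kumK_eq_zero_iff hℓ hA hζ a).mp h)
  intro hzero
  have hπN := (hN π).mp hzero
  have htop : ∀ x : (K : Type)ˣ, x ∈ N := by
    intro x
    set πu : (K : Type)ˣ := Additive.toMul π
    set m : ℤ := ord v (πu : K)
    have hm : (m : ZMod p) ≠ 0 := fun h => hπ ((ZMod.intCast_zmod_eq_zero_iff_dvd _ _).mp h)
    set k : ℕ := ((ord v (x : K) : ZMod p) * (m : ZMod p)⁻¹).val
    have hd : (p : ℤ) ∣ ord v (((x / πu ^ k : (K : Type)ˣ)) : K) := by
      rw [← ZMod.intCast_zmod_eq_zero_iff_dvd, Units.val_div_eq_div_val, Units.val_pow_eq_pow_val,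
        ord_div v x.ne_zero (pow_ne_zero _ πu.ne_zero), ord_pow]
      push_cast
      rw [ZMod.natCast_zmod_val, inv_mul_cancel_right₀ hm, sub_self]
    have h1 : x / πu ^ k ∈ N := (hN (Additive.ofMul (x / πu ^ k))).mp
      (lsym_eq_zero_of_dvd_ord hζ hℓ hA h2 hℓp hI ha hd)
    simpa using N.mul_mem h1 (N.pow_mem hπN k)
  rw [show N = ⊤ from eq_top_iff.mpr fun x _ => htop x, Subgroup.index_top] at hNi
  exact hp.out.ne_one hNi.symm

end Fermat.CFT
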